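import Fermat.Agent.Basic.FreyModularity

/-!
# The statements of the switch chain

Modularity of semistable curves without Langlands–Tunnell:

* five switch: `W'` congruent mod 5 to `W`, irreducible mod 3, with `W'[3]` finite flat and
  unramified at 2 (good at 2, or `3 ∣ v₂(Δ')`);
* three switch: `W''` congruent mod 3 to `W'`, good supersingular at 2, negative discriminant,
  every bad prime dividing the discriminant to an odd order;
* the dihedral mod 2 form of `W''` then has level exactly the product of the bad primes, and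
  minimal lifting at 2 makes `W''` modular at its conductor;
* a third switch reduces curves irreducible mod 3 to curves irreducible mod 5.

The switches keep the behaviour at the lifting prime and keep every bad prime other than 2. The
lifting steps at 3 and at 5 are in `MLT/Odd/LiftUnit`, which assembles the chain.
-/

set_option autoImplicit false

open WeierstrassCurve

namespace FermatLib.MLT

/-- Good reduction at 2, or multiplicative with `3 ∣ v₂(Δ)`: `E[3]` is unramified at 2. -/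
def ThreeUnramifiedAtTwo (W : WeierstrassCurve ℤ) : Prop :=
  W.IsGoodPrimeFor 2 ∨ 3 ∣ padicValInt 2 W.Δ

/-- Every bad prime divides the discriminant to an odd order. -/
def OddBadOrders (W : WeierstrassCurve ℤ) : Prop :=
  ∀ q : ℕ, q.Prime → (q : ℤ) ∣ W.Δ → Odd (padicValInt q W.Δ)

/-- Traces congruent modulo `p` at the common good primes other than `p`. -/
def CongruentTraces (p : ℕ) (W W' : WeierstrassCurve ℤ) : Prop :=
  ∀ ℓ : ℕ, ℓ.Prime → W.IsGoodPrimeFor ℓ → W'.IsGoodPrimeFor ℓ → ℓ ≠ p →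
    (p : ℤ) ∣ (W'.apOfModel ℓ - W.apOfModel ℓ)

/-- `p` stays good if it was, and every bad prime other than 2 stays bad. -/
def KeepsBadPrimes (p : ℕ) (W W' : WeierstrassCurve ℤ) : Prop :=
  (¬ (p : ℤ) ∣ W.Δ → ¬ (p : ℤ) ∣ W'.Δ) ∧
    ∀ q : ℕ, q.Prime → q ≠ 2 → (q : ℤ) ∣ W.Δ → (q : ℤ) ∣ W'.Δ

/-- The curves to which minimal lifting at 2 is applied. -/
structure IsTwoAnchor (W : WeierstrassCurve ℤ) : Prop where
  Δ_neg : W.Δ < 0
  semistable : W.IsSemistableModel
  good_two : W.IsGoodPrimeFor 2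
  two_dvd_a₁ : (2 : ℤ) ∣ W.a₁
  oddOrders : OddBadOrders W
  irreducible : W.ModRepIsIrreducible 2

/-- The mod 5 switch with control at 2. -/
def FiveSwitchAtTwo : Prop :=
  ∀ W : WeierstrassCurve ℤ, W.Δ ≠ 0 → W.IsSemistableModel → W.ModRepIsIrreducible 5 →
    ∃ W' : WeierstrassCurve ℤ, W'.Δ ≠ 0 ∧ W'.IsSemistableModel ∧ W'.ModRepIsIrreducible 3 ∧
      ThreeUnramifiedAtTwo W' ∧ CongruentTraces 5 W W' ∧ KeepsBadPrimes 5 W W'

/-- The mod 3 (Hesse) switch to an anchor at 2. -/
def ThreeSwitchToAnchor : Prop :=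
  ∀ W : WeierstrassCurve ℤ, W.Δ ≠ 0 → W.IsSemistableModel → ThreeUnramifiedAtTwo W →
    ∃ W' : WeierstrassCurve ℤ, IsTwoAnchor W' ∧ CongruentTraces 3 W W' ∧ KeepsBadPrimes 3 W W'

/-- A mod 3 switch to a curve irreducible mod 5; needed only for curves reducible mod 5. -/
def ThreeSwitchToFiveIrreducible : Prop :=
  ∀ W : WeierstrassCurve ℤ, W.Δ ≠ 0 → W.IsSemistableModel → W.ModRepIsIrreducible 3 →
    ∃ W' : WeierstrassCurve ℤ, W'.Δ ≠ 0 ∧ W'.IsSemistableModel ∧ W'.ModRepIsIrreducible 5 ∧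
      CongruentTraces 3 W W' ∧ KeepsBadPrimes 3 W W'

/-- Dihedral modularity mod 2: the level is the product of the primes of odd order in `Δ`. -/
def DihedralModTwo : Prop :=
  ∀ W : WeierstrassCurve ℤ, W.IsSemistableModel → W.Δ < 0 → W.IsGoodPrimeFor 2 →
    (2 : ℤ) ∣ W.a₁ →
    ∃ N : ℕ, 0 < N ∧ Squarefree N ∧
      (∀ q : ℕ, q.Prime → (q ∣ N ↔ Odd (padicValInt q W.Δ))) ∧
      W.IsResiduallyModularOfLevel 2 N

/-- Minimal modularity lifting at 2. -/
def MinimalLiftingAtTwo : Prop :=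
  ∀ (W : WeierstrassCurve ℤ), IsTwoAnchor W → ∀ (N : ℕ) [NeZero N], Squarefree N →
    (∀ q : ℕ, q.Prime → (q ∣ N ↔ (q : ℤ) ∣ W.Δ)) → W.IsResiduallyModularOfLevel 2 N →
    Mlc1IsModularModelOfExactConductorLevel W

/-- Anchors are modular at their conductor. -/
theorem exactConductor_of_anchor (hdih : DihedralModTwo) (htwo : MinimalLiftingAtTwo)
    {W : WeierstrassCurve ℤ} (hA : IsTwoAnchor W) :
    Mlc1IsModularModelOfExactConductorLevel W := by
  obtain ⟨N, hN, hsq, hlev, hres⟩ := hdih W hA.semistable hA.Δ_neg hA.good_two hA.two_dvd_a₁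
  have : NeZero N := ⟨hN.ne'⟩
  refine htwo W hA N hsq (fun q hq => ⟨fun hqN => ?_, fun hqΔ => ?_⟩) hres
  · by_contra hnd
    have h0 : padicValInt q W.Δ = 0 := padicValInt.eq_zero_of_not_dvd hnd
    simpa [h0] using (hlev q hq).1 hqN
  · exact (hlev q hq).2 (hA.oddOrders q hq hqΔ)

end FermatLib.MLT
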