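import Fermat.Agent.MLT.Sieve

/-!
The squarefree sieve specialised to binary quartics with a prescribed sign.
-/

set_option autoImplicit false

noncomputable section

open Polynomial Finset

namespace FermatLib.MLT

/-- `∑ aᵢ xⁱ y^(4-i)` -/
def binQuartic {R : Type*} [CommRing R] (a : Fin 5 → ℤ) (x y : R) : R :=
  ∑ i : Fin 5, (a i : R) * x ^ (i : ℕ) * y ^ (4 - (i : ℕ))

/-- The polynomial `∑ aᵢ Xⁱ`. -/
def quarticPoly (a : Fin 5 → ℤ) : ℤ[X] := ∑ i : Fin 5, C (a i) * X ^ (i : ℕ)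

lemma natDegree_quarticPoly_le (a : Fin 5 → ℤ) : (quarticPoly a).natDegree ≤ 4 :=
  Polynomial.natDegree_sum_le_of_forall_le _ _ fun i _ ↦
    (Polynomial.natDegree_C_mul_X_pow_le _ _).trans (by omega)

lemma coeff_quarticPoly (a : Fin 5 → ℤ) (i : Fin 5) : (quarticPoly a).coeff i = a i := by
  simp [quarticPoly, Polynomial.coeff_X_pow, Fin.val_inj]

lemma binForm_quarticPoly (a : Fin 5 → ℤ) (x y : ℤ) :
    binForm 4 (quarticPoly a) x y = binQuartic a x y := by
  rw [binForm, binQuartic, Finset.sum_range]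
  exact Finset.sum_congr rfl fun i _ ↦ by rw [coeff_quarticPoly]; simp

lemma separable_quarticPoly (a : Fin 5 → ℤ)
    (h : ∀ z : ℂ, (∑ i : Fin 5, (a i : ℂ) * z ^ (i : ℕ)) = 0 →
      (∑ i : Fin 5, (a i : ℂ) * ((i : ℕ) : ℂ) * z ^ ((i : ℕ) - 1)) ≠ 0) :
    ((quarticPoly a).map (Int.castRingHom ℚ)).Separable := by
  rw [← Polynomial.separable_map (algebraMap ℚ ℂ), Polynomial.map_map, Polynomial.separable_def]
  set φ := (algebraMap ℚ ℂ).comp (Int.castRingHom ℚ)
  set F := (quarticPoly a).map φ with hF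
  refine IsRelPrime.isCoprime fun e he1 he2 ↦ ?_
  have hF0 : F ≠ 0 := by
    intro hF0
    have h0 : ∀ i, a i = 0 := by
      intro i
      have := congrArg (fun G ↦ Polynomial.coeff G i) hF0
      simpa [hF, coeff_quarticPoly, φ] using this
    exact h 0 (by simp [h0]) (by simp [h0])
  by_contra he
  obtain ⟨y, hy⟩ := IsAlgClosed.exists_root e fun hd ↦
    he (Polynomial.isUnit_iff_degree_eq_zero.mpr hd)
  have hFsum : F = ∑ i : Fin 5, C ((a i : ℂ)) * X ^ (i : ℕ) := by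
    simp [hF, quarticPoly, Polynomial.map_sum, φ]
  refine h y ?_ ?_
  · have := Polynomial.eval_eq_zero_of_dvd_of_eval_eq_zero he1 hy
    rw [hFsum, Polynomial.eval_finsetSum] at this
    simpa only [eval_mul, eval_C, eval_pow, eval_X] using this
  · have := Polynomial.eval_eq_zero_of_dvd_of_eval_eq_zero he2 hy
    rw [hFsum, derivative_sum, Polynomial.eval_finsetSum] at this
    simpa only [derivative_C_mul_X_pow, eval_mul, eval_C, eval_pow, eval_X] using this

/-- **Squarefree values of a binary quartic with a prescribed sign, in a residue class.** -/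
theorem exists_squarefree_binQuartic (a : Fin 5 → ℤ) (ha : a 4 ≠ 0)
    (hsep : ((quarticPoly a).map (Int.castRingHom ℚ)).Separable)
    {M : ℕ} (hM : 0 < M) (h2 : 2 ∣ M) (h3 : 3 ∣ M)
    (hcont : ∀ q : ℕ, q.Prime → ¬ q ∣ M → ∃ i, ¬ (q : ℤ) ∣ a i)
    (x₀ y₀ : ℤ) (hprim : ∀ q : ℕ, q.Prime → q ∣ M → ¬ ((q : ℤ) ∣ x₀ ∧ (q : ℤ) ∣ y₀))
    (ε : ℤ) {σ ρ : ℝ} (hsign : 0 < (ε : ℝ) * binQuartic a σ ρ) :
    ∃ x y : ℤ, x ≡ x₀ [ZMOD M] ∧ y ≡ y₀ [ZMOD M] ∧ IsCoprime x y ∧
      0 < ε * binQuartic a x y ∧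
      ∀ q : ℕ, q.Prime → ¬ q ∣ M → ¬ (q : ℤ) ^ 2 ∣ binQuartic a x y := by
  set f := quarticPoly a
  have hd := natDegree_quarticPoly_le a
  have hd' : 4 ≤ f.natDegree + 1 := by
    have : (4 : ℕ) ≤ f.natDegree :=
      Polynomial.le_natDegree_of_ne_zero (show f.coeff ((4 : Fin 5) : ℕ) ≠ 0 by
        rwa [coeff_quarticPoly])
    omega
  set U : Set (ℝ × ℝ) := {p | 0 < (ε : ℝ) * binQuartic a p.1 p.2}
  have hU : IsOpen U := isOpen_lt continuous_const (by unfold binQuartic; fun_prop)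
  obtain ⟨a', c', n, hn, hbox⟩ := exists_box_of_isOpen hU ⟨(σ, ρ), hsign⟩
  obtain ⟨X, hX, x, y, hbx, hby, hcop, hx, hy, -, hgood⟩ :=
    exists_squarefree_binForm hd le_rfl hsep (separable_reflect hd hd' hsep) hM hprim
      (fun q hq hqM ↦ by
        obtain ⟨i, hi⟩ := hcont q hq hqM
        have hq5 : 4 < q := by
          have := hq.two_le
          by_contra hle
          interval_cases q
          · exact hqM h2
          · exact hqM h3
          · exact absurd hq (by decide)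
        exact exists_not_sq_dvd_binForm_of_lt hd hq hq5 (i := i) (by rwa [coeff_quarticPoly]))
      a' c' 1
  refine ⟨x, y, hx, hy, hcop, ?_, fun q hq hqM h ↦ hgood q hq hqM (by
    rwa [binForm_quarticPoly])⟩
  have hX0 : (0 : ℝ) < X := by exact_mod_cast (show 0 < X by omega)
  have hn0 : (0 : ℝ) < n := by exact_mod_cast hn
  have e1 : ∀ z : ℝ, (n : ℝ) * (z / (n * X)) = z / X := fun z ↦ by field_simp
  have hmem : ((x : ℝ) / (n * X), (y : ℝ) / (n * X)) ∈ U := by
    refine hbox _ _ ?_ ?_ ?_ ?_ <;> rw [e1] <;>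
      first | rw [le_div_iff₀ hX0] | rw [div_le_iff₀ hX0]
    · exact_mod_cast hbx.1.le
    · exact_mod_cast hbx.2
    · exact_mod_cast hby.1.le
    · exact_mod_cast hby.2
  have hpos : (0 : ℝ) < n * X := mul_pos hn0 hX0
  have hscale : binQuartic a ((x : ℝ) / (n * X)) ((y : ℝ) / (n * X)) * ((n : ℝ) * X) ^ 4 =
      ((binQuartic a x y : ℤ) : ℝ) := by
    simp only [binQuartic, Finset.sum_mul, Int.cast_sum, Int.cast_mul, Int.cast_pow,
      Int.cast_id]
    refine Finset.sum_congr rfl fun i _ ↦ ?_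
    set R := (n : ℝ) * X
    have hi : (i : ℕ) + (4 - (i : ℕ)) = 4 := by omega
    rw [div_pow, div_pow, show R ^ 4 = R ^ (i : ℕ) * R ^ (4 - (i : ℕ)) by rw [← pow_add, hi]]
    field_simp
  have h4 : (0 : ℝ) < (ε : ℝ) * ((binQuartic a x y : ℤ) : ℝ) := by
    rw [← hscale, ← mul_assoc]
    exact mul_pos hmem (by positivity)
  exact_mod_cast h4

end FermatLib.MLT
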