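import Fermat.Agent.MLT.LocQRelations

/-!
# The universal property of the framed local rings at `q`

Homomorphisms `𝒪⟦X⟧ → R` into a complete local algebra are given by values in the maximal ideal;
so a framed lift of `(Φ̄, 1)` is the image of six universal coordinates, and the tame relation says
that the relations of `LocQRelations` are in the kernel.
-/

set_option autoImplicit false

namespace FermatLib.MLT.LocQ

open IsLocalRing MvPowerSeries

section Eval

variable {𝒪 R ι : Type*} [CommRing 𝒪] [CommRing R] [IsLocalRing R] [Algebra 𝒪 R] [Finite ι]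
  [IsAdicComplete (maximalIdeal R) R]

omit [IsAdicComplete (maximalIdeal R) R] [Finite ι] in
lemma aeval_mem_pow {a : ι → R} (ha : ∀ i, a i ∈ maximalIdeal R) {n : ℕ} {t : MvPolynomial ι 𝒪}
    (ht : t ∈ MvPolynomial.idealOfVars ι 𝒪 ^ n) : MvPolynomial.aeval a t ∈ maximalIdeal R ^ n := by
  have h : MvPolynomial.idealOfVars ι 𝒪 ≤
      (maximalIdeal R).comap (MvPolynomial.aeval a : MvPolynomial ι 𝒪 →ₐ[𝒪] R) := by
    rw [Ideal.span_le]
    rintro _ ⟨i, rfl⟩
    rw [SetLike.mem_coe, Ideal.mem_comap, MvPolynomial.aeval_X]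
    exact ha i
  exact Ideal.le_comap_pow _ _ (Ideal.pow_right_mono h n ht)

/-- The value at level `n` of a series. -/
noncomputable def evalLevel (a : ι → R) (ha : ∀ i, a i ∈ maximalIdeal R) (n : ℕ) :
    MvPowerSeries ι 𝒪 →+* R ⧸ maximalIdeal R ^ n :=
  (Ideal.Quotient.lift (MvPolynomial.idealOfVars ι 𝒪 ^ n)
      ((Ideal.Quotient.mk (maximalIdeal R ^ n)).comp (MvPolynomial.aeval a).toRingHom)
      fun _ ht => Ideal.Quotient.eq_zero_iff_mem.mpr (aeval_mem_pow ha ht)).comp
    (truncTotalAlgHom ι 𝒪 n).toRingHom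

omit [IsAdicComplete (maximalIdeal R) R] in
lemma evalLevel_compat (a : ι → R) (ha : ∀ i, a i ∈ maximalIdeal R) {m n : ℕ} (hle : m ≤ n) :
    (Ideal.Quotient.factorPow (maximalIdeal R) hle).comp (evalLevel (𝒪 := 𝒪) a ha n) =
      evalLevel a ha m := by
  refine RingHom.ext fun f => ?_
  show Ideal.Quotient.factor (Ideal.pow_le_pow_right hle)
      (Ideal.Quotient.mk (maximalIdeal R ^ n) (MvPolynomial.aeval a (truncTotal n f))) =
    Ideal.Quotient.mk (maximalIdeal R ^ m) (MvPolynomial.aeval a (truncTotal m f))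
  rw [Ideal.Quotient.factor_mk, Ideal.Quotient.eq, ← map_sub]
  exact aeval_mem_pow ha (truncTotal_sub_truncTotal_mem_pow_idealOfVars hle le_rfl f)

/-- Evaluation of power series at elements of the maximal ideal. -/
noncomputable def evalHom (a : ι → R) (ha : ∀ i, a i ∈ maximalIdeal R) :
    MvPowerSeries ι 𝒪 →+* R :=
  IsAdicComplete.liftRingHom (maximalIdeal R) (evalLevel a ha) (evalLevel_compat a ha)

lemma mk_evalHom {a : ι → R} (ha : ∀ i, a i ∈ maximalIdeal R) (n : ℕ) (f : MvPowerSeries ι 𝒪) :
    Ideal.Quotient.mk (maximalIdeal R ^ n) (evalHom a ha f) = evalLevel a ha n f :=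
  IsAdicComplete.mk_liftRingHom (maximalIdeal R) (evalLevel a ha) (evalLevel_compat a ha) n f

lemma evalHom_coe {a : ι → R} (ha : ∀ i, a i ∈ maximalIdeal R) (p : MvPolynomial ι 𝒪) :
    evalHom a ha (p : MvPowerSeries ι 𝒪) = MvPolynomial.aeval a p := by
  refine (IsHausdorff.eq_iff_smodEq (I := maximalIdeal R)).mpr fun n => ?_
  rw [SModEq.sub_mem, smul_eq_mul, Ideal.mul_top, ← Ideal.Quotient.eq]
  rw [mk_evalHom]
  show Ideal.Quotient.mk _ (MvPolynomial.aeval a (truncTotal n (p : MvPowerSeries ι 𝒪))) = _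
  rw [Ideal.Quotient.eq, ← map_sub]
  refine aeval_mem_pow ha ((MvPolynomial.mem_pow_idealOfVars_iff' ..).mpr fun e he => ?_)
  rw [MvPolynomial.coeff_sub, coeff_truncTotal _ he, MvPolynomial.coeff_coe, sub_self]

@[simp]
lemma evalHom_X {a : ι → R} (ha : ∀ i, a i ∈ maximalIdeal R) (i : ι) :
    evalHom (𝒪 := 𝒪) a ha (X i) = a i := by
  rw [← MvPolynomial.coe_X, evalHom_coe, MvPolynomial.aeval_X]

@[simp]
lemma evalHom_C {a : ι → R} (ha : ∀ i, a i ∈ maximalIdeal R) (c : 𝒪) :
    evalHom a ha (C c) = algebraMap 𝒪 R c := by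
  rw [← MvPolynomial.coe_C, evalHom_coe, MvPolynomial.aeval_C]

end Eval

section Span

variable {𝒪 ι : Type*} [CommRing 𝒪] [Finite ι]

/-- A series without constant term is a combination of the variables. -/
lemma mem_span_X_of_constantCoeff {f : MvPowerSeries ι 𝒪} (hf : constantCoeff f = 0) :
    f ∈ Ideal.span (Set.range (X : ι → MvPowerSeries ι 𝒪)) := by
  classical
  have := Fintype.ofFinite ι
  let pick : (ι →₀ ℕ) → Option ι := fun e => e.support.toList.head?
  let g : ι → MvPowerSeries ι 𝒪 := fun j e =>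
    if pick (e + Finsupp.single j 1) = some j then coeff (e + Finsupp.single j 1) f else 0
  have hpick : ∀ e j, pick e = some j → e j ≠ 0 := fun e j h => by
    have := List.mem_of_mem_head? (Option.mem_def.mpr h)
    rwa [Finset.mem_toList, Finsupp.mem_support_iff] at this
  have heq : f = ∑ j, X j * g j := by
    refine MvPowerSeries.ext fun e => ?_
    have hterm : ∀ j, coeff e (X j * g j) = if pick e = some j then coeff e f else 0 := fun j => by
      rw [X_def, coeff_monomial_mul, one_mul]
      by_cases hj : e j = 0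
      · rw [if_neg, if_neg fun h => hpick e j h hj]
        intro h
        have := h j
        simp [hj] at this
      · have hle : Finsupp.single j 1 ≤ e :=
          Finsupp.single_le_iff.mpr (Nat.one_le_iff_ne_zero.mpr hj)
        rw [if_pos hle]
        show (if _ then _ else _) = _
        rw [tsub_add_cancel_of_le hle]
    rw [map_sum, Finset.sum_congr rfl fun j _ => hterm j]
    rcases h : pick e with _ | i
    · have he : e = 0 := by simpa [pick, List.head?_eq_none_iff] using h
      simp only [reduceCtorEq, if_false, Finset.sum_const_zero]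
      rw [he, coeff_zero_eq_constantCoeff_apply, hf]
    · simp
  rw [heq]
  exact Submodule.sum_mem _ fun j _ => Ideal.mul_mem_right _ _ (Ideal.subset_span ⟨j, rfl⟩)

end Span

section Sqrt

variable {R : Type*} [CommRing R] [IsLocalRing R] [IsAdicComplete (maximalIdeal R) R]

/-- Square roots exist near a unit square. -/
theorem exists_sqrt (h2 : IsUnit (2 : R)) {x h₀ : R} (h₀u : IsUnit h₀)
    (hx : x - h₀ ^ 2 ∈ maximalIdeal R) : ∃ h : R, h ^ 2 = x ∧ h - h₀ ∈ maximalIdeal R := by
  obtain ⟨h, hroot, hh⟩ := HenselianRing.is_henselian (R := R) (I := maximalIdeal R)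
    (Polynomial.X ^ 2 - Polynomial.C x) (Polynomial.monic_X_pow_sub_C _ two_ne_zero) h₀
    (by
      rw [← neg_mem_iff] at hx
      simpa using hx)
    (by
      refine IsUnit.map _ ?_
      rw [Polynomial.derivative_sub, Polynomial.derivative_X_pow, Polynomial.derivative_C, sub_zero]
      simpa using h2.mul h₀u)
  exact ⟨h, by simpa [Polynomial.IsRoot, sub_eq_zero] using hroot, hh⟩

end Sqrt

end FermatLib.MLT.LocQ
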