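import Fermat.Agent.MLT.SupportAssoc
import Mathlib.Algebra.BigOperators.Fin

/-!
# Products of local branches

A ring `B` whose primes of interest choose, for each index `i`, one of finitely many local branches
`br i b`. Branches at `i` are cut out by `δ i` elements, crossings of two branches by fewer. Hence
a prime `P` of large dimension containing a special ideal at one index determines the branch at
every other index, and a flip at `i` does not disturb them.
-/

set_option autoImplicit false

namespace FermatLib.MLT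

open IsLocalRing

/-- Local branch data. -/
structure BranchSystem (B : Type*) [CommRing B] [IsLocalRing B] (ι : Type*) [Fintype ι]
    (β : Type*) where
  /-- the variables at `i` -/
  V : ι → Ideal B
  /-- the dimension of the branches at `i` -/
  δ : ι → ℕ
  /-- the number of remaining variables -/
  g : ℕ
  /-- the branches at `i` -/
  br : ι → β → Ideal B
  cuts : ∀ i b, Cuts (V i) (br i b) (δ i)
  cross : ∀ i b b', br i b ≠ br i b' → ∃ m, m < δ i ∧ Cuts (V i) (br i b ⊔ br i b') m
  rest : Cuts (maximalIdeal B) (Finset.univ.sup V) g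

namespace BranchSystem

variable {B : Type*} [CommRing B] [IsLocalRing B] {ι : Type*} [Fintype ι]
  {β : Type*} (D : BranchSystem B ι β)

/-- The dimension of a full pattern. -/
def dim : ℕ := (∑ j, D.δ j) + D.g

/-- The dimension left outside the index `i`. -/
def dimOff [DecidableEq ι] (i : ι) : ℕ := (∑ j ∈ Finset.univ.erase i, D.δ j) + D.g

theorem dim_eq [DecidableEq ι] (i : ι) : D.dim = D.δ i + D.dimOff i := by
  rw [dim, dimOff, ← Finset.add_sum_erase _ _ (Finset.mem_univ i)]
  ring

variable [IsNoetherianRing B]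

theorem ringKrullDim_le (P : Ideal B) {J : ι → Ideal B} {n : ι → ℕ}
    (hJ : ∀ j, J j ≤ P) (hn : ∀ j, Cuts (D.V j) (J j) (n j)) :
    ringKrullDim (B ⧸ P) ≤ ((∑ j, n j) + D.g : ℕ) :=
  (((Cuts.finsetSup Finset.univ fun j _ => hn j).trans D.rest).mono
    (Finset.sup_le fun j _ => hJ j) le_rfl).ringKrullDim_quotient_le

/-- A prime containing a full pattern off `i`, and `J` at `i`. -/
theorem ringKrullDim_le_at [DecidableEq ι] (P : Ideal B) (i : ι) {J : Ideal B} {n : ℕ}
    (hJ : J ≤ P) (hn : Cuts (D.V i) J n) {σ : ι → β} (hσ : ∀ j, j ≠ i → D.br j (σ j) ≤ P) :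
    ringKrullDim (B ⧸ P) ≤ (n + D.dimOff i : ℕ) := by
  refine le_trans (D.ringKrullDim_le P (J := Function.update (fun j => D.br j (σ j)) i J)
    (n := Function.update D.δ i n) ?_ ?_) (le_of_eq ?_)
  · intro j
    by_cases h : j = i
    · subst h; simpa using hJ
    · simpa [h] using hσ j h
  · intro j
    by_cases h : j = i
    · subst h; simpa using hn
    · simpa [h] using D.cuts j (σ j)
  · rw [dimOff, Finset.sum_update_of_mem (Finset.mem_univ i), Finset.sdiff_singleton_eq_erase]
    push_cast
    ring

/-- A prime of dimension at least `D.dim - k` containing at `i` an ideal cut by `n ≤ δ i - k`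
elements contains no crossing away from `i`. -/
theorem branch_eq_of_le [DecidableEq ι] (P : Ideal B) (i : ι) {J : Ideal B} {n k : ℕ}
    (hJ : J ≤ P) (hn : Cuts (D.V i) J n) (hnk : n + k ≤ D.δ i)
    (hP : (D.dim : WithBot ℕ∞) ≤ ringKrullDim (B ⧸ P) + k)
    {σ : ι → β} (hσ : ∀ j, j ≠ i → D.br j (σ j) ≤ P)
    {j : ι} (hj : j ≠ i) {b : β} (hb : D.br j b ≤ P) : D.br j b = D.br j (σ j) := by
  by_contra hne
  obtain ⟨m, hm, hcut⟩ := D.cross j b (σ j) hne
  have h := D.ringKrullDim_le P
    (J := Function.update (Function.update (fun l => D.br l (σ l)) i J) j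
      (D.br j b ⊔ D.br j (σ j)))
    (n := Function.update (Function.update D.δ i n) j m) ?_ ?_
  · have hsum : (∑ l, Function.update (Function.update D.δ i n) j m l) + D.δ i + D.δ j =
        n + m + ∑ l, D.δ l := by
      rw [Finset.sum_update_of_mem (Finset.mem_univ j), Finset.sdiff_singleton_eq_erase,
        Finset.sum_update_of_mem (Finset.mem_erase.mpr ⟨hj.symm, Finset.mem_univ i⟩),
        Finset.sdiff_singleton_eq_erase,
        ← Finset.add_sum_erase Finset.univ D.δ (Finset.mem_univ j),
        ← Finset.add_sum_erase (Finset.univ.erase j) D.δ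
          (Finset.mem_erase.mpr ⟨hj.symm, Finset.mem_univ i⟩)]
      ring
    have h2 : (D.dim : WithBot ℕ∞) ≤
        ((∑ l, Function.update (Function.update D.δ i n) j m l) + D.g + k : ℕ) := by
      refine hP.trans ?_
      push_cast at h ⊢
      gcongr
    have h3 : D.dim ≤ (∑ l, Function.update (Function.update D.δ i n) j m l) + D.g + k := by
      exact_mod_cast h2
    unfold dim at h3
    omega
  · intro l
    by_cases hlj : l = j
    · subst hlj; simpa using ⟨hb, hσ l hj⟩
    by_cases hli : l = i
    · subst hli; simpa [hlj] using hJ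
    · simpa [hlj, hli] using hσ l hli
  · intro l
    by_cases hlj : l = j
    · subst hlj; simpa using hcut
    by_cases hli : l = i
    · subst hli; simpa [hlj] using hn
    · simpa [hlj, hli] using D.cuts l (σ l)

/-- Primes with patterns: a prime `Q` below `P` having some branch at each index agrees with the
pattern of `P` away from `i`. -/
theorem pattern_of_le [DecidableEq ι] (P : Ideal B) (i : ι) {J : Ideal B} {n k : ℕ}
    (hJ : J ≤ P) (hn : Cuts (D.V i) J n) (hnk : n + k ≤ D.δ i)
    (hP : (D.dim : WithBot ℕ∞) ≤ ringKrullDim (B ⧸ P) + k)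
    {σ : ι → β} (hσ : ∀ j, j ≠ i → D.br j (σ j) ≤ P)
    {Q : Ideal B} (hQP : Q ≤ P) (hQ : ∀ j, ∃ b, D.br j b ≤ Q) :
    ∀ j, j ≠ i → D.br j (σ j) ≤ Q := fun j hj => by
  obtain ⟨b, hb⟩ := hQ j
  rwa [← D.branch_eq_of_le P i hJ hn hnk hP hσ hj (hb.trans hQP)]

/-- A prime of full dimension has a unique branch at each index. -/
theorem branch_unique {Q : Ideal B} {σ : ι → β} (hQ : ∀ j, D.br j (σ j) ≤ Q)
    (hdim : ringKrullDim (B ⧸ Q) = D.dim) {i : ι} {b : β} (hb : D.br i b ≤ Q) :
    D.br i b = D.br i (σ i) := by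
  classical
  by_contra hne
  obtain ⟨m, hm, hcut⟩ := D.cross i b (σ i) hne
  have h := D.ringKrullDim_le_at Q i (sup_le hb (hQ i)) hcut (fun j _ => hQ j)
  rw [hdim, D.dim_eq i] at h
  have : D.δ i + D.dimOff i ≤ m + D.dimOff i := by exact_mod_cast h
  omega

end BranchSystem

end FermatLib.MLT
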