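import Fermat.Agent.MLT.PatchSystem
import Mathlib.RingTheory.Ideal.MinimalPrime.Localization
import Mathlib.RingTheory.Ideal.MinimalPrime.Basic
import Mathlib.RingTheory.Ideal.HasGoingUp
import Mathlib.RingTheory.KrullDimension.Basic
import Mathlib.RingTheory.IntegralClosure.Algebra.Basic

/-!
# Support of a patched module, descent to level zero, and Ihara avoidance

Minimal primes of the support of a patched module have quotients of dimension at least `dim S`.
If enough of them lie under a given ideal `K`, the annihilator of `M₀` in `R₀` is contained in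
every prime containing the image of `K`.
-/

set_option autoImplicit false

namespace FermatLib.MLT

open Filter IsLocalRing Polynomial

variable {S B R₀ M₀ : Type} [CommRing S] [IsLocalRing S] [CommRing B] [IsLocalRing B]
  [CommRing R₀] [AddCommGroup M₀] [Module R₀ M₀] {𝔞 : Ideal S} {d : ℕ}
  [IsNoetherianRing S] [IsAdicComplete (maximalIdeal S) S] [Finite (ResidueField S)]
  [IsNoetherianRing B] [IsAdicComplete (maximalIdeal B) B] [Finite (ResidueField B)]

namespace PatchSystem

variable (P : PatchSystem S B R₀ M₀ 𝔞 d)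

lemma eval₂_charpoly_mem_annih (z : B) : (P.rho z).charpoly.eval₂ P.phi z ∈ P.annih := by
  have h := Matrix.aeval_self_charpoly (P.rho z)
  rw [aeval_def] at h
  rw [annih, RingHom.mem_ker, Polynomial.hom_eval₂]
  convert h using 2
  exact RingHom.ext fun s => (P.rho_phi s).trans (Matrix.scalar_apply _)

/-- If the patched action of `z` has entries in `I`, then `z ^ d` lies in `annih + φ(I)`. -/
lemma pow_mem_of_rho_mem {z : B} {I : Ideal S} (h : ∀ i j, P.rho z i j ∈ I) :
    z ^ d ∈ P.annih ⊔ I.map P.phi := by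
  set p := (P.rho z).charpoly with hp
  have hmap : p.map (Ideal.Quotient.mk I) = X ^ d := by
    rw [hp, ← Matrix.charpoly_map, show (P.rho z).map (Ideal.Quotient.mk I) = 0 from
      Matrix.ext fun i j => Ideal.Quotient.eq_zero_iff_mem.mpr (h i j), Matrix.charpoly_zero,
      Fintype.card_fin]
  have h1 : p - X ^ d ∈ I.map C := by
    refine Ideal.mem_map_C_iff.mpr fun m => Ideal.Quotient.eq_zero_iff_mem.mp ?_
    rw [← Polynomial.coeff_map, Polynomial.map_sub, Polynomial.map_pow, Polynomial.map_X, hmap,
      sub_self, coeff_zero]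
  have h2 : (p - X ^ d).eval₂ P.phi z ∈ I.map P.phi := by
    have h' := Ideal.mem_map_of_mem (eval₂RingHom P.phi z) h1
    rwa [Ideal.map_map, show (eval₂RingHom P.phi z).comp C = P.phi from
      RingHom.ext fun s => by simp, coe_eval₂RingHom] at h'
  have h3 : z ^ d = p.eval₂ P.phi z - (p - X ^ d).eval₂ P.phi z := by simp
  rw [h3]
  exact sub_mem (Ideal.mem_sup_left (P.eval₂_charpoly_mem_annih z)) (Ideal.mem_sup_right h2)

variable [IsDomain S] {Q : Ideal B}

omit [IsDomain S] in
/-- If two systems admit `B`-linear surjections modulo `ϖ` at every level, the annihilators agree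
up to radical modulo `ϖ`. -/
theorem annih_le_radical_sup {R₀' M₀' : Type} [CommRing R₀'] [AddCommGroup M₀'] [Module R₀' M₀']
    {𝔞' : Ideal S} {d' : ℕ} (P' : PatchSystem S B R₀' M₀' 𝔞' d') {ϖ : S} {ϖB : B}
    (hϖ : ∀ n, (P'.level n).φ ϖ = ϖB)
    (θ : ∀ n, (P.level n).N →ₗ[B]
      (P'.level n).N ⧸ (Ideal.span {ϖB} • ⊤ : Submodule B (P'.level n).N))
    (hθ : ∀ n, Function.Surjective (θ n)) :
    P.annih ≤ (P'.annih ⊔ Ideal.span {ϖB}).radical := by
  intro z hz
  have h : ∀ i j, P'.rho z i j ∈ Ideal.span {ϖ} := P'.rho_mem (IsULim.const z) fun k => by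
    filter_upwards [P.mem_annih_iff.mp hz (levelExponent S d' * k)] with n hn y
    obtain ⟨x, hx⟩ := hθ n (Submodule.Quotient.mk y)
    have h1 := Submodule.mem_map_of_mem (f := θ n) (hn x)
    rw [map_smul, hx, Submodule.map_smul'', Submodule.map_top] at h1
    have h2 := Submodule.smul_mono le_rfl le_top h1
    rw [← Submodule.range_mkQ, ← Submodule.map_top, ← Submodule.map_smul''] at h2
    obtain ⟨w, hw, hw'⟩ := Submodule.mem_map.mp h2
    rw [← Submodule.Quotient.mk_smul, Submodule.mkQ_apply, Submodule.Quotient.eq] at hw'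
    have h3 : w ∈ ((Ideal.span {ϖ} ⊔ maximalIdeal S ^ k).map (P'.level n).φ) • (⊤ : Submodule B _) :=
      Submodule.smul_mono_left (Ideal.map_mono le_sup_right) ((P'.level n).pow_smul_le k hw)
    have h4 : w - z • y ∈
        ((Ideal.span {ϖ} ⊔ maximalIdeal S ^ k).map (P'.level n).φ) • (⊤ : Submodule B _) := by
      refine Submodule.smul_mono_left ?_ hw'
      rw [Ideal.span_singleton_le_iff_mem, ← hϖ n]
      exact Ideal.mem_map_of_mem _ (Ideal.mem_sup_left (Ideal.mem_span_singleton_self ϖ))
    have := sub_mem h3 h4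
    rwa [sub_sub_cancel] at this
  refine ⟨d', ?_⟩
  have := P'.pow_mem_of_rho_mem h
  rwa [Ideal.map_span, Set.image_singleton, P'.phi_eq hϖ] at this

end PatchSystem

end FermatLib.MLT
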