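import Fermat.Agent.MLT.SupportCuts
import Mathlib.RingTheory.Ideal.AssociatedPrime.Localization
import Mathlib.LinearAlgebra.Matrix.Adjugate
import Mathlib.LinearAlgebra.Matrix.Charpoly.LinearMap
import Mathlib.RingTheory.Nakayama
import Mathlib.RingTheory.Finiteness.Quotient
import Mathlib.Algebra.Polynomial.Module.AEval

/-!
# Moving between components of a patched support

`M` is a finite module, `Mb = M / ϖ M` its special fibre, `P` a prime at which the special fibre is
supported.

* `exists_assocPrime_of_mul_mem` (avoidance): if `a j * b` is divisible by `ϖ ^ e` on `M` and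
  `a j₀ * b = ϖ ^ e * c` with `c ∉ P`, then some associated prime of the special fibre below `P`
  contains all `a j`.
* `annihilator_coker_le_of_det_mem` (raising): if the composite `ιs ∘ ι` is a matrix whose
  determinant lies in `P` and `ιs` is surjective, the cokernel of `ι` is supported at `P`.
-/

set_option autoImplicit false

namespace FermatLib.MLT

open Polynomial

variable {B : Type*} [CommRing B] [IsNoetherianRing B]
variable {M Mb : Type*} [AddCommGroup M] [Module B M] [Module.Finite B M]
  [AddCommGroup Mb] [Module B Mb] [Module.Finite B Mb]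

/-- A prime containing the annihilator of a finite module lies over one of its associated primes
having as small a quotient dimension as all the others. -/
theorem exists_assocPrime_le {P : Ideal B} [P.IsPrime] (h : Module.annihilator B Mb ≤ P) :
    ∃ Q ∈ associatedPrimes B Mb, Q ≤ P := by
  obtain ⟨Q, hQ, hQP⟩ := Ideal.exists_minimalPrimes_le h
  exact ⟨Q, Module.associatedPrimes.minimalPrimes_annihilator_subset_associatedPrimes B Mb hQ, hQP⟩

/-- Modules with the same support, all of whose associated primes have dimension `D`, have the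
same associated primes. -/
theorem assocPrime_mem_of_annihilator_le {Mb' : Type*} [AddCommGroup Mb'] [Module B Mb']
    [Module.Finite B Mb'] {D : ℕ}
    (hD : ∀ Q ∈ associatedPrimes B Mb, ringKrullDim (B ⧸ Q) = D)
    {Q : Ideal B} (hQ : Q ∈ associatedPrimes B Mb')
    (hDQ : ringKrullDim (B ⧸ Q) = D)
    (h : Module.annihilator B Mb ≤ Q) : Q ∈ associatedPrimes B Mb := by
  have := hQ.isPrime
  obtain ⟨Q', hQ', hle⟩ := exists_assocPrime_le h
  have := hQ'.isPrime
  rwa [← eq_of_le_of_ringKrullDim_quotient_eq hle (hD Q' hQ').le hDQ.ge]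

/-- If `t • M ≤ I • M` then `t ^ n + r` kills `M` for some `n` and some `r ∈ I`. -/
theorem exists_pow_add_mem_annihilator {A X : Type*} [CommRing A] [AddCommGroup X] [Module A X]
    [Module.Finite A X] {I : Ideal A} {t : A} (h : ∀ x : X, t • x ∈ I • (⊤ : Submodule A X)) :
    ∃ n : ℕ, ∃ r ∈ I, t ^ n + r ∈ Module.annihilator A X := by
  obtain ⟨p, hp, -, hcoeff, h0⟩ :=
    LinearMap.exists_monic_and_natDegree_eq_and_coeff_mem_pow_and_aeval_eq_zero A
    (t • (LinearMap.id : X →ₗ[A] X)) I (by
      rintro _ ⟨x, rfl⟩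
      exact h x)
  have hev : (t • (LinearMap.id : X →ₗ[A] X)) = algebraMap A (Module.End A X) t := rfl
  rw [hev, Polynomial.aeval_algebraMap_apply_eq_algebraMap_eval] at h0
  refine ⟨p.natDegree, ∑ k ∈ Finset.range p.natDegree, p.coeff k * t ^ k,
    I.sum_mem fun k hk => I.mul_mem_right _ ?_, Module.mem_annihilator.mpr fun x => ?_⟩
  · rw [Finset.mem_range] at hk
    exact Ideal.pow_le_self (by omega) (hcoeff k)
  · have := LinearMap.congr_fun h0 x
    rw [Module.algebraMap_end_apply, eval_eq_sum_range, Finset.sum_range_succ, hp.coeff_natDegree,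
      one_mul, add_comm] at this
    simpa using this

omit [IsNoetherianRing B] in
/-- Multiples of a module that lie in `I`-multiples: a Cayley–Hamilton form of Nakayama. -/
theorem mem_of_smul_mem_smul_top {P : Ideal B} [P.IsPrime] {I : Ideal B} (hI : I ≤ P) {t : B}
    (h : ∀ x : M, t • x ∈ I • (⊤ : Submodule B M)) (hann : Module.annihilator B M ≤ P) :
    t ∈ P := by
  obtain ⟨n, r, hr, hmem⟩ := exists_pow_add_mem_annihilator h
  exact ‹P.IsPrime›.mem_of_pow_mem n ((Ideal.add_mem_iff_left P (hI hr)).mp (hann hmem))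

/-- **Avoidance.** -/
theorem exists_assocPrime_of_mul_mem (q : M →ₗ[B] Mb) (hq : Function.Surjective q) {ϖ : B}
    (hker : ∀ x, q x = 0 ↔ ∃ y, x = ϖ • y) (hϖ : IsSMulRegular M ϖ)
    {P : Ideal B} [P.IsPrime] (hP : Module.annihilator B Mb ≤ P)
    {κ : Type*} (a : κ → B) (b c : B) (e : ℕ) (j₀ : κ)
    (hab : ∀ j x, ∃ y : M, a j • b • x = ϖ ^ e • y)
    (h₀ : ∀ x : M, a j₀ • b • x = ϖ ^ e • c • x)
    (ha : a j₀ ∈ P) (hc : c ∉ P) :
    ∃ Q ∈ associatedPrimes B Mb, Q ≤ P ∧ ∀ j, a j ∈ Q := by
  by_contra hcon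
  push Not at hcon
  -- the common kernel of the `a j` on the special fibre
  let K : Submodule B Mb := ⨅ j, LinearMap.ker (a j • (LinearMap.id : Mb →ₗ[B] Mb))
  have hK : ∀ y, y ∈ K ↔ ∀ j, a j • y = 0 := fun y => by
    simp [K, Submodule.mem_iInf]
  obtain ⟨s, hs, hsP⟩ : ∃ s ∈ Module.annihilator B K, s ∉ P := by
    by_contra h
    push Not at h
    obtain ⟨Q, hQ, hQP⟩ := exists_assocPrime_le (Mb := K) (P := P) h
    have hsub := associatedPrimes.subset_of_injective (R := B) (f := K.subtype)
      K.injective_subtype hQ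
    obtain ⟨j, hj⟩ := hcon Q hsub hQP
    refine hj ?_
    have := (IsAssociatedPrime.annihilator_le hQ)
    refine this (Submodule.mem_annihilator.mpr fun y _ => Subtype.ext ?_)
    exact (hK y).mp y.2 j
  have hs' : ∀ y : Mb, (∀ j, a j • y = 0) → s • y = 0 := fun y hy => by
    have := Module.mem_annihilator.mp hs ⟨y, (hK y).mpr hy⟩
    exact congrArg Subtype.val this
  have step : ∀ i : ℕ, ∀ y : M, (∀ j, ∃ z, a j • y = ϖ ^ i • z) →
      ∃ w, s ^ i • y = ϖ ^ i • w := by
    intro i
    induction i with
    | zero => exact fun y _ => ⟨y, by simp⟩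
    | succ i ih =>
      intro y hy
      have h0 : q (s • y) = 0 := by
        rw [map_smul]
        refine hs' _ fun j => ?_
        obtain ⟨z, hz⟩ := hy j
        rw [← map_smul, hker, hz]
        exact ⟨ϖ ^ i • z, by rw [pow_succ', mul_smul]⟩
      obtain ⟨y₁, hy₁⟩ := (hker _).mp h0
      obtain ⟨w, hw⟩ := ih y₁ fun j => by
        obtain ⟨z, hz⟩ := hy j
        refine ⟨s • z, hϖ ?_⟩
        show ϖ • a j • y₁ = ϖ • ϖ ^ i • s • z
        rw [smul_comm ϖ (a j), ← hy₁, smul_comm (a j) s, hz, smul_comm s, pow_succ', mul_smul]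
      exact ⟨w, by rw [pow_succ, mul_smul, hy₁, smul_comm, hw, pow_succ', mul_smul]⟩
  refine ‹P.IsPrime›.mul_mem_iff_mem_or_mem.mp
    (mem_of_smul_mem_smul_top (M := M) (I := Ideal.span {a j₀}) (t := s ^ e * c) ?_ ?_ ?_) |>.elim
    (fun h => hsP (‹P.IsPrime›.mem_of_pow_mem e h)) hc
  · exact (Ideal.span_singleton_le_iff_mem _).mpr ha
  · intro x
    obtain ⟨w, hw⟩ := step e (b • x) fun j => hab j x
    have : (s ^ e * c) • x = a j₀ • w := by
      refine (IsSMulRegular.pow e hϖ) ?_
      show ϖ ^ e • (s ^ e * c) • x = ϖ ^ e • a j₀ • w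
      rw [smul_comm (ϖ ^ e) (a j₀), ← hw, smul_comm (a j₀), h₀, mul_smul, smul_comm]
    rw [this]
    exact Submodule.smul_mem_smul (Ideal.mem_span_singleton_self _) trivial
  · refine le_trans (fun r hr => ?_) hP
    refine Module.mem_annihilator.mpr fun y => ?_
    obtain ⟨x, rfl⟩ := hq y
    rw [← map_smul, Module.mem_annihilator.mp hr, map_zero]

omit [IsNoetherianRing B] [Module.Finite B Mb] in
/-- The special fibre of a module supported at `P ∋ ϖ` is supported at `P`. -/
theorem annihilator_fibre_le (q : M →ₗ[B] Mb) {ϖ : B} (hker : ∀ x, q x = 0 ↔ ∃ y, x = ϖ • y)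
    {P : Ideal B} [P.IsPrime] (hϖP : ϖ ∈ P) (h : Module.annihilator B M ≤ P) :
    Module.annihilator B Mb ≤ P := by
  intro r hr
  refine mem_of_smul_mem_smul_top (I := Ideal.span {ϖ})
    ((Ideal.span_singleton_le_iff_mem _).mpr hϖP) (fun x => ?_) h
  obtain ⟨y, hy⟩ := (hker (r • x)).mp (by rw [map_smul, Module.mem_annihilator.mp hr])
  rw [hy]
  exact Submodule.smul_mem_smul (Ideal.mem_span_singleton_self _) trivial

omit [Module.Finite B Mb] in
/-- An associated prime of the special fibre lies over a minimal prime of the support of `M`,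
which does not contain `ϖ`. -/
theorem exists_minimalPrime_le_assocPrime (q : M →ₗ[B] Mb) (hq : Function.Surjective q) {ϖ : B}
    (hϖ : IsSMulRegular M ϖ) {Q : Ideal B} (hQ : Q ∈ associatedPrimes B Mb) :
    ∃ Q₁ ∈ associatedPrimes B M, Q₁ ≤ Q ∧ ϖ ∉ Q₁ := by
  have := hQ.isPrime
  have hle : Module.annihilator B M ≤ Q := by
    refine le_trans (fun r hr => ?_) (IsAssociatedPrime.annihilator_le hQ)
    refine Submodule.mem_annihilator.mpr fun y _ => ?_
    obtain ⟨x, rfl⟩ := hq y
    rw [← map_smul, Module.mem_annihilator.mp hr, map_zero]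
  obtain ⟨Q₁, hQ₁, hle₁⟩ := exists_assocPrime_le hle
  refine ⟨Q₁, hQ₁, hle₁, fun hmem => ?_⟩
  obtain ⟨hp, x, hx⟩ := (isAssociatedPrime_iff).mp hQ₁
  rw [hx, Submodule.mem_colon_singleton, Submodule.mem_bot] at hmem
  refine hp.ne_top ?_
  rw [hx, hϖ (hmem.trans (smul_zero ϖ).symm), Submodule.colon_singleton_zero]

section Raise

variable {N : Type*} [AddCommGroup N] [Module B N] [Module.Finite B N]
variable {C : Type*} [AddCommGroup C] [Module B C]

omit [IsNoetherianRing B] [Module.Finite B M] in
/-- **Raising.** -/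
theorem annihilator_coker_le_of_det_mem {ι : Type*} [Fintype ι] [DecidableEq ι] [Nonempty ι]
    (up : (ι → N) →ₗ[B] M) (down : M →ₗ[B] (ι → N)) (hdown : Function.Surjective down)
    (G : Matrix ι ι B) (hG : ∀ v i, down (up v) i = ∑ j, G i j • v j)
    (π : M →ₗ[B] C) (hπ : ∀ x, π x = 0 → x ∈ LinearMap.range up)
    {P : Ideal B} [P.IsPrime] (hN : Module.annihilator B N ≤ P) (hdet : G.det ∈ P) :
    Module.annihilator B C ≤ P := by
  intro s hs
  by_contra hsP
  -- every vector times `s` is in the range of `G`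
  have hrange : ∀ w : ι → N, ∃ v : ι → N, ∀ i, s • w i = ∑ j, G i j • v j := fun w => by
    obtain ⟨x, rfl⟩ := hdown w
    obtain ⟨v, hv⟩ := hπ (s • x) (by rw [map_smul, Module.mem_annihilator.mp hs])
    refine ⟨v, fun i => ?_⟩
    rw [← hG, hv, map_smul, Pi.smul_apply]
  -- Cayley–Hamilton over `B[X]`, `X` acting by `G`: an inverse of `G` up to `s ^ n` modulo `P`
  let φ : Matrix ι ι B →ₐ[B] Module.End B (ι → N) := AlgHom.ofLinearMap
    { toFun := fun A =>
        { toFun := fun v i => ∑ j, A i j • v j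
          map_add' := fun v w => by ext i; simp [smul_add, Finset.sum_add_distrib]
          map_smul' := fun r v => by ext i; simp [Finset.smul_sum, smul_comm r] }
      map_add' := fun A A' => by
        refine LinearMap.ext fun v => funext fun i => ?_
        simp [add_smul, Finset.sum_add_distrib]
      map_smul' := fun r A => by
        refine LinearMap.ext fun v => funext fun i => ?_
        simp [mul_smul, Finset.smul_sum] }
    (by
      refine LinearMap.ext fun v => funext fun i => ?_
      simp [Matrix.one_apply])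
    (fun A A' => by
      refine LinearMap.ext fun v => funext fun i => ?_
      simp only [LinearMap.coe_mk, AddHom.coe_mk, Module.End.mul_apply, Matrix.mul_apply,
        Finset.sum_smul, Finset.smul_sum, mul_smul]
      rw [Finset.sum_comm])
  have hφ : ∀ (A : Matrix ι ι B) (v : ι → N) i, φ A v i = ∑ j, A i j • v j := fun _ _ _ => rfl
  obtain ⟨n, r, hr, hann⟩ := exists_pow_add_mem_annihilator (A := B[X])
      (X := Module.AEval' (φ G)) (I := Ideal.span {Polynomial.X}) (t := Polynomial.C s) fun x => by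
    obtain ⟨w, rfl⟩ := (Module.AEval'.of (φ G)).surjective x
    obtain ⟨v, hv⟩ := hrange w
    rw [Module.AEval.C_smul, ← map_smul, show s • w = φ G v from funext fun i => by
      rw [Pi.smul_apply, hv, hφ], ← Module.AEval'.X_smul_of]
    exact Submodule.smul_mem_smul (Ideal.mem_span_singleton_self _) trivial
  obtain ⟨r', rfl⟩ := Ideal.mem_span_singleton'.mp hr
  have hzero : φ (s ^ n • (1 : Matrix ι ι B) + aeval G r' * G) = 0 := by
    refine LinearMap.ext fun w => ?_
    have := congrArg (Module.AEval'.of (φ G)).symm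
      (Module.mem_annihilator.mp hann (Module.AEval'.of (φ G) w))
    rw [Module.AEval.of_symm_smul, map_zero, LinearEquiv.symm_apply_apply] at this
    rw [map_add, map_mul, map_smul, map_one, ← Polynomial.aeval_algHom_apply]
    simpa [Algebra.algebraMap_eq_smul_one, smul_pow] using this
  have hent : ∀ i j, (s ^ n • (1 : Matrix ι ι B) + aeval G r' * G) i j ∈ P := fun i j =>
    hN (Module.mem_annihilator.mpr fun x => by
      have := congrFun (LinearMap.congr_fun hzero (Pi.single j x)) i
      rwa [hφ, Finset.sum_eq_single j (fun l _ hl => by simp [hl]) (by simp),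
        Pi.single_eq_same] at this)
  let k := Ideal.Quotient.mk P
  have hmap : (aeval G r' * G).map k = (-(k s) ^ n) • (1 : Matrix ι ι (B ⧸ P)) := by
    refine Matrix.ext fun i j => ?_
    have := Ideal.Quotient.eq_zero_iff_mem.mpr (hent i j)
    rw [Matrix.add_apply, map_add, add_eq_zero_iff_neg_eq] at this
    rw [Matrix.map_apply, ← this]
    rcases eq_or_ne i j with rfl | hij <;> simp [k, *]
  have h0 := congrArg Matrix.det hmap
  rw [← RingHom.mapMatrix_apply, ← RingHom.map_det, Matrix.det_mul, map_mul,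
    Ideal.Quotient.eq_zero_iff_mem.mpr hdet, mul_zero, Matrix.det_smul, Matrix.det_one,
    mul_one] at h0
  have hks : k s ≠ 0 := fun h => hsP (Ideal.Quotient.eq_zero_iff_mem.mp h)
  exact pow_ne_zero _ (neg_ne_zero.mpr (pow_ne_zero n hks)) h0.symm

end Raise

end FermatLib.MLT
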