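import Mathlib.RingTheory.Ideal.KrullsHeightTheorem
import Mathlib.RingTheory.KrullDimension.NonZeroDivisors
import Mathlib.RingTheory.Ideal.HasGoingUp
import Mathlib.RingTheory.Ideal.AssociatedPrime.Localization
import Mathlib.RingTheory.IntegralClosure.IsIntegralClosure.Basic
import Mathlib.RingTheory.Finiteness.Quotient

/-!
# Dimension of the associated primes of a finite torsion-free module with two commuting actions

If `M` is finite over `A` and, for a commuting action, finite and torsion-free over a domain `S`,
then every associated prime `Q` of `M` over `A` has `dim A/Q = dim S`.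
-/

set_option autoImplicit false

namespace FermatLib.MLT

/-- Injective integral ring maps preserve the Krull dimension. -/
theorem supDim_ringKrullDim_eq_of_injective_isIntegral {R T : Type*} [CommRing R] [CommRing T]
    [Algebra R T] [Algebra.IsIntegral R T] (hinj : Function.Injective (algebraMap R T)) :
    ringKrullDim R = ringKrullDim T := by
  refine le_antisymm ?_ ?_
  · refine iSup_le fun l => ?_
    obtain ⟨P, -, hP, hP'⟩ := Ideal.exists_ideal_over_prime_of_isIntegral l.head.asIdeal
      (⊥ : Ideal T) (by
        intro r hr
        rw [Ideal.mem_comap, Ideal.mem_bot] at hr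
        rw [hinj (hr.trans (map_zero (algebraMap R T)).symm)]
        exact zero_mem _)
    have : P.LiesOver l.head.asIdeal := ⟨hP'.symm⟩
    obtain ⟨L, hlen, -⟩ := Ideal.exists_ltSeries_of_hasGoingUp l P
    rw [← hlen]
    exact Order.LTSeries.length_le_krullDim L
  · refine Order.krullDim_le_of_strictMono (PrimeSpectrum.comap (algebraMap R T)) fun P Q hPQ => ?_
    obtain ⟨hle, x, hxQ, hxP⟩ :=
      SetLike.lt_iff_le_and_exists.mp (show P.asIdeal < Q.asIdeal from hPQ)
    exact Ideal.comap_lt_comap_of_integral_mem_sdiff hle ⟨hxQ, hxP⟩
      (Algebra.IsIntegral.isIntegral x)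

section Assoc

variable {A S M : Type*} [CommRing A] [IsNoetherianRing A] [CommRing S] [IsDomain S]
  [IsNoetherianRing S] [AddCommGroup M] [Module A M] [Module S M] [SMulCommClass S A M]
  [Module.Finite A M] [Module.Finite S M] [Module.IsTorsionFree S M]

/-- An associated prime of a module, finite over `A` and finite torsion-free over the domain `S`
for a commuting action, has quotient of dimension `dim S`. -/
theorem ringKrullDim_quotient_eq_of_isAssociatedPrime {Q : Ideal A}
    (hQ : IsAssociatedPrime Q M) : ringKrullDim (A ⧸ Q) = ringKrullDim S := by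
  classical
  obtain ⟨hQp, v, hv⟩ := (isAssociatedPrime_iff).mp hQ
  have : SMulCommClass A S M := SMulCommClass.symm S A M
  let op : A →+* Module.End S M :=
    { toFun := fun a => DistribSMul.toLinearMap S M a
      map_one' := LinearMap.ext fun x => one_smul A x
      map_mul' := fun a b => LinearMap.ext fun x => mul_smul a b x
      map_zero' := LinearMap.ext fun x => zero_smul A x
      map_add' := fun a b => LinearMap.ext fun x => add_smul a b x }
  let C : Subalgebra S (Module.End S M) := Algebra.adjoin S (Set.range op)
  have hC : IsMulCommutative C := Algebra.isMulCommutative_adjoin S (by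
    rintro _ ⟨a, rfl⟩ _ ⟨b, rfl⟩
    exact LinearMap.ext fun x => smul_comm a b x)
  let _ : CommRing C := { (inferInstance : Ring C) with mul_comm := fun a b => mul_comm' a b }
  let opC : A →+* C := op.codRestrict C fun a => Algebra.subset_adjoin ⟨a, rfl⟩
  let J : Ideal C :=
    { carrier := {c | (c : Module.End S M) v = 0}
      add_mem' := fun {a b} (ha : (a : Module.End S M) v = 0) (hb : (b : Module.End S M) v = 0) =>
        show ((a : Module.End S M) + (b : Module.End S M)) v = 0 by simp [ha, hb]
      zero_mem' := rfl
      smul_mem' := fun c a (ha : (a : Module.End S M) v = 0) =>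
        show ((c : Module.End S M) * (a : Module.End S M)) v = 0 by simp [ha] }
  let D := C ⧸ J
  let evC : C →ₗ[S] M :=
    { toFun := fun c => (c : Module.End S M) v
      map_add' := fun a b => rfl
      map_smul' := fun s a => rfl }
  have hker : J.restrictScalars S ≤ LinearMap.ker evC := fun c hc => hc
  let evD : D →ₗ[S] M := (Submodule.liftQ (J.restrictScalars S) evC hker).comp
    (Submodule.Quotient.restrictScalarsEquiv S J).symm.toLinearMap
  have evD_mk : ∀ c : C, evD (Ideal.Quotient.mk J c) = (c : Module.End S M) v := fun c => rfl
  have evD_inj : Function.Injective evD := by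
    refine (injective_iff_map_eq_zero evD).mpr fun x hx => ?_
    obtain ⟨c, rfl⟩ := Ideal.Quotient.mk_surjective x
    exact Ideal.Quotient.eq_zero_iff_mem.mpr (show (c : Module.End S M) v = 0 from evD_mk c ▸ hx)
  -- `S → D`
  have hS : Module.Finite S D := Module.Finite.of_injective evD evD_inj
  have hSinj : Function.Injective (algebraMap S D) := by
    refine (injective_iff_map_eq_zero _).mpr fun s hs => ?_
    have hsv : s • v = 0 := Ideal.Quotient.eq_zero_iff_mem.mp hs
    refine (smul_eq_zero.mp hsv).resolve_right fun h0 => hQp.ne_top ?_
    rw [hv, h0, Submodule.colon_singleton_zero]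
  -- `A ⧸ Q → D`
  let f : A →+* D := (Ideal.Quotient.mk J).comp opC
  have hf : ∀ a, f a = 0 ↔ a ∈ Q := fun a => by
    rw [hv, Submodule.mem_colon_singleton, Submodule.mem_bot]
    exact Ideal.Quotient.eq_zero_iff_mem
  let g : A ⧸ Q →+* D := Ideal.Quotient.lift Q f fun a ha => (hf a).mpr ha
  have hginj : Function.Injective g := by
    refine (injective_iff_map_eq_zero g).mpr fun x hx => ?_
    obtain ⟨a, rfl⟩ := Ideal.Quotient.mk_surjective x
    exact Ideal.Quotient.eq_zero_iff_mem.mpr ((hf a).mp hx)
  have hfin : g.Finite := by
    let _ : Algebra A D := f.toAlgebra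
    let evA : D →ₗ[A] M :=
      { toFun := evD
        map_add' := map_add evD
        map_smul' := fun a x => by
          obtain ⟨c, rfl⟩ := Ideal.Quotient.mk_surjective x
          exact evD_mk (opC a * c) }
    have hAfin : Module.Finite A D := Module.Finite.of_injective evA evD_inj
    refine RingHom.Finite.of_comp_finite (f := Ideal.Quotient.mk Q) (g := g) ?_
    rw [show g.comp (Ideal.Quotient.mk Q) = f from Ideal.Quotient.lift_comp_mk _ _ _]
    exact hAfin
  let _ : Algebra (A ⧸ Q) D := g.toAlgebra
  have : Module.Finite (A ⧸ Q) D := hfin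
  rw [supDim_ringKrullDim_eq_of_injective_isIntegral (R := A ⧸ Q) (T := D) hginj,
    supDim_ringKrullDim_eq_of_injective_isIntegral (R := S) (T := D) hSinj]

end Assoc

end FermatLib.MLT
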