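import Fermat.Agent.MLT.PatchModule
import Fermat.Agent.MLT.PatchSupport
import Fermat.Agent.MLT.SupportAssoc
import Fermat.Agent.MLT.SupportDim

/-!
# The patched module, its special fibre, and descent to level zero

`P.Patched` is `Fin d → S`; `P.Fibre ϖ` is its reduction modulo `ϖ`. Their associated primes have
dimension `dim S`, resp. `dim S/ϖ`; the support of the fibre is the special fibre of the support.
-/

set_option autoImplicit false

namespace FermatLib.MLT

open IsLocalRing

variable {S B R₀ M₀ : Type} [CommRing S] [IsLocalRing S] [CommRing B] [IsLocalRing B]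
  [CommRing R₀] [AddCommGroup M₀] [Module R₀ M₀] {𝔞 : Ideal S} {d : ℕ}
  [IsNoetherianRing S] [IsAdicComplete (maximalIdeal S) S] [Finite (ResidueField S)]

namespace PatchSystem

variable (P : PatchSystem S B R₀ M₀ 𝔞 d)

/-- The patched module modulo `ϖ`. -/
def Fibre (_P : PatchSystem S B R₀ M₀ 𝔞 d) (ϖ : S) : Type := Fin d → S ⧸ Ideal.span {ϖ}

variable (ϖ : S)

instance : AddCommGroup (P.Fibre ϖ) :=
  inferInstanceAs (AddCommGroup (Fin d → S ⧸ Ideal.span {ϖ}))

noncomputable instance : Module B (P.Fibre ϖ) :=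
  Module.compHom (Fin d → S ⧸ Ideal.span {ϖ})
    ((Matrix.toLinAlgEquiv' (R := S ⧸ Ideal.span {ϖ}) (n := Fin d)).toRingEquiv.toRingHom.comp
      ((Ideal.Quotient.mk (Ideal.span {ϖ})).mapMatrix.comp P.rho))

lemma fibre_smul_apply (z : B) (v : P.Fibre ϖ) (i : Fin d) :
    (z • v) i = ∑ j, Ideal.Quotient.mk (Ideal.span {ϖ}) (P.rho z i j) * v j := by
  show (Matrix.toLinAlgEquiv' ((Ideal.Quotient.mk (Ideal.span {ϖ})).mapMatrix (P.rho z))
    (v : Fin d → S ⧸ Ideal.span {ϖ})) i = _
  exact congrFun (Matrix.toLinAlgEquiv'_apply _ _) i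

/-- An element of the fibre from its coordinates. -/
def fibreOf (v : Fin d → S ⧸ Ideal.span {ϖ}) : P.Fibre ϖ := v

/-- An element of the patched module from its coordinates. -/
def patchedOf (v : Fin d → S) : P.Patched := v

/-- A coordinate of an element of the patched module. -/
def coord (v : P.Patched) (i : Fin d) : S := v i

/-- Reduction modulo `ϖ`. -/
noncomputable def fibreMk : P.Patched →ₗ[B] P.Fibre ϖ where
  toFun v := fun i => Ideal.Quotient.mk (Ideal.span {ϖ}) (v i)
  map_add' v w := funext fun i => map_add (Ideal.Quotient.mk (Ideal.span {ϖ})) (v i) (w i)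
  map_smul' z v := funext fun i => by
    show Ideal.Quotient.mk _ ((z • v) i) =
      (z • P.fibreOf ϖ fun i => Ideal.Quotient.mk _ (v i)) i
    rw [patched_smul_apply, fibre_smul_apply, map_sum]
    simp only [map_mul]
    rfl

lemma fibreMk_surjective : Function.Surjective (P.fibreMk ϖ) := fun v =>
  ⟨(fun i => (Ideal.Quotient.mk_surjective (v i)).choose : Fin d → S),
    funext fun i => (Ideal.Quotient.mk_surjective (v i)).choose_spec⟩

variable [IsNoetherianRing B] [IsAdicComplete (maximalIdeal B) B] [Finite (ResidueField B)]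

lemma fibreMk_eq_zero_iff (x : P.Patched) :
    P.fibreMk ϖ x = 0 ↔ ∃ y, x = P.phi ϖ • y := by
  constructor
  · intro h
    have : ∀ i, ϖ ∣ x i := fun i =>
      Ideal.mem_span_singleton.mp (Ideal.Quotient.eq_zero_iff_mem.mp (congrFun h i))
    choose y hy using this
    exact ⟨P.patchedOf y, funext fun i => (hy i).trans (P.phi_smul_apply ϖ (P.patchedOf y) i).symm⟩
  · rintro ⟨y, rfl⟩
    refine funext fun i => Ideal.Quotient.eq_zero_iff_mem.mpr ?_
    rw [phi_smul_apply]
    exact Ideal.mul_mem_right _ _ (Ideal.mem_span_singleton_self ϖ)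

lemma isSMulRegular_phi [IsDomain S] {s : S} (hs : s ≠ 0) :
    IsSMulRegular P.Patched (P.phi s) := fun x y h => funext fun i => by
  exact mul_left_cancel₀ hs (((P.phi_smul_apply s x i).symm.trans
    (congrFun (h : P.phi s • x = P.phi s • y) i)).trans (P.phi_smul_apply s y i))

instance : Module.Finite B P.Patched := by
  refine ⟨⟨(Set.finite_range P.patchedBasis).toFinset, ?_⟩⟩
  rw [Set.Finite.coe_toFinset, eq_top_iff]
  intro x _
  rw [← P.sum_phi_smul_patchedBasis x]
  exact Submodule.sum_mem _ fun i _ => Submodule.smul_mem _ _ (Submodule.subset_span ⟨i, rfl⟩)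

instance : Module.Finite B (P.Fibre ϖ) :=
  Module.Finite.of_surjective (P.fibreMk ϖ) (P.fibreMk_surjective ϖ)

omit [IsNoetherianRing B] [IsAdicComplete (maximalIdeal B) B] [Finite (ResidueField B)] in
/-- The annihilator of the patched module is `annih`. -/
lemma annihilator_patched : Module.annihilator B P.Patched = P.annih := by
  refine le_antisymm (fun z hz => ?_) fun z hz => ?_
  · refine RingHom.mem_ker.mpr (Matrix.ext fun i j => ?_)
    have := congrFun (Module.mem_annihilator.mp hz (P.patchedBasis j)) i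
    rw [patched_smul_apply, Finset.sum_eq_single j (fun k _ hk => by
      simp [patchedBasis, hk]) (by simp)] at this
    refine Eq.trans ?_ this
    simp [patchedBasis]
  · refine Module.mem_annihilator.mpr fun v => funext fun i => ?_
    rw [patched_smul_apply, show P.rho z = 0 from RingHom.mem_ker.mp hz]
    simp
    rfl

/-- Associated primes of the patched module have dimension `dim S`. -/
theorem ringKrullDim_of_mem_associatedPrimes [IsDomain S] {Q : Ideal B}
    (hQ : Q ∈ associatedPrimes B P.Patched) : ringKrullDim (B ⧸ Q) = ringKrullDim S := by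
  let _ : Module S P.Patched := inferInstanceAs (Module S (Fin d → S))
  have : Module.Finite S P.Patched := inferInstanceAs (Module.Finite S (Fin d → S))
  have : Module.IsTorsionFree S P.Patched := inferInstanceAs (Module.IsTorsionFree S (Fin d → S))
  have hs : ∀ (s : S) (v : P.Patched), s • v = P.phi s • v := fun s v => funext fun i => by
    rw [phi_smul_apply]
    rfl
  have : SMulCommClass S B P.Patched := ⟨fun s z v => by rw [hs, hs, smul_comm]⟩
  exact ringKrullDim_quotient_eq_of_isAssociatedPrime hQ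

/-- Associated primes of the special fibre have dimension `dim S/ϖ`. -/
theorem ringKrullDim_of_mem_associatedPrimes_fibre [IsDomain (S ⧸ Ideal.span {ϖ})] {Q : Ideal B}
    (hQ : Q ∈ associatedPrimes B (P.Fibre ϖ)) :
    ringKrullDim (B ⧸ Q) = ringKrullDim (S ⧸ Ideal.span {ϖ}) := by
  let _ : Module (S ⧸ Ideal.span {ϖ}) (P.Fibre ϖ) :=
    inferInstanceAs (Module (S ⧸ Ideal.span {ϖ}) (Fin d → S ⧸ Ideal.span {ϖ}))
  have : Module.Finite (S ⧸ Ideal.span {ϖ}) (P.Fibre ϖ) :=
    inferInstanceAs (Module.Finite (S ⧸ Ideal.span {ϖ}) (Fin d → S ⧸ Ideal.span {ϖ}))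
  have : Module.IsTorsionFree (S ⧸ Ideal.span {ϖ}) (P.Fibre ϖ) :=
    inferInstanceAs (Module.IsTorsionFree (S ⧸ Ideal.span {ϖ}) (Fin d → S ⧸ Ideal.span {ϖ}))
  have : SMulCommClass (S ⧸ Ideal.span {ϖ}) B (P.Fibre ϖ) := ⟨fun s z v => funext fun i => by
    show s * (z • v) i = (z • P.fibreOf ϖ fun j => s * v j) i
    rw [fibre_smul_apply, fibre_smul_apply, Finset.mul_sum]
    exact Finset.sum_congr rfl fun j _ => mul_left_comm _ _ _⟩
  exact ringKrullDim_quotient_eq_of_isAssociatedPrime hQ

/-- The support of the fibre is the special fibre of the support. -/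
theorem annihilator_fibre_le_iff {Q : Ideal B} [Q.IsPrime] :
    Module.annihilator B (P.Fibre ϖ) ≤ Q ↔ P.annih ≤ Q ∧ P.phi ϖ ∈ Q := by
  refine ⟨fun h => ⟨le_trans (fun z hz => ?_) h, h ?_⟩, fun ⟨h, hϖ⟩ => ?_⟩
  · refine Module.mem_annihilator.mpr fun y => ?_
    obtain ⟨x, rfl⟩ := P.fibreMk_surjective ϖ y
    rw [← P.annihilator_patched] at hz
    rw [← map_smul, Module.mem_annihilator.mp hz, map_zero]
  · refine Module.mem_annihilator.mpr fun y => ?_
    obtain ⟨x, rfl⟩ := P.fibreMk_surjective ϖ y
    rw [← map_smul, fibreMk_eq_zero_iff]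
    exact ⟨x, rfl⟩
  · exact annihilator_fibre_le (P.fibreMk ϖ) (P.fibreMk_eq_zero_iff ϖ) hϖ
      (P.annihilator_patched ▸ h)

variable [IsNoetherianRing R₀] [IsLocalRing R₀] [IsAdicComplete (maximalIdeal R₀) R₀]
  [Finite (ResidueField R₀)]

/-- Descent along the limit map: a prime of `R₀` whose pull-back supports the patched module
supports `M₀`. -/
theorem annihilator_le_of_annih_le_comap {x : Ideal R₀} [x.IsPrime]
    (h : P.annih ≤ x.comap P.psi) : Module.annihilator R₀ M₀ ≤ x := by
  intro r hr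
  choose c hc using fun n => (P.level n).ψ_surjective r
  obtain ⟨z, hz⟩ := exists_isULim c
  have hz' : ∀ i j, P.rho z i j ∈ 𝔞 := P.rho_mem hz fun k =>
    Filter.Eventually.of_forall fun n y => by
      refine Submodule.smul_mono_left (Ideal.map_mono le_sup_left) ((P.level n).ker_π_le _ ?_)
      rw [(P.level n).π_smul, hc, Module.mem_annihilator.mp hr]
  obtain ⟨α, hα, β, hβ, hαβ⟩ := Submodule.mem_sup.mp (P.pow_mem_of_rho_mem hz')
  have hβ' : β ∈ RingHom.ker P.psi := by
    refine (Ideal.map_le_iff_le_comap.mpr fun s hs => ?_) hβ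
    exact RingHom.mem_ker.mpr (P.psi_phi_eq_zero hs)
  have hrd : r ^ d ∈ x := by
    rw [← P.psi_eq hz hc, ← map_pow, ← hαβ, map_add, RingHom.mem_ker.mp hβ', add_zero]
    exact h hα
  exact ‹x.IsPrime›.mem_of_pow_mem d hrd

end PatchSystem

end FermatLib.MLT
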