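import Fermat.Agent.MLT.SupportCuts
import Mathlib.Tactic.FinCases
import Mathlib.Tactic.LinearCombination

/-!
# The two branches at a prime `q ≡ 1 (mod p)` and their crossing

Traceless matrices `N = (n 0, n 1; n 2, -n 0)` and `P = (p 0, p 1; p 2, -p 0)`. In the special
fibre the branches are `n = 0` and the pairs of proportional nilpotent matrices. We bound their
dimensions and those of the crossing by cuts, and produce crossing primes.
-/

set_option autoImplicit false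

namespace FermatLib.MLT

open IsLocalRing

variable {B : Type*} [CommRing B]

/-- `v 0 ^ 2 + v 1 * v 2`, minus the determinant of the traceless matrix with entries `v`. -/
def qForm (v : Fin 3 → B) : B := v 0 ^ 2 + v 1 * v 2

/-- The six variables. -/
def quadVars (n p : Fin 3 → B) : Ideal B := Ideal.span (Set.range n) ⊔ Ideal.span (Set.range p)

/-- The unramified branch. -/
def quadUnr (n : Fin 3 → B) : Ideal B := Ideal.span (Set.range n)

/-- The Steinberg branch of the special fibre: both matrices nilpotent and proportional. -/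
def quadSt (n p : Fin 3 → B) : Ideal B :=
  Ideal.span (({qForm n, qForm p} : Set B) ∪ Set.range fun ij : Fin 3 × Fin 3 =>
    n ij.1 * p ij.2 - n ij.2 * p ij.1)

theorem qForm_n_mem_quadSt (n p : Fin 3 → B) : qForm n ∈ quadSt n p :=
  Ideal.subset_span (Or.inl (Or.inl rfl))

theorem qForm_p_mem_quadSt (n p : Fin 3 → B) : qForm p ∈ quadSt n p :=
  Ideal.subset_span (Or.inl (Or.inr rfl))

theorem minor_mem_quadSt (n p : Fin 3 → B) (i j : Fin 3) :
    n i * p j - n j * p i ∈ quadSt n p :=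
  Ideal.subset_span (Or.inr ⟨(i, j), rfl⟩)

theorem quadSt_le {n p : Fin 3 → B} {I : Ideal B} (hn : qForm n ∈ I) (hp : qForm p ∈ I)
    (hmin : ∀ i j, n i * p j - n j * p i ∈ I) : quadSt n p ≤ I := by
  refine Ideal.span_le.mpr ?_
  rintro x ((rfl | rfl) | ⟨⟨i, j⟩, rfl⟩)
  exacts [hn, hp, hmin i j]

/-- Proportional matrices: `n j ^ 2 * Q(p) = p j ^ 2 * Q(n)` modulo the minors. -/
theorem sq_mul_qForm_sub_mem {n p : Fin 3 → B} {I : Ideal B}
    (hmin : ∀ i j, n i * p j - n j * p i ∈ I) (j : Fin 3) :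
    n j ^ 2 * qForm p - p j ^ 2 * qForm n ∈ I := by
  have e : n j ^ 2 * qForm p - p j ^ 2 * qForm n =
      (n j * p 0 + p j * n 0) * (n j * p 0 - n 0 * p j)
        + (n j * p 1) * (n j * p 2 - n 2 * p j) + (n 2 * p j) * (n j * p 1 - n 1 * p j) := by
    simp only [qForm]
    ring
  rw [e]
  exact add_mem (add_mem (Ideal.mul_mem_left _ _ (hmin j 0)) (Ideal.mul_mem_left _ _ (hmin j 2)))
    (Ideal.mul_mem_left _ _ (hmin j 1))

/-- Every prime of the special fibre lies on one of the two branches. -/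
theorem quadUnr_le_or_quadSt_le {n p : Fin 3 → B} {Q : Ideal B} [Q.IsPrime] (hn : qForm n ∈ Q)
    (hmin : ∀ i j, n i * p j - n j * p i ∈ Q) : quadUnr n ≤ Q ∨ quadSt n p ≤ Q := by
  by_cases h : ∀ j, n j ∈ Q
  · exact Or.inl (Ideal.span_le.mpr (Set.range_subset_iff.mpr h))
  push Not at h
  obtain ⟨j, hj⟩ := h
  refine Or.inr (quadSt_le hn ?_ hmin)
  have h1 : n j ^ 2 * qForm p ∈ Q := by
    have := add_mem (sq_mul_qForm_sub_mem hmin j) (Ideal.mul_mem_left Q (p j ^ 2) hn)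
    rwa [sub_add_cancel] at this
  exact (‹Q.IsPrime›.mem_or_mem h1).resolve_left fun h => hj (‹Q.IsPrime›.mem_of_pow_mem 2 h)

variable [IsLocalRing B]

omit [IsLocalRing B] in
theorem le_radical_of_forall_prime {V I : Ideal B}
    (h : ∀ Q : Ideal B, Q.IsPrime → I ≤ Q → V ≤ Q) : V ≤ I.radical := by
  rw [Ideal.radical_eq_sInf]
  exact le_sInf fun Q hQ => h Q hQ.2 hQ.1

theorem cuts_quadUnr {n p : Fin 3 → B} (hp : ∀ j, p j ∈ maximalIdeal B) :
    Cuts (quadVars n p) (quadUnr n) 3 := by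
  classical
  refine ⟨Finset.univ.image p, Finset.card_image_le.trans (by simp), by
    rw [Finset.coe_image, Finset.coe_univ, Set.image_univ]
    exact Set.range_subset_iff.mpr hp, ?_⟩
  rw [Finset.coe_image, Finset.coe_univ, Set.image_univ]
  exact Ideal.le_radical

/-- The plane used by `exists_crossing_of_quadSt`: `n` and all but one `p` vanish. -/
theorem cuts_line {n p : Fin 3 → B} (hp : ∀ j, p j ∈ maximalIdeal B) {I : Ideal B}
    (hn : ∀ j, n j ∈ I) (hp0 : p 0 ∈ I) (hp1 : p 1 ∈ I) : Cuts (quadVars n p) I 1 := by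
  classical
  refine ⟨{p 2}, by simp, by simpa using hp 2, ?_⟩
  rw [quadVars, ← Ideal.span_union, Ideal.span_le]
  rintro x (⟨j, rfl⟩ | ⟨j, rfl⟩)
  · exact Ideal.le_radical (Ideal.mem_sup_left (hn j))
  · refine Ideal.le_radical ?_
    fin_cases j
    · exact Ideal.mem_sup_left hp0
    · exact Ideal.mem_sup_left hp1
    · exact Ideal.mem_sup_right (Ideal.subset_span (by simp))

theorem cuts_quadSt {n p : Fin 3 → B} (hn : ∀ j, n j ∈ maximalIdeal B)
    (hp : ∀ j, p j ∈ maximalIdeal B) : Cuts (quadVars n p) (quadSt n p) 3 := by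
  classical
  refine ⟨{p 1 + n 2, p 2, n 1 + p 0}, Finset.card_le_three, ?_, ?_⟩
  · intro x hx
    simp only [Finset.coe_insert, Finset.coe_singleton, Set.mem_insert_iff,
      Set.mem_singleton_iff] at hx
    rcases hx with rfl | rfl | rfl
    exacts [add_mem (hp 1) (hn 2), hp 2, add_mem (hn 1) (hp 0)]
  refine le_radical_of_forall_prime fun Q hQ hle => ?_
  rw [sup_le_iff, Ideal.span_le] at hle
  obtain ⟨hst, hs⟩ := hle
  have hs1 : p 1 + n 2 ∈ Q := hs (by simp)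
  have h2 : p 2 ∈ Q := hs (by simp)
  have hs3 : n 1 + p 0 ∈ Q := hs (by simp)
  have h0 : p 0 ∈ Q := hQ.mem_of_pow_mem 2
    ((Ideal.add_mem_iff_left Q (Ideal.mul_mem_left _ _ h2)).mp (hst (qForm_p_mem_quadSt n p)))
  have hn1 : n 1 ∈ Q := (Ideal.add_mem_iff_left Q h0).mp hs3
  have hn0 : n 0 ∈ Q := hQ.mem_of_pow_mem 2
    ((Ideal.add_mem_iff_left Q (Ideal.mul_mem_right _ _ hn1)).mp (hst (qForm_n_mem_quadSt n p)))
  have hn2p1 : n 2 * p 1 ∈ Q := by
    have := add_mem (hst (minor_mem_quadSt n p 2 1)) (Ideal.mul_mem_left Q (n 1) h2)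
    rwa [sub_add_cancel] at this
  have hn2 : n 2 ∈ Q := by
    refine hQ.mem_of_pow_mem 2 ?_
    have := sub_mem (Ideal.mul_mem_left Q (n 2) hs1) hn2p1
    convert this using 1
    ring
  have hp1 : p 1 ∈ Q := (Ideal.add_mem_iff_left Q hn2).mp hs1
  rw [quadVars, ← Ideal.span_union, Ideal.span_le]
  rintro x (⟨j, rfl⟩ | ⟨j, rfl⟩)
  · fin_cases j
    exacts [hn0, hn1, hn2]
  · fin_cases j
    exacts [h0, hp1, h2]

theorem cuts_quadCross {n p : Fin 3 → B} (hp : ∀ j, p j ∈ maximalIdeal B) {I : Ideal B}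
    (hn : ∀ j, n j ∈ I) (hq : qForm p ∈ I) : Cuts (quadVars n p) I 2 := by
  classical
  refine ⟨{p 1, p 2}, Finset.card_le_two, ?_, ?_⟩
  · intro x hx
    simp only [Finset.coe_insert, Finset.coe_singleton, Set.mem_insert_iff,
      Set.mem_singleton_iff] at hx
    rcases hx with rfl | rfl
    exacts [hp 1, hp 2]
  refine le_radical_of_forall_prime fun Q hQ hle => ?_
  rw [sup_le_iff, Ideal.span_le] at hle
  obtain ⟨hI, hs⟩ := hle
  have h1 : p 1 ∈ Q := hs (by simp)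
  have h2 : p 2 ∈ Q := hs (by simp)
  have h0 : p 0 ∈ Q := hQ.mem_of_pow_mem 2
    ((Ideal.add_mem_iff_left Q (Ideal.mul_mem_left _ _ h2)).mp (hI hq))
  rw [quadVars, ← Ideal.span_union, Ideal.span_le]
  rintro x (⟨j, rfl⟩ | ⟨j, rfl⟩)
  · exact hI (hn j)
  · fin_cases j
    exacts [h0, h1, h2]

theorem cuts_quadUnr_sup_quadSt {n p : Fin 3 → B} (hp : ∀ j, p j ∈ maximalIdeal B) :
    Cuts (quadVars n p) (quadUnr n ⊔ quadSt n p) 2 :=
  cuts_quadCross hp (fun j => Ideal.mem_sup_left (Ideal.subset_span ⟨j, rfl⟩))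
    (Ideal.mem_sup_right (qForm_p_mem_quadSt n p))

omit [IsLocalRing B] in
theorem natCast_sub_le_of_le_add {a b : ℕ} {x : WithBot ℕ∞} (h : (a : WithBot ℕ∞) ≤ x + b) :
    ((a - b : ℕ) : WithBot ℕ∞) ≤ x := by
  induction x using WithBot.recBotCoe with
  | bot =>
    rw [WithBot.bot_add, le_bot_iff] at h
    exact absurd h (WithBot.natCast_ne_bot a)
  | coe y =>
    induction y using ENat.recTopCoe with
    | top => exact WithBot.coe_le_coe.mpr le_top
    | coe m =>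
      change ((a - b : ℕ) : WithBot ℕ∞) ≤ ((m : ℕ) : WithBot ℕ∞)
      have h' : a ≤ m + b := by
        change ((a : ℕ) : WithBot ℕ∞) ≤ ((m : ℕ) : WithBot ℕ∞) + ((b : ℕ) : WithBot ℕ∞) at h
        exact_mod_cast h
      exact Nat.cast_le.mpr (by omega)

variable [IsNoetherianRing B]

theorem exists_prime_mem_ringKrullDim {Q₀ : Ideal B} {d : ℕ}
    (hd : (d : WithBot ℕ∞) ≤ ringKrullDim (B ⧸ Q₀)) {a : B} (ha : a ∈ maximalIdeal B) :
    ∃ P : Ideal B, P.IsPrime ∧ Q₀ ≤ P ∧ a ∈ P ∧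
      ((d - 1 : ℕ) : WithBot ℕ∞) ≤ ringKrullDim (B ⧸ P) := by
  classical
  have h := hd.trans
    (ringKrullDim_quotient_le_sup_span_add_card Q₀ {a} (by simpa using ha))
  obtain ⟨P, hP, hle, hdim⟩ := exists_isPrime_le_ringKrullDim_quotient
    (natCast_sub_le_of_le_add (b := 1) (by simpa using h))
  rw [sup_le_iff, Ideal.span_le] at hle
  exact ⟨P, hP, hle.1, hle.2 (by simp), hdim⟩

/-- What is known about a crossing prime. -/
structure QuadCrossing (n p : Fin 3 → B) (Q₀ : Ideal B) (R : ℕ) (P : Ideal B) : Prop where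
  isPrime : P.IsPrime
  le : Q₀ ≤ P
  n_mem : ∀ j, n j ∈ P
  qForm_mem : qForm p ∈ P
  exists_not_mem : ∃ j, p j ∉ P
  isolated : ∃ J : Ideal B, J ≤ P ∧ ∃ m k : ℕ, Cuts (quadVars n p) J m ∧ m + k ≤ 3 ∧
    ((3 + R : ℕ) : WithBot ℕ∞) ≤ ringKrullDim (B ⧸ P) + k

variable {n p : Fin 3 → B} {Q₀ : Ideal B} {R : ℕ}

omit [IsNoetherianRing B] in
/-- A prime with all `n` vanishing, `Q(p) = 0` and large dimension is a crossing. -/
theorem quadCrossing_of_cross (hp : ∀ j, p j ∈ maximalIdeal B)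
    (hR : ∀ P J : Ideal B, ∀ m, Q₀ ≤ P → J ≤ P → Cuts (quadVars n p) J m →
      ringKrullDim (B ⧸ P) ≤ (m + R : ℕ))
    {P : Ideal B} (hP : P.IsPrime) (hle : Q₀ ≤ P) (hnP : ∀ j, n j ∈ P) (hqP : qForm p ∈ P)
    (hdim : ((2 + R : ℕ) : WithBot ℕ∞) ≤ ringKrullDim (B ⧸ P)) : QuadCrossing n p Q₀ R P := by
  refine ⟨hP, hle, hnP, hqP, ?_, P, le_rfl, 2, 1, cuts_quadCross hp hnP hqP, by norm_num, ?_⟩
  · by_contra h
    push Not at h
    have h0 : Cuts (quadVars n p) P 0 :=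
      ⟨∅, by simp, by simp, le_trans (sup_le (Ideal.span_le.mpr (Set.range_subset_iff.mpr hnP))
        (Ideal.span_le.mpr (Set.range_subset_iff.mpr h))) (by simpa using Ideal.le_radical)⟩
    have := hdim.trans (hR P P 0 hle le_rfl h0)
    have : 2 + R ≤ 0 + R := by exact_mod_cast this
    omega
  · refine le_trans (le_of_eq ?_) (add_le_add hdim le_rfl)
    push_cast
    ring

/-- From the unramified branch to a crossing. -/
theorem exists_crossing_of_quadUnr (hp : ∀ j, p j ∈ maximalIdeal B)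
    (hR : ∀ P J : Ideal B, ∀ m, Q₀ ≤ P → J ≤ P → Cuts (quadVars n p) J m →
      ringKrullDim (B ⧸ P) ≤ (m + R : ℕ))
    (hQ : quadUnr n ≤ Q₀) (hdim : ((3 + R : ℕ) : WithBot ℕ∞) ≤ ringKrullDim (B ⧸ Q₀)) :
    ∃ P, QuadCrossing n p Q₀ R P := by
  have hq : qForm p ∈ maximalIdeal B :=
    add_mem (Ideal.pow_mem_of_mem _ (hp 0) 2 (by norm_num)) (Ideal.mul_mem_right _ _ (hp 1))
  obtain ⟨P, hP, hle, hmem, hd⟩ := exists_prime_mem_ringKrullDim hdim hq
  exact ⟨P, quadCrossing_of_cross hp hR hP hle (fun j => hle (hQ (Ideal.subset_span ⟨j, rfl⟩)))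
    hmem (by rwa [show 3 + R - 1 = 2 + R by omega] at hd)⟩

/-- From the Steinberg branch to a crossing. -/
theorem exists_crossing_of_quadSt (hn : ∀ j, n j ∈ maximalIdeal B)
    (hp : ∀ j, p j ∈ maximalIdeal B)
    (hR : ∀ P J : Ideal B, ∀ m, Q₀ ≤ P → J ≤ P → Cuts (quadVars n p) J m →
      ringKrullDim (B ⧸ P) ≤ (m + R : ℕ))
    (hQ : quadSt n p ≤ Q₀) (hdim : ((3 + R : ℕ) : WithBot ℕ∞) ≤ ringKrullDim (B ⧸ Q₀)) :
    ∃ P, QuadCrossing n p Q₀ R P := by
  obtain ⟨P₁, hP₁, hle₁, hn1, hd₁⟩ := exists_prime_mem_ringKrullDim hdim (hn 1)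
  rw [show 3 + R - 1 = 2 + R by omega] at hd₁
  have hq₁ : qForm p ∈ P₁ := hle₁ (hQ (qForm_p_mem_quadSt n p))
  have hn0 : n 0 ∈ P₁ := hP₁.mem_of_pow_mem 2
    ((Ideal.add_mem_iff_left P₁ (Ideal.mul_mem_right _ _ hn1)).mp
      (hle₁ (hQ (qForm_n_mem_quadSt n p))))
  by_cases hn2 : n 2 ∈ P₁
  · exact ⟨P₁, quadCrossing_of_cross hp hR hP₁ hle₁
      (fun j => by fin_cases j <;> assumption) hq₁ hd₁⟩
  have hp1 : p 1 ∈ P₁ := by
    refine (hP₁.mem_or_mem ?_).resolve_left hn2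
    have := add_mem (hle₁ (hQ (minor_mem_quadSt n p 2 1))) (Ideal.mul_mem_right (p 2) P₁ hn1)
    rwa [sub_add_cancel] at this
  have hp0 : p 0 ∈ P₁ := hP₁.mem_of_pow_mem 2
    ((Ideal.add_mem_iff_left P₁ (Ideal.mul_mem_right _ _ hp1)).mp hq₁)
  obtain ⟨P, hP, hle, hmem, hd⟩ := exists_prime_mem_ringKrullDim hd₁ (hn 2)
  rw [show 2 + R - 1 = 1 + R by omega] at hd
  have hnP : ∀ j, n j ∈ P := fun j => by
    fin_cases j
    exacts [hle hn0, hle hn1, hmem]
  refine ⟨P, hP, hle₁.trans hle, hnP, hle hq₁, ⟨2, fun h2 => ?_⟩,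
    P, le_rfl, 1, 2, cuts_line hp hnP (hle hp0) (hle hp1), by norm_num, ?_⟩
  · have h0 : Cuts (quadVars n p) P 0 :=
      ⟨∅, by simp, by simp, le_trans (sup_le (Ideal.span_le.mpr (Set.range_subset_iff.mpr hnP))
        (Ideal.span_le.mpr (Set.range_subset_iff.mpr fun j => by
          fin_cases j
          exacts [hle hp0, hle hp1, h2]))) (by simpa using Ideal.le_radical)⟩
    have := hd.trans (hR P P 0 (hle₁.trans hle) le_rfl h0)
    have : 1 + R ≤ 0 + R := by exact_mod_cast this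
    omega
  · refine le_trans (le_of_eq ?_) (add_le_add hd le_rfl)
    push_cast
    ring

end FermatLib.MLT
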