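import Fermat.Agent.MLT.SupportBranches
import Fermat.Agent.MLT.SupportQuadric

/-!
# Ihara avoidance as a flip between the two branches at a prime `q ≡ 1 (mod p)`

`Mb` is the special fibre of a patched module all of whose associated primes have dimension
`D.dim`, `Mb'` the special fibre of the patched module `M'` of the auxiliary type, with the same
support; on `M'` the matrices `N`, `P` commute and `Q(N) = u ϖ ^ e`. Then from any associated
prime of `Mb` we reach one with the other branch at `i` and the same branches elsewhere.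
-/

set_option autoImplicit false

namespace FermatLib.MLT

open IsLocalRing

/-- `n k * n j * Q(p) = p k * p j * Q(n)` modulo the minors. -/
theorem mul_mul_qForm_sub_mem {B : Type*} [CommRing B] {n p : Fin 3 → B} {I : Ideal B}
    (hmin : ∀ i j, n i * p j - n j * p i ∈ I) (k j : Fin 3) :
    n k * n j * qForm p - p k * p j * qForm n ∈ I := by
  have e : n k * n j * qForm p - p k * p j * qForm n =
      (n k * p 0) * (n j * p 0 - n 0 * p j) + (p j * n 0) * (n k * p 0 - n 0 * p k)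
        + (n k * p 1) * (n j * p 2 - n 2 * p j) + (n 2 * p j) * (n k * p 1 - n 1 * p k) := by
    simp only [qForm]
    ring
  rw [e]
  exact add_mem (add_mem (add_mem (Ideal.mul_mem_left _ _ (hmin j 0))
    (Ideal.mul_mem_left _ _ (hmin k 0))) (Ideal.mul_mem_left _ _ (hmin j 2)))
    (Ideal.mul_mem_left _ _ (hmin k 1))

variable {B : Type*} [CommRing B] [IsLocalRing B] [IsNoetherianRing B] {ι : Type*} [Fintype ι]
  (D : BranchSystem B ι Bool)
  {Mb M' Mb' : Type*} [AddCommGroup Mb] [Module B Mb] [Module.Finite B Mb]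
  [AddCommGroup M'] [Module B M'] [Module.Finite B M']
  [AddCommGroup Mb'] [Module B Mb'] [Module.Finite B Mb']

/-- **Ihara avoidance flip.** -/
theorem exists_assocPrime_flip
    (hdim : ∀ Q ∈ associatedPrimes B Mb, ringKrullDim (B ⧸ Q) = D.dim)
    (hbr : ∀ Q ∈ associatedPrimes B Mb, ∀ j, ∃ b, D.br j b ≤ Q)
    (hdim' : ∀ Q ∈ associatedPrimes B Mb', ringKrullDim (B ⧸ Q) = D.dim)
    (hsupp : ∀ Q : Ideal B, Q.IsPrime →
      (Module.annihilator B Mb ≤ Q ↔ Module.annihilator B Mb' ≤ Q))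
    (q' : M' →ₗ[B] Mb') (hq' : Function.Surjective q') {ϖ : B}
    (hker' : ∀ x, q' x = 0 ↔ ∃ y, x = ϖ • y) (hϖ : IsSMulRegular M' ϖ)
    (i : ι) (n p : Fin 3 → B) (hn : ∀ j, n j ∈ maximalIdeal B) (hp : ∀ j, p j ∈ maximalIdeal B)
    (hV : D.V i = quadVars n p) (hδ : D.δ i = 3)
    (hunr : D.br i true = quadUnr n) (hst : D.br i false = quadSt n p)
    {e : ℕ} {u : B} (hu : IsUnit u)
    (hmin : ∀ k j, n k * p j - n j * p k ∈ Module.annihilator B M')
    (hqn : qForm n - ϖ ^ e * u ∈ Module.annihilator B M')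
    {Q₀ : Ideal B} (hQ₀ : Q₀ ∈ associatedPrimes B Mb) {σ : ι → Bool}
    (hσ : ∀ j, D.br j (σ j) ≤ Q₀) :
    ∃ Q ∈ associatedPrimes B Mb, D.br i (!σ i) ≤ Q ∧ ∀ j, j ≠ i → D.br j (σ j) ≤ Q := by
  classical
  have := hQ₀.isPrime
  have hD : D.dim = 3 + D.dimOff i := by rw [D.dim_eq i, hδ]
  have hR : ∀ P J : Ideal B, ∀ m, Q₀ ≤ P → J ≤ P → Cuts (quadVars n p) J m →
      ringKrullDim (B ⧸ P) ≤ (m + D.dimOff i : ℕ) := fun P J m hle hJ hc =>
    D.ringKrullDim_le_at P i hJ (hV ▸ hc) fun j _ => (hσ j).trans hle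
  have hdim₀ : ((3 + D.dimOff i : ℕ) : WithBot ℕ∞) ≤ ringKrullDim (B ⧸ Q₀) := by
    rw [hdim Q₀ hQ₀, hD]
  obtain ⟨P, hP⟩ : ∃ P, QuadCrossing n p Q₀ (D.dimOff i) P := by
    cases hb : σ i
    · exact exists_crossing_of_quadSt hn hp hR (hst ▸ hb ▸ hσ i) hdim₀
    · exact exists_crossing_of_quadUnr hp hR (hunr ▸ hb ▸ hσ i) hdim₀
  have := hP.isPrime
  obtain ⟨J, hJP, m, k, hcut, hmk, hPdim⟩ := hP.isolated
  obtain ⟨j₀, hj₀⟩ := hP.exists_not_mem
  have hann : Module.annihilator B Mb' ≤ P := by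
    refine le_trans ?_ hP.le
    refine (hsupp Q₀ inferInstance).mp ?_
    have h := IsAssociatedPrime.annihilator_le hQ₀
    rwa [Submodule.annihilator_top] at h
  have hc : u * p j₀ ^ 2 ∉ P := fun h => (‹P.IsPrime›.mem_or_mem h).elim
    (fun h => ‹P.IsPrime›.ne_top (Ideal.eq_top_of_isUnit_mem _ h hu))
    (fun h => hj₀ (‹P.IsPrime›.mem_of_pow_mem 2 h))
  have key : ∀ a b : Fin 3, ∀ x : M', (n a * n b * qForm p) • x = ϖ ^ e • (u * (p a * p b)) • x := by
    intro a b x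
    have h1 := Module.mem_annihilator.mp (mul_mul_qForm_sub_mem hmin a b) x
    have h2 := Module.mem_annihilator.mp hqn x
    rw [sub_smul, sub_eq_zero] at h1 h2
    rw [h1, mul_smul, h2, ← mul_smul, ← mul_smul]
    congr 1
    ring
  -- a prime of `Mb'`, hence of `Mb`, below `P` with the wanted branch at `i`
  suffices h : ∃ Q ∈ associatedPrimes B Mb', Q ≤ P ∧
      ((∀ j, n j ∈ Q) ∧ σ i = false ∨ qForm p ∈ Q ∧ σ i = true) by
    obtain ⟨Q, hQ', hQP, hQi⟩ := h
    have := hQ'.isPrime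
    have hQ : Q ∈ associatedPrimes B Mb := assocPrime_mem_of_annihilator_le hdim hQ' (hdim' Q hQ')
      ((hsupp Q inferInstance).mpr (by
        have h := IsAssociatedPrime.annihilator_le hQ'
        rwa [Submodule.annihilator_top] at h))
    refine ⟨Q, hQ, ?_, D.pattern_of_le P i (k := k) hJP (hV ▸ hcut) (by omega)
      (by rwa [hD]) (fun j _ => (hσ j).trans hP.le) hQP (hbr Q hQ)⟩
    rcases hQi with ⟨hnQ, hb⟩ | ⟨hpQ, hb⟩
    · rw [hb, Bool.not_false, hunr]
      exact Ideal.span_le.mpr (Set.range_subset_iff.mpr hnQ)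
    · rw [hb, Bool.not_true]
      obtain ⟨b, hbQ⟩ := hbr Q hQ i
      cases b
      · exact hbQ
      exfalso
      rw [hunr] at hbQ
      have hcr : Cuts (D.V i) Q 2 :=
        hV ▸ cuts_quadCross hp (fun j => hbQ (Ideal.subset_span ⟨j, rfl⟩)) hpQ
      have hbd := D.ringKrullDim_le_at Q i le_rfl hcr (D.pattern_of_le P i (k := k) hJP (hV ▸ hcut)
        (by omega) (by rwa [hD]) (fun j _ => (hσ j).trans hP.le) hQP (hbr Q hQ))
      rw [hdim Q hQ, hD] at hbd
      have : 3 + D.dimOff i ≤ 2 + D.dimOff i := by exact_mod_cast hbd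
      omega
  cases hb : σ i
  · obtain ⟨Q, hQ, hQP, hnQ⟩ := exists_assocPrime_of_mul_mem q' hq' hker' hϖ hann n
      (n j₀ * qForm p) (u * p j₀ ^ 2) e j₀
      (fun a x => ⟨(u * (p a * p j₀)) • x, by rw [← key a j₀, ← mul_smul, mul_assoc]⟩)
      (fun x => by rw [← mul_smul, ← mul_assoc, key, pow_two (p j₀)])
      (hP.n_mem j₀) hc
    exact ⟨Q, hQ, hQP, Or.inl ⟨hnQ, rfl⟩⟩
  · obtain ⟨Q, hQ, hQP, hpQ⟩ := exists_assocPrime_of_mul_mem q' hq' hker' hϖ hann
      (fun _ : Unit => qForm p) (n j₀ * n j₀) (u * p j₀ ^ 2) e ()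
      (fun _ x => ⟨(u * p j₀ ^ 2) • x, by
        rw [← mul_smul, mul_comm, key, pow_two (p j₀)]⟩)
      (fun x => by rw [← mul_smul, mul_comm (qForm p), key, pow_two (p j₀)])
      hP.qForm_mem hc
    exact ⟨Q, hQ, hQP, Or.inr ⟨hpQ (), rfl⟩⟩

end FermatLib.MLT
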