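import Fermat.Agent.MLT.SupportPatched
import Fermat.Agent.MLT.SupportBranches

/-!
# Lifting branch patterns to characteristic zero, and iterated flips

`D` describes the branches of the special fibre, `br₁` those of the whole space. A pattern of an
associated prime of `P.Fibre ϖ` lifts to the same pattern of an associated prime of `P.Patched`.
If a prime of `R₀` contains the only such prime, it supports `M₀`.
-/

set_option autoImplicit false

namespace FermatLib.MLT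

open IsLocalRing

namespace BranchSystem

variable {B : Type*} [CommRing B] [IsLocalRing B] {ι : Type*} [Fintype ι]
  {β : Type*} (D : BranchSystem B ι β)

/-- Iterating flips at the indices of `T`. -/
theorem exists_pattern_of_flips [DecidableEq ι] (A : Set (Ideal B)) (σ₀ τ : ι → β) (T : Finset ι)
    (hflip : ∀ i ∈ T, σ₀ i ≠ τ i → ∀ Q ∈ A, ∀ σ : ι → β, (∀ j, D.br j (σ j) ≤ Q) → σ i = σ₀ i →
      ∃ Q' ∈ A, D.br i (τ i) ≤ Q' ∧ ∀ j, j ≠ i → D.br j (σ j) ≤ Q')
    (hout : ∀ j, j ∉ T → σ₀ j = τ j)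
    {Q₀ : Ideal B} (hQ₀ : Q₀ ∈ A) (hσ₀ : ∀ j, D.br j (σ₀ j) ≤ Q₀) :
    ∃ Q ∈ A, ∀ j, D.br j (τ j) ≤ Q := by
  suffices h : ∀ U : Finset ι, U ⊆ T →
      ∃ Q ∈ A, ∀ j, D.br j (if j ∈ U then τ j else σ₀ j) ≤ Q by
    obtain ⟨Q, hQ, hQσ⟩ := h T subset_rfl
    refine ⟨Q, hQ, fun j => ?_⟩
    have hj := hQσ j
    by_cases hjT : j ∈ T
    · rwa [if_pos hjT] at hj
    · rwa [if_neg hjT, hout j hjT] at hj
  intro U
  induction U using Finset.induction_on with
  | empty => exact fun _ => ⟨Q₀, hQ₀, by simpa using hσ₀⟩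
  | insert i U hiU ih =>
    intro hsub
    obtain ⟨hiT, hUT⟩ := Finset.insert_subset_iff.mp hsub
    obtain ⟨Q, hQ, hQσ⟩ := ih hUT
    by_cases heq : σ₀ i = τ i
    · refine ⟨Q, hQ, fun j => ?_⟩
      have hj := hQσ j
      by_cases hji : j = i
      · subst hji
        rw [if_neg hiU, heq] at hj
        rwa [if_pos (Finset.mem_insert_self _ _)]
      · simpa [Finset.mem_insert, hji] using hj
    · obtain ⟨Q', hQ', hi, hoff⟩ := hflip i hiT heq Q hQ _ hQσ (if_neg hiU)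
      refine ⟨Q', hQ', fun j => ?_⟩
      by_cases hji : j = i
      · subst hji
        rwa [if_pos (Finset.mem_insert_self _ _)]
      · simpa [Finset.mem_insert, hji] using hoff j hji

end BranchSystem

namespace PatchSystem

variable {S B R₀ M₀ : Type} [CommRing S] [IsLocalRing S] [CommRing B] [IsLocalRing B]
  [CommRing R₀] [AddCommGroup M₀] [Module R₀ M₀] {𝔞 : Ideal S} {d : ℕ}
  [IsNoetherianRing S] [IsAdicComplete (maximalIdeal S) S] [Finite (ResidueField S)]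
  [IsNoetherianRing B] [IsAdicComplete (maximalIdeal B) B] [Finite (ResidueField B)]
  (P : PatchSystem S B R₀ M₀ 𝔞 d)
  {ι : Type*} [Fintype ι] {β : Type*} (D : BranchSystem B ι β)

variable (ϖ : S)

/-- The associated primes of the fibre contain the annihilator and `ϖ`. -/
theorem annih_le_of_mem_associatedPrimes_fibre {Q : Ideal B}
    (hQ : Q ∈ associatedPrimes B (P.Fibre ϖ)) : P.annih ≤ Q ∧ P.phi ϖ ∈ Q := by
  have := hQ.isPrime
  refine (P.annihilator_fibre_le_iff ϖ).mp ?_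
  have h := IsAssociatedPrime.annihilator_le hQ
  rwa [Submodule.annihilator_top] at h

/-- The special fibre is non-zero. -/
theorem exists_mem_associatedPrimes_fibre (hd : 0 < d) (hϖ : P.phi ϖ ∈ maximalIdeal B) :
    ∃ Q, Q ∈ associatedPrimes B (P.Fibre ϖ) := by
  obtain ⟨Q, hQ, -⟩ := exists_assocPrime_le (Mb := P.Fibre ϖ) (P := maximalIdeal B)
    ((P.annihilator_fibre_le_iff ϖ).mpr ⟨le_maximalIdeal (P.annih_ne_top hd), hϖ⟩)
  exact ⟨Q, hQ⟩

variable [IsDomain S] {br₁ : ι → β → Ideal B}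

/-- An associated prime of the fibre lies over one of the patched module, not containing `ϖ`. -/
theorem exists_assocPrime_patched_le (hϖ : ϖ ≠ 0) {Q : Ideal B}
    (hQ : Q ∈ associatedPrimes B (P.Fibre ϖ)) :
    ∃ Q₁ ∈ associatedPrimes B P.Patched, Q₁ ≤ Q ∧ P.phi ϖ ∉ Q₁ :=
  exists_minimalPrime_le_assocPrime (P.fibreMk ϖ) (P.fibreMk_surjective ϖ)
    (P.isSMulRegular_phi hϖ) hQ

/-- **Lifting a pattern.** A pattern of the special fibre is the pattern of a component of the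
patched support. -/
theorem exists_assocPrime_lift (hϖ : ϖ ≠ 0)
    (hbr₁ : ∀ Q₁ : Ideal B, Q₁.IsPrime → P.annih ≤ Q₁ → P.phi ϖ ∉ Q₁ → ∀ j, ∃ b, br₁ j b ≤ Q₁)
    (hred : ∀ j b, D.br j b ≤ (br₁ j b ⊔ Ideal.span {P.phi ϖ}).radical)
    (hcongr : ∀ j b b', D.br j b = D.br j b' → br₁ j b = br₁ j b')
    [IsDomain (S ⧸ Ideal.span {ϖ})] (hdimS : ringKrullDim (S ⧸ Ideal.span {ϖ}) = D.dim)
    {Q : Ideal B} (hQ : Q ∈ associatedPrimes B (P.Fibre ϖ)) {σ : ι → β}
    (hσ : ∀ j, D.br j (σ j) ≤ Q) :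
    ∃ Q₁ ∈ associatedPrimes B P.Patched, Q₁ ≤ Q ∧ P.phi ϖ ∉ Q₁ ∧
      ringKrullDim (B ⧸ Q₁) = ringKrullDim S ∧ ∀ j, br₁ j (σ j) ≤ Q₁ := by
  have := hQ.isPrime
  obtain ⟨Q₁, hQ₁, hle, hnot⟩ := P.exists_assocPrime_patched_le ϖ hϖ hQ
  refine ⟨Q₁, hQ₁, hle, hnot, P.ringKrullDim_of_mem_associatedPrimes hQ₁, fun j => ?_⟩
  have hann : P.annih ≤ Q₁ := by
    have h := IsAssociatedPrime.annihilator_le hQ₁
    rwa [Submodule.annihilator_top, P.annihilator_patched] at h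
  obtain ⟨b, hb⟩ := hbr₁ Q₁ hQ₁.isPrime hann hnot j
  have hbQ : D.br j b ≤ Q :=
    (hred j b).trans ((Ideal.IsPrime.radical_le_iff ‹_›).mpr (sup_le (hb.trans hle)
      ((Ideal.span_singleton_le_iff_mem _).mpr (P.annih_le_of_mem_associatedPrimes_fibre ϖ hQ).2)))
  rwa [← hcongr j b (σ j) (D.branch_unique hσ
    ((P.ringKrullDim_of_mem_associatedPrimes_fibre ϖ hQ).trans hdimS) hbQ)]

end PatchSystem

end FermatLib.MLT
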