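import Fermat.Agent.MLT.BettiResidual

/-!
# Change of coefficient ring for localised Betti cohomology

For a surjection `A → B` the localised module over `B` is the quotient of the one over `A` by
the kernel.  For the augmentation of a group ring this is the statement on coinvariants.
-/

set_option autoImplicit false

noncomputable section

open scoped MatrixGroups
open CongruenceSubgroup

namespace FermatLib.MLT

section localized

variable {A R R' : Type} [CommRing A] [CommRing R] [CommRing R'] [Algebra A R] [Algebra A R']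
  {S : Submonoid R} {S' : Submonoid R'}
  {M M' : Type} [AddCommGroup M] [AddCommGroup M'] [Module R M] [Module R' M'] [Module A M]
  [Module A M'] [IsScalarTower A R M] [IsScalarTower A R' M']

/-- A map semilinear on the multiplicative sets descends to localisations. -/
def localizedSemilinearMap (σ : S →* S') (g : M →ₗ[A] M')
    (hg : ∀ (s : S) (m : M), g (s • m) = σ s • g m) :
    LocalizedModule S M →ₗ[A] LocalizedModule S' M' where
  toFun x := x.liftOn (fun p => LocalizedModule.mk (g p.1) (σ p.2))
    fun ⟨m, s⟩ ⟨m', s'⟩ ⟨u, hu⟩ => LocalizedModule.mk_eq.2 ⟨σ u, by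
      rw [← hg, ← hg, ← hg, ← hg]
      exact congrArg g hu⟩
  map_add' x y := by
    induction x, y using LocalizedModule.induction_on₂ with
    | h m m' s s' =>
      simp only [LocalizedModule.mk_add_mk, LocalizedModule.liftOn_mk, map_add, hg, map_mul]
  map_smul' a x := by
    induction x using LocalizedModule.induction_on with
    | h m s =>
      simp only [LocalizedModule.smul'_mk, LocalizedModule.liftOn_mk, map_smul, RingHom.id_apply]

theorem localizedSemilinearMap_mk (σ : S →* S') (g : M →ₗ[A] M')
    (hg : ∀ (s : S) (m : M), g (s • m) = σ s • g m) (m : M) (s : S) :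
    localizedSemilinearMap σ g hg (LocalizedModule.mk m s) = LocalizedModule.mk (g m) (σ s) :=
  rfl

theorem localizedSemilinearMap_bijective (σ : S →* S') (g : M →ₗ[A] M')
    (hg : ∀ (s : S) (m : M), g (s • m) = σ s • g m) (hσ : Function.Surjective σ)
    (hb : Function.Bijective g) : Function.Bijective (localizedSemilinearMap σ g hg) := by
  refine ⟨(injective_iff_map_eq_zero _).2 fun x hx => ?_, fun y => ?_⟩
  · induction x using LocalizedModule.induction_on with
    | h m s =>
      rw [localizedSemilinearMap_mk, ← LocalizedModule.zero_mk (σ s), LocalizedModule.mk_eq] at hx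
      obtain ⟨u', hu⟩ := hx
      obtain ⟨u, rfl⟩ := hσ u'
      rw [smul_zero, smul_zero, ← hg, ← hg, ← map_zero g] at hu
      rw [← LocalizedModule.zero_mk s, LocalizedModule.mk_eq]
      exact ⟨u, by rw [smul_zero, smul_zero]; exact hb.1 hu⟩
  · induction y using LocalizedModule.induction_on with
    | h m' s' =>
      obtain ⟨m, rfl⟩ := hb.2 m'
      obtain ⟨s, rfl⟩ := hσ s'
      exact ⟨LocalizedModule.mk m s, localizedSemilinearMap_mk σ g hg m s⟩

end localized

variable {A B : Type} [CommRing A] [CommRing B] [Algebra A B] {L : ℕ}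

/-- Cohomology over `B` as a module over `A`. -/
instance (priority := 100) bettiModModuleLower (χ : (ZMod L)ˣ →* Bˣ) (V : Type) [AddCommGroup V] [Module B V]
    [Module A V] [IsScalarTower A B V] : Module A (BettiMod L χ V) :=
  inferInstanceAs (Module A (bettiH1 (Gamma0 L) (nebenChar χ) V))

instance bettiMod_scalarTower_lower (χ : (ZMod L)ˣ →* Bˣ) (V : Type) [AddCommGroup V] [Module B V]
    [Module A V] [IsScalarTower A B V] : IsScalarTower A B (BettiMod L χ V) :=
  inferInstanceAs (IsScalarTower A B (bettiH1 (Gamma0 L) (nebenChar χ) V))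

instance bettiMod_scalarTower_hecke (χ : (ZMod L)ˣ →* Bˣ) (V : Type) [AddCommGroup V] [Module B V]
    [Module A V] [IsScalarTower A B V] : IsScalarTower A (BettiHeckeAlg B) (BettiMod L χ V) :=
  IsScalarTower.of_algebraMap_smul fun a x => by
    rw [IsScalarTower.algebraMap_apply A B (BettiHeckeAlg B) a, algebraMap_smul, algebraMap_smul]

/-- The character with values in `B`. -/
def bettiBaseChar (B : Type) [CommRing B] [Algebra A B] (χ : (ZMod L)ˣ →* Aˣ) :
    (ZMod L)ˣ →* Bˣ :=
  (Units.map (algebraMap A B : A →* B)).comp χ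

theorem coe_bettiBaseChar (χ : (ZMod L)ˣ →* Aˣ) (d : (ZMod L)ˣ) :
    (bettiBaseChar B χ d : B) = algebraMap A B (χ d) := rfl

theorem bettiBaseChar_neg_one {χ : (ZMod L)ˣ →* Aˣ} (hχ : χ (-1) = 1) :
    bettiBaseChar B χ (-1) = 1 := by
  rw [bettiBaseChar, MonoidHom.comp_apply, hχ, map_one]

theorem nebenChar_baseChar (χ : (ZMod L)ˣ →* Aˣ) (γ : Gamma0 L) :
    (nebenChar (bettiBaseChar B χ) γ : B) = algebraMap A B (nebenChar χ γ) := rfl

theorem heckeWeight_baseChar (χ : (ZMod L)ˣ →* Aˣ) (p : Nat.Primes) (x : Modular.HeckeIdx L p) :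
    heckeWeight (bettiBaseChar B χ) p x = algebraMap A B (heckeWeight χ p x) := rfl

theorem heckeDegree_baseChar (χ : (ZMod L)ˣ →* Aˣ) (p : Nat.Primes) :
    heckeDegree (bettiBaseChar B χ) p = algebraMap A B (heckeDegree χ p) := by
  simp only [heckeDegree, heckeWeight_baseChar, map_sum]

section change

variable (χ : (ZMod L)ˣ →* Aˣ) (V : Type) [AddCommGroup V] [Module A V] [Module B V]
  [IsScalarTower A B V]

theorem mem_bettiCocycles_baseChar {c : Gamma0 L → V} :
    c ∈ bettiCocycles (Gamma0 L) (nebenChar (bettiBaseChar B χ)) V ↔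
      c ∈ bettiCocycles (Gamma0 L) (nebenChar χ) V := by
  simp only [mem_bettiCocycles, nebenChar, bettiBaseChar, MonoidHom.comp_apply, Units.coe_map,
    MonoidHom.coe_coe, algebraMap_smul]

/-- Cocycles over `A` and over `B` coincide. -/
def bettiCocyclesBaseEquiv : bettiCocycles (Gamma0 L) (nebenChar χ) V ≃ₗ[A]
    bettiCocycles (Gamma0 L) (nebenChar (bettiBaseChar B χ)) V where
  toFun c := ⟨c, (mem_bettiCocycles_baseChar χ V).2 c.2⟩
  invFun c := ⟨c, (mem_bettiCocycles_baseChar χ V).1 c.2⟩
  map_add' _ _ := rfl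
  map_smul' _ _ := rfl
  left_inv _ := rfl
  right_inv _ := rfl

theorem bettiCocyclesBaseEquiv_map_boundaries :
    (bettiBoundaries (Gamma0 L) (nebenChar χ) V).map
        (bettiCocyclesBaseEquiv (B := B) χ V : _ →ₗ[A] _) =
      (bettiBoundaries (Gamma0 L) (nebenChar (bettiBaseChar B χ)) V).restrictScalars A := by
  ext c
  simp only [Submodule.mem_map, Submodule.restrictScalars_mem, mem_bettiBoundaries]
  constructor
  · rintro ⟨d, ⟨v, hv⟩, rfl⟩
    exact ⟨v, fun γ => by
      rw [nebenChar_baseChar, algebraMap_smul]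
      exact hv γ⟩
  · rintro ⟨v, hv⟩
    refine ⟨(bettiCocyclesBaseEquiv χ V).symm c, ⟨v, fun γ => ?_⟩, by simp⟩
    have := hv γ
    rwa [nebenChar_baseChar, algebraMap_smul] at this

/-- Cohomology over `A` and over `B` coincide. -/
def bettiBaseEquiv : BettiMod L χ V ≃ₗ[A] BettiMod L (bettiBaseChar B χ) V :=
  (Submodule.Quotient.equiv _ _ (bettiCocyclesBaseEquiv (B := B) χ V)
    (bettiCocyclesBaseEquiv_map_boundaries χ V)).trans
    (Submodule.Quotient.restrictScalarsEquiv A _)

theorem bettiBaseEquiv_mk (c : bettiCocycles (Gamma0 L) (nebenChar χ) V) :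
    bettiBaseEquiv (B := B) χ V (BettiMod.mk c) = BettiMod.mk (bettiCocyclesBaseEquiv χ V c) := rfl

theorem bettiBaseEquiv_smul (P : BettiHeckeAlg A) (x : BettiMod L χ V) :
    bettiBaseEquiv (B := B) χ V (P • x) =
      MvPolynomial.map (algebraMap A B) P • bettiBaseEquiv (B := B) χ V x := by
  induction P using MvPolynomial.induction_on generalizing x with
  | C a =>
    rw [MvPolynomial.map_C, ← MvPolynomial.algebraMap_eq, algebraMap_smul, map_smul,
      ← MvPolynomial.algebraMap_eq, algebraMap_smul, algebraMap_smul]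
  | add P Q hP hQ => rw [add_smul, map_add, map_add, add_smul, hP, hQ]
  | mul_X P p hP =>
    rw [mul_smul, map_mul, MvPolynomial.map_X, mul_smul, hP, BettiMod.X_smul, BettiMod.X_smul]
    congr 1
    obtain ⟨c, rfl⟩ := BettiMod.mk_surjective x
    rw [bettiBaseEquiv_mk]
    show bettiBaseEquiv χ V (BettiMod.mk ((bettiHeckeSystem L p).transferCocycles V
        (isWeight_heckeWeight χ p) c)) = _
    rw [bettiBaseEquiv_mk]
    refine congrArg BettiMod.mk (Subtype.ext (funext fun γ => ?_))
    show ((bettiHeckeSystem L p).transferCocycles V (isWeight_heckeWeight χ p) c : Gamma0 L → V) γ =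
      ((bettiHeckeSystem L p).transferCocycles V (isWeight_heckeWeight (bettiBaseChar B χ) p)
        (bettiCocyclesBaseEquiv χ V c) : Gamma0 L → V) γ
    simp only [CosetSystem.transferCocycles_apply, heckeWeight_baseChar, algebraMap_smul]
    rfl

end change

/-- Reduction of the multiplicative set. -/
def bettiBaseSubmonoidHom (S : Submonoid (BettiHeckeAlg A)) :
    S →* (S.map (MvPolynomial.map (algebraMap A B)) : Submonoid (BettiHeckeAlg B)) :=
  ((MvPolynomial.map (algebraMap A B) : BettiHeckeAlg A →+* BettiHeckeAlg B) :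
    BettiHeckeAlg A →* BettiHeckeAlg B).submonoidMap S

theorem bettiBaseSubmonoidHom_surjective (S : Submonoid (BettiHeckeAlg A)) :
    Function.Surjective (bettiBaseSubmonoidHom (B := B) S) :=
  MonoidHom.submonoidMap_surjective _ S

variable (χ : (ZMod L)ˣ →* Aˣ) (S : Submonoid (BettiHeckeAlg A))

variable (B) in
/-- Reduction of localised cohomology to the coefficient ring `B`. -/
def bettiLocReduce : BettiLoc L χ A S →ₗ[A]
    BettiLoc L (bettiBaseChar B χ) B (S.map (MvPolynomial.map (algebraMap A B))) :=
  localizedSemilinearMap (bettiBaseSubmonoidHom S)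
    ((bettiBaseEquiv (B := B) χ B).toLinearMap.comp
      ((BettiMod.map (Algebra.linearMap A B)).restrictScalars A))
    fun s m => by
      simp only [Submonoid.smul_def, LinearMap.comp_apply, LinearMap.coe_restrictScalars,
        LinearEquiv.coe_coe, map_smul, bettiBaseEquiv_smul]
      rfl

theorem bettiLocReduce_mk (x : BettiMod L χ A) (s : S) :
    bettiLocReduce B χ S (LocalizedModule.mk x s) = LocalizedModule.mk
      (bettiBaseEquiv χ B (BettiMod.map (Algebra.linearMap A B) x)) (bettiBaseSubmonoidHom S s) :=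
  localizedSemilinearMap_mk _ _ _ x s

theorem bettiLocReduce_smul (P : BettiHeckeAlg A) (x : BettiLoc L χ A S) :
    bettiLocReduce B χ S (P • x) =
      MvPolynomial.map (algebraMap A B) P • bettiLocReduce B χ S x := by
  induction x using LocalizedModule.induction_on with
  | h m s =>
    rw [LocalizedModule.smul'_mk, bettiLocReduce_mk, bettiLocReduce_mk, LocalizedModule.smul'_mk,
      map_smul, bettiBaseEquiv_smul]

theorem bettiBaseEquiv_smul_submonoid (V : Type) [AddCommGroup V] [Module A V] [Module B V]
    [IsScalarTower A B V] (s : S) (x : BettiMod L χ V) :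
    (bettiBaseEquiv (B := B) χ V).toLinearMap (s • x) =
      bettiBaseSubmonoidHom (B := B) S s • (bettiBaseEquiv (B := B) χ V).toLinearMap x :=
  bettiBaseEquiv_smul χ V (s : BettiHeckeAlg A) x

variable (B) in
/-- Localised cohomology with coefficients in `V` over `A` and over `B`. -/
def bettiLocBaseMap (V : Type) [AddCommGroup V] [Module A V] [Module B V] [IsScalarTower A B V] :
    BettiLoc L χ V S →ₗ[A]
      BettiLoc L (bettiBaseChar B χ) V (S.map (MvPolynomial.map (algebraMap A B))) :=
  localizedSemilinearMap (bettiBaseSubmonoidHom S) (bettiBaseEquiv (B := B) χ V).toLinearMap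
    (bettiBaseEquiv_smul_submonoid χ S V)

theorem bettiLocBaseMap_bijective (V : Type) [AddCommGroup V] [Module A V] [Module B V]
    [IsScalarTower A B V] : Function.Bijective (bettiLocBaseMap B χ S V) :=
  localizedSemilinearMap_bijective _ _ _ (bettiBaseSubmonoidHom_surjective S)
    (bettiBaseEquiv (B := B) χ V).bijective

theorem bettiLocReduce_eq (x : BettiLoc L χ A S) :
    bettiLocReduce B χ S x = bettiLocBaseMap B χ S B
      (BettiLoc.map S (Algebra.linearMap A B) x) := by
  induction x using LocalizedModule.induction_on with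
  | h m s =>
    rw [BettiLoc.map_mk, bettiLocReduce_mk, bettiLocBaseMap]
    exact (localizedSemilinearMap_mk _ _ _ _ _).symm

variable {χ S}

theorem bettiLocReduce_surjective (hφ : Function.Surjective (algebraMap A B))
    (hR : BettiRightExact L χ S) : Function.Surjective (bettiLocReduce B χ S) := by
  intro y
  obtain ⟨z, rfl⟩ := (bettiLocBaseMap_bijective χ S B).2 y
  obtain ⟨x, rfl⟩ := BettiLoc.map_surjective hR (f := Algebra.linearMap A B) hφ z
  exact ⟨x, bettiLocReduce_eq χ S x⟩

/-- The kernel of reduction is generated by the kernel of `A → B`. -/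
theorem ker_bettiLocReduce [IsNoetherianRing A] (hφ : Function.Surjective (algebraMap A B))
    (hχ : χ (-1) = 1) (hR : BettiRightExact L χ S) :
    LinearMap.ker (bettiLocReduce B χ S) =
      RingHom.ker (algebraMap A B) • (⊤ : Submodule A (BettiLoc L χ A S)) := by
  set I : Ideal A := RingHom.ker (algebraMap A B)
  refine le_antisymm (fun x hx => ?_) (Submodule.smul_le.2 fun a ha x _ => ?_)
  · rw [LinearMap.mem_ker, bettiLocReduce_eq, ← map_zero (bettiLocBaseMap B χ S B)] at hx
    have hx' := (bettiLocBaseMap_bijective χ S B).1 hx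
    have hex : Function.Exact I.subtype (Algebra.linearMap A B) := fun a =>
      ⟨fun ha => ⟨⟨a, ha⟩, rfl⟩, by rintro ⟨b, rfl⟩; exact b.2⟩
    obtain ⟨z, rfl⟩ := (BettiLoc.map_exact hχ hex I.injective_subtype hφ x).1 hx'
    obtain ⟨w, rfl⟩ := bettiTensorMap_surjective hR z
    rw [← bettiTensorMap_lTensor]
    clear hx hx'
    induction w using TensorProduct.induction_on with
    | zero => simp
    | tmul y i =>
      rw [LinearMap.lTensor_tmul, bettiTensorMap_tmul,
        show LinearMap.toSpanSingleton A A (I.subtype i) = (i : A) • LinearMap.id from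
          LinearMap.ext fun a => by simp [mul_comm],
        ← BettiLoc.mapLin_apply, map_smul, LinearMap.smul_apply, BettiLoc.mapLin_apply,
        BettiLoc.map_id]
      exact Submodule.smul_mem_smul i.2 Submodule.mem_top
    | add y z hy hz =>
      simp only [map_add]
      exact add_mem hy hz
  · rw [LinearMap.mem_ker, map_smul, ← algebraMap_smul B a, RingHom.mem_ker.1 ha, zero_smul]

/-- Reduction maps the residual multiplicative set onto the residual multiplicative set. -/
theorem bettiResidualSubmonoid_map {k : Type} [Field k]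
    (hφ : Function.Surjective (algebraMap A B)) (Pr : Set Nat.Primes)
    (θ : BettiHeckeAlg B →+* k) :
    (bettiResidualSubmonoid Pr (θ.comp (MvPolynomial.map (algebraMap A B)))).map
      (MvPolynomial.map (algebraMap A B)) = bettiResidualSubmonoid Pr θ := by
  ext P
  simp only [Submonoid.mem_map, mem_bettiResidualSubmonoid, RingHom.comp_apply]
  constructor
  · rintro ⟨Q, ⟨hQ, hθ⟩, rfl⟩
    refine ⟨?_, hθ⟩
    clear hθ
    induction hQ using Algebra.adjoin_induction with
    | mem x hx =>
      obtain ⟨l, hl, rfl⟩ := hx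
      rw [MvPolynomial.map_X]
      exact X_mem_supported_set hl
    | algebraMap a =>
      rw [MvPolynomial.algebraMap_eq, MvPolynomial.map_C]
      exact C_mem_supported_set Pr _
    | add x y _ _ hx hy => rw [map_add]; exact add_mem hx hy
    | mul x y _ _ hx hy => rw [map_mul]; exact mul_mem hx hy
  · rintro ⟨hP, hθ⟩
    suffices h : ∃ Q ∈ MvPolynomial.supported A Pr, MvPolynomial.map (algebraMap A B) Q = P by
      obtain ⟨Q, hQ, rfl⟩ := h
      exact ⟨Q, ⟨hQ, hθ⟩, rfl⟩
    clear hθ
    induction hP using Algebra.adjoin_induction with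
    | mem x hx =>
      obtain ⟨l, hl, rfl⟩ := hx
      exact ⟨_, X_mem_supported_set hl, MvPolynomial.map_X _ _⟩
    | algebraMap b =>
      obtain ⟨a, rfl⟩ := hφ b
      exact ⟨_, C_mem_supported_set Pr a, MvPolynomial.map_C _ _⟩
    | add x y _ _ hx hy =>
      obtain ⟨Q, hQ, rfl⟩ := hx
      obtain ⟨Q', hQ', rfl⟩ := hy
      exact ⟨Q + Q', add_mem hQ hQ', map_add _ _ _⟩
    | mul x y _ _ hx hy =>
      obtain ⟨Q, hQ, rfl⟩ := hx
      obtain ⟨Q', hQ', rfl⟩ := hy
      exact ⟨Q * Q', mul_mem hQ hQ', map_mul _ _ _⟩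

end FermatLib.MLT

end
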