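import Fermat.Agent.MLT.BettiLift
import Fermat.Agent.Modular.HeckeReps
import Mathlib.Algebra.BigOperators.Group.Finset.Basic
import Mathlib.Algebra.Module.BigOperators

/-!
Hecke operators at primes inert in `ℚ(√-3)`, resp. `ℚ(i)`: their values at elliptic elements
lift along surjections of coefficient modules, with vanishing norm.
-/

set_option autoImplicit false

noncomputable section

open scoped MatrixGroups
open CongruenceSubgroup FermatLib.Modular Matrix

namespace FermatLib.MLT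

variable {L : ℕ}

/-- A fixed coset gives an element of `Γ₀(ℓ)` with the same trace. -/
theorem exists_gamma0_of_heckeSystem_next_eq (l : Nat.Primes) (γ : Gamma0 L)
    (x : HeckeIdx L l) (hx : (heckeSystem L l).next γ x = x) :
    ∃ h : Gamma0 (l : ℕ), ((h : SL(2, ℤ)) : Matrix (Fin 2) (Fin 2) ℤ).trace =
      ((γ : SL(2, ℤ)) : Matrix (Fin 2) (Fin 2) ℤ).trace := by
  have e := (heckeSystem L l).rep_mul γ x
  rw [hx] at e
  generalize (heckeSystem L l).elt γ x = h at e
  have hl : ((l : ℕ) : ℤ) ≠ 0 := by exact_mod_cast l.2.ne_zero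
  simp only [heckeSystem_rep] at e
  have e00 := congrFun (congrFun e 0) 0
  have e01 := congrFun (congrFun e 0) 1
  have e10 := congrFun (congrFun e 1) 0
  have e11 := congrFun (congrFun e 1) 1
  simp only [Matrix.mul_apply, Fin.sum_univ_two] at e00 e01 e10 e11
  obtain ⟨_ | j, hmem⟩ := x
  · simp [heckeRepInt] at e00 e01 e10 e11
    refine ⟨⟨(γ : SL(2, ℤ)), mem_Gamma0_iff_dvd.2 ⟨(h : SL(2, ℤ)) 1 0, ?_⟩⟩, rfl⟩
    linarith
  · simp [heckeRepInt] at e00 e01 e10 e11
    refine ⟨⟨(h : SL(2, ℤ)), mem_Gamma0_iff_dvd.2 ⟨(γ : SL(2, ℤ)) 1 0, by linarith⟩⟩, ?_⟩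
    simp only [Matrix.trace_fin_two]
    refine mul_left_cancel₀ hl ?_
    linear_combination -e11 - ((l : ℕ) : ℤ) * e00 + (j : ℤ) * e10

theorem heckeSystem_next_ne_of_trace_zero (l : Nat.Primes) (hl : (l : ℕ) % 4 = 3) (γ : Gamma0 L)
    (ht : ((γ : SL(2, ℤ)) : Matrix (Fin 2) (Fin 2) ℤ).trace = 0) (x : HeckeIdx L l) :
    (heckeSystem L l).next γ x ≠ x := by
  intro hx
  obtain ⟨h, hh⟩ := exists_gamma0_of_heckeSystem_next_eq l γ x hx
  exact not_trace_eq_zero_of_dvd (Or.inr ⟨l, l.2, dvd_rfl, hl⟩) h (hh.trans ht)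

theorem heckeSystem_next_ne_of_trace_one (l : Nat.Primes) (hl : (l : ℕ) % 3 = 2) (γ : Gamma0 L)
    (ht : ((γ : SL(2, ℤ)) : Matrix (Fin 2) (Fin 2) ℤ).trace = 1 ∨
      ((γ : SL(2, ℤ)) : Matrix (Fin 2) (Fin 2) ℤ).trace = -1) (x : HeckeIdx L l) :
    (heckeSystem L l).next γ x ≠ x := by
  intro hx
  obtain ⟨h, hh⟩ := exists_gamma0_of_heckeSystem_next_eq l γ x hx
  exact not_trace_eq_one_of_dvd (Or.inr ⟨l, l.2, dvd_rfl, hl⟩) h (by rwa [hh])

theorem heckeSystem_next_elt_of_neg_one (l : Nat.Primes) (ε : Gamma0 L)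
    (he : (ε : SL(2, ℤ)) = -1) (x : HeckeIdx L l) :
    (heckeSystem L l).next ε x = x ∧ (heckeSystem L l).elt ε x = ε := by
  refine (heckeSystem L l).next_elt_eq_of_eq ?_
  simp [he]

variable {A V W : Type} [CommRing A] [AddCommGroup V] [Module A V] [AddCommGroup W] [Module A W]
  {χ : Gamma0 L →* Aˣ}

/-- The value of a Hecke operator at an element of trace `±1`, for `ℓ ≡ 2 mod 3`, lifts to an
element of norm zero. -/
theorem exists_lift_hecke_trace_one (hχ : ∀ γ : Gamma0 L, (γ : SL(2, ℤ)) = -1 → χ γ = 1)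
    (l : Nat.Primes) (hl : (l : ℕ) % 3 = 2) (w : HeckeIdx L l → A) (f : V →ₗ[A] W)
    (hf : Function.Surjective f) (c : bettiCocycles (Gamma0 L) χ W) (γ : Gamma0 L)
    (hw : ∀ x, w x * (χ ((heckeSystem L l).elt γ x) : A) =
      (χ γ : A) * w ((heckeSystem L l).next γ x))
    (ht : ((γ : SL(2, ℤ)) : Matrix (Fin 2) (Fin 2) ℤ).trace = 1 ∨
      ((γ : SL(2, ℤ)) : Matrix (Fin 2) (Fin 2) ℤ).trace = -1) :
    ∃ v, f v = ∑ x, w x • (c : Gamma0 L → W) ((heckeSystem L l).elt γ x) ∧
      v + (χ γ : A) • v + (χ γ : A) ^ 2 • v = 0 := by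
  obtain ⟨hg3, -⟩ := bettiCocycles_cube_of_trace c hχ ht
  set D := heckeSystem L l
  set g := (χ γ : A)
  have hnext : ∀ x, D.next γ (D.next γ (D.next γ x)) = x ∧
      (c : Gamma0 L → W) (D.elt γ x * (D.elt γ (D.next γ x) *
        D.elt γ (D.next γ (D.next γ x)))) = 0 := by
    intro x
    have e1 := D.next_elt_mul γ (γ * γ) x
    have e2 := D.next_elt_mul γ γ (D.next γ x)
    rw [e2.1, e2.2] at e1
    have e : ((γ * (γ * γ) : Gamma0 L) : SL(2, ℤ)) = -1 ∨ γ * (γ * γ) = 1 := by
      rcases ht with h | h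
      · left
        rw [Subgroup.coe_mul, Subgroup.coe_mul, ← pow_three,
          cube_eq_of_trace_eq_one (Or.inl rfl) h, if_pos rfl]
      · right
        apply Subtype.ext
        rw [Subgroup.coe_mul, Subgroup.coe_mul, ← pow_three,
          cube_eq_of_trace_eq_one (Or.inr rfl) h, if_neg (by norm_num), Subgroup.coe_one]
    rcases e with e | e
    · obtain ⟨h1, h2⟩ := heckeSystem_next_elt_of_neg_one l _ e x
      exact ⟨e1.1.symm.trans h1,
        by rw [← e1.2, h2]; exact bettiCocycles.map_neg_one c e⟩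
    · rw [e] at e1
      exact ⟨e1.1.symm.trans (D.next_one x),
        by rw [← e1.2, D.elt_one]; exact bettiCocycles.map_one c⟩
  let C : HeckeIdx L l → W := fun x => w x • (c : Gamma0 L → W) (D.elt γ x)
  have hrel : ∀ x, C x + g • C (D.next γ x) + g ^ 2 • C (D.next γ (D.next γ x)) = 0 := by
    intro x
    have h := congrArg (fun m => w x • m) (hnext x).2
    simp only [bettiCocycles.map_mul, smul_add, smul_smul, smul_zero] at h
    have h1 := hw x
    have h2 := hw (D.next γ x)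
    simp only [C]
    linear_combination (norm := module) h - h1 • (c : Gamma0 L → W) (D.elt γ (D.next γ x))
      - h1 • ((χ (D.elt γ (D.next γ x)) : A) •
          (c : Gamma0 L → W) (D.elt γ (D.next γ (D.next γ x))))
      - h2 • (g • (c : Gamma0 L → W) (D.elt γ (D.next γ (D.next γ x))))
  let P : Equiv.Perm (HeckeIdx L l) :=
    { toFun := fun x => D.next γ (D.next γ x)
      invFun := D.next γ
      left_inv := fun x => (hnext x).1
      right_inv := fun x => (hnext x).1 }
  have hPP : ∀ x, P (P x) = D.next γ x := fun x => congrArg (D.next γ) (hnext x).1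
  obtain ⟨u, hu, hu'⟩ := exists_lift_order_three P f (fun _ => g) C hf
    (fun x => (hPP (P x)).trans (hnext x).1)
    (fun _ => by rw [← hg3]; ring)
    (fun x => by
      rw [hPP, ← sq]
      have := hrel (D.next γ x)
      rwa [(hnext x).1] at this)
    (fun x hx => absurd ((congrArg (D.next γ) hx).symm.trans (hnext x).1)
      (heckeSystem_next_ne_of_trace_one l hl γ ht x))
  refine ⟨∑ x, u x, by rw [map_sum]; exact Finset.sum_congr rfl fun x _ => hu x, ?_⟩
  have h0 : ∑ x, (u (P (P x)) + g • u (P x) + (g * g) • u x) = 0 :=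
    Finset.sum_eq_zero fun x _ => hu' x
  rw [Finset.sum_add_distrib, Finset.sum_add_distrib, ← Finset.smul_sum, ← Finset.smul_sum,
    Equiv.sum_comp P u, Equiv.sum_comp P (fun y => u (P y)), Equiv.sum_comp P u, ← sq] at h0
  exact h0

/-- The value of a Hecke operator at an element of trace `0`, for `ℓ ≡ 3 mod 4`, lifts to an
element of norm zero. -/
theorem exists_lift_hecke_trace_zero (hχ : ∀ γ : Gamma0 L, (γ : SL(2, ℤ)) = -1 → χ γ = 1)
    (l : Nat.Primes) (hl : (l : ℕ) % 4 = 3) (w : HeckeIdx L l → A) (f : V →ₗ[A] W)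
    (hf : Function.Surjective f) (c : bettiCocycles (Gamma0 L) χ W) (γ : Gamma0 L)
    (hw : ∀ x, w x * (χ ((heckeSystem L l).elt γ x) : A) =
      (χ γ : A) * w ((heckeSystem L l).next γ x))
    (ht : ((γ : SL(2, ℤ)) : Matrix (Fin 2) (Fin 2) ℤ).trace = 0) :
    ∃ v, f v = ∑ x, w x • (c : Gamma0 L → W) ((heckeSystem L l).elt γ x) ∧
      v + (χ γ : A) • v = 0 := by
  obtain ⟨hg2, -⟩ := bettiCocycles_sq_of_trace c hχ ht
  set D := heckeSystem L l
  set g := (χ γ : A)
  have e : ((γ * γ : Gamma0 L) : SL(2, ℤ)) = -1 := by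
    rw [Subgroup.coe_mul, ← sq, sq_eq_neg_one_of_trace_eq_zero ht]
  have hnext : ∀ x, D.next γ (D.next γ x) = x ∧
      (c : Gamma0 L → W) (D.elt γ x * D.elt γ (D.next γ x)) = 0 := by
    intro x
    have e1 := D.next_elt_mul γ γ x
    obtain ⟨h1, h2⟩ := heckeSystem_next_elt_of_neg_one l _ e x
    exact ⟨e1.1.symm.trans h1, by rw [← e1.2, h2]; exact bettiCocycles.map_neg_one c e⟩
  let C : HeckeIdx L l → W := fun x => w x • (c : Gamma0 L → W) (D.elt γ x)
  have hrel : ∀ x, C x + g • C (D.next γ x) = 0 := by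
    intro x
    have h := congrArg (fun m => w x • m) (hnext x).2
    simp only [bettiCocycles.map_mul, smul_add, smul_smul, smul_zero] at h
    have h1 := hw x
    simp only [C]
    linear_combination (norm := module) h - h1 • (c : Gamma0 L → W) (D.elt γ (D.next γ x))
  let P : Equiv.Perm (HeckeIdx L l) := Function.Involutive.toPerm _ fun x => (hnext x).1
  obtain ⟨u, hu, hu'⟩ := exists_lift_involution P f (fun _ => g) C hf (fun x => (hnext x).1)
    (fun _ => hg2)
    (fun x => by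
      have := hrel (D.next γ x)
      rwa [(hnext x).1] at this)
    (fun x hx => absurd hx (heckeSystem_next_ne_of_trace_zero l hl γ ht x))
  refine ⟨∑ x, u x, by rw [map_sum]; exact Finset.sum_congr rfl fun x _ => hu x, ?_⟩
  have h0 : ∑ x, (u (P x) + g • u x) = 0 := Finset.sum_eq_zero fun x _ => hu' x
  rw [Finset.sum_add_distrib, ← Finset.smul_sum, Equiv.sum_comp P u] at h0
  exact h0

end FermatLib.MLT

end
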