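import Fermat.Agent.MLT.BettiDefs
import Fermat.Agent.Modular.Gamma0Homs
import Mathlib.NumberTheory.LegendreSymbol.Basic
import Mathlib.RingTheory.Noetherian.Basic

/-!
Lifting cocycles along a surjection of coefficient modules, using that `SL(2, ℤ) / ±1` is the
free product of two finite cyclic groups; finiteness of `bettiH1`.
-/

set_option autoImplicit false

noncomputable section

open scoped MatrixGroups
open CongruenceSubgroup ModularGroup FermatLib.Modular Matrix

namespace FermatLib.MLT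

variable {A V W : Type} [CommRing A] [AddCommGroup V] [Module A V] [AddCommGroup W] [Module A W]

section PermLift

variable {ι : Type*} (P : Equiv.Perm ι) (f : V →ₗ[A] W) (a : ι → A) (C : ι → W)

/-- Lifting a family killed by the twisted norm of an involution. -/
theorem exists_lift_involution (hf : Function.Surjective f) (hP : ∀ q, P (P q) = q)
    (ha : ∀ q, a (P q) * a q = 1) (hC : ∀ q, C (P q) + a (P q) • C q = 0)
    (hfix : ∀ q, P q = q → ∃ v, f v = C q ∧ v + a q • v = 0) :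
    ∃ u : ι → V, (∀ q, f (u q) = C q) ∧ ∀ q, u (P q) + a (P q) • u q = 0 := by
  classical
  let r : ι → ι := fun q => (Quotient.mk (Equiv.Perm.SameCycle.setoid P) q).out
  have hrP : ∀ q, r (P q) = r q := fun q => congrArg Quotient.out (Quotient.sound
    (Equiv.Perm.sameCycle_apply_left.2 (Equiv.Perm.SameCycle.refl P q)))
  have hcases : ∀ q, q = r q ∨ q = P (r q) := by
    intro q
    obtain ⟨k, hk⟩ : Equiv.Perm.SameCycle P (r q) q :=
      Quotient.mk_out (s := Equiv.Perm.SameCycle.setoid P) q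
    have h2 : P ^ (2 : ℤ) = 1 := by
      rw [zpow_two]; exact Equiv.ext hP
    rw [← Int.emod_add_ediv_mul k 2, zpow_add, mul_comm (k / 2), _root_.zpow_mul, h2,
      _root_.one_zpow, mul_one] at hk
    rcases Int.emod_two_eq_zero_or_one k with h | h <;> rw [h] at hk
    · exact Or.inl (by simpa using hk.symm)
    · exact Or.inr (by simpa using hk.symm)
  choose w hw using fun q => hf (C q)
  choose vf hvf hvf' using hfix
  let u : ι → V := fun q =>
    if h : P q = q then vf q h else if q = r q then w q else -(a q • w (r q))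
  refine ⟨u, fun q => ?_, fun q => ?_⟩
  · show f (dite _ _ _) = _
    split_ifs with h1 h2
    · exact hvf q h1
    · exact hw q
    · have e := (hcases q).resolve_left h2
      have := hC (r q)
      rw [← e] at this
      rw [map_neg, map_smul, hw, neg_eq_iff_add_eq_zero, add_comm]
      exact this
  · by_cases h : P q = q
    · simp only [h, u, dif_pos h]
      exact hvf' q h
    · have h' : P (P q) ≠ P q := fun e => h (P.injective e)
      simp only [u, dif_neg h, dif_neg h', hrP]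
      rcases hcases q with e | e
      · rw [if_pos e, if_neg (fun e' => h (e'.trans e.symm)), ← e]
        exact neg_add_cancel _
      · have e' : P q = r q := (congrArg P e).trans (hP _)
        have hne : q ≠ r q := fun e'' => h (e'.trans e''.symm)
        rw [if_pos e', if_neg hne, ← e', smul_neg, smul_smul, ha, one_smul]
        exact add_neg_cancel _

/-- Lifting a family killed by the twisted norm of a permutation of order three. -/
theorem exists_lift_order_three (hf : Function.Surjective f) (hP : ∀ q, P (P (P q)) = q)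
    (ha : ∀ q, a (P (P q)) * a (P q) * a q = 1)
    (hC : ∀ q, C (P (P q)) + a (P (P q)) • C (P q) + (a (P (P q)) * a (P q)) • C q = 0)
    (hfix : ∀ q, P q = q → ∃ v, f v = C q ∧ v + a q • v + a q ^ 2 • v = 0) :
    ∃ u : ι → V, (∀ q, f (u q) = C q) ∧
      ∀ q, u (P (P q)) + a (P (P q)) • u (P q) + (a (P (P q)) * a (P q)) • u q = 0 := by
  classical
  let r : ι → ι := fun q => (Quotient.mk (Equiv.Perm.SameCycle.setoid P) q).out
  have hrP : ∀ q, r (P q) = r q := fun q => congrArg Quotient.out (Quotient.sound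
    (Equiv.Perm.sameCycle_apply_left.2 (Equiv.Perm.SameCycle.refl P q)))
  have hcases : ∀ q, q = r q ∨ q = P (r q) ∨ q = P (P (r q)) := by
    intro q
    obtain ⟨k, hk⟩ : Equiv.Perm.SameCycle P (r q) q :=
      Quotient.mk_out (s := Equiv.Perm.SameCycle.setoid P) q
    have h3 : P ^ (3 : ℤ) = 1 := by
      rw [show (3 : ℤ) = 1 + 1 + 1 from rfl, zpow_add, zpow_add, zpow_one]; exact Equiv.ext hP
    rw [← Int.emod_add_ediv_mul k 3, zpow_add, mul_comm (k / 3), _root_.zpow_mul, h3,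
      _root_.one_zpow, mul_one] at hk
    have h1 := Int.emod_nonneg k (by norm_num : (3 : ℤ) ≠ 0)
    have h2 := Int.emod_lt_of_pos k (by norm_num : (0 : ℤ) < 3)
    interval_cases h : k % 3
    · exact Or.inl (by simpa using hk.symm)
    · exact Or.inr (Or.inl (by simpa using hk.symm))
    · rw [zpow_two] at hk
      exact Or.inr (Or.inr hk.symm)
  choose w hw using fun q => hf (C q)
  choose vf hvf hvf' using hfix
  let u : ι → V := fun q =>
    if h : P q = q then vf q h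
    else if q = r q ∨ q = P (r q) then w q
    else -(a q • w (P (r q)) + (a q * a (P (r q))) • w (r q))
  refine ⟨u, fun q => ?_, fun q => ?_⟩
  · show f (dite _ _ _) = _
    split_ifs with h1 h2
    · exact hvf q h1
    · exact hw q
    · have e : q = P (P (r q)) := by
        rcases hcases q with e | e | e
        · exact absurd (Or.inl e) h2
        · exact absurd (Or.inr e) h2
        · exact e
      have := hC (r q)
      rw [← e] at this
      rw [map_neg, map_add, map_smul, map_smul, hw, hw, neg_eq_iff_add_eq_zero]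
      rw [← this]; abel
  · by_cases h : P q = q
    · simp only [h, u, dif_pos h]
      rw [← pow_two]
      exact hvf' q h
    · have hne : ∀ x, x = q ∨ x = P q ∨ x = P (P q) → P x ≠ x := by
        rintro x (rfl | rfl | rfl) e
        · exact h e
        · exact h (P.injective e)
        · exact h (P.injective (P.injective e))
      set x₀ := r q with hx₀
      have hfree : P x₀ ≠ x₀ := by
        refine hne x₀ ?_
        rcases hcases q with e | e | e
        · exact Or.inl e.symm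
        · exact Or.inr (Or.inr (by rw [e, hP]))
        · exact Or.inr (Or.inl (by rw [e, hP]))
      have hr1 : r (P x₀) = x₀ := by
        rw [hx₀]
        rcases hcases q with e | e | e
        · rw [← e, hrP, ← e]
        · rw [← e]
        · rw [← hrP (P (r q)), ← e]
      have hr0 : r x₀ = x₀ := by rw [← hrP x₀, hr1]
      have hr2 : r (P (P x₀)) = x₀ := by rw [hrP, hr1]
      have hne1 : P (P x₀) ≠ P x₀ := fun e => hfree (P.injective e)
      have hne2 : P (P (P x₀)) ≠ P (P x₀) := fun e => hne1 (P.injective e)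
      have hne20 : P (P x₀) ≠ x₀ := fun e => hfree (by
        have := congrArg P e; rw [hP] at this; exact this.symm)
      have h0 : u x₀ = w x₀ := by
        simp only [u, dif_neg hfree, hr0, true_or, if_true]
      have h1 : u (P x₀) = w (P x₀) := by
        simp only [u, dif_neg hne1, hr1, or_true, if_true]
      have h2 : u (P (P x₀)) =
          -(a (P (P x₀)) • w (P x₀) + (a (P (P x₀)) * a (P x₀)) • w x₀) := by
        simp only [u, dif_neg hne2, hr2, if_neg (not_or.2 ⟨hne20, hne1⟩)]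
      have p1 := ha x₀
      rcases hcases q with e | e | e <;> rw [← hx₀] at e <;> rw [e] <;>
        simp only [hP, h0, h1, h2]
      · abel
      · rw [smul_neg, smul_add, smul_smul, smul_smul,
          show a x₀ * (a (P (P x₀)) * a (P x₀)) = 1 by rw [mul_comm]; exact p1, one_smul]
        abel
      · rw [smul_neg, smul_add, smul_smul, smul_smul,
          show a (P x₀) * a x₀ * a (P (P x₀)) = 1 by
            rw [mul_comm, ← mul_assoc]; exact p1, one_smul,
          show a (P x₀) * a x₀ * (a (P (P x₀)) * a (P x₀)) =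
            a (P x₀) * (a (P (P x₀)) * a (P x₀) * a x₀) by ring, p1, mul_one]
        abel

end PermLift

section Lift

variable {Γ : Subgroup SL(2, ℤ)} {χ : Γ →* Aˣ}

/-- A coset representative, trivial on the base point. -/
theorem exists_cosetSection (Γ : Subgroup SL(2, ℤ)) :
    ∃ σ : SL(2, ℤ) ⧸ Γ → SL(2, ℤ), σ ((1 : SL(2, ℤ)) : SL(2, ℤ) ⧸ Γ) = 1 ∧
      ∀ x q, (σ (x • q))⁻¹ * x * σ q ∈ Γ := by
  classical
  let σ : SL(2, ℤ) ⧸ Γ → SL(2, ℤ) := fun q =>
    if q = ((1 : SL(2, ℤ)) : SL(2, ℤ) ⧸ Γ) then 1 else q.out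
  have hσ : ∀ q, (σ q : SL(2, ℤ) ⧸ Γ) = q := by
    intro q
    show ((ite _ _ _ : SL(2, ℤ)) : SL(2, ℤ) ⧸ Γ) = q
    split_ifs with h
    · exact h.symm
    · exact q.out_eq'
  refine ⟨σ, if_pos rfl, fun x q => ?_⟩
  rw [mul_assoc, ← QuotientGroup.eq, hσ]
  conv_lhs => rw [← hσ q]
  rfl

/-- Lifting of cocycles, assuming liftability at the elliptic elements. -/
theorem exists_bettiCocycles_lift_of (hneg : (-1 : SL(2, ℤ)) ∈ Γ)
    (hχ : ∀ γ : Γ, (γ : SL(2, ℤ)) = -1 → χ γ = 1) (f : V →ₗ[A] W) (hf : Function.Surjective f)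
    (c : bettiCocycles Γ χ W)
    (h2 : ∀ γ : Γ, ((γ : SL(2, ℤ)) : Matrix (Fin 2) (Fin 2) ℤ).trace = 0 →
      ∃ v, f v = (c : Γ → W) γ ∧ v + (χ γ : A) • v = 0)
    (h3 : ∀ γ : Γ, (((γ : SL(2, ℤ)) : Matrix (Fin 2) (Fin 2) ℤ).trace = 1 ∨
        ((γ : SL(2, ℤ)) : Matrix (Fin 2) (Fin 2) ℤ).trace = -1) →
      ∃ v, f v = (c : Γ → W) γ ∧ v + (χ γ : A) • v + (χ γ : A) ^ 2 • v = 0) :
    ∃ c' : bettiCocycles Γ χ V, bettiCocyclesMap Γ χ f c' = c := by
  obtain ⟨σ, hσ1, hσ⟩ := exists_cosetSection Γ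
  set q₀ : SL(2, ℤ) ⧸ Γ := ((1 : SL(2, ℤ)) : SL(2, ℤ) ⧸ Γ)
  let h : SL(2, ℤ) → SL(2, ℤ) ⧸ Γ → Γ := fun x q => ⟨_, hσ x q⟩
  have hmul : ∀ x y q, h (x * y) q = h x (y • q) * h y q := by
    intro x y q
    apply Subtype.ext
    show (σ ((x * y) • q))⁻¹ * (x * y) * σ q =
      (σ (x • y • q))⁻¹ * x * σ (y • q) * ((σ (y • q))⁻¹ * y * σ q)
    rw [mul_smul]
    group
  have hnegfix : ∀ q : SL(2, ℤ) ⧸ Γ, (-1 : SL(2, ℤ)) • q = q := by
    intro q
    obtain ⟨g, rfl⟩ := QuotientGroup.mk_surjective q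
    refine QuotientGroup.eq.2 ?_
    simpa using hneg
  have hh1 : ∀ q, (h (-1) q : SL(2, ℤ)) = -1 := by
    intro q
    show (σ ((-1 : SL(2, ℤ)) • q))⁻¹ * -1 * σ q = -1
    rw [hnegfix]; simp
  have hh0 : ∀ q, h 1 q = 1 := fun q => Subtype.ext (by
    show (σ ((1 : SL(2, ℤ)) • q))⁻¹ * 1 * σ q = 1
    rw [one_smul]; simp)
  let a : SL(2, ℤ) → SL(2, ℤ) ⧸ Γ → A := fun x q => (χ (h x q) : A)
  let C : SL(2, ℤ) → SL(2, ℤ) ⧸ Γ → W := fun x q => (c : Γ → W) (h x q)
  have ha : ∀ x y q, a (x * y) q = a x (y • q) * a y q := by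
    intro x y q; simp [a, hmul]
  have hC : ∀ x y q, C (x * y) q = C x (y • q) + a x (y • q) • C y q := by
    intro x y q
    show (c : Γ → W) (h (x * y) q) = _
    rw [hmul, bettiCocycles.map_mul]
  have ha1 : ∀ q, a (-1) q = 1 := fun q => by simp [a, hχ _ (hh1 q)]
  have hC1 : ∀ q, C (-1) q = 0 := fun q => bettiCocycles.map_neg_one c (hh1 q)
  have hS : ∀ q : SL(2, ℤ) ⧸ Γ, S • S • q = q := fun q => by
    rw [← mul_smul, ← sq, S_pow_two_eq_neg_one, hnegfix]
  have hU : ∀ q : SL(2, ℤ) ⧸ Γ, ellU • ellU • ellU • q = q := fun q => by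
    rw [← mul_smul, ← mul_smul, ← pow_three', ellU_pow_three, hnegfix]
  have hconj : ∀ (x : SL(2, ℤ)) q, x • q = q →
      ((h x q : SL(2, ℤ)) : Matrix (Fin 2) (Fin 2) ℤ).trace =
        (x : Matrix (Fin 2) (Fin 2) ℤ).trace := by
    intro x q hx
    show (((σ (x • q))⁻¹ * x * σ q : SL(2, ℤ)) : Matrix (Fin 2) (Fin 2) ℤ).trace = _
    have := trace_conj (σ q)⁻¹ x
    rw [inv_inv] at this
    rw [hx, this]
  obtain ⟨uS, huS, huS'⟩ := exists_lift_involution (MulAction.toPerm S) f (a S) (C S) hf hS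
    (fun q => by
      show a S (S • q) * a S q = 1
      rw [← ha, ← sq, S_pow_two_eq_neg_one, ha1])
    (fun q => by
      show C S (S • q) + a S (S • q) • C S q = 0
      rw [← hC, ← sq, S_pow_two_eq_neg_one, hC1])
    (fun q hq => h2 _ (by
      rw [hconj S q hq]; simp [coe_S, Matrix.trace_fin_two_of]))
  obtain ⟨uU, huU, huU'⟩ := exists_lift_order_three (MulAction.toPerm ellU) f (a ellU) (C ellU) hf hU
    (fun q => by
      show a ellU (ellU • ellU • q) * a ellU (ellU • q) * a ellU q = 1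
      rw [mul_assoc, ← ha ellU ellU q, ← mul_smul ellU ellU q, ← ha ellU (ellU * ellU) q,
        ← pow_three, ellU_pow_three, ha1])
    (fun q => by
      show C ellU (ellU • ellU • q) + a ellU (ellU • ellU • q) • C ellU (ellU • q) +
        (a ellU (ellU • ellU • q) * a ellU (ellU • q)) • C ellU q = 0
      rw [mul_smul, add_assoc, ← smul_add, ← hC ellU ellU q, ← mul_smul ellU ellU q,
        ← hC ellU (ellU * ellU) q, ← pow_three, ellU_pow_three, hC1])
    (fun q hq => h3 _ (Or.inl (by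
      rw [hconj ellU q hq]; simp [coe_ellU, Matrix.trace_fin_two_of])))
  let shear : ∀ (x : SL(2, ℤ)), (SL(2, ℤ) ⧸ Γ → V) → Equiv.Perm ((SL(2, ℤ) ⧸ Γ) × V) := fun x d =>
    { toFun := fun p => (x • p.1, d p.1 + a x p.1 • p.2)
      invFun := fun p => (x⁻¹ • p.1, a x⁻¹ p.1 • (p.2 - d (x⁻¹ • p.1)))
      left_inv := fun p => by
        have e : a x⁻¹ (x • p.1) * a x p.1 = 1 := by
          rw [← ha, inv_mul_cancel]; simp [a, hh0]
        simp [smul_smul, e]
      right_inv := fun p => by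
        have e : a x (x⁻¹ • p.1) * a x⁻¹ p.1 = 1 := by
          rw [← ha, mul_inv_cancel]; simp [a, hh0]
        simp [smul_smul, e] }
  have hs : shear S uS ^ 2 = 1 := by
    refine Equiv.ext fun p => ?_
    show (S • S • p.1, uS (S • p.1) + a S (S • p.1) • (uS p.1 + a S p.1 • p.2)) = p
    rw [hS, smul_add, smul_smul, ← add_assoc]
    have := huS' p.1
    simp only [MulAction.toPerm_apply] at this
    rw [this, zero_add, ← ha, ← sq, S_pow_two_eq_neg_one, ha1, one_smul]
  have hu : shear ellU uU ^ 3 = 1 := by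
    refine Equiv.ext fun p => ?_
    show (ellU • ellU • ellU • p.1, uU (ellU • ellU • p.1) + a ellU (ellU • ellU • p.1) •
      (uU (ellU • p.1) + a ellU (ellU • p.1) • (uU p.1 + a ellU p.1 • p.2))) = p
    have := huU' p.1
    simp only [MulAction.toPerm_apply] at this
    have e1 : a ellU (ellU • ellU • p.1) * (a ellU (ellU • p.1) * a ellU p.1) = 1 := by
      rw [← ha ellU ellU p.1, ← mul_smul ellU ellU p.1,
        ← ha ellU (ellU * ellU) p.1, ← pow_three, ellU_pow_three, ha1]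
    rw [hU]
    refine Prod.ext rfl ?_
    linear_combination (norm := module) this + e1 • p.2
  obtain ⟨ρ, hρS, hρU, hρ1⟩ := exists_hom_S_ellU _ _ hs hu
  have hP : ∀ x q, ∃ d : V, f d = C x q ∧ ∀ v, ρ x (q, v) = (x • q, d + a x q • v) := by
    intro x
    have : x ∈ Subgroup.closure {S, ellU} := by rw [closure_S_ellU]; trivial
    induction this using Subgroup.closure_induction with
    | mem y hy =>
      rcases hy with rfl | rfl
      · exact fun q => ⟨uS q, huS q, fun v => by rw [hρS]; rfl⟩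
      · exact fun q => ⟨uU q, huU q, fun v => by rw [hρU]; rfl⟩
    | one =>
      intro q
      exact ⟨0, by simp [C, hh0, bettiCocycles.map_one], fun v => by simp [a, hh0]⟩
    | mul y z _ _ hy hz =>
      intro q
      obtain ⟨d, hd, hd'⟩ := hy (z • q)
      obtain ⟨e, he, he'⟩ := hz q
      refine ⟨d + a y (z • q) • e, by rw [map_add, map_smul, hd, he, hC], fun v => ?_⟩
      rw [map_mul, Equiv.Perm.mul_apply, he', hd', smul_add, smul_smul (a y (z • q)), ← ha,
        mul_smul y z q, add_assoc]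
    | inv y _ hy =>
      intro q
      obtain ⟨d, hd, hd'⟩ := hy (y⁻¹ • q)
      have e0 : a y (y⁻¹ • q) * a y⁻¹ q = 1 := by rw [← ha, mul_inv_cancel]; simp [a, hh0]
      refine ⟨-(a y⁻¹ q • d), ?_, fun v => ?_⟩
      · have e : C y (y⁻¹ • q) + a y (y⁻¹ • q) • C y⁻¹ q = 0 := by
          rw [← hC, mul_inv_cancel]; simp [C, hh0, bettiCocycles.map_one]
        have := congrArg (fun w => a y⁻¹ q • w) e
        simp only [smul_add, smul_smul, smul_zero, mul_comm (a y⁻¹ q) (a y (y⁻¹ • q)), e0,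
          one_smul] at this
        rw [map_neg, map_smul, hd, neg_eq_iff_add_eq_zero]
        exact this
      · rw [map_inv, Equiv.Perm.inv_eq_iff_eq, hd', smul_inv_smul, smul_add, smul_neg, smul_smul,
          smul_smul, e0, one_smul, one_smul, add_neg_cancel_left]
  have hγ : ∀ γ : Γ, (γ : SL(2, ℤ)) • q₀ = q₀ := fun γ => QuotientGroup.eq.2 (by simp [γ.2])
  have hhγ : ∀ γ : Γ, h γ q₀ = γ := fun γ => Subtype.ext (by
    show (σ ((γ : SL(2, ℤ)) • q₀))⁻¹ * γ * σ q₀ = γ
    rw [hγ, hσ1]; simp)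
  choose d hd hd' using hP
  have hd1 : d (-1) q₀ = 0 := by
    have := hd' (-1) q₀ 0
    rw [hρ1] at this
    simpa using (congrArg Prod.snd this).symm
  refine ⟨⟨fun γ => d γ q₀, fun γ δ => ?_, fun γ hm => ?_⟩, ?_⟩
  · have e := hd' ((γ : SL(2, ℤ)) * δ) q₀ 0
    rw [map_mul, Equiv.Perm.mul_apply, hd' _ q₀, hγ δ, hd' _ q₀] at e
    have := congrArg Prod.snd e
    simp only [smul_zero, add_zero, a, hhγ] at this
    exact this.symm
  · show d (γ : SL(2, ℤ)) q₀ = 0
    rw [hm, hd1]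
  · refine Subtype.ext (funext fun γ => ?_)
    rw [bettiCocyclesMap_apply]
    show f (d γ q₀) = _
    rw [hd]
    exact congrArg _ (hhγ γ)

theorem sq_eq_neg_one_of_trace_eq_zero {g : SL(2, ℤ)}
    (h : (g : Matrix (Fin 2) (Fin 2) ℤ).trace = 0) : g ^ 2 = -1 := by
  have hd := g.2
  rw [Matrix.det_fin_two] at hd
  rw [Matrix.trace_fin_two] at h
  have h' : g 1 1 = -g 0 0 := by linarith
  rw [h'] at hd
  ext i j
  fin_cases i <;> fin_cases j <;>
    simp [pow_two, Matrix.mul_apply, Fin.sum_univ_two, h'] <;> linarith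

theorem cube_eq_of_trace_eq_one {g : SL(2, ℤ)} {t : ℤ} (ht : t = 1 ∨ t = -1)
    (h : (g : Matrix (Fin 2) (Fin 2) ℤ).trace = t) : g ^ 3 = if t = 1 then -1 else 1 := by
  have hd := g.2
  rw [Matrix.det_fin_two] at hd
  rw [Matrix.trace_fin_two] at h
  rcases ht with rfl | rfl
  · rw [if_pos rfl]
    have h' : g 1 1 = 1 - g 0 0 := by linarith
    rw [h'] at hd
    ext i j
    fin_cases i <;> fin_cases j <;>
      simp [pow_succ, Matrix.mul_apply, Fin.sum_univ_two, h'] <;> grind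
  · rw [if_neg (by norm_num)]
    have h' : g 1 1 = -1 - g 0 0 := by linarith
    rw [h'] at hd
    ext i j
    fin_cases i <;> fin_cases j <;>
      simp [pow_succ, Matrix.mul_apply, Fin.sum_univ_two, h'] <;> grind

theorem bettiCocycles_sq_of_trace (c : bettiCocycles Γ χ W)
    (hχ : ∀ γ : Γ, (γ : SL(2, ℤ)) = -1 → χ γ = 1) {γ : Γ}
    (h : ((γ : SL(2, ℤ)) : Matrix (Fin 2) (Fin 2) ℤ).trace = 0) :
    (χ γ : A) * (χ γ : A) = 1 ∧ (c : Γ → W) γ + (χ γ : A) • (c : Γ → W) γ = 0 := by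
  have e : ((γ * γ : Γ) : SL(2, ℤ)) = -1 := by
    rw [Subgroup.coe_mul, ← sq, sq_eq_neg_one_of_trace_eq_zero h]
  exact ⟨by rw [← Units.val_mul, ← map_mul, hχ _ e, Units.val_one],
    by rw [← bettiCocycles.map_mul]; exact bettiCocycles.map_neg_one c e⟩

theorem bettiCocycles_cube_of_trace (c : bettiCocycles Γ χ W)
    (hχ : ∀ γ : Γ, (γ : SL(2, ℤ)) = -1 → χ γ = 1) {γ : Γ}
    (h : ((γ : SL(2, ℤ)) : Matrix (Fin 2) (Fin 2) ℤ).trace = 1 ∨
      ((γ : SL(2, ℤ)) : Matrix (Fin 2) (Fin 2) ℤ).trace = -1) :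
    (χ γ : A) ^ 3 = 1 ∧ (c : Γ → W) γ + (χ γ : A) • (c : Γ → W) γ +
      (χ γ : A) ^ 2 • (c : Γ → W) γ = 0 := by
  have e : ((γ * (γ * γ) : Γ) : SL(2, ℤ)) = -1 ∨ γ * (γ * γ) = 1 := by
    rcases h with h | h
    · left
      rw [Subgroup.coe_mul, Subgroup.coe_mul, ← pow_three,
        cube_eq_of_trace_eq_one (Or.inl rfl) h, if_pos rfl]
    · right
      apply Subtype.ext
      rw [Subgroup.coe_mul, Subgroup.coe_mul, ← pow_three,
        cube_eq_of_trace_eq_one (Or.inr rfl) h, if_neg (by norm_num), Subgroup.coe_one]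
  have e1 : χ (γ * (γ * γ)) = 1 := by
    rcases e with e | e
    · exact hχ _ e
    · rw [e, map_one]
  have e2 : (c : Γ → W) (γ * (γ * γ)) = 0 := by
    rcases e with e | e
    · exact bettiCocycles.map_neg_one c e
    · rw [e, bettiCocycles.map_one]
  refine ⟨?_, ?_⟩
  · rw [pow_three, ← Units.val_mul, ← Units.val_mul, ← map_mul, ← map_mul, e1, Units.val_one]
  · rw [← e2, bettiCocycles.map_mul, bettiCocycles.map_mul, smul_add, smul_smul, sq, add_assoc]

/-- The condition at elements of trace zero holds when `2` is invertible. -/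
theorem exists_lift_trace_zero_of_isUnit (h : IsUnit (2 : A))
    (hχ : ∀ γ : Γ, (γ : SL(2, ℤ)) = -1 → χ γ = 1) (f : V →ₗ[A] W) (hf : Function.Surjective f)
    (c : bettiCocycles Γ χ W) (γ : Γ)
    (ht : ((γ : SL(2, ℤ)) : Matrix (Fin 2) (Fin 2) ℤ).trace = 0) :
    ∃ v, f v = (c : Γ → W) γ ∧ v + (χ γ : A) • v = 0 := by
  obtain ⟨hg, hc⟩ := bettiCocycles_sq_of_trace c hχ ht
  obtain ⟨b, hb⟩ := h.exists_left_inv
  obtain ⟨w, hw⟩ := hf ((c : Γ → W) γ)
  refine ⟨w - b • (w + (χ γ : A) • w), ?_, ?_⟩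
  · rw [map_sub, map_smul, map_add, map_smul, hw, hc, smul_zero, sub_zero]
  · linear_combination (norm := module) -(hb • (w + (χ γ : A) • w)) - hg • (b • w)

/-- The condition at elements of trace `±1` holds when `3` is invertible. -/
theorem exists_lift_trace_one_of_isUnit (h : IsUnit (3 : A))
    (hχ : ∀ γ : Γ, (γ : SL(2, ℤ)) = -1 → χ γ = 1) (f : V →ₗ[A] W) (hf : Function.Surjective f)
    (c : bettiCocycles Γ χ W) (γ : Γ)
    (ht : ((γ : SL(2, ℤ)) : Matrix (Fin 2) (Fin 2) ℤ).trace = 1 ∨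
      ((γ : SL(2, ℤ)) : Matrix (Fin 2) (Fin 2) ℤ).trace = -1) :
    ∃ v, f v = (c : Γ → W) γ ∧ v + (χ γ : A) • v + (χ γ : A) ^ 2 • v = 0 := by
  obtain ⟨hg, hc⟩ := bettiCocycles_cube_of_trace c hχ ht
  obtain ⟨b, hb⟩ := h.exists_left_inv
  obtain ⟨w, hw⟩ := hf ((c : Γ → W) γ)
  set g := (χ γ : A)
  refine ⟨w - b • (w + g • w + g ^ 2 • w), ?_, ?_⟩
  · rw [map_sub, map_smul, map_add, map_add, map_smul, map_smul, hw, hc, smul_zero, sub_zero]
  · have e : (1 - b * (1 + g + g ^ 2)) * (1 + g + g ^ 2) = 0 := by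
      linear_combination -(1 + g + g ^ 2) * hb - b * (g + 2) * hg
    linear_combination (norm := module) e • w

theorem not_trace_eq_zero_of_dvd {L : ℕ} (hL : 4 ∣ L ∨ ∃ q, q.Prime ∧ q ∣ L ∧ q % 4 = 3)
    (γ : Gamma0 L) : ((γ : SL(2, ℤ)) : Matrix (Fin 2) (Fin 2) ℤ).trace ≠ 0 := by
  intro ht
  obtain ⟨⟨g, hdet⟩, hg⟩ := γ
  change g.trace = 0 at ht
  have hc : (L : ℤ) ∣ g 1 0 := (ZMod.intCast_zmod_eq_zero_iff_dvd _ _).1 (Gamma0_mem.1 hg)
  rw [Matrix.det_fin_two] at hdet
  rw [Matrix.trace_fin_two] at ht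
  have key : ∀ m : ℕ, m ∣ L → ((g 0 0 : ZMod m)) ^ 2 = -1 := by
    intro m hm
    have h0 : ((g 1 0 : ℤ) : ZMod m) = 0 :=
      (ZMod.intCast_zmod_eq_zero_iff_dvd _ _).2 ((Int.natCast_dvd_natCast.2 hm).trans hc)
    have h1 := congrArg (Int.cast : ℤ → ZMod m) hdet
    have h2 := congrArg (Int.cast : ℤ → ZMod m) ht
    push_cast at h1 h2
    rw [h0] at h1
    linear_combination (g 0 0 : ZMod m) * h2 - h1
  rcases hL with hL | ⟨q, hq, hqL, hq4⟩
  · exact (by decide : ∀ a : ZMod 4, a ^ 2 ≠ -1) _ (key 4 hL)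
  · have := Fact.mk hq
    exact ZMod.mod_four_ne_three_of_sq_eq_neg_one (key q hqL) hq4

theorem not_exists_root_of_mod_three {q : ℕ} (hq : q.Prime) (hq3 : q % 3 = 2) {t : ZMod q}
    (ht : t = 1 ∨ t = -1) (a : ZMod q) : a ^ 2 - t * a + 1 ≠ 0 := by
  intro h
  have := Fact.mk hq
  have ht2 : t * t = 1 := by rcases ht with rfl | rfl <;> ring
  set b := -(t * a) with hb
  have hb2 : b ^ 2 + b + 1 = 0 := by
    rw [hb]; linear_combination h + a ^ 2 * ht2
  have hb3 : b ^ 3 = 1 := by linear_combination (b - 1) * hb2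
  have hb1 : b ≠ 1 := by
    intro e
    rw [e] at hb2
    have h3 : ((3 : ℕ) : ZMod q) = 0 := by push_cast; linear_combination hb2
    rw [ZMod.natCast_eq_zero_iff] at h3
    have := (Nat.prime_dvd_prime_iff_eq hq Nat.prime_three).1 h3
    omega
  have hb0 : b ≠ 0 := fun e => by simp [e] at hb3
  obtain ⟨k, hk⟩ : ∃ k, q - 1 = 3 * k + 1 := ⟨(q - 2) / 3, by omega⟩
  have := ZMod.pow_card_sub_one_eq_one hb0
  rw [hk, pow_succ, pow_mul, hb3, one_pow, one_mul] at this
  exact hb1 this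

theorem not_trace_eq_one_of_dvd {L : ℕ} (hL : 9 ∣ L ∨ ∃ q, q.Prime ∧ q ∣ L ∧ q % 3 = 2)
    (γ : Gamma0 L) : ¬ (((γ : SL(2, ℤ)) : Matrix (Fin 2) (Fin 2) ℤ).trace = 1 ∨
      ((γ : SL(2, ℤ)) : Matrix (Fin 2) (Fin 2) ℤ).trace = -1) := by
  intro ht
  obtain ⟨⟨g, hdet⟩, hg⟩ := γ
  change g.trace = 1 ∨ g.trace = -1 at ht
  have hc : (L : ℤ) ∣ g 1 0 := (ZMod.intCast_zmod_eq_zero_iff_dvd _ _).1 (Gamma0_mem.1 hg)
  rw [Matrix.det_fin_two] at hdet
  rw [Matrix.trace_fin_two] at ht
  have key : ∀ m : ℕ, m ∣ L → ∃ t : ZMod m, (t = 1 ∨ t = -1) ∧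
      (g 0 0 : ZMod m) ^ 2 - t * (g 0 0 : ZMod m) + 1 = 0 := by
    intro m hm
    have h0 : ((g 1 0 : ℤ) : ZMod m) = 0 :=
      (ZMod.intCast_zmod_eq_zero_iff_dvd _ _).2 ((Int.natCast_dvd_natCast.2 hm).trans hc)
    have h1 := congrArg (Int.cast : ℤ → ZMod m) hdet
    push_cast at h1
    rw [h0] at h1
    refine ⟨((g 0 0 + g 1 1 : ℤ) : ZMod m), ?_, ?_⟩
    · rcases ht with e | e <;> simp [e]
    · push_cast; linear_combination -h1
  rcases hL with hL | ⟨q, hq, hqL, hq3⟩
  · obtain ⟨t, ht', h⟩ := key 9 hL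
    exact (by decide : ∀ t a : ZMod 9, (t = 1 ∨ t = -1) → a ^ 2 - t * a + 1 ≠ 0) t _ ht' h
  · obtain ⟨t, ht', h⟩ := key q hqL
    exact not_exists_root_of_mod_three hq hq3 ht' _ h

/-- Lifting for `Γ₀(L)` and a character of `(ℤ/L)ˣ`. -/
theorem exists_bettiCocycles_lift {L : ℕ} {χ : (ZMod L)ˣ →* Aˣ} (hχ : χ (-1) = 1)
    (f : V →ₗ[A] W) (hf : Function.Surjective f) (c : bettiCocycles (Gamma0 L) (nebenChar χ) W)
    (h2 : ∀ γ : Gamma0 L, ((γ : SL(2, ℤ)) : Matrix (Fin 2) (Fin 2) ℤ).trace = 0 →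
      ∃ v, f v = (c : Gamma0 L → W) γ ∧ v + (nebenChar χ γ : A) • v = 0)
    (h3 : ∀ γ : Gamma0 L, (((γ : SL(2, ℤ)) : Matrix (Fin 2) (Fin 2) ℤ).trace = 1 ∨
        ((γ : SL(2, ℤ)) : Matrix (Fin 2) (Fin 2) ℤ).trace = -1) →
      ∃ v, f v = (c : Gamma0 L → W) γ ∧
        v + (nebenChar χ γ : A) • v + (nebenChar χ γ : A) ^ 2 • v = 0) :
    ∃ c' : bettiCocycles (Gamma0 L) (nebenChar χ) V,
      bettiCocyclesMap (Gamma0 L) (nebenChar χ) f c' = c :=
  exists_bettiCocycles_lift_of neg_one_mem_Gamma0 (nebenChar_neg_one hχ) f hf c h2 h3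

end Lift

section Finite

variable (Γ : Subgroup SL(2, ℤ)) (χ : Γ →* Aˣ) (V : Type) [AddCommGroup V] [Module A V]

theorem bettiCocycles_finite [Group.FG Γ] [IsNoetherianRing A] [Module.Finite A V] :
    Module.Finite A (bettiCocycles Γ χ V) := by
  obtain ⟨s, hs⟩ := Group.fg_def.1 ‹Group.FG Γ›
  let e : bettiCocycles Γ χ V →ₗ[A] (s → V) :=
    LinearMap.pi fun x => (LinearMap.proj (x : Γ)).comp (bettiCocycles Γ χ V).subtype
  have he : Function.Injective e := by
    rw [injective_iff_map_eq_zero]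
    intro c hc
    let H : Subgroup Γ :=
      { carrier := {g | (c : Γ → V) g = 0}
        one_mem' := bettiCocycles.map_one c
        mul_mem' := fun {g h} hg hh => by
          show (c : Γ → V) (g * h) = 0
          rw [bettiCocycles.map_mul, show (c : Γ → V) g = 0 from hg,
            show (c : Γ → V) h = 0 from hh, smul_zero, add_zero]
        inv_mem' := fun {g} hg => by
          show (c : Γ → V) g⁻¹ = 0
          rw [bettiCocycles.map_inv, show (c : Γ → V) g = 0 from hg, smul_zero, neg_zero] }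
    have hH : H = ⊤ := top_le_iff.1 (hs ▸ (Subgroup.closure_le H).2
      fun x hx => congrFun hc ⟨x, hx⟩)
    exact Subtype.ext (funext fun g => (hH ▸ Subgroup.mem_top g : g ∈ H))
  exact Module.Finite.of_injective e he

theorem bettiH1_finite [Group.FG Γ] [IsNoetherianRing A] [Module.Finite A V] :
    Module.Finite A (bettiH1 Γ χ V) :=
  have := bettiCocycles_finite Γ χ V
  Module.Finite.quotient A _

theorem bettiH1_gamma0_finite (L : ℕ) [NeZero L] (χ : Gamma0 L →* Aˣ) [IsNoetherianRing A]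
    [Module.Finite A V] : Module.Finite A (bettiH1 (Gamma0 L) χ V) :=
  have := gamma0_fg L
  bettiH1_finite (Gamma0 L) χ V

end Finite

end FermatLib.MLT

end
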