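import Fermat.Agent.MLT.BettiLocal
import Fermat.Agent.MLT.BettiLift
import Fermat.Agent.MLT.BettiInert
import Fermat.Prelude.Thm_Algebra_finite_maximalSpectrum_and_bijective_localization_of_module_finite
import Mathlib.Algebra.MvPolynomial.Supported
import Mathlib.RingTheory.Ideal.GoingUp

/-!
# Betti cohomology localised at a residual Hecke character

For a residual character `θ` of Hecke polynomials and a set `Pr` of primes, the localisation at
`θ` restricted to the operators at the primes of `Pr` is finite free over the coefficient ring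
when `θ` is non-Eisenstein and the elliptic elements are harmless.
-/

set_option autoImplicit false

noncomputable section

open scoped MatrixGroups TensorProduct
open CongruenceSubgroup

namespace FermatLib.MLT

section finiteness

variable {A : Type} [CommRing A] {R : Type} [CommRing R] [Algebra A R]

/-- The elements of a subalgebra not killed by a character to a field. -/
def charSubmonoid {k : Type} [Field k] (R₀ : Subalgebra A R) (θ : R →+* k) : Submonoid R where
  carrier := {r | r ∈ R₀ ∧ θ r ≠ 0}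
  one_mem' := ⟨one_mem _, by simp⟩
  mul_mem' hr hs := ⟨mul_mem hr.1 hs.1, by simp [map_mul, hr.2, hs.2]⟩

theorem mem_charSubmonoid {k : Type} [Field k] {R₀ : Subalgebra A R} {θ : R →+* k} {r : R} :
    r ∈ charSubmonoid R₀ θ ↔ r ∈ R₀ ∧ θ r ≠ 0 := Iff.rfl

variable [IsLocalRing A] [IsNoetherianRing A] [IsAdicComplete (IsLocalRing.maximalIdeal A) A]

/-- In a finite algebra over a complete local ring, an element not killed by a residual
character is invertible up to such an element. -/
theorem exists_partial_inverse {k : Type} [Field k] (T : Type) [CommRing T] [Algebra A T]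
    [Module.Finite A T] (θ : T →+* k)
    (hθ : ∀ a ∈ IsLocalRing.maximalIdeal A, θ (algebraMap A T a) = 0) (r : T) (hr : θ r ≠ 0) :
    ∃ t u : T, θ u ≠ 0 ∧ u * (t * r) = u := by
  classical
  let P : Ideal T := RingHom.ker θ
  have hPp : P.IsPrime := RingHom.ker_isPrime θ
  have hcomap : P.comap (algebraMap A T) = IsLocalRing.maximalIdeal A :=
    le_antisymm (IsLocalRing.le_maximalIdeal (Ideal.IsPrime.ne_top (Ideal.IsPrime.comap _)))
      fun a ha => hθ a ha
  have : P.IsMaximal := by
    have hint : Algebra.IsIntegral A T := Algebra.IsIntegral.of_finite A _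
    refine Ideal.isMaximal_of_isIntegral_of_isMaximal_comap (R := A) P ?_
    rw [hcomap]
    infer_instance
  obtain ⟨-, hbij, -, -⟩ :=
    Algebra.finite_maximalSpectrum_and_bijective_localization_of_module_finite (𝒪 := A) T
  let rbar : P.primeCompl := ⟨r, hr⟩
  obtain ⟨t, ht⟩ := hbij.2 (Function.update 0 ⟨P, this⟩
    (IsLocalization.mk' (Localization.AtPrime P) (1 : T) rbar))
  have ht' : algebraMap T (Localization.AtPrime P) t =
      IsLocalization.mk' (Localization.AtPrime P) (1 : T) rbar := by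
    have := congrFun ht ⟨P, this⟩
    simpa using this
  have h1 : algebraMap T (Localization.AtPrime P) (t * r) = algebraMap T _ 1 := by
    rw [map_mul, ht']
    exact IsLocalization.mk'_spec _ _ rbar
  obtain ⟨⟨u, hu⟩, hu'⟩ := IsLocalization.exists_of_eq (M := P.primeCompl) h1
  exact ⟨t, u, fun h => hu h, by simpa using hu'⟩

/-- Over a complete local ring, localising a finite module at a residual character is a
quotient, so stays finite. -/
theorem mkLinearMap_charSubmonoid_surjective {k : Type} [Field k] (R₀ : Subalgebra A R)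
    (θ : R →+* k) (hθ : ∀ a ∈ IsLocalRing.maximalIdeal A, θ (algebraMap A R a) = 0)
    (M : Type) [AddCommGroup M] [Module A M] [Module R M] [IsScalarTower A R M]
    [Module.Finite A M] :
    Function.Surjective (LocalizedModule.mkLinearMap (charSubmonoid R₀ θ) M) := by
  classical
  set S := charSubmonoid R₀ θ
  by_cases hkill : ∃ u ∈ S, ∀ x : M, u • x = 0
  · obtain ⟨u, hu, hux⟩ := hkill
    intro z
    induction z using LocalizedModule.induction_on with
    | h m s =>
      refine ⟨0, ?_⟩
      rw [map_zero, eq_comm, ← LocalizedModule.zero_mk s, LocalizedModule.mk_eq]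
      exact ⟨⟨u, hu⟩, by simp [Submonoid.smul_def, hux]⟩
  push Not at hkill
  -- the image algebra
  let act : R₀ →+* Module.End A M :=
    ((Algebra.lsmul A A M : R →ₐ[A] Module.End A M).comp R₀.val).toRingHom
  let J : Ideal R₀ := RingHom.ker act
  have hact : ∀ (r : R₀) (x : M), act r x = (r : R) • x := fun _ _ => rfl
  have hfin : Module.Finite A (R₀ ⧸ J) := by
    obtain ⟨n, g, hg⟩ := Module.Finite.exists_fin' A M
    have : IsNoetherian A M := isNoetherian_of_isNoetherianRing_of_finite A M
    let ev : R₀ →ₗ[A] (Fin n → M) :=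
      { toFun := fun r i => act r (g (Pi.single i 1))
        map_add' := fun r r' => by funext i; simp [map_add]
        map_smul' := fun a r => by funext i; simp [hact, smul_assoc] }
    have hker : (J.restrictScalars A) = LinearMap.ker ev := by
      ext r
      simp only [Submodule.restrictScalars_mem, LinearMap.mem_ker, J, RingHom.mem_ker]
      constructor
      · intro h
        funext i
        show act r _ = 0
        rw [h]
        rfl
      · intro h
        refine LinearMap.ext fun x => ?_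
        obtain ⟨v, rfl⟩ := hg x
        rw [pi_eq_sum_univ' v, map_sum, map_sum, map_sum]
        refine Finset.sum_congr rfl fun i _ => ?_
        rw [map_smul, map_smul, map_smul,
          show act r (g (Pi.single i 1)) = 0 from congrFun h i]
        rfl
    let e : (R₀ ⧸ J) ≃ₗ[A] LinearMap.range ev :=
      (Submodule.Quotient.restrictScalarsEquiv A J).symm.trans
        ((Submodule.quotEquivOfEq _ _ hker).trans ev.quotKerEquivRange)
    exact Module.Finite.equiv e.symm
  let θ₀ : R₀ →+* k := θ.comp R₀.val.toRingHom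
  have hJ : J ≤ RingHom.ker θ₀ := by
    intro r hr
    rw [RingHom.mem_ker]
    by_contra h
    obtain ⟨x, hx⟩ := hkill r ⟨r.2, h⟩
    refine hx ?_
    rw [← hact, show act r = 0 from hr]
    rfl
  let θbar : (R₀ ⧸ J) →+* k := Ideal.Quotient.lift J θ₀ hJ
  intro z
  induction z using LocalizedModule.induction_on with
  | h m s =>
    obtain ⟨r, hr⟩ := s
    let r₀ : R₀ := ⟨r, hr.1⟩
    obtain ⟨t, u, hu, hu'⟩ := exists_partial_inverse (R₀ ⧸ J) θbar (fun a ha => hθ a ha)
      (Ideal.Quotient.mk J r₀) hr.2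
    obtain ⟨t₀, rfl⟩ := Ideal.Quotient.mk_surjective t
    obtain ⟨u₀, rfl⟩ := Ideal.Quotient.mk_surjective u
    refine ⟨(t₀ : R) • m, ?_⟩
    rw [LocalizedModule.mkLinearMap_apply, LocalizedModule.mk_eq]
    refine ⟨⟨(u₀ : R), u₀.2, hu⟩, ?_⟩
    have hz : u₀ * (t₀ * r₀) - u₀ ∈ J := by
      rw [← Ideal.Quotient.eq]
      simpa only [map_mul] using hu'
    have := LinearMap.congr_fun (RingHom.mem_ker.1 hz) m
    rw [map_sub, map_mul, map_mul, LinearMap.sub_apply, LinearMap.zero_apply, sub_eq_zero] at this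
    simp only [Module.End.mul_apply, hact] at this
    simp only [Submonoid.smul_def, one_smul]
    rw [smul_comm r (t₀ : R) m]
    exact this

theorem localizedModule_charSubmonoid_finite {k : Type} [Field k] (R₀ : Subalgebra A R)
    (θ : R →+* k) (hθ : ∀ a ∈ IsLocalRing.maximalIdeal A, θ (algebraMap A R a) = 0)
    (M : Type) [AddCommGroup M] [Module A M] [Module R M] [IsScalarTower A R M]
    [Module.Finite A M] :
    Module.Finite A (LocalizedModule (charSubmonoid R₀ θ) M) :=
  Module.Finite.of_surjective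
    ((LocalizedModule.mkLinearMap (charSubmonoid R₀ θ) M).restrictScalars A)
    (mkLinearMap_charSubmonoid_surjective R₀ θ hθ M)

end finiteness

variable {A : Type} [CommRing A] {L : ℕ} {k : Type} [Field k]

/-- The multiplicative set of Hecke polynomials in the operators at `Pr` not killed by `θ`. -/
def bettiResidualSubmonoid (Pr : Set Nat.Primes) (θ : BettiHeckeAlg A →+* k) :
    Submonoid (BettiHeckeAlg A) :=
  charSubmonoid (MvPolynomial.supported A Pr) θ

theorem mem_bettiResidualSubmonoid {Pr : Set Nat.Primes} {θ : BettiHeckeAlg A →+* k}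
    {P : BettiHeckeAlg A} :
    P ∈ bettiResidualSubmonoid Pr θ ↔ P ∈ MvPolynomial.supported A Pr ∧ θ P ≠ 0 := Iff.rfl

theorem X_mem_supported_set {Pr : Set Nat.Primes} {l : Nat.Primes} (hl : l ∈ Pr) :
    (MvPolynomial.X l : BettiHeckeAlg A) ∈ MvPolynomial.supported A Pr :=
  Algebra.subset_adjoin ⟨l, hl, rfl⟩

theorem C_mem_supported_set (Pr : Set Nat.Primes) (a : A) :
    (MvPolynomial.C a : BettiHeckeAlg A) ∈ MvPolynomial.supported A Pr :=
  (MvPolynomial.supported A Pr).algebraMap_mem a

/-- A prime `l` at which `θ` differs from the Eisenstein eigenvalue. -/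
theorem bettiNonEisenstein_residual (χ : (ZMod L)ˣ →* Aˣ) {Pr : Set Nat.Primes}
    (θ : BettiHeckeAlg A →+* k) (l : Nat.Primes) (hl : l ∈ Pr)
    (hne : θ (MvPolynomial.X l) ≠ θ (MvPolynomial.C (heckeDegree χ l))) :
    BettiNonEisenstein L χ (bettiResidualSubmonoid Pr θ) :=
  ⟨l, Subalgebra.sub_mem _ (X_mem_supported_set hl) (C_mem_supported_set Pr _), by
    rwa [map_sub, sub_ne_zero]⟩

/-- Elements of order two in `Γ₀(L)/±1` are absent or harmless for `A`. -/
def NoEllipticTwo (A : Type) [CommRing A] (L : ℕ) : Prop :=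
  IsUnit (2 : A) ∨ ∀ γ : Gamma0 L, Matrix.trace ((γ : SL(2, ℤ)) : Matrix (Fin 2) (Fin 2) ℤ) ≠ 0

/-- Elements of order three in `Γ₀(L)/±1` are absent or harmless for `A`. -/
def NoEllipticThree (A : Type) [CommRing A] (L : ℕ) : Prop :=
  IsUnit (3 : A) ∨ ∀ γ : Gamma0 L,
    ¬ (Matrix.trace ((γ : SL(2, ℤ)) : Matrix (Fin 2) (Fin 2) ℤ) = 1 ∨
      Matrix.trace ((γ : SL(2, ℤ)) : Matrix (Fin 2) (Fin 2) ℤ) = -1)

theorem noEllipticTwo_of_dvd (A : Type) [CommRing A] {L : ℕ}
    (hL : 4 ∣ L ∨ ∃ q, q.Prime ∧ q ∣ L ∧ q % 4 = 3) : NoEllipticTwo A L :=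
  Or.inr (not_trace_eq_zero_of_dvd hL)

/-- The elliptic elements are harmless at `θ`. -/
def EllipticHarmless (L : ℕ) (Pr : Set Nat.Primes) (θ : BettiHeckeAlg A →+* k) : Prop :=
  (NoEllipticTwo A L ∧ NoEllipticThree A L) ∨
    (NoEllipticTwo A L ∧ ∃ l : Nat.Primes, l ∈ Pr ∧ (l : ℕ) % 3 = 2 ∧ θ (MvPolynomial.X l) ≠ 0) ∨
    (NoEllipticThree A L ∧ ∃ l : Nat.Primes, l ∈ Pr ∧ (l : ℕ) % 4 = 3 ∧ θ (MvPolynomial.X l) ≠ 0)

theorem bettiRightExact_residual (χ : (ZMod L)ˣ →* Aˣ) (hχ : χ (-1) = 1) [NeZero L]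
    {Pr : Set Nat.Primes} (θ : BettiHeckeAlg A →+* k) (hell : EllipticHarmless L Pr θ) :
    BettiRightExact L χ (bettiResidualSubmonoid Pr θ) := by
  intro V W _ _ _ _ f hf x
  obtain ⟨c, rfl⟩ := BettiMod.mk_surjective x
  have hneg := nebenChar_neg_one (L := L) (χ := χ) hχ
  -- liftability of any class at a harmless order
  have two : NoEllipticTwo A L → ∀ (d : bettiCocycles (Gamma0 L) (nebenChar χ) W) (γ : Gamma0 L),
      Matrix.trace ((γ : SL(2, ℤ)) : Matrix (Fin 2) (Fin 2) ℤ) = 0 →
      ∃ v, f v = (d : Gamma0 L → W) γ ∧ v + (nebenChar χ γ : A) • v = 0 := fun h d γ ht =>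
    h.elim (fun h => exists_lift_trace_zero_of_isUnit h hneg f hf d γ ht)
      (fun h => absurd ht (h γ))
  have three : NoEllipticThree A L → ∀ (d : bettiCocycles (Gamma0 L) (nebenChar χ) W)
      (γ : Gamma0 L), (Matrix.trace ((γ : SL(2, ℤ)) : Matrix (Fin 2) (Fin 2) ℤ) = 1 ∨
        Matrix.trace ((γ : SL(2, ℤ)) : Matrix (Fin 2) (Fin 2) ℤ) = -1) →
      ∃ v, f v = (d : Gamma0 L → W) γ ∧
        v + (nebenChar χ γ : A) • v + (nebenChar χ γ : A) ^ 2 • v = 0 := fun h d γ ht =>
    h.elim (fun h => exists_lift_trace_one_of_isUnit h hneg f hf d γ ht)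
      (fun h => absurd ht (h γ))
  rcases hell with ⟨h2, h3⟩ | ⟨h2, l, hl, hl3, hθ⟩ | ⟨h3, l, hl, hl4, hθ⟩
  · obtain ⟨c', hc'⟩ := exists_bettiCocycles_lift hχ f hf c (two h2 c) (three h3 c)
    exact ⟨1, one_mem _, BettiMod.mk c', by rw [BettiMod.map_mk, hc', one_smul]⟩
  · set d := (bettiHeckeSystem L l).transferCocycles W (isWeight_heckeWeight χ l) c
    obtain ⟨c', hc'⟩ := exists_bettiCocycles_lift hχ f hf d (two h2 d) fun γ ht =>
      exists_lift_hecke_trace_one hneg l hl3 (heckeWeight χ l) f hf c γ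
        (fun x => isWeight_heckeWeight χ l γ x) ht
    refine ⟨MvPolynomial.X l, ⟨X_mem_supported_set hl, hθ⟩, BettiMod.mk c', ?_⟩
    rw [BettiMod.map_mk, hc', BettiMod.X_smul]
    rfl
  · set d := (bettiHeckeSystem L l).transferCocycles W (isWeight_heckeWeight χ l) c
    obtain ⟨c', hc'⟩ := exists_bettiCocycles_lift hχ f hf d
      (fun γ ht => exists_lift_hecke_trace_zero hneg l hl4 (heckeWeight χ l) f hf c γ
        (fun x => isWeight_heckeWeight χ l γ x) ht) (three h3 d)
    refine ⟨MvPolynomial.X l, ⟨X_mem_supported_set hl, hθ⟩, BettiMod.mk c', ?_⟩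
    rw [BettiMod.map_mk, hc', BettiMod.X_smul]
    rfl

section complete

variable [IsLocalRing A] [IsNoetherianRing A] [IsAdicComplete (IsLocalRing.maximalIdeal A) A]
  [NeZero L]

instance bettiMod_finite (χ : (ZMod L)ˣ →* Aˣ) (V : Type) [AddCommGroup V] [Module A V]
    [Module.Finite A V] : Module.Finite A (BettiMod L χ V) :=
  bettiH1_gamma0_finite (A := A) (V := V) L (nebenChar χ)

theorem bettiLoc_finite (χ : (ZMod L)ˣ →* Aˣ) (V : Type) [AddCommGroup V] [Module A V]
    [Module.Finite A V] (Pr : Set Nat.Primes) (θ : BettiHeckeAlg A →+* k)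
    (hθ : ∀ a ∈ IsLocalRing.maximalIdeal A, θ (MvPolynomial.C a) = 0) :
    Module.Finite A (BettiLoc L χ V (bettiResidualSubmonoid Pr θ)) :=
  localizedModule_charSubmonoid_finite _ θ hθ _

/-- The Taylor–Wiles module is finite free over the coefficient ring. -/
theorem bettiLoc_residual_free (χ : (ZMod L)ˣ →* Aˣ) (hχ : χ (-1) = 1) {Pr : Set Nat.Primes}
    (θ : BettiHeckeAlg A →+* k) (hθ : ∀ a ∈ IsLocalRing.maximalIdeal A, θ (MvPolynomial.C a) = 0)
    (hell : EllipticHarmless L Pr θ) (l : Nat.Primes) (hl : l ∈ Pr)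
    (hne : θ (MvPolynomial.X l) ≠ θ (MvPolynomial.C (heckeDegree χ l))) :
    Module.Free A (BettiLoc L χ A (bettiResidualSubmonoid Pr θ)) :=
  haveI := bettiLoc_finite χ A Pr θ hθ
  bettiLoc_free hχ (bettiNonEisenstein_residual χ θ l hl hne)
    (bettiRightExact_residual χ hχ θ hell)

end complete

end FermatLib.MLT

end
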