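import Fermat.Agent.MLT.FreyResidual
import Fermat.Agent.MLT.ModTransfer.Residual
import Fermat.Prelude.Def_GaloisRep_ResidualEquiv

/-!
# The representation attached to a residual witness is `E[p]`

If `W` (semistable, `p` odd, `E[p]` irreducible) is residually modular of level `M`, the attached
representation is equivalent to `E[p] ⊗ k`; hence primes of ramification divide `M`.  Also: `E[p]`
is non-Eisenstein at infinitely many primes.
-/

set_option autoImplicit false
set_option linter.style.haveILetI false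

noncomputable section

open Polynomial WeierstrassCurve WeierstrassCurve.Affine.Point
open scoped WeierstrassCurve.Affine

namespace FermatLib.MLT

local notation "Qbar" => AlgebraicClosure ℚ
local notation "Γℚ" => (AlgebraicClosure ℚ ≃ₐ[ℚ] AlgebraicClosure ℚ)
local notation "ZbarC" => integralClosure ℤ ℂ

variable {W : WeierstrassCurve ℤ} {p M : ℕ} [Fact p.Prime]

theorem trace_curveMat_eq_galoisTrace (hΔ : W.Δ ≠ 0) (σ : Γℚ) :
    (curveMat W hΔ p σ).trace =
      galoisTrace (K := Qbar) ℚ (W.map (Int.castRingHom ℚ)) p σ := by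
  show (Galois.repMatrix _ _ σ).trace = _
  rw [Galois.trace_repMatrix]
  rfl

theorem trace_curveResidualRepExt (hΔ : W.Δ ≠ 0) {k : Type} [Field k] (ι : ZMod p →+* k)
    (σ : Γℚ) : LinearMap.trace k _ ((curveResidualRepExt W hΔ p ι).ρ σ) =
      ι (galoisTrace (K := Qbar) ℚ (W.map (Int.castRingHom ℚ)) p σ) := by
  letI : Algebra (ZMod p) k := ι.toAlgebra
  show LinearMap.trace k _ (((curveResidualRep W hΔ p).ρ σ).baseChange k) = _
  rw [LinearMap.trace_baseChange]
  rfl

/-- The representation attached to a residual witness is equivalent to `E[p]`. -/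
theorem exists_attached_isEquiv_curveResidualRepExt (hattach : Galois.PadicAttachment)
    (hΔ : W.Δ ≠ 0) (hp2 : p ≠ 2) (hirr : W.ModRepIsIrreducible p) (hM : M ≠ 0)
    (hres : W.IsResiduallyModularOfLevel p M) :
    ∃ (f : CuspForm (CongruenceSubgroup.Gamma0 M) 2) (k : Type) (_ : Field k) (_ : CharP k p)
      (φ : ZbarC →+* k) (ρ : ResidualGaloisRep k),
      f.IsNormalizedEigenform ∧ Function.Surjective φ ∧ ρ.IsAttachedTo f φ ∧
      (∀ ℓ : ℕ, ℓ.Prime → ¬ ℓ ∣ M * p → ρ.IsUnramifiedAt ℓ) ∧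
      (curveResidualRepExt W hΔ p (ZMod.castHom (dvd_refl p) k)).IsEquiv ρ := by
  obtain ⟨f, 𝔪, hf, hmax, hpm, hwit⟩ := hres
  have := hmax
  let k := ZbarC ⧸ 𝔪
  letI : Field k := Ideal.Quotient.field 𝔪
  haveI : CharP k p := by
    refine (CharP.charP_iff_prime_eq_zero Fact.out).mpr ?_
    rw [← map_natCast (Ideal.Quotient.mk 𝔪), Ideal.Quotient.eq_zero_iff_mem]
    exact hpm
  obtain ⟨ρ, hatt, hunr, hch⟩ := exists_attached_charpoly_eq hattach hΔ hM hf (k := k)
    (Ideal.Quotient.mk 𝔪) ∅ fun q hq hqg hqM hqp _ => by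
      obtain ⟨a, ha, hmem⟩ := hwit q hq hqg hqM hqp
      exact ⟨a, ha, by rw [Ideal.Quotient.eq.2 hmem, map_intCast]⟩
  refine ⟨f, k, inferInstance, inferInstance, Ideal.Quotient.mk 𝔪, ρ, hf,
    Ideal.Quotient.mk_surjective, hatt, hunr,
    Galois.residual_isEquiv_of_trace_eq (curveResidualRepExt_isAbsolutelyIrreducible W hΔ p _ hp2 hirr)
      fun σ => ?_⟩
  rw [trace_curveResidualRepExt,
    (Galois.trace_det_of_linearMap_charpoly_eq ρ.finrank_eq _ (hch σ)).1]

/-- A ramified prime of `E[p]` divides every level of residual modularity. -/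
theorem dvd_level_of_not_isUnramifiedAt (hattach : Galois.PadicAttachment) (hΔ : W.Δ ≠ 0)
    (hp2 : p ≠ 2) (hirr : W.ModRepIsIrreducible p) (hM : M ≠ 0)
    (hres : W.IsResiduallyModularOfLevel p M) {q : ℕ} (hq : q.Prime) (hqp : q ≠ p)
    (hram : ¬ (curveResidualRep W hΔ p).IsUnramifiedAt q) : q ∣ M := by
  by_contra hqM
  obtain ⟨f, k, _, _, φ, ρ, -, -, -, hunr, ⟨e⟩⟩ :=
    exists_attached_isEquiv_curveResidualRepExt hattach hΔ hp2 hirr hM hres
  refine hram ((curveResidualRepExt_isUnramifiedAt_iff W hΔ p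
    (ZMod.castHom (dvd_refl p) k) q).mp fun A hA σ hσ => LinearMap.ext fun x => ?_)
  refine e.toLinearEquiv.injective ?_
  rw [e.map_apply, hunr q hq (fun h => (hq.dvd_mul.mp h).elim hqM fun h' =>
    hqp ((Nat.prime_dvd_prime_iff_eq hq Fact.out).mp h')) A hA σ hσ]
  rfl

/-- `E[p]` irreducible: infinitely many good primes `ℓ` with `a_ℓ ≢ ℓ + 1`. -/
theorem exists_apOfModel_ne_succ (hΔ : W.Δ ≠ 0) (hp2 : p ≠ 2) (hirr : W.ModRepIsIrreducible p)
    (S : Finset ℕ) : ∃ ℓ : ℕ, ℓ.Prime ∧ ℓ ∉ S ∧ ℓ ≠ p ∧ W.IsGoodPrimeFor ℓ ∧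
      ¬ (p : ℤ) ∣ W.apOfModel ℓ - ((ℓ : ℤ) + 1) := by
  by_contra hcon
  push Not at hcon
  let χ : Γℚ →* ZMod p := (Units.coeHom (ZMod p)).comp (ExtCitation.cycloChar p)
  let r : Γℚ →* Matrix (Fin 2) (Fin 2) (ZMod p) :=
    { toFun := fun σ => Matrix.diagonal ![1, χ σ]
      map_one' := by
        rw [map_one]
        ext i j; fin_cases i <;> fin_cases j <;> simp
      map_mul' := fun σ τ => by
        rw [Matrix.diagonal_mul_diagonal, map_mul]
        congr 1
        funext i; fin_cases i <;> simp }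
  have hW := factorsThroughFiniteLevel_torsionMatrixRep (p := p) hΔ
  have hr : GaloisFactorsThroughFiniteLevel r := by
    obtain ⟨L, hL, h1⟩ := hW
    refine ⟨L, hL, fun σ hσ => ?_⟩
    have hχ : χ σ = 1 := by
      show ((ExtCitation.cycloChar p σ : (ZMod p)ˣ) : ZMod p) = 1
      rw [← det_torsionMatrixRep hΔ σ, h1 σ hσ, Matrix.det_one]
    show Matrix.diagonal ![1, χ σ] = 1
    rw [hχ]
    ext i j; fin_cases i <;> fin_cases j <;> simp
  have hrch : ∀ σ, (r σ).charpoly = X ^ 2 - C (1 + χ σ) * X + C (χ σ) := fun σ => by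
    rw [Matrix.charpoly_fin_two]
    simp [r]
  have hall : ∀ g, (torsionMatrixRep p W hΔ g).charpoly = (r g).charpoly := by
    refine Galois.matrix_charpoly_eq_of_frobenius _ _ hW hr
      (S ∪ {p} ∪ W.Δ.natAbs.primeFactors) fun ℓ hℓ hℓS A hA σ hσ => ?_
    simp only [Finset.mem_union, Finset.mem_singleton, not_or] at hℓS
    have hg : W.IsGoodPrimeFor ℓ := fun hd => hℓS.2
      (hℓ.mem_primeFactors (Int.natCast_dvd.1 hd) (by simpa using hΔ))
    have hap : ((W.apOfModel ℓ : ℤ) : ZMod p) = 1 + (ℓ : ZMod p) := by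
      have h := (ZMod.intCast_zmod_eq_zero_iff_dvd _ p).2 (hcon ℓ hℓ hℓS.1.1 hℓS.1.2 hg)
      push_cast at h
      linear_combination h
    have hχ : χ σ = (ℓ : ZMod p) := cycloChar_of_isFrobeniusAt hℓ hℓS.1.2 hA hσ
    rw [hrch, charpoly_torsionMatrixRep, galoisTrace_of_isFrobeniusAt hℓ hg hℓS.1.2 hA hσ, hap,
      cycloChar_of_isFrobeniusAt hℓ hℓS.1.2 hA hσ, hχ]
  have htr : ∀ σ, (curveMat W hΔ p σ).trace = (r σ).trace := fun σ => by
    have h := congrArg (fun q : (ZMod p)[X] => q.coeff 1) (hall σ)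
    rw [charpoly_torsionMatrixRep, Matrix.charpoly_fin_two] at h
    simp [Polynomial.coeff_X_pow, Polynomial.coeff_C] at h
    rw [trace_curveMat_eq_galoisTrace, h]
  obtain ⟨σ, hσ⟩ := ((((Galois.isAbsolutelyIrreducible_iff_hasFullSpan _).mp
    (curveResidualRep_isAbsolutelyIrreducible W hΔ p hp2 hirr)).of_trace_eq htr).noStableLine)
    ![1, 0] (by simp)
  refine hσ 1 ?_
  funext i
  fin_cases i <;> simp [r]

end FermatLib.MLT
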