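import Fermat.Agent.MLT.ResidualSemistable
import Fermat.Agent.MLT.ModTransfer.Torsion
import Fermat.Agent.EC.AtPSign
import Fermat.Agent.EC.AtPOrdinary

/-!
# Frobenius on `E[p]` at an odd prime of multiplicative reduction

At an odd prime `q ≠ p` of multiplicative reduction a decomposition element has an eigenvalue
`±1` on `E[p]`; so Frobenius has eigenvalues `s, sq` with `s = ±1`.
-/

set_option autoImplicit false
set_option linter.style.haveILetI false

noncomputable section

open WeierstrassCurve WeierstrassCurve.Affine Matrix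
open scoped WeierstrassCurve.Affine Pointwise

namespace FermatLib.MLT

open FermatLib.AtP FermatLib.EC

local notation "Qbar" => AlgebraicClosure ℚ
local notation "Γℚ" => (AlgebraicClosure ℚ ≃ₐ[ℚ] AlgebraicClosure ℚ)

variable (W : WeierstrassCurve ℤ) (hΔ : W.Δ ≠ 0) (p : ℕ) [Fact p.Prime]

/-- A decomposition element at an odd multiplicative prime `q ≠ p` has an eigenvalue `±1`. -/
theorem exists_sign_trace_curveMat {q : ℕ} (hq : q.Prime) (hq2 : q ≠ 2) (hqp : q ≠ p)
    (hd : (q : ℤ) ∣ W.Δ) (hc₄ : ¬ (q : ℤ) ∣ W.c₄) {A : ValuationSubring Qbar}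
    (hA : A.LiesOverPrime q) {σ : Γℚ} (hσ : σ ∈ A.decompositionSubgroup ℚ) :
    ∃ s : ZMod p, (s = 1 ∨ s = -1) ∧
      (curveMat W hΔ p σ).trace = s * (1 + (curveMat W hΔ p σ).det) := by
  haveI := isElliptic_map_rat hΔ
  have hI := integralAt_intCurve W A
  have hn : res A (p : Qbar) ≠ 0 := res_natCast_ne_zero A hq hA fun h =>
    hqp ((Nat.prime_dvd_prime_iff_eq hq Fact.out).mp h)
  obtain ⟨h1, h2, h3⟩ := intCurve_mult hq hA hΔ hd hc₄
  have hmem : ∀ x : Qbar, σ x ∈ A ↔ x ∈ A := fun x => by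
    rw [← A.valuation_le_one_iff, valuation_apply_of_mem_decomposition hσ, A.valuation_le_one_iff]
  let H : AddSubgroup (Pts W) := E0 hI
  have hH : ∀ P : Pts W, InE0 A P → σ • P ∈ H ∧ P ∈ H := fun P h =>
    ⟨(inE0_smul_iff hI hmem).mpr h, h⟩
  have pointwise : ∀ P : Pts W, σ • P - P ∈ H ∨ σ • P + P ∈ H := by
    intro P
    by_cases hP : InE0 A P
    · exact Or.inl (H.sub_mem (hH P hP).1 (hH P hP).2)
    match P with
    | .zero => exact absurd trivial hP
    | .some x y h =>
      have hx : A.valuation x ≤ 1 := not_lt.1 fun hlt =>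
        hP (inE0_of_isKerPt W (P := Point.some x y h) hlt)
      obtain ⟨h', e⟩ := smul_eq_point W σ h
      have hE := integralCoeffs_bar (A := A) W
      rcases exists_sign_of_singular hE (v_two_eq_one hq hq2 hA) (v_c₄_eq_one W hq hA hc₄) hx
        (fun hs => hP (inE0_of_isSmoothPt W hs))
        (fun z => valuation_apply_of_mem_decomposition hσ z)
        (WeierstrassCurve.map_baseChange (W.map (Int.castRingHom ℚ)) σ.toAlgHom) h' with
        (k | k) | (k | k)
      · left; rw [e]; exact inE0_of_isKerPt W k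
      · left; rw [e]; exact inE0_of_isSmoothPt W k
      · right; rw [e]; exact inE0_of_isKerPt W k
      · right; rw [e]; exact inE0_of_isSmoothPt W k
  obtain ⟨s, hs, hall⟩ : ∃ s : ℤ, (s = 1 ∨ s = -1) ∧
      ∀ P : Pts W, σ • P - s • P ∈ H := by
    by_cases hm : ∀ P : Pts W, σ • P - P ∈ H
    · exact ⟨1, Or.inl rfl, fun P => by rw [one_smul]; exact hm P⟩
    push Not at hm
    obtain ⟨P, hP⟩ := hm
    refine ⟨-1, Or.inr rfl, fun Q => ?_⟩
    rw [neg_smul, one_smul, sub_neg_eq_add]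
    by_contra hQ
    have hPp := (pointwise P).resolve_left hP
    have hQm := (pointwise Q).resolve_right hQ
    rcases pointwise (P + Q) with h | h
    · refine hP ?_
      have e : σ • P - P = (σ • (P + Q) - (P + Q)) - (σ • Q - Q) := by rw [galois_add]; abel
      rw [e]
      exact H.sub_mem h hQm
    · refine hQ ?_
      have e : σ • Q + Q = (σ • (P + Q) + (P + Q)) - (σ • P + P) := by rw [galois_add]; abel
      rw [e]
      exact H.sub_mem h hPp
  refine ⟨(s : ZMod p), hs.imp (fun h => by simp [h]) (fun h => by simp [h]), ?_⟩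
  obtain ⟨T, hT, hT0⟩ := exists_torsion_not_inE0 (A := A) hI h1 h2 h3 Fact.out hn
  obtain ⟨f, hf⟩ : ∃ f, f = (curveResidualRep W hΔ p).ρ σ - (s : ZMod p) • 1 := ⟨_, rfl⟩
  have hdet : LinearMap.det f = 0 := by
    by_contra h0
    have hu : IsUnit f := (LinearMap.isUnit_iff_isUnit_det f).2 (isUnit_iff_ne_zero.2 h0)
    obtain ⟨y₀, hy₀⟩ := ((Module.End.isUnit_iff f).1 hu).2
      (⟨T, (Submodule.mem_torsionBy_iff _ _).2 (by rw [natCast_zsmul]; exact hT)⟩ : Tors W p)
    suffices hex : ∀ y : Tors W p, σ • y - (s : ZMod p) • y =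
        ⟨T, (Submodule.mem_torsionBy_iff _ _).2 (by rw [natCast_zsmul]; exact hT)⟩ → False from
      hex y₀ (by rw [hf] at hy₀; exact hy₀)
    intro y hy
    refine hT0 ?_
    have hy' := congrArg Subtype.val hy
    rw [Int.cast_smul_eq_zsmul] at hy'
    rw [← show σ • (y : Pts W) - s • (y : Pts W) = T from hy']
    exact hall _
  obtain ⟨b, hb⟩ : ∃ b, b = FermatLib.Galois.residualBasis (curveResidualRep W hΔ p) := ⟨_, rfl⟩
  have hM : (curveMat W hΔ p σ - (s : ZMod p) • 1).det = 0 := by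
    have e : curveMat W hΔ p σ - (s : ZMod p) • 1 = LinearMap.toMatrix b b f := by
      rw [hf, map_sub, map_smul, hb, show LinearMap.toMatrix _ _ (1 : Module.End (ZMod p) _) = 1 from
        LinearMap.toMatrix_one _]
      rfl
    rw [e, LinearMap.det_toMatrix, hdet]
  simp only [Matrix.det_fin_two, Matrix.sub_apply, Matrix.smul_apply, Matrix.one_apply_eq, ne_eq,
    Fin.zero_ne_one, not_false_eq_true, Matrix.one_apply_ne, one_ne_zero, smul_eq_mul, mul_one,
    mul_zero, sub_zero] at hM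
  rw [Matrix.trace_fin_two, Matrix.det_fin_two]
  have hs2 : (s : ZMod p) * s = 1 := by rcases hs with rfl | rfl <;> simp
  linear_combination -(s : ZMod p) * hM - ((curveMat W hΔ p σ 0 0) + (curveMat W hΔ p σ 1 1) - s) * hs2

theorem det_curveMat (σ : Γℚ) :
    (curveMat W hΔ p σ).det = ((ExtCitation.cycloChar p σ : (ZMod p)ˣ) : ZMod p) := by
  show (FermatLib.Galois.repMatrix _ _ σ).det = _
  rw [FermatLib.Galois.det_repMatrix, curveResidualRep_det]

/-- Frobenius at an odd multiplicative prime `q ≠ p`: trace `± (1 + q)`, determinant `q`. -/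
theorem exists_sign_trace_curveMat_frobenius {q : ℕ} (hq : q.Prime) (hq2 : q ≠ 2) (hqp : q ≠ p)
    (hd : (q : ℤ) ∣ W.Δ) (hc₄ : ¬ (q : ℤ) ∣ W.c₄) {A : ValuationSubring Qbar}
    (hA : A.LiesOverPrime q) {σ : Γℚ} (hσ : A.IsFrobeniusAt σ q) :
    ∃ s : ZMod p, (s = 1 ∨ s = -1) ∧ (curveMat W hΔ p σ).trace = s * (1 + (q : ZMod p)) ∧
      (curveMat W hΔ p σ).det = q := by
  have hdet : (curveMat W hΔ p σ).det = q := by
    rw [det_curveMat, cycloChar_of_isFrobeniusAt hq hqp hA hσ]
  obtain ⟨s, hs, h⟩ := exists_sign_trace_curveMat W hΔ p hq hq2 hqp hd hc₄ hA hσ.1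
  exact ⟨s, hs, hdet ▸ h, hdet⟩

/-- The three shapes of such a Frobenius: distinct eigenvalues (`q ≢ 1`), scalar, or Jordan. -/
theorem frobenius_shape_of_trace {M : Matrix (Fin 2) (Fin 2) (ZMod p)} {s : ZMod p} {q : ℕ}
    (hs : s = 1 ∨ s = -1) (ht : M.trace = s * (1 + (q : ZMod p))) (hd : M.det = q) :
    (¬ q ≡ 1 [MOD p] → M.trace ^ 2 - 4 * M.det ≠ 0) ∧
      (q ≡ 1 [MOD p] → (M - s • 1) * (M - s • 1) = 0 ∧ (M = s • 1 ∨ ∀ c : ZMod p, M ≠ c • 1)) := by
  have hs2 : s * s = 1 := by rcases hs with rfl | rfl <;> simp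
  refine ⟨fun hq1 h0 => hq1 ?_, fun hq1 => ?_⟩
  · rw [ht, hd] at h0
    have h1 : ((q : ZMod p) - 1) ^ 2 = 0 := by
      linear_combination h0 - (1 + (q : ZMod p)) ^ 2 * hs2
    rw [pow_eq_zero_iff two_ne_zero, sub_eq_zero] at h1
    rw [← ZMod.natCast_eq_natCast_iff, h1, Nat.cast_one]
  rw [← ZMod.natCast_eq_natCast_iff, Nat.cast_one] at hq1
  rw [hq1] at ht hd
  rw [Matrix.det_fin_two] at hd
  rw [Matrix.trace_fin_two] at ht
  have hsq : (M - s • 1) * (M - s • 1) = 0 := by
    ext i j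
    fin_cases i <;> fin_cases j <;>
      simp [Matrix.mul_apply, Fin.sum_univ_two, Matrix.sub_apply, Matrix.smul_apply]
    · linear_combination M 0 0 * ht - hd + hs2
    · linear_combination M 0 1 * ht
    · linear_combination M 1 0 * ht
    · linear_combination M 1 1 * ht - hd + hs2
  refine ⟨hsq, ?_⟩
  by_cases hM : M = s • 1
  · exact Or.inl hM
  refine Or.inr fun c hc => hM ?_
  rw [hc, ← sub_smul, smul_mul_smul_comm, one_mul] at hsq
  have h00 := congrArg (fun X : Matrix (Fin 2) (Fin 2) (ZMod p) => X 0 0) hsq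
  simp only [Matrix.smul_apply, Matrix.one_apply_eq, Matrix.zero_apply, smul_eq_mul, mul_one,
    mul_self_eq_zero, sub_eq_zero] at h00
  rw [hc, h00]

end FermatLib.MLT
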