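import Fermat.Agent.MLT.ResidualTW

/-!
# The residual representation of a curve over a finite field of coefficients
-/

set_option autoImplicit false
set_option linter.style.haveILetI false

noncomputable section

open Polynomial
open scoped TensorProduct

namespace FermatLib.MLT

open FermatLib.Galois

local notation "Qbar" => AlgebraicClosure ℚ
local notation "Γℚ" => (AlgebraicClosure ℚ ≃ₐ[ℚ] AlgebraicClosure ℚ)

/-- A quadratic polynomial over `ZMod p` has a root in every finite extension of even degree. -/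
theorem exists_root_of_two_dvd_finrank {p : ℕ} [Fact p.Prime] (k : Type) [Field k]
    [Algebra (ZMod p) k] [Finite k] (hk : 2 ∣ Module.finrank (ZMod p) k) (t d : ZMod p) :
    ∃ r : k, r ^ 2 - algebraMap _ k t * r + algebraMap _ k d = 0 := by
  set f : (ZMod p)[X] := X ^ 2 - C t * X + C d with hf
  have hdeg : f.natDegree = 2 := by rw [hf]; compute_degree!
  by_cases hirr : Irreducible f
  · haveI := Fact.mk hirr
    have hf0 : f ≠ 0 := hirr.ne_zero
    haveI : Module.Finite (ZMod p) (AdjoinRoot f) := (AdjoinRoot.powerBasis hf0).finite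
    haveI : Finite (AdjoinRoot f) := Module.finite_of_finite (ZMod p)
    have h2 : Module.finrank (ZMod p) (AdjoinRoot f) ∣ Module.finrank (ZMod p) k := by
      rw [(AdjoinRoot.powerBasis hf0).finrank, AdjoinRoot.powerBasis_dim, hdeg]; exact hk
    obtain ⟨φ⟩ := FiniteField.nonempty_algHom_of_finrank_dvd h2
    refine ⟨φ (AdjoinRoot.root f), ?_⟩
    have h : φ (aeval (AdjoinRoot.root f) f) = 0 := by
      rw [AdjoinRoot.aeval_eq, AdjoinRoot.mk_self, map_zero]
    rw [← aeval_algHom_apply] at h
    have h' : aeval (φ (AdjoinRoot.root f)) (X ^ 2 - C t * X + C d) = 0 := h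
    simpa using h'
  · obtain ⟨r, hr⟩ : ∃ r, f.IsRoot r := by
      by_contra hno
      push Not at hno
      refine hirr ((Polynomial.irreducible_iff_roots_eq_zero_of_degree_le_three (by omega) (by omega)).mpr ?_)
      rw [Multiset.eq_zero_iff_forall_notMem]
      exact fun x hx => hno x (Polynomial.isRoot_of_mem_roots hx)
    refine ⟨algebraMap _ k r, ?_⟩
    have h := congrArg (algebraMap (ZMod p) k) (show f.eval r = 0 from hr)
    simpa [hf] using h

variable (W : WeierstrassCurve ℤ) (hΔ : W.Δ ≠ 0) (p : ℕ) [Fact p.Prime]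
  {k : Type} [Field k] (ι : ZMod p →+* k)

/-- The mod `p` representation with coefficients extended along `ι`. -/
def curveResidualRepExt : ResidualGaloisRep k :=
  (curveResidualRep W hΔ p).baseChangeAlong ι

theorem curveResidualRepExt_charpoly (σ : Γℚ) :
    LinearMap.charpoly ((curveResidualRepExt W hΔ p ι).ρ σ) =
      (LinearMap.charpoly ((curveResidualRep W hΔ p).ρ σ)).map ι := by
  letI : Algebra (ZMod p) k := ι.toAlgebra
  show LinearMap.charpoly (((curveResidualRep W hΔ p).ρ σ).baseChange k) = _
  rw [LinearMap.charpoly_baseChange]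
  rfl

theorem curveResidualRepExt_det (σ : Γℚ) :
    LinearMap.det ((curveResidualRepExt W hΔ p ι).ρ σ) =
      ι ((ExtCitation.cycloChar p σ : (ZMod p)ˣ) : ZMod p) := by
  rw [LinearMap.det_eq_sign_charpoly_coeff, curveResidualRepExt_charpoly, coeff_map,
    ← curveResidualRep_det W hΔ p σ, LinearMap.det_eq_sign_charpoly_coeff,
    (curveResidualRepExt W hΔ p ι).finrank_eq, (curveResidualRep W hΔ p).finrank_eq, map_mul,
    map_pow, map_neg, map_one]

theorem curveResidualRepExt_isOdd : (curveResidualRepExt W hΔ p ι).IsOdd := fun c hc hc1 => by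
  rw [curveResidualRepExt_det, cycloChar_involution p hc hc1, map_neg, map_one]

theorem curveResidualRepExt_detIsCyclotomic :
    (GaloisRepAdic.ofResidualGaloisRep (curveResidualRepExt W hΔ p ι)).DetIsCyclotomic p := by
  have hp0 : (p : k) = 0 := by rw [← map_natCast ι, ZMod.natCast_self, map_zero]
  refine ⟨by rw [hp0]; exact zero_mem _, fun n σ a ha => ?_⟩
  rcases Nat.eq_zero_or_pos n with rfl | hn
  · rw [pow_zero, Nat.cast_one, Ideal.span_singleton_one]
    trivial
  obtain ⟨ζ, hζ⟩ := FermatLib.Mazur.exists_isPrimitiveRoot_qbar p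
  have hpn : ζ ^ p ^ n = 1 := by
    obtain ⟨m, rfl⟩ := Nat.exists_eq_succ_of_ne_zero hn.ne'
    rw [pow_succ', pow_mul, hζ.pow_eq_one, one_pow]
  show LinearMap.det ((curveResidualRepExt W hΔ p ι).ρ σ) - (a : k) ∈ _
  rw [curveResidualRepExt_det, FermatLib.Mazur.cycloChar_eq_of_apply_eq p hζ σ (ha ζ hpn),
    map_natCast, sub_self]
  exact zero_mem _

theorem curveResidualRepExt_isAbsolutelyIrreducible (hp2 : p ≠ 2)
    (h : W.ModRepIsIrreducible p) :
    (curveResidualRepExt W hΔ p ι).IsAbsolutelyIrreducible :=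
  (isAbsolutelyIrreducible_baseChangeAlong_iff ι _).mpr
    (curveResidualRep_isAbsolutelyIrreducible W hΔ p hp2 h)

theorem curveResidualRepExt_isUnramifiedAt_iff (q : ℕ) :
    (curveResidualRepExt W hΔ p ι).IsUnramifiedAt q ↔
      (curveResidualRep W hΔ p).IsUnramifiedAt q := by
  letI : Algebra (ZMod p) k := ι.toAlgebra
  refine forall_congr' fun A => forall_congr' fun _ => forall_congr' fun σ => forall_congr' fun _ => ?_
  let b := residualBasis (curveResidualRep W hΔ p)
  constructor
  · intro h
    have h' : LinearMap.toMatrix (Algebra.TensorProduct.basis k b)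
        (Algebra.TensorProduct.basis k b) (((curveResidualRep W hΔ p).ρ σ).baseChange k) = 1 := by
      rw [show ((curveResidualRep W hΔ p).ρ σ).baseChange k = 1 from h]
      exact LinearMap.toMatrix_one _
    rw [LinearMap.toMatrix_baseChange] at h'
    apply (LinearMap.toMatrix b b).injective
    rw [show (1 : Module.End (ZMod p) _) = LinearMap.id from rfl, LinearMap.toMatrix_id]
    apply Matrix.map_injective (algebraMap (ZMod p) k).injective
    dsimp only
    rw [h', Matrix.map_one _ (map_zero _) (map_one _)]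
  · intro h
    show ((curveResidualRep W hΔ p).ρ σ).baseChange k = 1
    rw [h, LinearMap.baseChange_one]

/-- Eigenvalues split over a finite coefficient field of even degree. -/
theorem curveResidualRepExt_split [Finite k]
    (hk : letI : Algebra (ZMod p) k := ι.toAlgebra; 2 ∣ Module.finrank (ZMod p) k) (σ : Γℚ) :
    ∃ α β : k, LinearMap.charpoly ((curveResidualRepExt W hΔ p ι).ρ σ) =
      (X - C α) * (X - C β) := by
  letI : Algebra (ZMod p) k := ι.toAlgebra
  set f := LinearMap.charpoly ((curveResidualRep W hΔ p).ρ σ) with hf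
  have hdeg : f.natDegree = 2 := by
    rw [hf, LinearMap.charpoly_natDegree, (curveResidualRep W hΔ p).finrank_eq]
  have hmon : f.Monic := LinearMap.charpoly_monic _
  have hexp : f = X ^ 2 - C (-f.coeff 1) * X + C (f.coeff 0) := by
    conv_lhs => rw [hmon.as_sum, hdeg]
    simp only [Finset.sum_range_succ, Finset.sum_range_zero, pow_zero, pow_one, zero_add, mul_one,
      map_neg]
    ring
  obtain ⟨r, hr⟩ := exists_root_of_two_dvd_finrank k hk (-f.coeff 1) (f.coeff 0)
  refine ⟨r, ι (-f.coeff 1) - r, ?_⟩
  rw [curveResidualRepExt_charpoly, ← hf]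
  conv_lhs => rw [hexp]
  simp only [Polynomial.map_add, Polynomial.map_sub, Polynomial.map_mul, Polynomial.map_pow,
    Polynomial.map_neg, map_X, map_C, map_sub, map_neg]
  have hr' : C (r ^ 2 - ι (-f.coeff 1) * r + ι (f.coeff 0)) = (0 : k[X]) := by
    rw [show ι = algebraMap (ZMod p) k from rfl, hr, map_zero]
  simp only [map_add, map_sub, map_mul, map_pow, map_neg] at hr'
  linear_combination hr'

/-- The Taylor–Wiles irreducibility hypothesis for the extended representation. -/
theorem curveResidualRepExt_stable (hp2 : p ≠ 2) (hirr : W.ModRepIsIrreducible p)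
    (haway : ∀ q : ℕ, q.Prime → q ≠ p → ∀ A : ValuationSubring Qbar, A.LiesOverPrime q →
      ∀ σ ∈ A.inertiaSubgroupIn ℚ, (curveMat W hΔ p σ).trace = 2)
    (hat : ∀ A : ValuationSubring Qbar, A.LiesOverPrime p →
      HasInertialEigenOne (curveMat W hΔ p) A ∨ HasInertialCartan (curveMat W hΔ p) A)
    (K : Type) [Field K] [Algebra k K] (G : Subgroup Γℚ) (hG : G.index = 2)
    (V : Submodule K ((curveResidualRepExt W hΔ p ι).baseChange K).V)
    (hV : ∀ σ ∈ G, ∀ x ∈ V, ((curveResidualRepExt W hΔ p ι).baseChange K).ρ σ x ∈ V) :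
    V = ⊥ ∨ V = ⊤ := by
  refine stable_eq_bot_or_top_of_hasFullSpan _ G ?_ K V hV
  letI : Algebra (ZMod p) k := ι.toAlgebra
  refine HasFullSpan.of_trace_eq
    ((curveResidualRep_hasFullSpan_index_two W hΔ p hp2 hirr haway hat G hG).repMap ι) fun σ => ?_
  show _ = (repMatrix _ _ (σ : Γℚ)).trace
  rw [trace_repMap, trace_repMatrix]
  show ι (repMatrix _ _ (σ : Γℚ)).trace = _
  rw [trace_repMatrix]
  exact (LinearMap.trace_baseChange _ k).symm

end FermatLib.MLT
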