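import Fermat.Agent.MLT.InertiaShape
import Fermat.Agent.MLT.ResidualCurveExt
import Fermat.Agent.EC.RedBridgeMult
import Fermat.Agent.Basic.FreyCurveFacts

/-!
# Residual representations of semistable curves: the hypotheses of Taylor–Wiles

For a semistable model over `ℤ` and an odd prime `p` with irreducible `E[p]`: the residual
representation stays absolutely irreducible on subgroups of index two, and it is ramified at a
prime `q ≠ p` exactly when `p` does not divide `v_q(Δ)`.
-/

set_option autoImplicit false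
set_option linter.style.haveILetI false

noncomputable section

open WeierstrassCurve WeierstrassCurve.Affine
open scoped WeierstrassCurve.Affine Pointwise

namespace FermatLib.MLT

open FermatLib.AtP FermatLib.EC

local notation "Qbar" => AlgebraicClosure ℚ
local notation "Γℚ" => (AlgebraicClosure ℚ ≃ₐ[ℚ] AlgebraicClosure ℚ)

variable (W : WeierstrassCurve ℤ) (hΔ : W.Δ ≠ 0) (p : ℕ) [Fact p.Prime]

omit [Fact p.Prime] in
theorem nsmul_tors_eq_zero (z : Tors W p) : p • (z : Pts W) = 0 := by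
  rw [← natCast_zsmul]; exact (Submodule.mem_torsionBy_iff _ _).1 z.2

/-- Inertia away from `p` at a good prime fixes `E[p]`. -/
theorem smul_eq_self_of_not_dvd_Δ {q : ℕ} (hq : q.Prime) (hqp : q ≠ p) (hgood : ¬ (q : ℤ) ∣ W.Δ)
    {A : ValuationSubring Qbar} (hA : A.LiesOverPrime q) {σ : Γℚ}
    (hσ : σ ∈ A.inertiaSubgroupIn ℚ) {P : Pts W} (hP : p • P = 0) : σ • P = P := by
  refine smul_eq_self_of_good (integralAt_intCurve W A) ?_ (fixesResidues_of_mem_inertia hσ)
    (res_natCast_ne_zero A hq hA fun h => hqp ?_) hP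
  · rw [res_Δ_intCurve]
    exact (res_intCast_ne_zero_iff A hq hA W.Δ).mpr hgood
  · exact (Nat.prime_dvd_prime_iff_eq hq Fact.out).mp h

/-- Inertia away from `p` is unipotent on `E[p]` at a semistable prime. -/
theorem trace_curveMat_inertia_away {q : ℕ} (hq : q.Prime) (hqp : q ≠ p)
    (hss : (q : ℤ) ∣ W.Δ → ¬ (q : ℤ) ∣ W.c₄) {A : ValuationSubring Qbar} (hA : A.LiesOverPrime q)
    {σ : Γℚ} (hσ : σ ∈ A.inertiaSubgroupIn ℚ) : (curveMat W hΔ p σ).trace = 2 := by
  obtain ⟨f, hf⟩ : ∃ f, f = (curveResidualRep W hΔ p).ρ σ - 1 := ⟨_, rfl⟩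
  have hnil : IsNilpotent f := by
    refine ⟨2, ?_⟩
    rw [pow_two, hf]
    refine LinearMap.ext fun (z : Tors W p) => Subtype.ext ?_
    show σ • (σ • (z : Pts W) - (z : Pts W)) - (σ • (z : Pts W) - (z : Pts W)) = 0
    rw [sub_eq_zero]
    by_cases hd : (q : ℤ) ∣ W.Δ
    · exact smul_smul_sub_eq_int hq hA hΔ hd (hss hd) hσ hσ
        (fun h => hqp ((Nat.prime_dvd_prime_iff_eq hq Fact.out).mp h)) (nsmul_tors_eq_zero W p z)
    · rw [smul_eq_self_of_not_dvd_Δ W p hq hqp hd hA hσ (nsmul_tors_eq_zero W p z), sub_self,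
        smul_zero]
  have htr : LinearMap.trace (ZMod p) _ ((curveResidualRep W hΔ p).ρ σ) = 2 := by
    have h := (LinearMap.isNilpotent_trace_of_isNilpotent hnil).eq_zero
    rw [hf, map_sub, LinearMap.trace_one, (curveResidualRep W hΔ p).finrank_eq,
      sub_eq_zero] at h
    rw [h]; rfl
  show (FermatLib.Galois.repMatrix _ _ σ).trace = 2
  rw [FermatLib.Galois.trace_repMatrix, htr]

/-- The representation is ramified at a semistable `q ≠ p` exactly when `p ∤ v_q(Δ)`. -/
theorem curveResidualRep_isUnramifiedAt_iff {q : ℕ} (hq : q.Prime) (hqp : q ≠ p)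
    (hss : (q : ℤ) ∣ W.Δ → ¬ (q : ℤ) ∣ W.c₄) :
    (curveResidualRep W hΔ p).IsUnramifiedAt q ↔ p ∣ padicValInt q W.Δ := by
  constructor
  · intro h
    by_cases hd : (q : ℤ) ∣ W.Δ
    · obtain ⟨A, hA⟩ := FermatLib.Basic.exists_liesOverPrime hq
      refine dvd_padicValInt_of_unramified hq hA hΔ hd (hss hd) Fact.out (Ne.symm hqp)
        fun σ hσ T hT => ?_
      exact congrArg Subtype.val (LinearMap.congr_fun (h A hA σ hσ)
        (⟨T, (Submodule.mem_torsionBy_iff _ _).2 (by rw [natCast_zsmul]; exact hT)⟩ : Tors W p))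
    · rw [padicValInt.eq_zero_of_not_dvd hd]
      exact dvd_zero p
  · intro hv A hA σ hσ
    refine LinearMap.ext fun (z : Tors W p) => Subtype.ext ?_
    show σ • (z : Pts W) = (z : Pts W)
    by_cases hd : (q : ℤ) ∣ W.Δ
    · exact smul_eq_self_of_dvd_padicValInt hq hA hΔ hd (hss hd) Fact.out (Ne.symm hqp) hv hσ
        (nsmul_tors_eq_zero W p z)
    · exact smul_eq_self_of_not_dvd_Δ W p hq hqp hd hA hσ (nsmul_tors_eq_zero W p z)

variable {k : Type} [Field k] (ι : ZMod p →+* k)

/-- The Taylor–Wiles irreducibility hypothesis for a semistable curve. -/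
theorem curveResidualRepExt_stable_of_semistable (hp2 : p ≠ 2) (hW : W.IsSemistableModel)
    (hirr : W.ModRepIsIrreducible p) (K : Type) [Field K] [Algebra k K] (G : Subgroup Γℚ)
    (hG : G.index = 2) (V : Submodule K ((curveResidualRepExt W hΔ p ι).baseChange K).V)
    (hV : ∀ σ ∈ G, ∀ x ∈ V, ((curveResidualRepExt W hΔ p ι).baseChange K).ρ σ x ∈ V) :
    V = ⊥ ∨ V = ⊤ :=
  curveResidualRepExt_stable W hΔ p ι hp2 hirr
    (fun q hq hqp _ hA _ hσ => trace_curveMat_inertia_away W hΔ p hq hqp (hW q hq) hA hσ)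
    (fun _ hA => curveMat_inertia_shape W hΔ p hp2
      ((em ((p : ℤ) ∣ W.Δ)).elim (fun h => Or.inr (hW p Fact.out h)) Or.inl) hA)
    K G hG V hV

/-- The primes of the minimal ramification set: `p` and the `q` with `p ∤ v_q(Δ)`. -/
def curveRamifiedPrimes : Finset ℕ :=
  insert p (W.Δ.natAbs.primeFactors.filter fun q => ¬ p ∣ padicValInt q W.Δ)

theorem mem_curveRamifiedPrimes_iff (hW : W.IsSemistableModel) {q : ℕ} (hq : q.Prime)
    (hqp : q ≠ p) :
    q ∈ curveRamifiedPrimes W p ↔ ¬ (curveResidualRepExt W hΔ p ι).IsUnramifiedAt q := by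
  rw [curveResidualRepExt_isUnramifiedAt_iff,
    curveResidualRep_isUnramifiedAt_iff W hΔ p hq hqp (hW q hq), curveRamifiedPrimes,
    Finset.mem_insert, or_iff_right hqp, Finset.mem_filter]
  refine ⟨And.right, fun h => ⟨Nat.mem_primeFactors.2 ⟨hq, ?_, Int.natAbs_ne_zero.2 hΔ⟩, h⟩⟩
  refine Int.natCast_dvd.1 ?_
  by_contra hd
  exact h (padicValInt.eq_zero_of_not_dvd hd ▸ dvd_zero p)

end FermatLib.MLT

namespace FermatLib.MLT

/-- For the Frey curve the minimal ramification set is `{2, p}`. -/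
theorem curveRamifiedPrimes_freyCurveInt (P : FreyPackage) [Fact P.p.Prime] :
    curveRamifiedPrimes P.freyCurveInt P.p = {2, P.p} := by
  have hΔ := FermatLib.Basic.Frey.freyCurveInt_Δ_ne_zero P
  have habc := P.habc0
  have key : ∀ q : ℕ, q.Prime →
      padicValInt q 256 + padicValInt q P.freyCurveInt.Δ =
        2 * P.p * padicValInt q (P.a * P.b * P.c) := by
    intro q hq
    haveI : Fact q.Prime := ⟨hq⟩
    rw [← padicValInt.mul (by norm_num) hΔ, FermatLib.Basic.Frey.freyCurveInt_Δ P, padicValInt,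
      Int.natAbs_pow, padicValNat.pow, padicValInt]
  have h256 : padicValInt 2 256 = 8 := by
    rw [padicValInt, show (256 : ℤ).natAbs = 2 ^ 8 from rfl, padicValNat.prime_pow]
  have hp5 := P.hp5
  have h2abc : 0 < padicValInt 2 (P.a * P.b * P.c) := by
    haveI : Fact (Nat.Prime 2) := ⟨Nat.prime_two⟩
    exact Nat.pos_of_ne_zero fun h0 => by
      have := (padicValInt_dvd_iff (p := 2) 1 (P.a * P.b * P.c)).1
        (by simpa using P.two_dvd_abc)
      omega
  have h2ram : ¬ P.p ∣ padicValInt 2 P.freyCurveInt.Δ := fun h => by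
    have e := key 2 Nat.prime_two
    rw [h256] at e
    have h8 : P.p ∣ 2 ^ 3 := by
      have hd : P.p ∣ 8 + padicValInt 2 P.freyCurveInt.Δ :=
        e ▸ dvd_mul_of_dvd_left (dvd_mul_left P.p 2) _
      simpa using (Nat.dvd_add_left h).1 hd
    have := (Nat.prime_dvd_prime_iff_eq P.pp Nat.prime_two).1 (P.pp.dvd_of_dvd_pow h8)
    omega
  ext q
  rw [curveRamifiedPrimes, Finset.mem_insert, Finset.mem_insert, Finset.mem_singleton,
    Finset.mem_filter, Nat.mem_primeFactors]
  constructor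
  · rintro (h | ⟨⟨hq, -, -⟩, h⟩)
    · exact Or.inr h
    · refine Or.inl ?_
      by_contra hq2
      haveI : Fact q.Prime := ⟨hq⟩
      have e := key q hq
      rw [padicValInt.eq_zero_of_not_dvd (p := q) (z := 256) (fun hd => hq2 <|
        (Nat.prime_dvd_prime_iff_eq hq Nat.prime_two).1 (hq.dvd_of_dvd_pow
          (n := 8) (by exact_mod_cast hd))), zero_add] at e
      exact h (e ▸ dvd_mul_of_dvd_left (dvd_mul_left P.p 2) _)
  · rintro (rfl | rfl)
    · refine Or.inr ⟨⟨Nat.prime_two, ?_, Int.natAbs_ne_zero.2 hΔ⟩, h2ram⟩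
      refine Int.natCast_dvd.1 ?_
      by_contra hd
      exact h2ram (padicValInt.eq_zero_of_not_dvd hd ▸ dvd_zero _)
    · exact Or.inl rfl

end FermatLib.MLT
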