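import Fermat.Agent.MLT.CongruentTraces
import Fermat.Agent.Descent.HesseSwitch

/-!
# The switch at three, in the form used by the switch chain
-/

set_option autoImplicit false

open WeierstrassCurve

namespace FermatLib.MLT

/-- The Hesse switch gives an anchor at two with congruent traces modulo three. -/
theorem threeSwitchToAnchor : ThreeSwitchToAnchor := by
  intro W hΔ hW h2
  have h3 : 3 ∣ padicValInt 2 W.Δ := by
    rcases h2 with h2 | h2
    · rw [padicValInt.eq_zero_of_not_dvd h2]
      exact dvd_zero 3
    · exact h2
  obtain ⟨W', hneg, hss, ha1, -, h2', hirr, hodd, hbad, hkeep, e, he⟩ :=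
    FermatLib.Descent.exists_hesse_switch W hΔ hW h3
  exact ⟨W', ⟨hneg, hss, by exact h2', by rw [ha1]; exact dvd_zero 2, hodd, hirr⟩,
    congruentTraces_of_equiv Nat.prime_three hΔ e he, hkeep, hbad⟩

end FermatLib.MLT
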