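import Fermat.Agent.MLT.SwitchThree
import Fermat.Agent.Descent.FiveSwitchAtTwoInst

/-!
# Switching at three to a curve irreducible mod five

Take `(s : r)` congruent to `(0 : 1)` modulo a multiple of `41472 Δ`, with `hesA < 0` and
squarefree `D = hesD` of large absolute value.  The new model has discriminant `Δ D³`.  A
5-isogeny gives `h = a / b` on `X₀(5)`; negativity of `c₄` forces `-10 b < a < 0`, and
semistability forces `b⁵ ∣ Δ` and `Δ D³ ∣ a b⁵`, so `D` would be bounded.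
-/

set_option autoImplicit false

open WeierstrassCurve WeierstrassCurve.Affine

namespace FermatLib.MLT

open FermatLib.Descent

/-- For a semistable model the discriminant is prime to `c₄`. -/
theorem isCoprime_Δ_c₄_of_semistable {W : WeierstrassCurve ℤ}
    (hW : W.IsSemistableModel) : IsCoprime W.Δ W.c₄ := by
  rw [Int.isCoprime_iff_gcd_eq_one]
  by_contra h
  obtain ⟨q, hq, hdvd⟩ := Nat.exists_prime_and_dvd h
  have hd : (q : ℤ) ∣ (Int.gcd W.Δ W.c₄ : ℤ) := by exact_mod_cast hdvd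
  exact hW q hq (hd.trans (Int.gcd_dvd_left _ _)) (hd.trans (Int.gcd_dvd_right _ _))

/-- A semistable model with negative `c₄` and reducible mod-5 representation gives integers
`a, b` with `|a| ≤ 10 b`, `b ^ 5 ∣ Δ` and `Δ ∣ a * b ^ 5`. -/
theorem exists_bounded_five_parameter {W : WeierstrassCurve ℤ} (hΔ : W.Δ ≠ 0)
    (hW : W.IsSemistableModel) (hc : W.c₄ < 0) (h5 : ¬ W.ModRepIsIrreducible 5) :
    ∃ a b : ℤ, 0 < b ∧ a ≠ 0 ∧ |a| ≤ 10 * b ∧ b ^ 5 ∣ W.Δ ∧ W.Δ ∣ a * b ^ 5 := by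
  obtain ⟨Q, hQ, hQ5, hσ⟩ :=
    exists_stable_point_of_not_modRepIsIrreducible W hΔ Nat.prime_five h5
  obtain ⟨h, hh, e⟩ := exists_c4_cube_mul_eq_of_stable_five
    (W := W.map (Int.castRingHom ℚ)) (by rw [map_Δ]; simpa using hΔ) Q hQ hQ5 hσ
  simp only [map_c₄, map_Δ, eq_intCast] at e
  set a := h.num with ha
  set b : ℤ := (h.den : ℤ) with hb
  have hb0 : 0 < b := by rw [hb]; exact_mod_cast h.den_pos
  have hcop : IsCoprime a b := Rat.isCoprime_num_den h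
  have ha0 : a ≠ 0 := Rat.num_ne_zero.2 hh
  set G := a ^ 2 + 10 * a * b + 5 * b ^ 2 with hG
  have key : W.c₄ ^ 3 * a * b ^ 5 = W.Δ * G ^ 3 := by
    have hnum : (a : ℚ) = h * (b : ℚ) := by
      rw [ha, hb, Int.cast_natCast, Rat.mul_den_eq_num]
    apply Int.cast_injective (α := ℚ)
    rw [hG]
    push_cast
    rw [hnum]
    linear_combination (b : ℚ) ^ 6 * e
  have hc3 : W.c₄ ^ 3 < 0 := Odd.pow_neg (by decide) hc
  have hΔneg : W.Δ < 0 := by
    have h1 := c_relation_sub W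
    nlinarith [sq_nonneg W.c₆]
  have hb5 : (0 : ℤ) < b ^ 5 := pow_pos hb0 5
  have hane : a < 0 := by
    rcases lt_or_gt_of_ne ha0 with h' | h'
    · exact h'
    · exfalso
      have hsq : a ^ 2 + 4 * a * b - b ^ 2 ≠ 0 := by
        intro h0
        have h5' : IsSquare (5 : ℚ) := by
          refine ⟨((a : ℚ) + 2 * b) / b, ?_⟩
          have : (b : ℚ) ≠ 0 := by exact_mod_cast hb0.ne'
          field_simp
          have h0' : (a : ℚ) ^ 2 + 4 * a * b - b ^ 2 = 0 := by exact_mod_cast h0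
          linear_combination -h0'
        have : IsSquare (5 : ℕ) := Rat.isSquare_natCast_iff.1 (by exact_mod_cast h5')
        exact (Nat.prime_five.prime.not_isSquare) this
      have hR : 0 < G ^ 3 - 1728 * a * b ^ 5 := by
        have : G ^ 3 - 1728 * a * b ^ 5 =
            (a ^ 2 + 22 * a * b + 125 * b ^ 2) * (a ^ 2 + 4 * a * b - b ^ 2) ^ 2 := by
          rw [hG]; ring
        rw [this]
        exact mul_pos (by positivity) (by positivity)
      have h6 : W.c₆ ^ 2 * (a * b ^ 5) = W.Δ * (G ^ 3 - 1728 * a * b ^ 5) := by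
        linear_combination key - a * b ^ 5 * c_relation_sub W
      have hge : 0 ≤ W.c₆ ^ 2 * (a * b ^ 5) := mul_nonneg (sq_nonneg _) (by positivity)
      have hlt : W.Δ * (G ^ 3 - 1728 * a * b ^ 5) < 0 := mul_neg_of_neg_of_pos hΔneg hR
      omega
  have hGneg : G < 0 := by
    by_contra hG0
    push Not at hG0
    have h1 : 0 < W.c₄ ^ 3 * a * b ^ 5 := mul_pos (mul_pos_of_neg_of_neg hc3 hane) hb5
    have h2 : W.Δ * G ^ 3 ≤ 0 := mul_nonpos_of_nonpos_of_nonneg hΔneg.le (pow_nonneg hG0 3)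
    omega
  have hbound : |a| ≤ 10 * b := by
    rw [abs_of_neg hane]
    nlinarith [hGneg, sq_nonneg b]
  have hbG : IsCoprime b G := by
    have h1 : IsCoprime b (a ^ 2) := hcop.symm.pow_right
    have : G = a ^ 2 + b * (10 * a + 5 * b) := by rw [hG]; ring
    rw [this]
    exact h1.add_mul_left_right _
  refine ⟨a, b, hb0, ha0, hbound, ?_, ?_⟩
  · exact (hbG.pow (m := 5) (n := 3)).dvd_of_dvd_mul_right ⟨W.c₄ ^ 3 * a, by rw [← key]; ring⟩
  · exact ((isCoprime_Δ_c₄_of_semistable hW).pow_right (n := 3)).dvd_of_dvd_mul_left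
      ⟨G ^ 3, by rw [← key]; ring⟩

/-- A witness point for the real cone used by the switch. -/
theorem exists_hesA_neg (H T : ℤ) (h : H ^ 3 ≠ T ^ 2) :
    ∃ s r : ℤ, hesA H T s r < 0 ∧ hesD H T s r ≠ 0 := by
  rcases lt_trichotomy H 0 with hH | hH | hH
  · exact ⟨0, 1, by rwa [hesA_zero_one], by rw [hesD_zero_one]; exact one_ne_zero⟩
  · subst hH
    have hT : T ≠ 0 := by rintro rfl; exact h (by ring)
    have hT2 : 0 < T ^ 2 := by positivity
    refine ⟨1, 2 * T, ?_, ?_⟩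
    · unfold hesA; nlinarith [mul_pos hT2 hT2]
    · have : hesD 0 T 1 (2 * T) = 16 * T ^ 2 * (T ^ 2 + 1) := by unfold hesD; ring
      rw [this]
      positivity
  · refine ⟨H, T, ?_, ?_⟩
    · rw [hesA_self]
      have : 0 < (H ^ 3 - T ^ 2) ^ 2 := pow_two_pos_of_ne_zero (sub_ne_zero.2 h)
      nlinarith
    · rw [hesD_self]
      refine mul_ne_zero (sub_ne_zero.2 (Ne.symm h)) ?_
      positivity

/-- Change `a₄, a₆` to realise invariants congruent modulo `41472`. -/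
theorem exists_model_congruent (W : WeierstrassCurve ℤ) {A B : ℤ}
    (hA : (41472 : ℤ) ∣ A - W.c₄) (hB : (41472 : ℤ) ∣ B - W.c₆) :
    ∃ W' : WeierstrassCurve ℤ, W'.c₄ = A ∧ W'.c₆ = B := by
  obtain ⟨x, hx⟩ := hA
  obtain ⟨y, hy⟩ := hB
  refine ⟨⟨W.a₁, W.a₂, W.a₃, W.a₄ - 864 * x, W.a₆ - 48 * y - 72 * W.b₂ * x⟩, ?_, ?_⟩
  · simp only [WeierstrassCurve.c₄, WeierstrassCurve.b₂, WeierstrassCurve.b₄] at hx ⊢
    linear_combination -hx
  · simp only [WeierstrassCurve.c₆, WeierstrassCurve.b₂, WeierstrassCurve.b₄,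
      WeierstrassCurve.b₆] at hy ⊢
    linear_combination -hy

/-- A semistable curve has the same mod-3 representation as a semistable curve irreducible
mod 5. -/
theorem exists_three_switch_five_irreducible (W : WeierstrassCurve ℤ) (hΔ : W.Δ ≠ 0)
    (hW : W.IsSemistableModel) :
    ∃ W' : WeierstrassCurve ℤ, W'.Δ ≠ 0 ∧ W'.IsSemistableModel ∧ W'.ModRepIsIrreducible 5 ∧
      CongruentTraces 3 W W' ∧ KeepsBadPrimes 3 W W' := by
  classical
  have hHT : W.c₄ ^ 3 ≠ W.c₆ ^ 2 := fun h => hΔ (by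
    have := c_relation_sub W
    rw [h, sub_self] at this
    omega)
  set M : ℕ := 41472 * W.Δ.natAbs with hMdef
  have hM : M ≠ 0 := by
    rw [hMdef]; simpa using hΔ
  obtain ⟨s₁, r₁, hA₁, hD₁⟩ := exists_hesA_neg W.c₄ W.c₆ hHT
  let U : Set (ℝ × ℝ) := {P | hesA (W.c₄ : ℝ) (W.c₆ : ℝ) P.2 P.1 < 0 ∧
    1 / 2 < |hesD (W.c₄ : ℝ) (W.c₆ : ℝ) P.2 P.1|}
  have hcA : Continuous fun P : ℝ × ℝ => hesA (W.c₄ : ℝ) (W.c₆ : ℝ) P.2 P.1 := by
    unfold hesA; fun_prop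
  have hcD : Continuous fun P : ℝ × ℝ => |hesD (W.c₄ : ℝ) (W.c₆ : ℝ) P.2 P.1| := by
    unfold hesD; fun_prop
  have hU : IsOpen U :=
    (isOpen_lt hcA continuous_const).inter (isOpen_lt continuous_const hcD)
  have hUne : U.Nonempty := by
    refine ⟨((r₁ : ℝ), (s₁ : ℝ)), ?_, ?_⟩
    · have e := map_hesA W.c₄ W.c₆ s₁ r₁ (Int.castRingHom ℝ)
      simp only [eq_intCast] at e
      show hesA (W.c₄ : ℝ) (W.c₆ : ℝ) (s₁ : ℝ) (r₁ : ℝ) < 0
      rw [← e]
      exact_mod_cast hA₁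
    · have e := map_hesD W.c₄ W.c₆ s₁ r₁ (Int.castRingHom ℝ)
      simp only [eq_intCast] at e
      show 1 / 2 < |hesD (W.c₄ : ℝ) (W.c₆ : ℝ) (s₁ : ℝ) (r₁ : ℝ)|
      rw [← e, ← Int.cast_abs]
      have : (1 : ℝ) ≤ ((|hesD W.c₄ W.c₆ s₁ r₁| : ℤ) : ℝ) := by
        exact_mod_cast Int.one_le_abs hD₁
      linarith
  have hd := natDegree_quarticPoly_le (hesCoeff W.c₄ W.c₆)
  have hd' : 4 ≤ (quarticPoly (hesCoeff W.c₄ W.c₆)).natDegree + 1 := by
    have : (4 : ℕ) ≤ (quarticPoly (hesCoeff W.c₄ W.c₆)).natDegree :=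
      Polynomial.le_natDegree_of_ne_zero
        (show (quarticPoly (hesCoeff W.c₄ W.c₆)).coeff ((4 : Fin 5) : ℕ) ≠ 0 by
          rw [coeff_quarticPoly]; simp [hesCoeff])
    omega
  obtain ⟨ρ, r, s, hρ, hR, hmem, hcop, hcong, -, hsq⟩ := exists_squarefree_binForm_of_local
    hd le_rfl (separable_hesCoeff hHT) (separable_reflect hd hd' (separable_hesCoeff hHT))
    M.primeFactors (fun p hp => Nat.prime_of_mem_primeFactors hp) (fun p => M.factorization p)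
    (fun _ => 1) (fun _ => 0)
    (fun p hp => (Nat.prime_of_mem_primeFactors hp).factorization_pos_of_dvd hM
      (Nat.dvd_of_mem_primeFactors hp))
    (fun p hp h => (Nat.prime_iff_prime_int.1 (Nat.prime_of_mem_primeFactors hp)).not_isUnit
      (isUnit_of_dvd_one h.1))
    (fun p hp _ => ⟨1, 0, fun h => (Nat.prime_iff_prime_int.1 hp).not_isUnit
      (isUnit_of_dvd_one h.1), by
      rw [binForm_quarticPoly, binQuartic_hesCoeff]
      simp only [Int.cast_id, hesD_zero_one]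
      exact fun h => (Nat.prime_iff_prime_int.1 hp).not_isUnit
        (isUnit_of_dvd_one ((dvd_pow_self _ two_ne_zero).trans h))⟩)
    hU hUne (20 * (|W.Δ| : ℤ) + 2 : ℝ)
  simp only [binForm_quarticPoly, binQuartic_hesCoeff, Int.cast_id] at hsq
  set A := hesA W.c₄ W.c₆ s r with hAdef
  set B := hesB W.c₄ W.c₆ s r with hBdef
  set D := hesD W.c₄ W.c₆ s r with hDdef
  -- congruences modulo `M`
  have hdvdM : ∀ x : ℤ, (∀ p ∈ M.primeFactors, (p : ℤ) ^ M.factorization p ∣ x) →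
      (M : ℤ) ∣ x := by
    intro x hx
    conv_lhs => rw [Nat.prod_primeFactors_pow_factorization hM]
    push_cast
    refine Finset.prod_dvd_of_coprime (fun p hp q hq hpq => ?_) hx
    refine (Int.isCoprime_iff_gcd_eq_one.2 ?_).pow
    exact_mod_cast (Nat.coprime_primes (Nat.prime_of_mem_primeFactors hp)
      (Nat.prime_of_mem_primeFactors hq)).2 hpq
  have hs : s ≡ 0 [ZMOD (M : ℤ)] :=
    (Int.modEq_iff_dvd.2 (hdvdM _ fun p hp => (hcong p hp).2.dvd))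
  have hr : r ≡ 1 [ZMOD (M : ℤ)] :=
    (Int.modEq_iff_dvd.2 (hdvdM _ fun p hp => (hcong p hp).1.dvd))
  have hAM : A ≡ W.c₄ [ZMOD (M : ℤ)] := by
    have := hesA_modEq (Int.ModEq.refl W.c₄) (Int.ModEq.refl W.c₆) hs hr
    rwa [hesA_zero_one] at this
  have hBM : B ≡ W.c₆ [ZMOD (M : ℤ)] := by
    have := hesB_modEq (Int.ModEq.refl W.c₄) (Int.ModEq.refl W.c₆) hs hr
    rwa [hesB_zero_one] at this
  have hDM : D ≡ 1 [ZMOD (M : ℤ)] := by
    have := hesD_modEq (Int.ModEq.refl W.c₄) (Int.ModEq.refl W.c₆) hs hr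
    rwa [hesD_zero_one] at this
  have hM4 : (41472 : ℤ) ∣ (M : ℤ) := ⟨(W.Δ.natAbs : ℤ), by rw [hMdef]; push_cast; rfl⟩
  have hMΔ : W.Δ ∣ (M : ℤ) := by
    rw [hMdef]; push_cast
    exact dvd_mul_of_dvd_right ((dvd_abs _ _).2 dvd_rfl) _
  obtain ⟨W', hc4, hc6⟩ := exists_model_congruent W
    (A := A) (B := B) (hM4.trans hAM.symm.dvd) (hM4.trans hBM.symm.dvd)
  have hΔ' : W'.Δ = W.Δ * D ^ 3 := by
    have h := hesA_pow_three_sub W.c₄ W.c₆ s r
    rw [c_relation_sub, ← hAdef, ← hBdef, ← hc4, ← hc6, c_relation_sub] at h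
    apply mul_left_cancel₀ (show (1728 : ℤ) ≠ 0 by norm_num)
    linear_combination h
  -- size and sign
  have hA : A < 0 ∧ 10 * |W.Δ| < |D| := by
    obtain ⟨h1, h2⟩ := hmem
    have eA : hesA (W.c₄ : ℝ) (W.c₆ : ℝ) ((s : ℝ) / ρ) ((r : ℝ) / ρ) * ρ ^ 4 = (A : ℝ) := by
      rw [hAdef]; unfold hesA; push_cast; field_simp
    have eD : hesD (W.c₄ : ℝ) (W.c₆ : ℝ) ((s : ℝ) / ρ) ((r : ℝ) / ρ) * ρ ^ 4 = (D : ℝ) := by
      rw [hDdef]; unfold hesD; push_cast; field_simp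
    have hρ4 : 0 < ρ ^ 4 := by positivity
    refine ⟨?_, ?_⟩
    · have : (A : ℝ) < 0 := eA ▸ mul_neg_of_neg_of_pos h1 hρ4
      exact_mod_cast this
    · have h3 : 1 / 2 * ρ ^ 4 < |(D : ℝ)| := by
        rw [← eD, abs_mul, abs_of_pos hρ4]; exact mul_lt_mul_of_pos_right h2 hρ4
      have hρ1 : 1 ≤ ρ := le_trans (by linarith [abs_nonneg (W.Δ : ℝ), Int.cast_abs (a := W.Δ) (R := ℝ)]) hR
      have hρle : ρ ≤ ρ ^ 4 := le_self_pow₀ hρ1 (by norm_num)
      have h5 : ((10 * |W.Δ| : ℤ) : ℝ) < ((|D| : ℤ) : ℝ) := by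
        push_cast at hR ⊢
        linarith
      exact_mod_cast h5
  obtain ⟨hA, hDbig⟩ := hA
  have hD0 : D ≠ 0 := by
    rintro h0
    rw [h0, abs_zero] at hDbig
    linarith [abs_nonneg W.Δ]
  have hΔ0 : W'.Δ ≠ 0 := by rw [hΔ']; exact mul_ne_zero hΔ (pow_ne_zero 3 hD0)
  have hnotM : ∀ q : ℕ, q.Prime → (q : ℤ) ∣ D → ¬ q ∣ M := by
    intro q hq hqD hqM
    have h1 : (q : ℤ) ∣ 1 := by
      have := (Int.natCast_dvd_natCast.2 hqM).trans hDM.dvd
      simpa using dvd_add this hqD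
    exact (Nat.prime_iff_prime_int.1 hq).not_isUnit (isUnit_of_dvd_one h1)
  have hss : W'.IsSemistableModel := by
    intro q hq hqd
    have hqp := Nat.prime_iff_prime_int.1 hq
    have := Fact.mk hq
    rw [hc4]
    intro hqA
    by_cases hqW : (q : ℤ) ∣ W.Δ
    · exact hW q hq hqW (by simpa using dvd_add ((hqW.trans hMΔ).trans hAM.dvd) hqA)
    have hqD : (q : ℤ) ∣ D :=
      hqp.dvd_of_dvd_pow ((hqp.dvd_or_dvd (hΔ' ▸ hqd)).resolve_left hqW)
    have hqM := hnotM q hq hqD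
    have h2M : 2 ∣ M := dvd_mul_of_dvd_left (by norm_num) _
    have h3M : 3 ∣ M := dvd_mul_of_dvd_left (by norm_num) _
    have hq2 : q ≠ 2 := fun h => hqM (h ▸ h2M)
    have hq3 : q ≠ 3 := fun h => hqM (h ▸ h3M)
    have h2q : ((2 : ℕ) : ZMod q) ≠ 0 := fun h0 => hq2
      ((Nat.prime_dvd_prime_iff_eq hq Nat.prime_two).mp ((ZMod.natCast_eq_zero_iff _ _).mp h0))
    have h3q : ((3 : ℕ) : ZMod q) ≠ 0 := fun h0 => hq3
      ((Nat.prime_dvd_prime_iff_eq hq Nat.prime_three).mp ((ZMod.natCast_eq_zero_iff _ _).mp h0))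
    have hne : ((W.c₄ : ℤ) : ZMod q) ^ 3 ≠ ((W.c₆ : ℤ) : ZMod q) ^ 2 := by
      rw [← sub_ne_zero]
      have e0 := congrArg (Int.cast : ℤ → ZMod q) (c_relation_sub W)
      push_cast at e0
      rw [e0]
      refine mul_ne_zero ?_ fun h0 => hqW ((ZMod.intCast_zmod_eq_zero_iff_dvd _ q).mp h0)
      rw [show (1728 : ZMod q) = ((2 : ℕ) : ZMod q) ^ 6 * ((3 : ℕ) : ZMod q) ^ 3 by norm_num]
      exact mul_ne_zero (pow_ne_zero _ h2q) (pow_ne_zero _ h3q)
    have hzero := eq_zero_of_hesA_eq_zero_of_hesD_eq_zero (F := ZMod q)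
      (s := (s : ZMod q)) (r := (r : ZMod q)) (by simpa using h2q) (by simpa using h3q) hne
      ((map_hesA _ _ _ _ (Int.castRingHom (ZMod q))).symm.trans
        ((ZMod.intCast_zmod_eq_zero_iff_dvd A q).mpr hqA))
      ((map_hesD _ _ _ _ (Int.castRingHom (ZMod q))).symm.trans
        ((ZMod.intCast_zmod_eq_zero_iff_dvd D q).mpr hqD))
    exact hqp.not_isUnit (hcop.isUnit_of_dvd'
      ((ZMod.intCast_zmod_eq_zero_iff_dvd _ q).mp hzero.2)
      ((ZMod.intCast_zmod_eq_zero_iff_dvd _ q).mp hzero.1))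
  refine ⟨W', hΔ0, hss, ?_, ?_, fun h3 h3' => ?_,
    fun q _ _ h => hΔ' ▸ dvd_mul_of_dvd_left h _⟩
  · by_contra h5
    obtain ⟨a, b, hb0, ha0, hab, hbΔ, hΔab⟩ :=
      exists_bounded_five_parameter hΔ0 hss (hc4 ▸ hA) h5
    rw [hΔ'] at hbΔ hΔab
    have hbD : IsCoprime b D := by
      rw [Int.isCoprime_iff_gcd_eq_one]
      by_contra hne
      obtain ⟨q, hq, hdvd⟩ := Nat.exists_prime_and_dvd hne
      have hd : (q : ℤ) ∣ (Int.gcd b D : ℤ) := by exact_mod_cast hdvd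
      have hqb := hd.trans (Int.gcd_dvd_left _ _)
      have hqD := hd.trans (Int.gcd_dvd_right _ _)
      have hqp := Nat.prime_iff_prime_int.1 hq
      have hqM := hnotM q hq hqD
      have hqΔ : ¬ (q : ℤ) ∣ W.Δ := fun h => hqM (Int.natCast_dvd_natCast.1 (h.trans hMΔ))
      obtain ⟨d, hd'⟩ := hqD
      have hnd : ¬ (q : ℤ) ∣ d := fun h =>
        hsq q hq (fun hm => hqM (Nat.dvd_of_mem_primeFactors hm))
          (by rw [hd', pow_two]; exact mul_dvd_mul_left _ h)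
      have h5q : (q : ℤ) ^ 5 ∣ W.Δ * D ^ 3 := (pow_dvd_pow_of_dvd hqb 5).trans hbΔ
      rw [hd', show W.Δ * ((q : ℤ) * d) ^ 3 = (q : ℤ) ^ 3 * (W.Δ * d ^ 3) by ring,
        show (q : ℤ) ^ 5 = (q : ℤ) ^ 3 * q ^ 2 by ring,
        mul_dvd_mul_iff_left (pow_ne_zero 3 hqp.ne_zero)] at h5q
      rcases hqp.dvd_or_dvd ((dvd_pow_self _ two_ne_zero).trans h5q) with h | h
      · exact hqΔ h
      · exact hnd (hqp.dvd_of_dvd_pow h)
    have hbΔ' : b ^ 5 ∣ W.Δ := (hbD.pow (m := 5) (n := 3)).dvd_of_dvd_mul_right hbΔ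
    have h1 : b ^ 5 ≤ |W.Δ| := Int.le_of_dvd (abs_pos.2 hΔ) ((dvd_abs _ _).2 hbΔ')
    have h2 : |W.Δ * D ^ 3| ≤ |a * b ^ 5| :=
      Int.le_of_dvd (abs_pos.2 (mul_ne_zero ha0 (pow_ne_zero 5 hb0.ne'))) ((abs_dvd_abs _ _).2 hΔab)
    rw [abs_mul, abs_mul, abs_pow, abs_pow, abs_of_pos hb0] at h2
    have hb1 : b ≤ b ^ 5 := le_self_pow₀ hb0 (by norm_num)
    have h3 : |a| ≤ 10 * |W.Δ| := le_trans hab (by linarith)
    have hD1 : 1 ≤ |D| := Int.one_le_abs hD0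
    have h4 : |D| ≤ |D| ^ 3 := le_self_pow₀ hD1 (by norm_num)
    have h5 : |W.Δ| * |D| ≤ |W.Δ| * (10 * |W.Δ|) :=
      calc |W.Δ| * |D| ≤ |W.Δ| * |D| ^ 3 := mul_le_mul_of_nonneg_left h4 (abs_nonneg _)
        _ ≤ |a| * b ^ 5 := h2
        _ ≤ (10 * |W.Δ|) * |W.Δ| :=
          mul_le_mul h3 h1 (pow_nonneg hb0.le 5) (by positivity)
        _ = |W.Δ| * (10 * |W.Δ|) := mul_comm _ _
    exact absurd (le_of_mul_le_mul_left h5 (abs_pos.2 hΔ)) (not_le.2 hDbig)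
  · obtain ⟨e, he⟩ := exists_three_torsion_addEquiv (u := (1 : ℚ)) (s := (s : ℚ)) (r := (r : ℚ))
      (W := W.map (Int.castRingHom ℚ)) (W' := W'.map (Int.castRingHom ℚ))
      (by rw [map_Δ]; simpa using hΔ) (by rw [map_Δ]; simpa using hΔ0)
      (by rw [map_c₄, map_c₄, map_c₆, hc4, hAdef, map_hesA]; simp)
      (by rw [map_c₆, map_c₄, map_c₆, hc6, hBdef, map_hesB]; simp)
    exact congruentTraces_of_equiv Nat.prime_three hΔ e he
  · rw [hΔ'] at h3'
    rcases Int.prime_three.dvd_or_dvd h3' with h | h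
    · exact h3 h
    · exact hnotM 3 Nat.prime_three (Int.prime_three.dvd_of_dvd_pow h)
        (dvd_mul_of_dvd_left (by norm_num) _)

/-- The switch from irreducible mod 3 to irreducible mod 5. -/
theorem threeSwitchToFiveIrreducible : ThreeSwitchToFiveIrreducible :=
  fun W hΔ hW _ => exists_three_switch_five_irreducible W hΔ hW

end FermatLib.MLT
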