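import Fermat.Agent.EC.WeilPairing
import Fermat.Agent.Galois.InvolutionCyclotomic
import Fermat.Agent.Galois.RepAdic
import Fermat.Agent.Mazur.GunitCyclo
import Fermat.Prelude.Def_GaloisRep_LocalConditions
import Fermat.Prelude.Def_FLTPrelim_ModularRep
import Fermat.Prelude.Def_GaloisRep_ComplexConjugation

/-!
# The residual representation of an integral Weierstrass model

The mod `p` representation of a Weierstrass model over `ℤ` as a `ResidualGaloisRep (ZMod p)`:
determinant, oddness, irreducibility.
-/

set_option autoImplicit false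
set_option linter.style.haveILetI false

noncomputable section

open WeierstrassCurve WeierstrassCurve.Affine.Point
open scoped WeierstrassCurve.Affine

namespace FermatLib.MLT

local notation "Qbar" => AlgebraicClosure ℚ
local notation "Γℚ" => (AlgebraicClosure ℚ ≃ₐ[ℚ] AlgebraicClosure ℚ)

theorem isElliptic_map_rat {W : WeierstrassCurve ℤ} (hΔ : W.Δ ≠ 0) :
    (W.map (Int.castRingHom ℚ)).IsElliptic :=
  ⟨by rw [map_Δ, isUnit_iff_ne_zero]; exact (map_ne_zero_iff _ Int.cast_injective).2 hΔ⟩

variable (W : WeierstrassCurve ℤ) (hΔ : W.Δ ≠ 0) (p : ℕ) [Fact p.Prime]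

include hΔ in
theorem natCard_torsion_map_rat :
    Nat.card (Submodule.torsionBy ℤ ((W.map (Int.castRingHom ℚ))⁄Qbar).Point p) = p ^ 2 :=
  haveI := isElliptic_map_rat hΔ
  EC.natCard_torsionBy_baseChange (K := Qbar) (W.map (Int.castRingHom ℚ))
    (Nat.cast_ne_zero.mpr (Fact.out : p.Prime).ne_zero)

include hΔ in
theorem galoisFactors_torsion_map_rat :
    GaloisFactorsThroughFiniteLevel
      (galoisRepModuleEnd (K := Qbar) ℚ (W.map (Int.castRingHom ℚ)) p) :=
  haveI := isElliptic_map_rat hΔ
  EC.galoisFactorsThroughFiniteLevel_torsion _ (Fact.out : p.Prime).ne_zero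

/-- The mod `p` representation of an integral model. -/
def curveResidualRep : ResidualGaloisRep (ZMod p) :=
  (W.map (Int.castRingHom ℚ)).residualGaloisRepOf p (natCard_torsion_map_rat W hΔ p)
    (galoisFactors_torsion_map_rat W hΔ p)

theorem curveResidualRep_apply (σ : Γℚ)
    (x : Submodule.torsionBy ℤ ((W.map (Int.castRingHom ℚ))⁄Qbar).Point p) :
    (curveResidualRep W hΔ p).ρ σ x = σ • x := rfl

theorem curveResidualRep_det (σ : Γℚ) :
    LinearMap.det ((curveResidualRep W hΔ p).ρ σ) =
      ((ExtCitation.cycloChar p σ : (ZMod p)ˣ) : ZMod p) := by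
  haveI := isElliptic_map_rat hΔ
  rw [ExtCitation.coe_cycloChar,
    ← EC.galoisRepDet_coe_eq_cycloExp (W.map (Int.castRingHom ℚ)) p σ, galoisRepDet_apply,
    LinearEquiv.coe_det]
  rfl

theorem curveResidualRep_isOdd : (curveResidualRep W hΔ p).IsOdd := fun c hc hc1 => by
  rw [curveResidualRep_det, Galois.cycloChar_involution p hc hc1]

theorem curveResidualRep_isIrreducible_iff :
    (curveResidualRep W hΔ p).IsIrreducible ↔ W.ModRepIsIrreducible p := by
  constructor
  · intro h
    refine ⟨?_, fun N hN => h N hN⟩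
    have hcard := natCard_torsion_map_rat W hΔ p
    have hp : p.Prime := Fact.out
    haveI : Finite (Submodule.torsionBy ℤ ((W.map (Int.castRingHom ℚ))⁄Qbar).Point p) :=
      Nat.finite_of_card_ne_zero (by rw [hcard]; exact pow_ne_zero 2 hp.ne_zero)
    refine Finite.one_lt_card_iff_nontrivial.mp ?_
    rw [hcard]
    exact Nat.one_lt_pow two_ne_zero hp.one_lt
  · exact fun h N hN => h.2 N hN

theorem exists_involution : ∃ c : Γℚ, c * c = 1 ∧ c ≠ 1 := by
  refine ⟨complexConjugation, complexConjugation_mul_self, fun h => ?_⟩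
  obtain ⟨i, hi⟩ := IsAlgClosed.exists_pow_nat_eq (-1 : Qbar) (n := 2) two_pos
  have hci := complexEmbedding_complexConjugation i
  rw [h, AlgEquiv.one_apply] at hci
  have hI : (complexEmbedding i) ^ 2 = -1 := by rw [← map_pow, hi, map_neg, map_one]
  have him : (complexEmbedding i).im = 0 := Complex.conj_eq_iff_im.mp hci.symm
  have := congrArg Complex.re hI
  rw [sq, Complex.mul_re, him] at this
  simp only [mul_zero, sub_zero, Complex.neg_re, Complex.one_re] at this
  nlinarith [mul_self_nonneg (complexEmbedding i).re]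

/-- For odd `p`, an irreducible mod `p` representation of a model is absolutely irreducible. -/
theorem curveResidualRep_isAbsolutelyIrreducible (hp2 : p ≠ 2) (h : W.ModRepIsIrreducible p) :
    (curveResidualRep W hΔ p).IsAbsolutelyIrreducible := by
  obtain ⟨c, hc, hc1⟩ := exists_involution
  refine Galois.isAbsolutelyIrreducible_of_isIrreducible_of_det_eq_neg_one
    ((curveResidualRep_isIrreducible_iff W hΔ p).mpr h) ?_ hc (curveResidualRep_isOdd W hΔ p c hc hc1)
  intro h2
  have : ((2 : ℕ) : ZMod p) = 0 := by exact_mod_cast h2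
  rw [ZMod.natCast_eq_zero_iff] at this
  exact hp2 ((Nat.prime_dvd_prime_iff_eq Fact.out Nat.prime_two).mp this)

end FermatLib.MLT
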