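import Fermat.Agent.MLT.ModTransfer.Residual
import Fermat.Agent.Galois.PadicPoint
import Fermat.Agent.Modular.LevelChangeEigen
import Fermat.Prelude.Def_WeierstrassCurve_Mlc1RowStatement
import Fermat.Prelude.Def_GaloisRep_LocalConditions

/-!
# Final level bookkeeping

A model that is modular at some squarefree level is modular at its conductor: the newform behind
it has no prime of good reduction in its level, since Frobenius at such a prime would have trace
`± (q + 1)` on every `E[p]`, against the Hasse bound; the primes of bad reduction are then added by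
stabilisation.

The inputs are the adic attachment and the shape of S35.
-/

set_option autoImplicit false

noncomputable section

open Polynomial IsLocalRing

namespace FermatLib.MLT

open WeierstrassCurve WeierstrassCurve.Affine.Point
open scoped WeierstrassCurve.Affine

local notation "Ω" => AlgebraicClosure ℚ
local notation "Γℚ" => (AlgebraicClosure ℚ ≃ₐ[ℚ] AlgebraicClosure ℚ)
local notation "ZbarC" => integralClosure ℤ ℂ

/-- The statement S35: the representation of a newform at a prime exactly dividing the level. -/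
def NewformFrobeniusAtBadPrime : Prop :=
  ∀ {M : ℕ} [NeZero M] {g : CuspForm (CongruenceSubgroup.Gamma0 M) 2} (_hg : g.IsNewform)
    (lam : ℕ) [Fact lam.Prime] (S : Finset ℕ)
    (O' : Type) [CommRing O'] [IsDomain O'] [IsDiscreteValuationRing O']
    [IsAdicComplete (IsLocalRing.maximalIdeal O') O'] [Finite (IsLocalRing.ResidueField O')]
    [CharZero O'] (_hlamO' : (lam : O') ∈ IsLocalRing.maximalIdeal O')
    (chig : CuspForm.heckeAlgebra M 2 (↑S : Set ℕ) →+* ℂ)
    (_hchig : ∀ (ℓ : ℕ) (hℓ : ℓ.Prime) (hℓM : ¬ ℓ ∣ M) (hℓS : ℓ ∉ (↑S : Set ℕ)),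
      chig (CuspForm.heckeAlgebra.T hℓ hℓM hℓS) = ModularFormClass.qCoeff g ℓ)
    (iota : chig.range →+* O')
    (_hlamS : lam ∈ S) (_hMS : ∀ q : ℕ, q.Prime → q ∣ M → q ∈ S),
    ∃ (O'' : Type) (_ : CommRing O'') (_ : IsDomain O'') (_ : IsDiscreteValuationRing O'')
      (_ : IsAdicComplete (IsLocalRing.maximalIdeal O'') O'')
      (_ : Finite (IsLocalRing.ResidueField O''))
      (_ : CharZero O'') (_ : Algebra O' O'') (_ : Module.Finite O' O'')
      (_ : IsLocalHom (algebraMap O' O'')),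
      Function.Injective (algebraMap O' O'') ∧
      ∃ ρ : GaloisRepAdic O'',
        (∀ (ℓ : ℕ) (hℓ : ℓ.Prime) (hℓM : ¬ ℓ ∣ M) (hℓS : ℓ ∉ (↑S : Set ℕ)),
          ∀ A : ValuationSubring (AlgebraicClosure ℚ), A.LiesOverPrime ℓ →
            ∀ σ : AlgebraicClosure ℚ ≃ₐ[ℚ] AlgebraicClosure ℚ, A.IsFrobeniusAt σ ℓ →
              LinearMap.charpoly (ρ.ρ σ) =
                X ^ 2 - C (algebraMap O' O'' ((iota.comp chig.rangeRestrict)
                  (CuspForm.heckeAlgebra.T hℓ hℓM hℓS))) * X + C ((ℓ : O''))) ∧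
        (∀ q : ℕ, q.Prime → q ≠ lam → q ∣ M → ¬ q ^ 2 ∣ M →
          ∀ A : ValuationSubring (AlgebraicClosure ℚ), A.LiesOverPrime q →
            ∀ σ : AlgebraicClosure ℚ ≃ₐ[ℚ] AlgebraicClosure ℚ, A.IsFrobeniusAt σ q →
              LinearMap.charpoly (ρ.ρ σ) = X ^ 2 - C ((q : O'') + 1) * X + C ((q : O'')) ∨
              LinearMap.charpoly (ρ.ρ σ) = X ^ 2 + C ((q : O'') + 1) * X + C ((q : O'')))

variable {W : WeierstrassCurve ℤ} {M q : ℕ}

/-- A prime exactly dividing the level of a newform with the eigenvalues of `W` is bad for `W`. -/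
theorem not_isGoodPrimeFor_of_dvd_newLevel (hattach : Galois.PadicAttachment)
    (h35 : NewformFrobeniusAtBadPrime) (hΔ : W.Δ ≠ 0) (hM0 : M ≠ 0)
    {g : CuspForm (CongruenceSubgroup.Gamma0 M) 2} (hg : g.IsNewform) (S₀ : Finset ℕ)
    (h : ∀ ℓ : ℕ, ℓ.Prime → W.IsGoodPrimeFor ℓ → ¬ ℓ ∣ M → ℓ ∉ S₀ →
      ModularFormClass.qCoeff g ℓ = (W.apOfModel ℓ : ℂ))
    (hq : q.Prime) (hqM : q ∣ M) (hq2 : ¬ q ^ 2 ∣ M) : ¬ W.IsGoodPrimeFor q := by
  intro hgood
  obtain ⟨p, hple, hpp⟩ := Nat.exists_infinite_primes (2 * q + 3)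
  have hqp : q ≠ p := by omega
  have : Fact p.Prime := ⟨hpp⟩
  have : NeZero M := ⟨hM0⟩
  obtain ⟨𝔪, hmax, hpm⟩ := FLTPrelim.exists_maximalIdeal_natCast_prime_mem hpp
  have := hmax
  let k := ZbarC ⧸ 𝔪
  let : Field k := Ideal.Quotient.field 𝔪
  have : CharP k p := by
    refine (CharP.charP_iff_prime_eq_zero hpp).mpr ?_
    rw [← map_natCast (Ideal.Quotient.mk 𝔪), Ideal.Quotient.eq_zero_iff_mem]
    exact hpm
  have : IsAlgClosed k := Galois.isAlgClosed_quotient_integralClosure 𝔪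
  let S : Finset ℕ := insert p M.primeFactors
  have : Module.Finite ℤ ↥(CuspForm.heckeAlgebra M 2 (↑S : Set ℕ)) :=
    Modular.heckeAlgebra_moduleFinite M 2 _
  obtain ⟨ξ, -, hξT, -⟩ :=
    Galois.exists_eigenformCharacter (S := (↑S : Set ℕ)) hg.isNormalizedEigenform
  let chig : ↥(CuspForm.heckeAlgebra M 2 (↑S : Set ℕ)) →+* ℂ :=
    (integralClosure ℤ ℂ).toSubring.subtype.comp ξ
  have hrange : ∀ x : chig.range, IsIntegral ℤ (x : ℂ) := fun x => by
    obtain ⟨t, ht⟩ := x.2
    rw [← ht]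
    exact (ξ t).2
  let incl : chig.range →+* ZbarC :=
    chig.range.subtype.codRestrict (integralClosure ℤ ℂ) hrange
  have : Module.Finite ℤ chig.range :=
    Module.Finite.of_surjective chig.rangeRestrict.toAddMonoidHom.toIntLinearMap
      chig.rangeRestrict_surjective
  obtain ⟨O, _, _, _, _, _, _, hpO, χ, j, hj⟩ :=
    Galois.exists_padicPoint incl hpp (Ideal.Quotient.mk 𝔪)
  obtain ⟨O', _, _, _, _, _, _, _, _, _, -, ρ, hchar, hbad⟩ :=
    h35 hg p S O hpO chig hξT χ (Finset.mem_insert_self _ _)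
      (fun r hr hrM => Finset.mem_insert_of_mem (Nat.mem_primeFactors.mpr ⟨hr, hrM, hM0⟩))
  let : Algebra (ResidueField O) (ResidueField O') :=
    (ResidueField.map (algebraMap O O')).toAlgebra
  let : Algebra (ResidueField O) k := j.toAlgebra
  let ι : ResidueField O' →+* k :=
    (IsAlgClosed.lift : ResidueField O' →ₐ[ResidueField O] k).toRingHom
  have hι : ∀ t, ι (residue O' (algebraMap O O' (χ t))) = Ideal.Quotient.mk 𝔪 (incl t) :=
    fun t => by
      rw [← ResidueField.map_residue, ← hj]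
      exact (IsAlgClosed.lift : ResidueField O' →ₐ[ResidueField O] k).commutes (residue O (χ t))
  let ρk : ResidualGaloisRep k := ρ.residual.baseChangeAlong ι
  -- `ρk` has the characteristic polynomials of `E[p]`
  obtain ⟨ρ', hatt', -, hch'⟩ := exists_attached_charpoly_eq (W := W) (p := p) hattach hΔ hM0
    hg.isNormalizedEigenform (Ideal.Quotient.mk 𝔪) S₀
    (fun ℓ hℓ hℓg hℓM _ hℓS => ⟨(W.apOfModel ℓ : ZbarC), by simp [h ℓ hℓ hℓg hℓM hℓS],
      by simp⟩)
  have heq : ∀ σ, LinearMap.charpoly (ρk.ρ σ) = LinearMap.charpoly (ρ'.ρ σ) := by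
    refine Galois.residual_charpoly_eq_of_frobenius ρk ρ' S fun ℓ hℓ hℓS A hA σ hσ => ?_
    have hℓM : ¬ ℓ ∣ M := fun hd =>
      hℓS (Finset.mem_insert_of_mem (Nat.mem_primeFactors.mpr ⟨hℓ, hd, hM0⟩))
    have hℓk : (ℓ : k) ≠ 0 := fun h0 => hℓS (Finset.mem_insert.mpr (Or.inl
      ((Nat.prime_dvd_prime_iff_eq hpp hℓ).1 ((CharP.cast_eq_zero_iff k p _).1 h0)).symm))
    obtain ⟨a, ha, hch⟩ := hatt' ℓ hℓ hℓM hℓk A hA σ hσ
    rw [hch, Galois.charpoly_residual_baseChangeAlong,
      hchar ℓ hℓ hℓM (by simpa using hℓS) A hA σ hσ]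
    have hval : incl (chig.rangeRestrict (CuspForm.heckeAlgebra.T hℓ hℓM (by simpa using hℓS)))
        = a := Subtype.ext ((hξT ℓ hℓ hℓM (by simpa using hℓS)).trans ha.symm)
    simp only [Polynomial.map_sub, Polynomial.map_add, Polynomial.map_mul, Polynomial.map_pow,
      Polynomial.map_X, Polynomial.map_C, RingHom.comp_apply, map_natCast, Polynomial.map_natCast, hι, hval]
  -- compare at `q`
  obtain ⟨A, hA⟩ := Basic.exists_liesOverPrime hq
  obtain ⟨σ, hσ⟩ := Basic.exists_isFrobeniusAt hq A hA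
  have htr := congrArg (fun P : k[X] => P.coeff 1)
    ((Galois.charpoly_residual_baseChangeAlong ι ρ σ).symm.trans ((heq σ).trans (hch' σ)))
  rw [galoisTrace_of_isFrobeniusAt hq hgood hqp hA hσ] at htr
  have hsplit : ((W.apOfModel q : ℤ) : k) = (((q : ℤ) + 1 : ℤ) : k) ∨
      ((W.apOfModel q : ℤ) : k) = ((-((q : ℤ) + 1) : ℤ) : k) := by
    rcases hbad q hq hqp hqM hq2 A hA σ hσ with hc | hc <;> rw [hc] at htr <;>
      simp [coeff_X_pow] at htr
    · exact Or.inl (by push_cast; linear_combination htr)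
    · exact Or.inr (by push_cast; linear_combination htr)
  have hsq := EC.sq_apOfModel_le hq hgood
  have hq2le : (2 : ℤ) ≤ q := by exact_mod_cast hq.two_le
  have hplt : 2 * (q : ℤ) + 3 ≤ p := by exact_mod_cast hple
  have hb1 : W.apOfModel q ≤ q := by nlinarith
  have hb2 : -(q : ℤ) ≤ W.apOfModel q := by nlinarith
  rcases hsplit with he | he <;>
    have hd := (CharP.intCast_eq_intCast k p).1 he |>.dvd
  · have := Int.eq_zero_of_dvd_of_nonneg_of_lt (by linarith) (by linarith) hd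
    linarith
  · have := Int.eq_zero_of_dvd_of_nonneg_of_lt (by linarith) (by linarith) (dvd_neg.2 hd)
    linarith

/-- Modularity at a squarefree level gives modularity at the conductor. -/
theorem exactConductor_of_squarefree_level (hattach : Galois.PadicAttachment)
    (h35 : NewformFrobeniusAtBadPrime) (hΔ : W.Δ ≠ 0) (hsq : Squarefree M)
    (hmod : W.IsModularModelOfLevel M) : Mlc1IsModularModelOfExactConductorLevel W := by
  obtain ⟨f, hf, hc⟩ := hmod
  obtain ⟨M', g, hM'M, hg, hgc⟩ := Modular.exists_newform_of_eigenform hsq.ne_zero hf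
  have hM'0 : M' ≠ 0 := fun h0 => hsq.ne_zero (by simpa [h0] using hM'M)
  have hag : ∀ ℓ : ℕ, ℓ.Prime → W.IsGoodPrimeFor ℓ → ¬ ℓ ∣ M' → ℓ ∉ M.primeFactors →
      ModularFormClass.qCoeff g ℓ = (W.apOfModel ℓ : ℂ) := fun ℓ hℓ hℓg _ hℓS => by
    have hℓM : ¬ ℓ ∣ M := fun hd => hℓS (Nat.mem_primeFactors.mpr ⟨hℓ, hd, hsq.ne_zero⟩)
    rw [hgc ℓ hℓ hℓM, hc ℓ hℓ hℓg hℓM]
  have hM'sq : Squarefree M' := hsq.squarefree_of_dvd hM'M
  set N := ∏ r ∈ W.Δ.natAbs.primeFactors, r with hN
  have hNsq : Squarefree N :=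
    (Finset.squarefree_prod_of_pairwise_isCoprime (fun a ha b hb hne => by
      have := (Nat.coprime_primes (Nat.prime_of_mem_primeFactors ha)
        (Nat.prime_of_mem_primeFactors hb)).2 hne
      exact Nat.coprime_iff_isRelPrime.1 this) fun r hr =>
        (Nat.prime_of_mem_primeFactors hr).squarefree)
  have hNmem : ∀ r : ℕ, r.Prime → (r ∣ N ↔ (r : ℤ) ∣ W.Δ) := fun r hr => by
    rw [hN, hr.prime.dvd_finsetProd_iff]
    constructor
    · rintro ⟨s, hs, hrs⟩
      rw [(Nat.prime_dvd_prime_iff_eq hr (Nat.prime_of_mem_primeFactors hs)).1 hrs]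
      exact Int.natCast_dvd.2 (Nat.dvd_of_mem_primeFactors hs)
    · exact fun hd => ⟨r, Nat.mem_primeFactors.mpr
        ⟨hr, Int.natCast_dvd.1 hd, by simpa using hΔ⟩, dvd_rfl⟩
  have hM'N : M' ∣ N := by
    rw [← Nat.prod_primeFactors_of_squarefree hM'sq]
    refine Finset.prod_primes_dvd _ (fun r hr => (Nat.prime_of_mem_primeFactors hr).prime)
      fun r hr => ?_
    obtain ⟨hrp, hrM, -⟩ := Nat.mem_primeFactors.mp hr
    refine (hNmem r hrp).2 (not_not.1 fun hbad => ?_)
    exact not_isGoodPrimeFor_of_dvd_newLevel hattach h35 hΔ hM'0 hg M.primeFactors hag hrp hrM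
      (fun hd => hrp.ne_one (Nat.isUnit_iff.1 (hM'sq r (by rwa [← sq])))) hbad
  refine ⟨N, Nat.pos_of_ne_zero hNsq.ne_zero, hNsq, hNmem, ?_⟩
  exact Modular.isModularModelOfLevel_of_dvd hNsq.ne_zero hM'N
    (isModularModelOfLevel_of_forall_notMem hattach hΔ hg.isNormalizedEigenform M.primeFactors hag)

end FermatLib.MLT
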