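import Fermat.Agent.MLT.IndexTwoIrreducible
import Fermat.Agent.MLT.ResidualCurve

/-!
# The Taylor–Wiles irreducibility hypothesis for residual representations of curves
-/

set_option autoImplicit false
set_option linter.style.haveILetI false

noncomputable section

open scoped TensorProduct

namespace FermatLib.MLT

open FermatLib.Galois

local notation "Qbar" => AlgebraicClosure ℚ
local notation "Γℚ" => (AlgebraicClosure ℚ ≃ₐ[ℚ] AlgebraicClosure ℚ)

/-- Full span on a subgroup gives irreducibility there over every extension field. -/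
theorem stable_eq_bot_or_top_of_hasFullSpan {k : Type} [Field k] (ρ : ResidualGaloisRep k)
    (G : Subgroup Γℚ) (hG : HasFullSpan ((residualMat ρ).comp G.subtype))
    (K : Type) [Field K] [Algebra k K] (V : Submodule K (ρ.baseChange K).V)
    (hV : ∀ σ ∈ G, ∀ x ∈ V, (ρ.baseChange K).ρ σ x ∈ V) : V = ⊥ ∨ V = ⊤ := by
  let b := residualBasis ρ
  have he : repMatrix (Algebra.TensorProduct.basis K b) ((ρ.baseChange K).ρ.comp G.subtype) =
      repMap (algebraMap k K) ((residualMat ρ).comp G.subtype) :=
    repMatrix_eq_repMap b (ρ.ρ.comp G.subtype) _ fun _ => rfl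
  have hns : NoStableLine (repMap (algebraMap k K) ((residualMat ρ).comp G.subtype)) :=
    (hG.repMap (algebraMap k K)).noStableLine
  rw [← he] at hns
  exact (noStableLine_repMatrix_iff _ _).mp hns V fun σ x hx => hV σ σ.2 x hx

variable (W : WeierstrassCurve ℤ) (hΔ : W.Δ ≠ 0) (p : ℕ) [Fact p.Prime]

/-- Matrices of the residual representation of a curve. -/
abbrev curveMat : Γℚ →* Matrix (Fin 2) (Fin 2) (ZMod p) :=
  residualMat (curveResidualRep W hΔ p)

/-- Wiles' lemma for curves, given the local shapes of inertia. -/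
theorem curveResidualRep_hasFullSpan_index_two (hp2 : p ≠ 2) (hirr : W.ModRepIsIrreducible p)
    (haway : ∀ q : ℕ, q.Prime → q ≠ p → ∀ A : ValuationSubring Qbar, A.LiesOverPrime q →
      ∀ σ ∈ A.inertiaSubgroupIn ℚ, (curveMat W hΔ p σ).trace = 2)
    (hat : ∀ A : ValuationSubring Qbar, A.LiesOverPrime p →
      HasInertialEigenOne (curveMat W hΔ p) A ∨ HasInertialCartan (curveMat W hΔ p) A)
    (L : Subgroup Γℚ) (hL : L.index = 2) :
    HasFullSpan ((curveMat W hΔ p).comp L.subtype) := by
  obtain ⟨F, hF, hfix⟩ := (curveResidualRep W hΔ p).factorsThroughFiniteLevel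
  haveI := hF
  refine hasFullSpan_index_two (fun σ => ?_) hp2 F (fun σ hσ => ?_)
    ((isAbsolutelyIrreducible_iff_hasFullSpan _).mp
      (curveResidualRep_isAbsolutelyIrreducible W hΔ p hp2 hirr)) haway hat L hL
  · show (repMatrix _ _ σ).det = _
    rw [det_repMatrix, curveResidualRep_det]
  · show repMatrix _ _ σ = 1
    rw [repMatrix_apply, hfix σ ((IntermediateField.mem_fixingSubgroup_iff _ σ).mp hσ)]
    exact LinearMap.toMatrix_one _

end FermatLib.MLT
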