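import Fermat.Agent.MLT.BettiTransfer
import Mathlib.Algebra.BigOperators.Fin

/-!
# Composites of transfers with multiplicities

If every product of representatives of two systems is a unit times a representative of a third
system, the composite transfer is the third transfer with the weights summed over the fibres.
-/

set_option autoImplicit false

noncomputable section

open scoped MatrixGroups

namespace FermatLib.MLT.CosetSystem

local notation "M2Z" => Matrix (Fin 2) (Fin 2) ℤ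

variable {Γ'' Γ' Γ : Subgroup SL(2, ℤ)} {ι κ μ : Type} [Fintype ι] [Fintype κ] [Fintype μ]
  [DecidableEq μ]
  {A : Type} [CommRing A] {χ'' : Γ'' →* Aˣ} {χ' : Γ' →* Aˣ} {χ : Γ →* Aˣ}
  {V : Type} [AddCommGroup V] [Module A V]
  (D : CosetSystem Γ' Γ ι) (E : CosetSystem Γ'' Γ' κ) (F : CosetSystem Γ'' Γ μ)

/-- Composition of transfers. -/
theorem transfer_transfer_eq (π : κ × ι → μ) (u : κ × ι → Γ)
    (hu : ∀ x, D.rep x.2 * E.rep x.1 = ((u x : SL(2, ℤ)) : M2Z) * F.rep (π x))
    {v : κ → A} {w : ι → A} {w'' : μ → A} (hv : E.IsWeight χ'' χ' v) (hw : D.IsWeight χ' χ w)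
    (hF : F.IsWeight χ'' χ w'')
    (hsum : ∀ m, ∑ x with π x = m, v x.1 * w x.2 * (χ (u x) : A) = w'' m)
    (x : bettiH1 Γ χ V) : E.transfer V hv (D.transfer V hw x) = F.transfer V hF x := by
  obtain ⟨c, rfl⟩ := Submodule.Quotient.mk_surjective _ x
  simp only [transfer_mk]
  rw [Submodule.Quotient.eq]
  refine mem_bettiBoundaries.2 ⟨-∑ x, (v x.1 * w x.2) • (c : Γ → V) (u x), fun γ => ?_⟩
  set nx : κ × ι → κ × ι := fun x => (E.next γ x.1, D.next (E.elt γ x.1) x.2) with hnx
  set ex : κ × ι → Γ := fun x => D.elt (E.elt γ x.1) x.2 with hex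
  have hbij : Function.Bijective nx := by
    refine Finite.injective_iff_bijective.1 fun x y h => ?_
    simp only [hnx, Prod.mk.injEq] at h
    have h1 := (E.next_bijective γ).1 h.1
    rw [h1] at h
    exact Prod.ext h1 ((D.next_bijective _).1 h.2)
  have hW : ∀ x, v x.1 * w x.2 * (χ (ex x) : A) = (χ'' γ : A) * (v (nx x).1 * w (nx x).2) := by
    intro x
    simp only [hnx, hex]
    rw [mul_assoc, hw, ← mul_assoc, hv]
    ring
  have key : ∀ x, ex x * u (nx x) = u x * F.elt γ (π x) := by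
    intro x
    have h1 : F.elt γ (π x) = (u x)⁻¹ * ex x * u (nx x) := by
      refine (F.next_elt_eq_of_eq (j := π (nx x)) ?_).2
      have h2 : D.rep x.2 * E.rep x.1 * ((γ : SL(2, ℤ)) : M2Z) =
          ((ex x : SL(2, ℤ)) : M2Z) * (D.rep (nx x).2 * E.rep (nx x).1) := by
        simp only [hnx, hex]
        rw [Matrix.mul_assoc, E.rep_mul, ← Matrix.mul_assoc, D.rep_mul, Matrix.mul_assoc]
      have h3 := congrArg (fun M : M2Z => ((((u x)⁻¹ : Γ) : SL(2, ℤ)) : M2Z) * M) h2
      simp only [hu, ← Matrix.mul_assoc, ← Matrix.SpecialLinearGroup.coe_mul, ← Subgroup.coe_mul,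
        inv_mul_cancel, Subgroup.coe_one, Matrix.SpecialLinearGroup.coe_one, one_mul] at h3
      rwa [mul_assoc (u x)⁻¹]
    rw [h1]
    group
  have key' : ∀ x, (v x.1 * w x.2) • (c : Γ → V) (ex x)
      + (χ'' γ : A) • (v (nx x).1 * w (nx x).2) • (c : Γ → V) (u (nx x))
      = (v x.1 * w x.2) • (c : Γ → V) (u x)
        + (v x.1 * w x.2 * (χ (u x) : A)) • (c : Γ → V) (F.elt γ (π x)) := by
    intro x
    have h := congrArg (fun g => (v x.1 * w x.2) • (c : Γ → V) g) (key x)
    simp only [bettiCocycles.map_mul, smul_add, smul_smul, hW x] at h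
    rwa [smul_smul]
  have hsum' : ∑ x, ((v x.1 * w x.2) • (c : Γ → V) (ex x)
      + (χ'' γ : A) • (v (nx x).1 * w (nx x).2) • (c : Γ → V) (u (nx x)))
      = ∑ x, ((v x.1 * w x.2) • (c : Γ → V) (u x)
        + (v x.1 * w x.2 * (χ (u x) : A)) • (c : Γ → V) (F.elt γ (π x))) :=
    Finset.sum_congr rfl fun x _ => key' x
  have hfib : ∑ x, (v x.1 * w x.2 * (χ (u x) : A)) • (c : Γ → V) (F.elt γ (π x))
      = ∑ m, w'' m • (c : Γ → V) (F.elt γ m) := by
    rw [← Finset.sum_fiberwise Finset.univ π]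
    refine Finset.sum_congr rfl fun m _ => ?_
    rw [← hsum m, Finset.sum_smul]
    exact Finset.sum_congr rfl fun x hx => by rw [(Finset.mem_filter.1 hx).2]
  rw [Finset.sum_add_distrib, Finset.sum_add_distrib, ← Finset.smul_sum,
    hbij.sum_comp (fun x => (v x.1 * w x.2) • (c : Γ → V) (u x)), hfib] at hsum'
  have hlhs : ((E.transferCocycles V hv (D.transferCocycles V hw c)) : Γ'' → V) γ
      = ∑ x, (v x.1 * w x.2) • (c : Γ → V) (ex x) := by
    simp only [transferCocycles_apply, Fintype.sum_prod_type, Finset.smul_sum, smul_smul, hex]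
  rw [Submodule.coe_sub, Pi.sub_apply, hlhs, transferCocycles_apply, smul_neg,
    eq_sub_of_add_eq hsum']
  abel

/-- A one-element system. -/
def single (η : M2Z) (hη : η.det ≠ 0)
    (h : ∀ γ : Γ', ∃ h : Γ, η * ((γ : SL(2, ℤ)) : M2Z) = ((h : SL(2, ℤ)) : M2Z) * η) :
    CosetSystem Γ' Γ Unit where
  rep _ := η
  det_ne_zero _ := hη
  eq_of_mul_rep _ _ _ _ _ := rfl
  exists_mul_eq _ γ := ⟨(), h γ⟩

/-- Transfers along one-element systems with scalar representative. -/
theorem single_transferCocycles_apply_of_comm (η : M2Z) (hη : η.det ≠ 0)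
    (h : ∀ γ : Γ', ∃ h : Γ, η * ((γ : SL(2, ℤ)) : M2Z) = ((h : SL(2, ℤ)) : M2Z) * η)
    {w : Unit → A} (hw : (single η hη h).IsWeight χ' χ w) (c : bettiCocycles Γ χ V) (γ : Γ')
    (g : Γ) (hg : η * ((γ : SL(2, ℤ)) : M2Z) = ((g : SL(2, ℤ)) : M2Z) * η) :
    ((single η hη h).transferCocycles V hw c : Γ' → V) γ = w () • (c : Γ → V) g := by
  rw [transferCocycles_apply, Fintype.sum_unique,
    ((single η hη h).next_elt_eq_of_eq (i := ()) (j := ()) (h := g) hg).2]

end FermatLib.MLT.CosetSystem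

end
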