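import Mathlib.NumberTheory.ModularForms.CongruenceSubgroups
import Mathlib.LinearAlgebra.Quotient.Basic
import Mathlib.LinearAlgebra.Pi
import Mathlib.Algebra.Module.Torsion.Free

/-!
# Betti cohomology with a character: definitions

For `Γ ≤ SL(2, ℤ)`, a commutative ring `A`, a character `χ : Γ →* Aˣ` and an `A`-module `V`,
`bettiH1 Γ χ V` is the first cohomology of `Γ / ±1` with values in `V`, the group acting by the
scalars `χ`.
-/

set_option autoImplicit false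

noncomputable section

open scoped MatrixGroups

namespace FermatLib.MLT

variable (Γ : Subgroup SL(2, ℤ)) {A : Type} [CommRing A] (χ : Γ →* Aˣ)
  (V : Type) [AddCommGroup V] [Module A V]

/-- Cocycles for the scalar action `χ` that vanish at `-1`. -/
def bettiCocycles : Submodule A (Γ → V) where
  carrier := {c | (∀ γ δ, c (γ * δ) = c γ + (χ γ : A) • c δ) ∧
    ∀ γ : Γ, (γ : SL(2, ℤ)) = -1 → c γ = 0}
  zero_mem' := ⟨fun _ _ => by simp, fun _ _ => rfl⟩
  add_mem' {c d} hc hd := ⟨fun γ δ => by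
    simp only [Pi.add_apply, hc.1 γ δ, hd.1 γ δ, smul_add]; abel, fun γ h => by
    simp only [Pi.add_apply, hc.2 γ h, hd.2 γ h, add_zero]⟩
  smul_mem' a c hc := ⟨fun γ δ => by
    simp only [Pi.smul_apply, hc.1 γ δ, smul_add, smul_comm a], fun γ h => by
    simp only [Pi.smul_apply, hc.2 γ h, smul_zero]⟩

/-- The coboundary `γ ↦ χ γ • v - v`. -/
def bettiCobdry : V →ₗ[A] (Γ → V) where
  toFun v γ := (χ γ : A) • v - v
  map_add' u v := by funext γ; simp only [Pi.add_apply, smul_add]; abel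
  map_smul' a v := by funext γ; simp only [Pi.smul_apply, RingHom.id_apply, smul_sub, smul_comm a]

/-- Coboundaries inside the cocycles. -/
def bettiBoundaries : Submodule A (bettiCocycles Γ χ V) :=
  (LinearMap.range (bettiCobdry Γ χ V)).comap (bettiCocycles Γ χ V).subtype

/-- `H¹(Γ/±1, V)`. -/
abbrev bettiH1 : Type := bettiCocycles Γ χ V ⧸ bettiBoundaries Γ χ V

variable {Γ χ V}

theorem mem_bettiCocycles {c : Γ → V} :
    c ∈ bettiCocycles Γ χ V ↔ (∀ γ δ, c (γ * δ) = c γ + (χ γ : A) • c δ) ∧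
      ∀ γ : Γ, (γ : SL(2, ℤ)) = -1 → c γ = 0 := Iff.rfl

theorem bettiCobdry_apply (v : V) (γ : Γ) : bettiCobdry Γ χ V v γ = (χ γ : A) • v - v := rfl

theorem mem_bettiBoundaries {c : bettiCocycles Γ χ V} :
    c ∈ bettiBoundaries Γ χ V ↔ ∃ v, ∀ γ : Γ, (χ γ : A) • v - v = (c : Γ → V) γ :=
  ⟨fun ⟨v, hv⟩ => ⟨v, fun γ => congrFun hv γ⟩, fun ⟨v, hv⟩ => ⟨v, funext hv⟩⟩

namespace bettiCocycles

variable (c : bettiCocycles Γ χ V)

theorem map_mul (γ δ : Γ) : (c : Γ → V) (γ * δ) = (c : Γ → V) γ + (χ γ : A) • (c : Γ → V) δ :=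
  c.2.1 γ δ

theorem map_one : (c : Γ → V) 1 = 0 := by
  have h := map_mul c 1 1
  rwa [one_mul, _root_.map_one, Units.val_one, one_smul, left_eq_add] at h

theorem map_neg_one {γ : Γ} (h : (γ : SL(2, ℤ)) = -1) : (c : Γ → V) γ = 0 := c.2.2 γ h

theorem map_inv (γ : Γ) : (c : Γ → V) γ⁻¹ = -((χ γ⁻¹ : A) • (c : Γ → V) γ) := by
  have h := map_mul c γ⁻¹ γ
  rw [inv_mul_cancel, map_one] at h
  exact eq_neg_of_add_eq_zero_left h.symm

end bettiCocycles

section map

variable (Γ χ) {W : Type} [AddCommGroup W] [Module A W]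

/-- Functoriality of cocycles. -/
def bettiCocyclesMap (f : V →ₗ[A] W) : bettiCocycles Γ χ V →ₗ[A] bettiCocycles Γ χ W :=
  ((f.compLeft Γ).domRestrict (bettiCocycles Γ χ V)).codRestrict _ fun c =>
    ⟨fun γ δ => by
      simp [bettiCocycles.map_mul],
    fun γ h => by simp [bettiCocycles.map_neg_one c h]⟩

@[simp] theorem bettiCocyclesMap_apply (f : V →ₗ[A] W) (c : bettiCocycles Γ χ V) (γ : Γ) :
    (bettiCocyclesMap Γ χ f c : Γ → W) γ = f ((c : Γ → V) γ) := rfl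

theorem bettiBoundaries_le_comap (f : V →ₗ[A] W) :
    bettiBoundaries Γ χ V ≤ (bettiBoundaries Γ χ W).comap (bettiCocyclesMap Γ χ f) := by
  intro c hc
  obtain ⟨v, hv⟩ := mem_bettiBoundaries.1 hc
  exact mem_bettiBoundaries.2 ⟨f v, fun γ => by simp [← hv]⟩

/-- Functoriality of `H¹`. -/
def bettiH1Map (f : V →ₗ[A] W) : bettiH1 Γ χ V →ₗ[A] bettiH1 Γ χ W :=
  Submodule.mapQ _ _ (bettiCocyclesMap Γ χ f) (bettiBoundaries_le_comap Γ χ f)

@[simp] theorem bettiH1Map_mk (f : V →ₗ[A] W) (c : bettiCocycles Γ χ V) :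
    bettiH1Map Γ χ f (Submodule.Quotient.mk c) =
      Submodule.Quotient.mk (bettiCocyclesMap Γ χ f c) := rfl

end map

section neben

open CongruenceSubgroup

/-- The lower right entry modulo `L`, as a unit. -/
def gamma0UnitsHom (L : ℕ) : Gamma0 L →* (ZMod L)ˣ := (Gamma0Map L).toHomUnits

@[simp] theorem coe_gamma0UnitsHom {L : ℕ} (γ : Gamma0 L) :
    (gamma0UnitsHom L γ : ZMod L) = (((γ : SL(2, ℤ)) 1 1 : ℤ) : ZMod L) := rfl

/-- The character of `Γ₀(L)` given by a character of `(ℤ/L)ˣ`. -/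
def nebenChar {L : ℕ} (χ : (ZMod L)ˣ →* Aˣ) : Gamma0 L →* Aˣ := χ.comp (gamma0UnitsHom L)

theorem nebenChar_neg_one {L : ℕ} {χ : (ZMod L)ˣ →* Aˣ} (hχ : χ (-1) = 1) (γ : Gamma0 L)
    (h : (γ : SL(2, ℤ)) = -1) : nebenChar χ γ = 1 := by
  have : gamma0UnitsHom L γ = -1 := Units.ext (by rw [coe_gamma0UnitsHom, h]; simp)
  rw [nebenChar, MonoidHom.comp_apply, this, hχ]

theorem nebenChar_one {L : ℕ} : nebenChar (1 : (ZMod L)ˣ →* Aˣ) = 1 := rfl

end neben

end FermatLib.MLT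

end
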