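import Fermat.Agent.MLT.BettiTransfer
import Fermat.Agent.Modular.HeckeReps
import Mathlib.Algebra.MvPolynomial.CommRing
import Mathlib.RingTheory.Adjoin.Basic
import Mathlib.Data.ZMod.Units

/-!
# Hecke operators on Betti cohomology with a nebentype
-/

set_option autoImplicit false

noncomputable section

open scoped MatrixGroups
open CongruenceSubgroup

namespace FermatLib.MLT

local notation "M2Z" => Matrix (Fin 2) (Fin 2) ℤ

open Modular (HeckeIdx heckeRepInt heckeSystem)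

/-- The matrices are upper triangular modulo `L`, with upper left entry the unit `e i`. -/
def UpperUnits {ι : Type} (L : ℕ) (rep : ι → M2Z) (e : ι → (ZMod L)ˣ) : Prop :=
  ∀ i, (L : ℤ) ∣ rep i 1 0 ∧ ((rep i 0 0 : ℤ) : ZMod L) = e i

theorem gamma0_unit_mul {L : ℕ} (h : Gamma0 L) (e e' : (ZMod L)ˣ) (M : M2Z)
    (hM : (L : ℤ) ∣ M 1 0) (hM0 : ((M 0 0 : ℤ) : ZMod L) = e')
    (he : (e : ZMod L) = (((((h : SL(2, ℤ)) : M2Z) * M) 0 0 : ℤ) : ZMod L)) :
    e * gamma0UnitsHom L h = e' := by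
  refine Units.ext ?_
  rw [Units.val_mul, he, coe_gamma0UnitsHom, ← hM0]
  have hd : (h : SL(2, ℤ)) 0 0 * (h : SL(2, ℤ)) 1 1 - (h : SL(2, ℤ)) 0 1 * (h : SL(2, ℤ)) 1 0
      = 1 := by
    have := (h : SL(2, ℤ)).det_coe
    rwa [Matrix.det_fin_two] at this
  have hd' := congrArg (Int.cast : ℤ → ZMod L) hd
  have hc : (((h : SL(2, ℤ)) 1 0 : ℤ) : ZMod L) = 0 := Gamma0_mem.mp h.2
  have hM' : ((M 1 0 : ℤ) : ZMod L) = 0 := (ZMod.intCast_zmod_eq_zero_iff_dvd _ _).2 hM
  simp only [Matrix.mul_apply, Fin.sum_univ_two, Int.cast_add, Int.cast_mul, hM', mul_zero,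
    add_zero]
  push_cast at hd'
  rw [hc, mul_zero, sub_zero] at hd'
  linear_combination ((M 0 0 : ℤ) : ZMod L) * hd'

theorem upperUnits_comp {L : ℕ} {ι κ : Type} {r : ι → M2Z} {r' : κ → M2Z} {e : ι → (ZMod L)ˣ}
    {e' : κ → (ZMod L)ˣ} (h : UpperUnits L r e) (h' : UpperUnits L r' e') :
    UpperUnits L (fun x : κ × ι => r x.2 * r' x.1) (fun x => e x.2 * e' x.1) := by
  intro x
  obtain ⟨h1, h2⟩ := h x.2
  obtain ⟨h1', h2'⟩ := h' x.1
  constructor
  · simp only [Matrix.mul_apply, Fin.sum_univ_two]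
    exact dvd_add (h1.mul_right _) (h1'.mul_left _)
  · simp only [Matrix.mul_apply, Fin.sum_univ_two, Int.cast_add, Int.cast_mul, Units.val_mul, h2,
      h2', (ZMod.intCast_zmod_eq_zero_iff_dvd _ _).2 h1', mul_zero, add_zero]

variable {A : Type} [CommRing A] {L : ℕ}

/-- Weights `χ (upper left entry)` are compatible with `χ`, also after raising the level. -/
theorem isWeight_upperUnits {L' : ℕ} (hL : L ∣ L') {ι : Type}
    (D : CosetSystem (Gamma0 L') (Gamma0 L) ι) {e : ι → (ZMod L)ˣ} (he : UpperUnits L D.rep e)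
    (χ : (ZMod L)ˣ →* Aˣ) :
    D.IsWeight (nebenChar (χ.comp (ZMod.unitsMap hL))) (nebenChar χ)
      (fun i => (χ (e i) : A)) := by
  intro γ i
  set j := D.next γ i
  have hcγ : (L : ℤ) ∣ (γ : SL(2, ℤ)) 1 0 := (Int.natCast_dvd_natCast.2 hL).trans
    (Modular.dvd_apply_one_zero γ)
  set eγ : (ZMod L)ˣ := ZMod.unitsMap hL (gamma0UnitsHom L' γ) with heγ
  have hdγ : (eγ : ZMod L) = (((γ : SL(2, ℤ)) 1 1 : ℤ) : ZMod L) := by
    rw [heγ, ZMod.unitsMap_val, coe_gamma0UnitsHom, ZMod.cast_intCast hL]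
  have hd : (γ : SL(2, ℤ)) 0 0 * (γ : SL(2, ℤ)) 1 1 - (γ : SL(2, ℤ)) 0 1 * (γ : SL(2, ℤ)) 1 0
      = 1 := by
    have := (γ : SL(2, ℤ)).det_coe
    rwa [Matrix.det_fin_two] at this
  have haγ : ((eγ⁻¹ : (ZMod L)ˣ) : ZMod L) = (((γ : SL(2, ℤ)) 0 0 : ℤ) : ZMod L) := by
    refine (Units.eq_inv_of_mul_eq_one_right ?_).symm
    have := congrArg (Int.cast : ℤ → ZMod L) hd
    push_cast at this
    rw [(ZMod.intCast_zmod_eq_zero_iff_dvd _ _).2 hcγ, mul_zero, sub_zero] at this
    rw [hdγ]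
    linear_combination this
  have key : e i * eγ⁻¹ * gamma0UnitsHom L (D.elt γ i) = e j := by
    refine gamma0_unit_mul (D.elt γ i) _ _ (D.rep j) (he j).1 (he j).2 ?_
    rw [← D.rep_mul γ i]
    simp only [Matrix.mul_apply, Fin.sum_univ_two, Int.cast_add, Int.cast_mul, Units.val_mul,
      (he i).2, haγ, (ZMod.intCast_zmod_eq_zero_iff_dvd _ _).2 hcγ, mul_zero, add_zero]
  show (χ (e i) : A) * (χ (gamma0UnitsHom L (D.elt γ i)) : A) = (χ eγ : A) * (χ (e j) : A)
  rw [← Units.val_mul, ← Units.val_mul, ← map_mul, ← map_mul, ← key]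
  congr 2
  rw [mul_assoc (e i), mul_left_comm eγ, mul_inv_cancel_left]

theorem isWeight_upperUnits_self {ι : Type} (D : CosetSystem (Gamma0 L) (Gamma0 L) ι)
    {e : ι → (ZMod L)ˣ} (he : UpperUnits L D.rep e) (χ : (ZMod L)ˣ →* Aˣ) :
    D.IsWeight (nebenChar χ) (nebenChar χ) (fun i => (χ (e i) : A)) := by
  have := isWeight_upperUnits (dvd_refl L) D he χ
  rwa [ZMod.unitsMap_self, MonoidHom.comp_id] at this

/-- The weights of two systems representing the same cosets match. -/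
theorem upperUnits_match {ι κ : Type} {r : ι → M2Z} {r' : κ → M2Z} {e : ι → (ZMod L)ˣ}
    {e' : κ → (ZMod L)ˣ} (he : UpperUnits L r e) (he' : UpperUnits L r' e') (π : ι → κ)
    (u : ι → Gamma0 L) (hu : ∀ i, r i = ((u i : SL(2, ℤ)) : M2Z) * r' (π i))
    (χ : (ZMod L)ˣ →* Aˣ) (i : ι) :
    (χ (e i) : A) * (nebenChar χ (u i) : A) = (χ (e' (π i)) : A) := by
  rw [nebenChar, MonoidHom.comp_apply, ← Units.val_mul, ← map_mul,
    gamma0_unit_mul (u i) (e i) (e' (π i)) _ (he' (π i)).1 (he' (π i)).2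
      (by rw [← hu i]; exact (he i).2.symm)]

/-- The upper left entries of the standard representatives, as units. -/
def heckeUnit (L : ℕ) (p : Nat.Primes) : HeckeIdx L p → (ZMod L)ˣ
  | ⟨some _, _⟩ => 1
  | ⟨none, h⟩ => ZMod.unitOfCoprime (p : ℕ) (p.2.coprime_iff_not_dvd.2 (h rfl))

/-- The coset system of `T p` or `U p`. -/
abbrev bettiHeckeSystem (L : ℕ) (p : Nat.Primes) :
    CosetSystem (Gamma0 L) (Gamma0 L) (HeckeIdx L p) :=
  CosetSystem.ofHecke (heckeSystem L p)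

theorem upperUnits_heckeUnit (L : ℕ) (p : Nat.Primes) :
    UpperUnits L (bettiHeckeSystem L p).rep (heckeUnit L p) := by
  rintro ⟨x, hx⟩
  refine ⟨?_, ?_⟩
  · show (L : ℤ) ∣ heckeRepInt p x 1 0
    rw [Modular.heckeRepInt_one_zero]
    exact dvd_zero _
  · show ((heckeRepInt p x 0 0 : ℤ) : ZMod L) = _
    cases x <;> simp [heckeRepInt, heckeUnit]

/-- The weights of `T p`. -/
def heckeWeight (χ : (ZMod L)ˣ →* Aˣ) (p : Nat.Primes) (x : HeckeIdx L p) : A :=
  (χ (heckeUnit L p x) : A)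

theorem isWeight_heckeWeight (χ : (ZMod L)ˣ →* Aˣ) (p : Nat.Primes) :
    (bettiHeckeSystem L p).IsWeight (nebenChar χ) (nebenChar χ) (heckeWeight χ p) :=
  isWeight_upperUnits_self _ (upperUnits_heckeUnit L p) χ

/-- The eigenvalue of `T p` on degree zero: `χ p + p`, or `p` if `p ∣ L`. -/
def heckeDegree (χ : (ZMod L)ˣ →* Aˣ) (p : Nat.Primes) : A := ∑ x, heckeWeight χ p x

variable (L) (V : Type) [AddCommGroup V] [Module A V]

/-- `T p` or `U p` on `H¹(Γ₀(L), χ)`. -/
def bettiHeckeOp (χ : (ZMod L)ˣ →* Aˣ) (p : Nat.Primes) :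
    Module.End A (bettiH1 (Gamma0 L) (nebenChar χ) V) :=
  (bettiHeckeSystem L p).transfer V (isWeight_heckeWeight χ p)

variable {L} {V}

/-- The Hecke operators commute. -/
theorem bettiHeckeOp_comm (χ : (ZMod L)ˣ →* Aˣ) (p q : Nat.Primes) :
    Commute (bettiHeckeOp L V χ p) (bettiHeckeOp L V χ q) := by
  rcases eq_or_ne p q with rfl | hpq
  · exact Commute.refl _
  refine LinearMap.ext fun x => ?_
  show bettiHeckeOp L V χ p (bettiHeckeOp L V χ q x) = bettiHeckeOp L V χ q (bettiHeckeOp L V χ p x)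
  have h1 : ∀ (x y : HeckeIdx L p × HeckeIdx L q) (h : SL(2, ℤ)),
      (h : M2Z) * ((heckeSystem L q).rep x.2 * (heckeSystem L p).rep x.1) =
        (heckeSystem L q).rep y.2 * (heckeSystem L p).rep y.1 → x = y := fun x y h e => by
    simpa [Prod.ext_iff, and_comm] using
      Modular.heckeSystem_mul_inj (Ne.symm hpq) (x.2, x.1) (y.2, y.1) h e
  have h2 : ∀ (x y : HeckeIdx L q × HeckeIdx L p) (h : SL(2, ℤ)),
      (h : M2Z) * ((heckeSystem L p).rep x.2 * (heckeSystem L q).rep x.1) =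
        (heckeSystem L p).rep y.2 * (heckeSystem L q).rep y.1 → x = y := fun x y h e => by
    simpa [Prod.ext_iff, and_comm] using
      Modular.heckeSystem_mul_inj hpq (x.2, x.1) (y.2, y.1) h e
  choose F u hu using Modular.exists_swap_factor (N := L) hpq
  have hF : Function.Injective F := by
    intro x y hxy
    refine h1 x y ((u y : SL(2, ℤ)) * (u x : SL(2, ℤ))⁻¹) ?_
    rw [hu x, hu y, hxy, ← Matrix.mul_assoc, ← Matrix.SpecialLinearGroup.coe_mul, mul_assoc,
      inv_mul_cancel, mul_one]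
  rw [bettiHeckeOp, bettiHeckeOp, (bettiHeckeSystem L q).transfer_comp (bettiHeckeSystem L p) h1,
    (bettiHeckeSystem L p).transfer_comp (bettiHeckeSystem L q) h2]
  set π : HeckeIdx L p × HeckeIdx L q ≃ HeckeIdx L q × HeckeIdx L p :=
    (Equiv.ofBijective F (Finite.injective_iff_bijective.1 hF)).trans (Equiv.prodComm _ _) with hπ
  refine CosetSystem.transfer_eq_of_equiv _ _ π u (fun i => hu i) _ _ (fun i => ?_) x
  have hm := upperUnits_match (A := A)
    (upperUnits_comp (upperUnits_heckeUnit L q) (upperUnits_heckeUnit L p))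
    (upperUnits_comp (upperUnits_heckeUnit L p) (upperUnits_heckeUnit L q)) π u (fun i => hu i) χ i
  simp only [map_mul, Units.val_mul] at hm
  simp only [heckeWeight]
  linear_combination hm

theorem bettiHeckeOp_map {W : Type} [AddCommGroup W] [Module A W] (χ : (ZMod L)ˣ →* Aˣ)
    (p : Nat.Primes) (f : V →ₗ[A] W) (x : bettiH1 (Gamma0 L) (nebenChar χ) V) :
    bettiH1Map _ _ f (bettiHeckeOp L V χ p x) = bettiHeckeOp L W χ p (bettiH1Map _ _ f x) :=
  CosetSystem.transfer_map _ _ f x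

/-- On a coboundary class `[χ γ • v - v]` the operators are multiplication by the degree. -/
theorem transferCocycles_cobdry (χ : (ZMod L)ˣ →* Aˣ) (p : Nat.Primes) (v : V)
    (c : bettiCocycles (Gamma0 L) (nebenChar χ) V)
    (hc : (c : Gamma0 L → V) = bettiCobdry _ (nebenChar χ) V v) :
    ((bettiHeckeSystem L p).transferCocycles V (isWeight_heckeWeight χ p) c : Gamma0 L → V) =
      bettiCobdry _ (nebenChar χ) V (heckeDegree χ p • v) := by
  rw [heckeDegree, ← (bettiHeckeSystem L p).transferFun_cobdry V (isWeight_heckeWeight χ p), ← hc]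
  rfl

variable (A) in
/-- Hecke polynomials with coefficients in `A`. -/
abbrev BettiHeckeAlg : Type := MvPolynomial Nat.Primes A

variable (L) (V) in
theorem isMulCommutative_adjoin_bettiHeckeOp (χ : (ZMod L)ˣ →* Aˣ) :
    IsMulCommutative (Algebra.adjoin A (Set.range (bettiHeckeOp L V χ))) :=
  Algebra.isMulCommutative_adjoin A (by
    rintro _ ⟨p, rfl⟩ _ ⟨q, rfl⟩
    exact bettiHeckeOp_comm χ p q)

open scoped IsMulCommutative in
/-- Evaluation of Hecke polynomials, auxiliary commutative target. -/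
def bettiEvalAux (L : ℕ) (χ : (ZMod L)ˣ →* Aˣ) (V : Type) [AddCommGroup V] [Module A V] :
    BettiHeckeAlg A →ₐ[A] (Algebra.adjoin A (Set.range (bettiHeckeOp L V χ)) :
      Subalgebra A (Module.End A (bettiH1 (Gamma0 L) (nebenChar χ) V))) :=
  haveI := isMulCommutative_adjoin_bettiHeckeOp L V χ
  MvPolynomial.aeval fun p =>
    (⟨bettiHeckeOp L V χ p, Algebra.subset_adjoin (Set.mem_range_self p)⟩ :
      Algebra.adjoin A (Set.range (bettiHeckeOp L V χ)))

/-- Evaluation of Hecke polynomials on `H¹`. -/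
def bettiEval (L : ℕ) (χ : (ZMod L)ˣ →* Aˣ) (V : Type) [AddCommGroup V] [Module A V] :
    BettiHeckeAlg A →ₐ[A] Module.End A (bettiH1 (Gamma0 L) (nebenChar χ) V) :=
  (Algebra.adjoin A (Set.range (bettiHeckeOp L V χ))).val.comp (bettiEvalAux L χ V)

open scoped IsMulCommutative in
@[simp] theorem bettiEval_X (χ : (ZMod L)ˣ →* Aˣ) (p : Nat.Primes) :
    bettiEval L χ V (MvPolynomial.X p) = bettiHeckeOp L V χ p := by
  haveI := isMulCommutative_adjoin_bettiHeckeOp L V χ
  exact congrArg Subtype.val (MvPolynomial.aeval_X _ p)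

theorem bettiEval_map {W : Type} [AddCommGroup W] [Module A W] (χ : (ZMod L)ˣ →* Aˣ)
    (P : BettiHeckeAlg A) (f : V →ₗ[A] W) (x : bettiH1 (Gamma0 L) (nebenChar χ) V) :
    bettiH1Map _ _ f (bettiEval L χ V P x) = bettiEval L χ W P (bettiH1Map _ _ f x) := by
  induction P using MvPolynomial.induction_on generalizing x with
  | C a => simp [← MvPolynomial.algebraMap_eq, Module.algebraMap_end_apply]
  | add P Q hP hQ => simp [hP, hQ]
  | mul_X P p hP => simp [Module.End.mul_apply, hP, bettiHeckeOp_map]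

end FermatLib.MLT

end
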