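import Fermat.Agent.MLT.BettiLevelOps

/-!
# The identities between degeneracy maps, trace, Atkin–Lehner and Hecke operators

These are the hypotheses of the abstract comparison of levels `L` and `L * q`.
-/

set_option autoImplicit false

noncomputable section

open scoped MatrixGroups
open CongruenceSubgroup

namespace FermatLib.MLT

local notation "M2Z" => Matrix (Fin 2) (Fin 2) ℤ

open Modular (HeckeIdx heckeRepInt mem_Gamma0_iff_dvd)

variable {A : Type} [CommRing A]

theorem CosetSystem.IsWeight.smul {Γ' Γ : Subgroup SL(2, ℤ)} {ι : Type}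
    {D : CosetSystem Γ' Γ ι} {χ' : Γ' →* Aˣ} {χ : Γ →* Aˣ} {w : ι → A}
    (hw : D.IsWeight χ' χ w) (a : A) : D.IsWeight χ' χ (fun i => a * w i) := fun γ i => by
  rw [mul_assoc, hw γ i]
  ring

variable {L : ℕ} {χ : (ZMod L)ˣ →* Aˣ} {V : Type} [AddCommGroup V] [Module A V] {q : Nat.Primes}

theorem BettiMod.X_smul_mk (p : Nat.Primes) (c : bettiCocycles (Gamma0 L) (nebenChar χ) V) :
    (MvPolynomial.X p : BettiHeckeAlg A) • (BettiMod.mk c : BettiMod L χ V) =
      BettiMod.mk ((bettiHeckeSystem L p).transferCocycles V (isWeight_heckeWeight χ p) c) := by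
  rw [BettiMod.X_smul]
  rfl

/-- The scalar representative `q`. -/
def scalarRep (q : Nat.Primes) : M2Z := !![((q : ℕ) : ℤ), 0; 0, ((q : ℕ) : ℤ)]

theorem det_scalarRep (q : Nat.Primes) : (scalarRep q).det ≠ 0 := by
  rw [scalarRep, Matrix.det_fin_two_of]
  simp [q.2.ne_zero]

theorem scalarRep_mul_coe (q : Nat.Primes) (g : SL(2, ℤ)) :
    scalarRep q * (g : M2Z) = (g : M2Z) * scalarRep q := by
  ext i j
  fin_cases i <;> fin_cases j <;>
    simp [scalarRep, Matrix.mul_apply, Fin.sum_univ_two] <;> ring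

theorem levelDegen₁_mk (c : bettiCocycles (Gamma0 L) (nebenChar χ) V) :
    levelDegen₁ q χ V (BettiMod.mk c) =
      BettiMod.mk ((degenSystem₁ L q).transferCocycles V (isWeight_degen₁ q χ) c) := rfl

theorem levelDegen₁_cocycle_apply (c : bettiCocycles (Gamma0 L) (nebenChar χ) V)
    (γ : Gamma0 (L * (q : ℕ))) :
    ((degenSystem₁ L q).transferCocycles V (isWeight_degen₁ q χ) c : _ → V) γ =
      (c : Gamma0 L → V) (gamma0Incl (Nat.dvd_mul_right L q) γ) := by
  rw [CosetSystem.transferCocycles_apply, Fintype.sum_unique,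
    ((degenSystem₁ L q).next_elt_eq_of_eq (j := ())
      (h := gamma0Incl (Nat.dvd_mul_right L q) γ)
      (by simp [degenSystem₁, CosetSystem.single])).2, one_smul]

/-- `T p` indices at levels `L q` and `L`. -/
def heckeIdxRaise {l : Nat.Primes} (hl : l ≠ q) :
    HeckeIdx (L * (q : ℕ)) l ≃ HeckeIdx L l :=
  Equiv.subtypeEquivRight fun x => imp_congr_right fun _ => not_congr
    ⟨fun h => (l.2.dvd_mul.1 h).resolve_right fun h' =>
      hl (Subtype.ext ((Nat.prime_dvd_prime_iff_eq l.2 q.2).1 h')), fun h => h.mul_right _⟩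

theorem heckeWeight_raise {l : Nat.Primes} (x : HeckeIdx (L * (q : ℕ)) l) (y : HeckeIdx L l)
    (h : x.1 = y.1) : heckeWeight (raiseChar q χ) l x = heckeWeight χ l y := by
  show (χ (ZMod.unitsMap (Nat.dvd_mul_right L q) (heckeUnit _ l x)) : A) = (χ (heckeUnit L l y) : A)
  congr 2
  refine Units.ext ?_
  obtain ⟨x, hx⟩ := x
  obtain ⟨y, hy⟩ := y
  cases h
  cases x with
  | none =>
    rw [ZMod.unitsMap_val]
    simp [heckeUnit]
  | some j => simp [heckeUnit]

/-- `T l` commutes with the first degeneracy map for `l ≠ q`. -/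
theorem levelDegen₁_X_smul {l : Nat.Primes} (hl : l ≠ q) (m : BettiMod L χ V) :
    levelDegen₁ q χ V ((MvPolynomial.X l : BettiHeckeAlg A) • m) =
      (MvPolynomial.X l : BettiHeckeAlg A) • levelDegen₁ q χ V m := by
  obtain ⟨c, rfl⟩ := BettiMod.mk_surjective m
  rw [BettiMod.X_smul_mk, levelDegen₁_mk, levelDegen₁_mk, BettiMod.X_smul_mk]
  refine congrArg BettiMod.mk (Subtype.ext (funext fun γ => ?_))
  rw [levelDegen₁_cocycle_apply, CosetSystem.transferCocycles_apply,
    CosetSystem.transferCocycles_apply, ← (heckeIdxRaise (L := L) hl).sum_comp]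
  refine Finset.sum_congr rfl fun x _ => ?_
  rw [heckeWeight_raise (χ := χ) x (heckeIdxRaise hl x) rfl, levelDegen₁_cocycle_apply,
    ((bettiHeckeSystem L l).next_elt_eq_of_eq (γ := gamma0Incl (Nat.dvd_mul_right L q) γ)
      (i := heckeIdxRaise hl x)
      (j := heckeIdxRaise hl ((bettiHeckeSystem (L * (q : ℕ)) l).next γ x))
      (h := gamma0Incl (Nat.dvd_mul_right L q) ((bettiHeckeSystem (L * (q : ℕ)) l).elt γ x))
      ((bettiHeckeSystem (L * (q : ℕ)) l).rep_mul γ x)).2]

/-- The representatives of `U q` at level `L q`. -/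
def heckeIdxSome (L : ℕ) (q : Nat.Primes) : Fin (q : ℕ) ≃ HeckeIdx (L * (q : ℕ)) q where
  toFun b := ⟨some b, fun h => (Option.some_ne_none _ h).elim⟩
  invFun x := x.1.get (by
    obtain ⟨x, hx⟩ := x
    cases x with
    | none => exact absurd (dvd_mul_left (q : ℕ) L) (hx rfl)
    | some b => rfl)
  left_inv _ := rfl
  right_inv x := Subtype.ext (by simp)

theorem heckeWeight_heckeIdxSome (χ' : (ZMod (L * (q : ℕ)))ˣ →* Aˣ) (b : Fin (q : ℕ)) :
    heckeWeight χ' q (heckeIdxSome L q b) = 1 := by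
  simp [heckeWeight, heckeUnit, heckeIdxSome]

/-- The representatives of `T q` at level `L`. -/
def heckeIdxOption (hq : ¬ (q : ℕ) ∣ L) : Option (Fin (q : ℕ)) ≃ HeckeIdx L q where
  toFun x := ⟨x, fun _ => hq⟩
  invFun x := x.1
  left_inv _ := rfl
  right_inv _ := rfl

/-- `U q` after the first degeneracy map. -/
theorem X_smul_levelDegen₁ (hq : ¬ (q : ℕ) ∣ L) (m : BettiMod L χ V) :
    (MvPolynomial.X q : BettiHeckeAlg A) • levelDegen₁ q χ V m =
      levelDegen₁ q χ V ((MvPolynomial.X q : BettiHeckeAlg A) • m) - levelDegen₂ hq χ V m := by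
  obtain ⟨c, rfl⟩ := BettiMod.mk_surjective m
  show (MvPolynomial.X q : BettiHeckeAlg A) • levelDegen₁ q χ V (BettiMod.mk c) = _ -
    BettiMod.mk ((degenSystem₂ L q).transferCocycles V (isWeight_degen₂ hq χ) c)
  rw [levelDegen₁_mk, BettiMod.X_smul_mk, BettiMod.X_smul_mk, levelDegen₁_mk, ← map_sub]
  refine congrArg BettiMod.mk (Subtype.ext (funext fun γ => ?_))
  rw [Submodule.coe_sub, Pi.sub_apply, levelDegen₁_cocycle_apply,
    CosetSystem.transferCocycles_apply, CosetSystem.transferCocycles_apply,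
    CosetSystem.transferCocycles_apply, eq_sub_iff_add_eq,
    ← (heckeIdxSome L q).sum_comp, ← (heckeIdxOption hq).sum_comp, Fintype.sum_option,
    Fintype.sum_unique (fun _ : Unit => _), add_comm]
  congr 1
  · rw [((bettiHeckeSystem L q).next_elt_eq_of_eq (γ := gamma0Incl (Nat.dvd_mul_right L q) γ)
      (i := heckeIdxOption hq none)
      (j := heckeIdxOption hq none) (h := (degenSystem₂ L q).elt γ default)
      ((degenSystem₂ L q).rep_mul γ default)).2]
    rfl
  · refine Finset.sum_congr rfl fun b _ => ?_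
    rw [levelDegen₁_cocycle_apply, heckeWeight_heckeIdxSome,
      ((bettiHeckeSystem L q).next_elt_eq_of_eq (γ := gamma0Incl (Nat.dvd_mul_right L q) γ)
        (i := heckeIdxOption hq (some b))
        (j := heckeIdxOption hq (some ((heckeIdxSome L q).symm
          ((bettiHeckeSystem (L * (q : ℕ)) q).next γ (heckeIdxSome L q b)))))
        (h := gamma0Incl (Nat.dvd_mul_right L q)
          ((bettiHeckeSystem (L * (q : ℕ)) q).elt γ (heckeIdxSome L q b))) (by
          have h := (bettiHeckeSystem (L * (q : ℕ)) q).rep_mul γ (heckeIdxSome L q b)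
          rw [← (heckeIdxSome L q).apply_symm_apply
            ((bettiHeckeSystem (L * (q : ℕ)) q).next γ (heckeIdxSome L q b))] at h
          exact h)).2]
    simp [heckeWeight, heckeUnit, heckeIdxOption]

/-- `U q` after the second degeneracy map. -/
theorem X_smul_levelDegen₂ (hq : ¬ (q : ℕ) ∣ L) (m : BettiMod L χ V) :
    (MvPolynomial.X q : BettiHeckeAlg A) • levelDegen₂ hq χ V m =
      (((q : ℕ) : A) * (χ (levelUnit hq) : A)) • levelDegen₁ q χ V m := by
  rw [BettiMod.X_smul]
  let F : CosetSystem (Gamma0 (L * (q : ℕ))) (Gamma0 L) Unit :=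
    CosetSystem.single _ (det_scalarRep q) fun γ =>
      ⟨gamma0Incl (Nat.dvd_mul_right L q) γ, scalarRep_mul_coe q γ⟩
  have hF := (isWeight_upperUnits (Nat.dvd_mul_right L q) F (e := fun _ => levelUnit hq)
    (fun _ => by simp [F, scalarRep, CosetSystem.single, levelUnit]) χ).smul (((q : ℕ) : A))
  rw [show bettiHeckeOp (L * (q : ℕ)) V (raiseChar q χ) q (levelDegen₂ hq χ V m) =
    F.transfer V hF m from ?_]
  · obtain ⟨c, rfl⟩ := BettiMod.mk_surjective m
    rw [levelDegen₁_mk, ← map_smul]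
    refine congrArg BettiMod.mk (Subtype.ext (funext fun γ => ?_))
    rw [Submodule.coe_smul, Pi.smul_apply, levelDegen₁_cocycle_apply]
    exact CosetSystem.single_transferCocycles_apply_of_comm _ _ _ hF c γ _
      (scalarRep_mul_coe q γ)
  let u : HeckeIdx (L * (q : ℕ)) q × Unit → Gamma0 L := fun x =>
    ⟨⟨!![1, (((heckeIdxSome L q).symm x.1 : ℕ) : ℤ); 0, 1], by simp [Matrix.det_fin_two_of]⟩,
      mem_Gamma0_iff_dvd.2 (by simp)⟩
  refine CosetSystem.transfer_transfer_eq _ _ F (fun _ => ()) u (fun x => ?_) _ _ hF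
    (fun _ => ?_) m
  · obtain ⟨x, ⟨⟩⟩ := x
    obtain ⟨b, rfl⟩ := (heckeIdxSome L q).surjective x
    ext i j
    fin_cases i <;> fin_cases j <;>
      simp [u, F, scalarRep, CosetSystem.single, degenSystem₂, heckeIdxSome, CosetSystem.ofHecke,
        Modular.heckeSystem, heckeRepInt, Matrix.mul_apply, Fin.sum_univ_two] <;> ring
  · have hu : ∀ x, gamma0UnitsHom L (u x) = 1 := fun x => Units.ext (by simp [u])
    simp only [Finset.filter_true_of_mem (fun _ _ => trivial), nebenChar, MonoidHom.comp_apply, hu,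
      map_one, Units.val_one, mul_one, Fintype.sum_prod_type, Finset.univ_unique,
      Finset.sum_singleton, ← Finset.sum_mul]
    rw [← (heckeIdxSome L q).sum_comp]
    simp [heckeWeight_heckeIdxSome]

/-- The trace after the first degeneracy map. -/
theorem levelTrace_levelDegen₁ (hq : ¬ (q : ℕ) ∣ L) (m : BettiMod L χ V) :
    levelTrace hq χ V (levelDegen₁ q χ V m) = (((q : ℕ) : A) + 1) • m := by
  let F : CosetSystem (Gamma0 L) (Gamma0 L) Unit :=
    CosetSystem.single 1 (by simp) fun γ => ⟨γ, by simp⟩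
  have hF1 : F.IsWeight (nebenChar χ) (nebenChar χ) (fun _ => (1 : A)) := by
    simpa using isWeight_upperUnits_self F (e := fun _ => 1)
      (fun _ => by simp [F, CosetSystem.single]) χ
  have hF := hF1.smul (((q : ℕ) : A) + 1)
  rw [show levelTrace hq χ V (levelDegen₁ q χ V m) = F.transfer V hF m from ?_]
  · obtain ⟨c, rfl⟩ := BettiMod.mk_surjective m
    rw [← map_smul]
    refine congrArg BettiMod.mk (Subtype.ext (funext fun γ => ?_))
    refine (CosetSystem.single_transferCocycles_apply_of_comm _ _ _ hF c γ γ (by simp)).trans ?_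
    simp
  refine CosetSystem.transfer_transfer_eq _ _ F (fun _ => ()) (fun x => traceRep hq x.1)
    (fun x => by simp [F, CosetSystem.single, degenSystem₁, traceSystem]) _ _ hF (fun _ => ?_) m
  have hu : ∀ b, gamma0UnitsHom L (traceRep hq (some b)) = levelUnit hq := fun b => Units.ext (by
    simp [traceRep, traceMatrix, levelUnit])
  rw [Finset.filter_true_of_mem (fun _ _ => rfl), Fintype.sum_prod_type]
  simp only [Fintype.sum_option, Finset.univ_unique, Finset.sum_singleton, mul_one, nebenChar,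
    MonoidHom.comp_apply, hu]
  simp [traceUnit, traceRep, add_comm]

/-- The trace after the second degeneracy map is `T q`. -/
theorem levelTrace_levelDegen₂ (hq : ¬ (q : ℕ) ∣ L) (m : BettiMod L χ V) :
    levelTrace hq χ V (levelDegen₂ hq χ V m) = (MvPolynomial.X q : BettiHeckeAlg A) • m := by
  rw [BettiMod.X_smul]
  set x := bezoutX hq
  set y := bezoutY hq
  have hxy : ((q : ℕ) : ℤ) * x - (L : ℤ) * y = 1 := bezout_level hq
  let u0 : Gamma0 L := ⟨⟨!![(q : ℤ) * x, y; (L : ℤ), 1], by
    rw [Matrix.det_fin_two_of]; linarith⟩, mem_Gamma0_iff_dvd.2 (by simp)⟩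
  let u : Option (Fin (q : ℕ)) × Unit → Gamma0 L := fun z => z.1.elim 1 fun _ => u0
  refine CosetSystem.transfer_transfer_eq _ _ (bettiHeckeSystem L q)
    (fun z => heckeIdxOption hq z.1) u (fun z => ?_) _ _ _ (fun k => ?_) m
  · obtain ⟨z, ⟨⟩⟩ := z
    ext i j
    cases z <;> fin_cases i <;> fin_cases j <;>
      simp [u, u0, x, y, traceSystem, traceRep, traceMatrix, degenSystem₂, CosetSystem.single,
        CosetSystem.ofHecke, Modular.heckeSystem, heckeRepInt, heckeIdxOption, Matrix.mul_apply,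
        Fin.sum_univ_two] <;> ring
  · obtain ⟨z, rfl⟩ := (heckeIdxOption hq).surjective k
    rw [show Finset.univ.filter (fun w : Option (Fin (q : ℕ)) × Unit =>
        heckeIdxOption hq w.1 = heckeIdxOption hq z) = {(z, ())} from by ext w; simp [Prod.ext_iff],
      Finset.sum_singleton]
    have hu : gamma0UnitsHom L u0 = 1 := Units.ext (by simp [u0])
    cases z with
    | none => simp [u, traceUnit, heckeWeight, heckeUnit, heckeIdxOption, levelUnit]
    | some b => simp [u, nebenChar, hu, traceUnit, heckeWeight, heckeUnit, heckeIdxOption]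

/-- Atkin–Lehner exchanges the degeneracy maps. -/
theorem levelAtkin_levelDegen₁ (hq : ¬ (q : ℕ) ∣ L) (m : BettiMod L χ V) :
    levelAtkin hq χ V (levelDegen₁ q χ V m) = levelDegen₂ hq χ V m := by
  let u : Gamma0 L := ⟨⟨!![bezoutX hq, bezoutY hq; (L : ℤ), (q : ℤ)], by
    rw [Matrix.det_fin_two_of]; linear_combination bezout_level hq⟩,
    mem_Gamma0_iff_dvd.2 (by simp)⟩
  refine CosetSystem.transfer_transfer_eq _ _ (degenSystem₂ L q) (fun _ => ()) (fun _ => u)
    (fun z => ?_) _ _ _ (fun _ => ?_) m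
  · ext i j
    fin_cases i <;> fin_cases j <;>
      simp [u, atkinSystem, atkinMatrix, degenSystem₁, degenSystem₂, CosetSystem.single,
        Matrix.mul_apply, Fin.sum_univ_two] <;> ring
  · have hu : gamma0UnitsHom L u = levelUnit hq := Units.ext (by simp [u, levelUnit])
    simp [nebenChar, hu]

/-- The square of Atkin–Lehner. -/
theorem levelAtkin_levelAtkin (hq : ¬ (q : ℕ) ∣ L)
    (m : BettiMod (L * (q : ℕ)) (raiseChar q χ) V) :
    levelAtkin hq χ V (levelAtkin hq χ V m) = (χ (levelUnit hq) : A) • m := by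
  set x := bezoutX hq
  set y := bezoutY hq
  have hxy : ((q : ℕ) : ℤ) * x - (L : ℤ) * y = 1 := bezout_level hq
  let F : CosetSystem (Gamma0 (L * (q : ℕ))) (Gamma0 (L * (q : ℕ))) Unit :=
    CosetSystem.single _ (det_scalarRep q) fun γ => ⟨γ, scalarRep_mul_coe q γ⟩
  have hF := isWeight_upperUnits_of_dvd (Nat.dvd_mul_right L q) (Nat.dvd_mul_right L q) F
    (e := fun _ => levelUnit hq) (fun _ => by simp [F, scalarRep, CosetSystem.single, levelUnit]) χ
  rw [show levelAtkin hq χ V (levelAtkin hq χ V m) = F.transfer V hF m from ?_]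
  · obtain ⟨c, rfl⟩ := BettiMod.mk_surjective m
    rw [← map_smul]
    refine congrArg BettiMod.mk (Subtype.ext (funext fun γ => ?_))
    rw [Submodule.coe_smul, Pi.smul_apply]
    exact CosetSystem.single_transferCocycles_apply_of_comm _ _ _ hF c γ γ (scalarRep_mul_coe q γ)
  let u : Gamma0 (L * (q : ℕ)) := ⟨⟨!![(q : ℤ) * x * x + (L : ℤ) * y, x * y + y;
    (L : ℤ) * q * (x + 1), (L : ℤ) * y + q], by
      rw [Matrix.det_fin_two_of]
      linear_combination (((q : ℕ) : ℤ) * x - (L : ℤ) * y + 1) * hxy⟩,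
    mem_Gamma0_iff_dvd.2 (by push_cast; simp)⟩
  refine CosetSystem.transfer_transfer_eq _ _ F (fun _ => ()) (fun _ => u)
    (fun z => ?_) _ _ hF (fun _ => ?_) m
  · ext i j
    fin_cases i <;> fin_cases j <;>
      simp [u, x, y, F, scalarRep, atkinSystem, atkinMatrix, CosetSystem.single,
        Matrix.mul_apply, Fin.sum_univ_two] <;> ring
  · have hu : ZMod.unitsMap (Nat.dvd_mul_right L q) (gamma0UnitsHom _ u) = levelUnit hq :=
      Units.ext (by simp [u, ZMod.unitsMap_val, levelUnit])
    simp [nebenChar, hu]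

theorem levelAtkin_levelDegen₂ (hq : ¬ (q : ℕ) ∣ L) (m : BettiMod L χ V) :
    levelAtkin hq χ V (levelDegen₂ hq χ V m) =
      (χ (levelUnit hq) : A) • levelDegen₁ q χ V m := by
  rw [← levelAtkin_levelDegen₁, levelAtkin_levelAtkin]

theorem atkinMatrix_mul_heckeRepInt (hq : ¬ (q : ℕ) ∣ L) (b : Fin (q : ℕ)) :
    atkinMatrix hq * heckeRepInt q (some b) = ((q : ℕ) : ℤ) • (traceMatrix hq b : M2Z) := by
  ext i j
  fin_cases i <;> fin_cases j <;>
    simp [atkinMatrix, heckeRepInt, traceMatrix, Matrix.mul_apply, Fin.sum_univ_two] <;> ring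

/-- `U q` after Atkin–Lehner is the trace without its identity term. -/
theorem X_smul_levelAtkin (hq : ¬ (q : ℕ) ∣ L) (m : BettiMod (L * (q : ℕ)) (raiseChar q χ) V) :
    (MvPolynomial.X q : BettiHeckeAlg A) • levelAtkin hq χ V m =
      (χ (levelUnit hq) : A) • (levelDegen₁ q χ V (levelTrace hq χ V m) - m) := by
  obtain ⟨c, rfl⟩ := BettiMod.mk_surjective m
  show (MvPolynomial.X q : BettiHeckeAlg A) •
      BettiMod.mk ((atkinSystem hq).transferCocycles V (isWeight_atkin hq χ) c) = _ •
        (levelDegen₁ q χ V (BettiMod.mk ((traceSystem hq).transferCocycles V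
          (isWeight_trace hq χ) c)) - BettiMod.mk c)
  rw [BettiMod.X_smul_mk, levelDegen₁_mk, ← map_sub, ← map_smul]
  refine congrArg BettiMod.mk (Subtype.ext (funext fun γ => ?_))
  rw [Submodule.coe_smul, Submodule.coe_sub, Pi.smul_apply, Pi.sub_apply,
    levelDegen₁_cocycle_apply]
  simp only [CosetSystem.transferCocycles_apply, Fintype.sum_unique, Fintype.sum_option]
  have hnone : (traceSystem hq).elt (gamma0Incl (Nat.dvd_mul_right L q) γ) none = γ :=
    ((traceSystem hq).next_elt_eq_of_eq (i := none) (j := none) (h := γ)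
      (by simp [traceSystem, traceRep])).2
  have hsome : ∀ b : Fin (q : ℕ), (traceSystem hq).elt (gamma0Incl (Nat.dvd_mul_right L q) γ)
      (some b) = (atkinSystem hq).elt
        ((bettiHeckeSystem (L * (q : ℕ)) q).elt γ (heckeIdxSome L q b)) default := by
    intro b
    set U := bettiHeckeSystem (L * (q : ℕ)) q
    obtain ⟨b', hb'⟩ := (heckeIdxSome L q).surjective (U.next γ (heckeIdxSome L q b))
    refine ((traceSystem hq).next_elt_eq_of_eq (i := some b) (j := some b') ?_).2
    refine smul_right_injective M2Z (r := ((q : ℕ) : ℤ)) (by exact_mod_cast q.2.ne_zero) ?_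
    have h1 := U.rep_mul γ (heckeIdxSome L q b)
    rw [← hb'] at h1
    have h2 := (atkinSystem hq).rep_mul (U.elt γ (heckeIdxSome L q b)) default
    change atkinMatrix hq * _ = _ * atkinMatrix hq at h2
    change heckeRepInt q (some b) * _ = _ * heckeRepInt q (some b') at h1
    show ((q : ℕ) : ℤ) • ((traceMatrix hq b : M2Z) * ((γ : SL(2, ℤ)) : M2Z)) =
      ((q : ℕ) : ℤ) • (_ * (traceMatrix hq b' : M2Z))
    rw [← Matrix.smul_mul, ← atkinMatrix_mul_heckeRepInt, Matrix.mul_assoc, h1, ← Matrix.mul_assoc,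
      h2, Matrix.mul_assoc, atkinMatrix_mul_heckeRepInt, Matrix.mul_smul]
  rw [← (heckeIdxSome L q).sum_comp, hnone]
  simp only [heckeWeight_heckeIdxSome, one_smul, hsome, traceUnit, map_one, Units.val_one,
    add_sub_cancel_left, Finset.smul_sum, smul_smul, ← Units.val_mul, map_inv, mul_inv_cancel]

/-- The new part: `U q² - χ q` lands in the old part. -/
theorem X_sq_sub_smul (hq : ¬ (q : ℕ) ∣ L) (m : BettiMod (L * (q : ℕ)) (raiseChar q χ) V) :
    (MvPolynomial.X q : BettiHeckeAlg A) ^ 2 • m - (χ (levelUnit hq) : A) • m =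
      levelDegen₁ q χ V ((MvPolynomial.X q : BettiHeckeAlg A) •
          levelTrace hq χ V (levelAtkin hq χ V m) -
            (χ (levelUnit hq) : A) • levelTrace hq χ V m) -
        levelDegen₂ hq χ V (levelTrace hq χ V (levelAtkin hq χ V m)) := by
  set c : A := (χ (levelUnit hq) : A)
  set U : BettiHeckeAlg A := MvPolynomial.X q
  have hunit : IsUnit c := Units.isUnit _
  have h1 := X_smul_levelAtkin hq (levelAtkin hq χ V m)
  rw [levelAtkin_levelAtkin, smul_comm U c] at h1
  have h2 : U • m = levelDegen₁ q χ V (levelTrace hq χ V (levelAtkin hq χ V m)) -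
      levelAtkin hq χ V m := hunit.smul_left_cancel.1 h1
  rw [pow_two, mul_smul, h2, smul_sub, X_smul_levelDegen₁ hq, X_smul_levelAtkin hq, map_sub,
    LinearMap.map_smul, smul_sub]
  abel

/-- `W₁ ∘ W` on the degeneracy maps. -/
theorem levelTrace_levelAtkin_levelDegen₁ (hq : ¬ (q : ℕ) ∣ L) (m : BettiMod L χ V) :
    levelTrace hq χ V (levelAtkin hq χ V (levelDegen₁ q χ V m)) =
      (MvPolynomial.X q : BettiHeckeAlg A) • m := by
  rw [levelAtkin_levelDegen₁, levelTrace_levelDegen₂]

theorem levelTrace_levelAtkin_levelDegen₂ (hq : ¬ (q : ℕ) ∣ L) (m : BettiMod L χ V) :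
    levelTrace hq χ V (levelAtkin hq χ V (levelDegen₂ hq χ V m)) =
      ((χ (levelUnit hq) : A) * (((q : ℕ) : A) + 1)) • m := by
  rw [levelAtkin_levelDegen₂, map_smul, levelTrace_levelDegen₁, smul_smul]

end FermatLib.MLT

end
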