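import Fermat.Agent.MLT.BettiHecke
import Mathlib.Algebra.Module.LocalizedModule.Exact
import Mathlib.LinearAlgebra.TensorProduct.RightExactness
import Mathlib.RingTheory.Flat.Tensor
import Mathlib.RingTheory.LocalRing.Module

/-!
# Localised Betti cohomology is an exact functor: freeness and base change

`S` is a multiplicative set of Hecke polynomials, for example the complement of a maximal ideal.
-/

set_option autoImplicit false

noncomputable section

open scoped MatrixGroups TensorProduct
open CongruenceSubgroup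

namespace FermatLib.MLT

variable {A : Type} [CommRing A]

/-- `H¹(Γ₀(L), χ)` as a module over Hecke polynomials. -/
def BettiMod (L : ℕ) (χ : (ZMod L)ˣ →* Aˣ) (V : Type) [AddCommGroup V] [Module A V] : Type :=
  bettiH1 (Gamma0 L) (nebenChar χ) V

variable {L : ℕ} {χ : (ZMod L)ˣ →* Aˣ} {V : Type} [AddCommGroup V] [Module A V]

instance : AddCommGroup (BettiMod L χ V) :=
  inferInstanceAs (AddCommGroup (bettiH1 (Gamma0 L) (nebenChar χ) V))

instance : Module A (BettiMod L χ V) :=
  inferInstanceAs (Module A (bettiH1 (Gamma0 L) (nebenChar χ) V))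

instance : Module (BettiHeckeAlg A) (BettiMod L χ V) :=
  Module.compHom (bettiH1 (Gamma0 L) (nebenChar χ) V) (bettiEval L χ V).toRingHom

theorem BettiMod.hecke_smul (P : BettiHeckeAlg A) (x : BettiMod L χ V) :
    P • x = bettiEval L χ V P x := rfl

theorem BettiMod.X_smul (p : Nat.Primes) (x : BettiMod L χ V) :
    (MvPolynomial.X p : BettiHeckeAlg A) • x = bettiHeckeOp L V χ p x :=
  LinearMap.congr_fun (bettiEval_X χ p) x

instance : IsScalarTower A (BettiHeckeAlg A) (BettiMod L χ V) :=
  IsScalarTower.of_algebraMap_smul fun a x => by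
    show bettiEval L χ V (algebraMap A _ a) x = _
    rw [AlgHom.commutes]
    rfl

/-- The class of a cocycle. -/
def BettiMod.mk : bettiCocycles (Gamma0 L) (nebenChar χ) V →ₗ[A] BettiMod L χ V :=
  (bettiBoundaries (Gamma0 L) (nebenChar χ) V).mkQ

theorem BettiMod.mk_surjective : Function.Surjective (BettiMod.mk (L := L) (χ := χ) (V := V)) :=
  Submodule.Quotient.mk_surjective _

theorem BettiMod.mk_eq_zero {c : bettiCocycles (Gamma0 L) (nebenChar χ) V} :
    BettiMod.mk c = 0 ↔ ∃ v : V, ∀ γ : Gamma0 L,
      (nebenChar χ γ : A) • v - v = (c : Gamma0 L → V) γ :=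
  (Submodule.Quotient.mk_eq_zero _).trans mem_bettiBoundaries

variable {W : Type} [AddCommGroup W] [Module A W]

/-- Functoriality, linear over Hecke polynomials. -/
def BettiMod.map (f : V →ₗ[A] W) : BettiMod L χ V →ₗ[BettiHeckeAlg A] BettiMod L χ W where
  toFun := bettiH1Map (Gamma0 L) (nebenChar χ) f
  map_add' := (bettiH1Map (Gamma0 L) (nebenChar χ) f).map_add
  map_smul' P x := bettiEval_map χ P f x

theorem BettiMod.map_mk (f : V →ₗ[A] W) (c : bettiCocycles (Gamma0 L) (nebenChar χ) V) :
    BettiMod.map f (BettiMod.mk c) = BettiMod.mk (bettiCocyclesMap _ _ f c) := rfl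

variable (L χ) in
/-- Lifting along surjections works after multiplying by an element of `S`. -/
def BettiRightExact (S : Submonoid (BettiHeckeAlg A)) : Prop :=
  ∀ (V W : Type) [AddCommGroup V] [AddCommGroup W] [Module A V] [Module A W] (f : V →ₗ[A] W),
    Function.Surjective f → ∀ x : BettiMod L χ W, ∃ s ∈ S, ∃ y, BettiMod.map f y = s • x

variable (L χ) in
/-- `S` contains some `T p` minus its degree. -/
def BettiNonEisenstein (S : Submonoid (BettiHeckeAlg A)) : Prop :=
  ∃ p : Nat.Primes, MvPolynomial.X p - MvPolynomial.C (heckeDegree χ p) ∈ S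

/-- The kernel of an injection is killed by `T p` minus its degree. -/
theorem BettiMod.sub_degree_smul_eq_zero {f : V →ₗ[A] W} (hf : Function.Injective f)
    {x : BettiMod L χ V} (hx : BettiMod.map f x = 0) (p : Nat.Primes) :
    (MvPolynomial.X p - MvPolynomial.C (heckeDegree χ p) : BettiHeckeAlg A) • x = 0 := by
  obtain ⟨c, rfl⟩ := BettiMod.mk_surjective x
  rw [BettiMod.map_mk, BettiMod.mk_eq_zero] at hx
  obtain ⟨w, hw⟩ := hx
  rw [sub_smul, BettiMod.X_smul, ← MvPolynomial.algebraMap_eq, algebraMap_smul]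
  refine sub_eq_zero.2 ?_
  show Submodule.Quotient.mk ((bettiHeckeSystem L p).transferCocycles V
      (isWeight_heckeWeight χ p) c) = Submodule.Quotient.mk (heckeDegree χ p • c)
  refine congrArg Submodule.Quotient.mk (Subtype.ext (funext fun γ => hf ?_))
  have h := transferCocycles_cobdry χ p w (bettiCocyclesMap _ _ f c) (funext fun γ => (hw γ).symm)
  calc f ((((bettiHeckeSystem L p).transferCocycles V (isWeight_heckeWeight χ p) c :
          bettiCocycles _ _ V) : Gamma0 L → V) γ)
      = ((((bettiHeckeSystem L p).transferCocycles W (isWeight_heckeWeight χ p)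
          (bettiCocyclesMap _ _ f c)) : bettiCocycles _ _ W) : Gamma0 L → W) γ := by
        simp [CosetSystem.transferCocycles_apply, map_sum]
    _ = bettiCobdry _ (nebenChar χ) W (heckeDegree χ p • w) γ := by rw [h]
    _ = f (((heckeDegree χ p • c : bettiCocycles _ _ V) : Gamma0 L → V) γ) := by
        rw [Submodule.coe_smul, Pi.smul_apply, map_smul f, ← bettiCocyclesMap_apply (f := f), ← hw,
          bettiCobdry_apply, smul_sub, smul_comm]

/-- Exactness in the middle. -/
theorem BettiMod.map_exact {U : Type} [AddCommGroup U] [Module A U] (hχ : χ (-1) = 1)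
    {f : U →ₗ[A] V} {g : V →ₗ[A] W} (hfg : Function.Exact f g) (hf : Function.Injective f)
    (hg : Function.Surjective g) :
    Function.Exact (BettiMod.map (L := L) (χ := χ) f) (BettiMod.map (L := L) (χ := χ) g) := by
  refine fun x => ⟨fun hx => ?_, ?_⟩
  · obtain ⟨c, rfl⟩ := BettiMod.mk_surjective x
    rw [BettiMod.map_mk, BettiMod.mk_eq_zero] at hx
    obtain ⟨w, hw⟩ := hx
    obtain ⟨v, rfl⟩ := hg w
    set d : Gamma0 L → V := (c : Gamma0 L → V) - bettiCobdry _ (nebenChar χ) V v with hd
    have hdg : ∀ γ, ∃ u, f u = d γ := fun γ => (hfg _).1 (by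
      rw [hd, Pi.sub_apply, bettiCobdry_apply, map_sub, map_sub, map_smul, hw γ,
        bettiCocyclesMap_apply, sub_self])
    choose c' hc' using hdg
    have hdZ : d ∈ bettiCocycles (Gamma0 L) (nebenChar χ) V := by
      refine Submodule.sub_mem _ c.2 ⟨fun γ δ => ?_, fun γ hγ => ?_⟩
      · simp only [bettiCobdry_apply, map_mul, Units.val_mul, mul_smul, smul_sub]
        abel
      · simp [bettiCobdry_apply, nebenChar_neg_one hχ γ hγ]
    have hc'Z : c' ∈ bettiCocycles (Gamma0 L) (nebenChar χ) U :=
      ⟨fun γ δ => hf (by rw [map_add, map_smul, hc', hc', hc', hdZ.1 γ δ]),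
        fun γ hγ => hf (by rw [hc', hdZ.2 γ hγ, map_zero])⟩
    refine ⟨BettiMod.mk ⟨c', hc'Z⟩, ?_⟩
    rw [BettiMod.map_mk, ← sub_eq_zero, ← map_sub, BettiMod.mk_eq_zero]
    refine ⟨-v, fun γ => ?_⟩
    rw [Submodule.coe_sub, Pi.sub_apply, bettiCocyclesMap_apply]
    show _ = f (c' γ) - _
    rw [hc', hd, Pi.sub_apply, bettiCobdry_apply, smul_neg]
    abel
  · rintro ⟨y, rfl⟩
    obtain ⟨c, rfl⟩ := BettiMod.mk_surjective y
    rw [BettiMod.map_mk, BettiMod.map_mk, BettiMod.mk_eq_zero]
    exact ⟨0, fun γ => by simp [hfg.apply_apply_eq_zero]⟩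

theorem BettiMod.map_add_map (f g : V →ₗ[A] W) :
    BettiMod.map (L := L) (χ := χ) (f + g) = BettiMod.map f + BettiMod.map g := by
  refine LinearMap.ext fun x => ?_
  obtain ⟨c, rfl⟩ := BettiMod.mk_surjective x
  rw [LinearMap.add_apply, BettiMod.map_mk, BettiMod.map_mk, BettiMod.map_mk, ← map_add]
  exact congrArg BettiMod.mk (Subtype.ext rfl)

theorem BettiMod.map_smul_map (a : A) (f : V →ₗ[A] W) :
    BettiMod.map (L := L) (χ := χ) (a • f) = a • BettiMod.map f := by
  refine LinearMap.ext fun x => ?_
  obtain ⟨c, rfl⟩ := BettiMod.mk_surjective x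
  rw [LinearMap.smul_apply, BettiMod.map_mk, BettiMod.map_mk, ← map_smul]
  exact congrArg BettiMod.mk (Subtype.ext rfl)

variable (S : Submonoid (BettiHeckeAlg A))

variable (L χ V) in
/-- Localised cohomology. -/
abbrev BettiLoc : Type := LocalizedModule S (BettiMod L χ V)

/-- Functoriality of localised cohomology. -/
def BettiLoc.map (f : V →ₗ[A] W) : BettiLoc L χ V S →ₗ[A] BettiLoc L χ W S :=
  (IsLocalizedModule.map S (LocalizedModule.mkLinearMap S (BettiMod L χ V))
    (LocalizedModule.mkLinearMap S (BettiMod L χ W)) (BettiMod.map f)).restrictScalars A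

theorem BettiLoc.map_mk (f : V →ₗ[A] W) (x : BettiMod L χ V) (s : S) :
    BettiLoc.map S f (LocalizedModule.mk x s) = LocalizedModule.mk (BettiMod.map f x) s := by
  rw [IsLocalizedModule.mk_eq_mk', IsLocalizedModule.mk_eq_mk']
  exact IsLocalizedModule.map_mk' _ _ _ _ x s

theorem BettiLoc.map_comp {U : Type} [AddCommGroup U] [Module A U] (g : V →ₗ[A] W)
    (f : U →ₗ[A] V) (x : BettiLoc L χ U S) :
    BettiLoc.map S (g.comp f) x = BettiLoc.map S g (BettiLoc.map S f x) := by
  induction x using LocalizedModule.induction_on with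
  | h m s =>
    rw [BettiLoc.map_mk, BettiLoc.map_mk, BettiLoc.map_mk]
    congr 1
    obtain ⟨c, rfl⟩ := BettiMod.mk_surjective m
    rfl

theorem BettiLoc.map_id (x : BettiLoc L χ V S) : BettiLoc.map S LinearMap.id x = x := by
  induction x using LocalizedModule.induction_on with
  | h m s =>
    rw [BettiLoc.map_mk]
    congr 1
    obtain ⟨c, rfl⟩ := BettiMod.mk_surjective m
    rfl

/-- `BettiLoc.map` is linear in the map. -/
def BettiLoc.mapLin : (V →ₗ[A] W) →ₗ[A] BettiLoc L χ V S →ₗ[A] BettiLoc L χ W S where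
  toFun := BettiLoc.map S
  map_add' f g := by
    refine LinearMap.ext fun x => ?_
    induction x using LocalizedModule.induction_on with
    | h m s =>
      rw [LinearMap.add_apply, BettiLoc.map_mk, BettiLoc.map_mk, BettiLoc.map_mk,
        BettiMod.map_add_map, LinearMap.add_apply, LocalizedModule.mk_add_mk, ← smul_add,
        LocalizedModule.mk_cancel_common_left]
  map_smul' a f := by
    refine LinearMap.ext fun x => ?_
    induction x using LocalizedModule.induction_on with
    | h m s =>
      rw [RingHom.id_apply, LinearMap.smul_apply, BettiLoc.map_mk, BettiLoc.map_mk,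
        BettiMod.map_smul_map, LinearMap.smul_apply]
      exact (LocalizedModule.smul'_mk a _ _).symm

theorem BettiLoc.mapLin_apply (f : V →ₗ[A] W) (x : BettiLoc L χ V S) :
    BettiLoc.mapLin S f x = BettiLoc.map S f x := rfl

variable {S}

theorem BettiLoc.map_injective (hE : BettiNonEisenstein L χ S) {f : V →ₗ[A] W}
    (hf : Function.Injective f) : Function.Injective (BettiLoc.map (L := L) (χ := χ) S f) := by
  obtain ⟨p, hp⟩ := hE
  rw [injective_iff_map_eq_zero]
  intro x hx
  induction x using LocalizedModule.induction_on with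
  | h m s =>
    rw [BettiLoc.map_mk, ← LocalizedModule.zero_mk s, LocalizedModule.mk_eq] at hx
    obtain ⟨u, hu⟩ := hx
    simp only [smul_zero, Submonoid.smul_def, ← map_smul] at hu
    have h := BettiMod.sub_degree_smul_eq_zero hf hu p
    rw [← LocalizedModule.zero_mk s, LocalizedModule.mk_eq]
    refine ⟨⟨_, hp⟩ * u, ?_⟩
    simp only [smul_zero, Submonoid.smul_def, mul_smul]
    exact h

theorem BettiLoc.map_surjective (hR : BettiRightExact L χ S) {f : V →ₗ[A] W}
    (hf : Function.Surjective f) : Function.Surjective (BettiLoc.map (L := L) (χ := χ) S f) := by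
  intro x
  induction x using LocalizedModule.induction_on with
  | h m s =>
    obtain ⟨t, ht, y, hy⟩ := hR V W f hf m
    refine ⟨LocalizedModule.mk y (⟨t, ht⟩ * s), ?_⟩
    rw [BettiLoc.map_mk, hy]
    exact LocalizedModule.mk_cancel_common_left ⟨t, ht⟩ s m

theorem BettiLoc.map_exact {U : Type} [AddCommGroup U] [Module A U] (hχ : χ (-1) = 1)
    {f : U →ₗ[A] V} {g : V →ₗ[A] W} (hfg : Function.Exact f g) (hf : Function.Injective f)
    (hg : Function.Surjective g) :
    Function.Exact (BettiLoc.map (L := L) (χ := χ) S f) (BettiLoc.map (L := L) (χ := χ) S g) :=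
  IsLocalizedModule.map_exact S _ _ _ _ _ (BettiMod.map_exact hχ hfg hf hg)

variable (L χ S V) in
/-- The natural map `H¹(A)_S ⊗ V → H¹(V)_S`. -/
def bettiTensorMap : BettiLoc L χ A S ⊗[A] V →ₗ[A] BettiLoc L χ V S :=
  TensorProduct.lift (((BettiLoc.mapLin S).comp
    (LinearMap.ringLmapEquivSelf A A V).symm.toLinearMap).flip)

theorem bettiTensorMap_tmul (x : BettiLoc L χ A S) (v : V) :
    bettiTensorMap L χ V S (x ⊗ₜ v) = BettiLoc.map S (LinearMap.toSpanSingleton A V v) x := rfl

theorem bettiTensorMap_lTensor (f : V →ₗ[A] W) (z : BettiLoc L χ A S ⊗[A] V) :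
    bettiTensorMap L χ W S (f.lTensor _ z) = BettiLoc.map S f (bettiTensorMap L χ V S z) := by
  induction z using TensorProduct.induction_on with
  | zero => simp
  | tmul x v =>
    rw [LinearMap.lTensor_tmul, bettiTensorMap_tmul, bettiTensorMap_tmul, ← BettiLoc.map_comp]
    congr 2
    exact LinearMap.ext fun a => by simp
  | add x y hx hy => simp only [map_add, hx, hy]

theorem bettiTensorMap_pi_bijective (d : ℕ) :
    Function.Bijective (bettiTensorMap L χ (Fin d → A) S) := by
  let inv : BettiLoc L χ (Fin d → A) S → BettiLoc L χ A S ⊗[A] (Fin d → A) :=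
    fun y => ∑ i, BettiLoc.map S (LinearMap.proj i) y ⊗ₜ Pi.single i 1
  refine Function.bijective_iff_has_inverse.2 ⟨inv, fun z => ?_, fun y => ?_⟩
  · induction z using TensorProduct.induction_on with
    | zero => simp [inv]
    | tmul x v =>
      have h : ∀ i, BettiLoc.map S (LinearMap.proj i) (bettiTensorMap L χ _ S (x ⊗ₜ v))
          = v i • x := by
        intro i
        rw [bettiTensorMap_tmul, ← BettiLoc.map_comp,
          show (LinearMap.proj i).comp (LinearMap.toSpanSingleton A (Fin d → A) v)
            = v i • LinearMap.id from LinearMap.ext fun a => by simp [mul_comm],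
          ← BettiLoc.mapLin_apply, map_smul, LinearMap.smul_apply, BettiLoc.mapLin_apply,
          BettiLoc.map_id]
      simp only [inv, h, TensorProduct.smul_tmul, ← TensorProduct.tmul_sum]
      congr 1
      funext i
      simp [Finset.sum_apply, Pi.single_apply]
    | add x y hx hy =>
      simp only [inv, map_add, TensorProduct.add_tmul, Finset.sum_add_distrib] at hx hy ⊢
      rw [hx, hy]
  · simp only [inv, map_sum, bettiTensorMap_tmul, ← BettiLoc.map_comp]
    simp only [← BettiLoc.mapLin_apply]
    rw [← LinearMap.sum_apply, ← map_sum, show (∑ i, (LinearMap.toSpanSingleton A (Fin d → A)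
        (Pi.single i 1)).comp (LinearMap.proj i)) = LinearMap.id from ?_, BettiLoc.mapLin_apply,
      BettiLoc.map_id]
    refine LinearMap.ext fun v => funext fun j => ?_
    simp [Finset.sum_apply, Pi.single_apply]

theorem bettiTensorMap_surjective (hR : BettiRightExact L χ S) [Module.Finite A V] :
    Function.Surjective (bettiTensorMap L χ V S) := by
  obtain ⟨d, g, hg⟩ := Module.Finite.exists_fin' A V
  intro y
  obtain ⟨z, rfl⟩ := BettiLoc.map_surjective hR hg y
  obtain ⟨w, rfl⟩ := (bettiTensorMap_pi_bijective d).2 z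
  exact ⟨g.lTensor _ w, bettiTensorMap_lTensor g w⟩

variable [IsNoetherianRing A]

/-- Base change: `H¹(V)_S = H¹(A)_S ⊗ V` for finite modules. -/
theorem bettiTensorMap_bijective (hχ : χ (-1) = 1) (hR : BettiRightExact L χ S)
    [Module.Finite A V] : Function.Bijective (bettiTensorMap L χ V S) := by
  refine ⟨?_, bettiTensorMap_surjective hR⟩
  obtain ⟨d, g, hg⟩ := Module.Finite.exists_fin' A V
  rw [injective_iff_map_eq_zero]
  intro x hx
  obtain ⟨y, rfl⟩ := g.lTensor_surjective _ hg x
  rw [bettiTensorMap_lTensor] at hx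
  have hex : Function.Exact (LinearMap.ker g).subtype g := LinearMap.exact_subtype_ker_map g
  obtain ⟨z, hz⟩ := (BettiLoc.map_exact hχ hex (LinearMap.ker g).injective_subtype hg _).1 hx
  obtain ⟨w, rfl⟩ := bettiTensorMap_surjective hR z
  rw [← bettiTensorMap_lTensor] at hz
  rw [← (bettiTensorMap_pi_bijective d).1 hz]
  exact ((lTensor_exact _ hex hg) _).2 ⟨w, rfl⟩

/-- Localised `H¹(A)` is flat. -/
theorem bettiLoc_flat (hχ : χ (-1) = 1) (hE : BettiNonEisenstein L χ S)
    (hR : BettiRightExact L χ S) : Module.Flat A (BettiLoc L χ A S) := by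
  rw [Module.Flat.iff_lTensor_injective']
  intro I z₁ z₂ h
  refine (bettiTensorMap_bijective hχ hR).1 (BettiLoc.map_injective hE I.injective_subtype ?_)
  rw [← bettiTensorMap_lTensor, ← bettiTensorMap_lTensor, h]

/-- Freeness over a local coefficient ring. -/
theorem bettiLoc_free [IsLocalRing A] (hχ : χ (-1) = 1) (hE : BettiNonEisenstein L χ S)
    (hR : BettiRightExact L χ S) [Module.Finite A (BettiLoc L χ A S)] :
    Module.Free A (BettiLoc L χ A S) :=
  haveI := bettiLoc_flat hχ hE hR
  Module.free_of_flat_of_isLocalRing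

end FermatLib.MLT

end
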