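import Fermat.Agent.MLT.BettiComposite
import Fermat.Agent.MLT.BettiLocal
import Mathlib.Data.Nat.Prime.Int

/-!
# Raising the level by one prime: degeneracy, trace and Atkin–Lehner operators

`q` is a prime not dividing `L`.  All identities between the two degeneracy maps `levelDegen₁`,
`levelDegen₂`, the trace `levelTrace`, the Atkin–Lehner operator `levelAtkin` and the Hecke
operators that are needed to compare levels `L` and `L * q`.
-/

set_option autoImplicit false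

noncomputable section

open scoped MatrixGroups
open CongruenceSubgroup

namespace FermatLib.MLT

local notation "M2Z" => Matrix (Fin 2) (Fin 2) ℤ

open Modular (HeckeIdx heckeRepInt mem_Gamma0_iff_dvd dvd_apply_one_zero)

variable {A : Type} [CommRing A] {L : ℕ}

/-- `Γ₀(L') → Γ₀(L)` for `L ∣ L'`. -/
def gamma0Incl {L L' : ℕ} (h : L ∣ L') : Gamma0 L' →* Gamma0 L where
  toFun γ := ⟨γ, mem_Gamma0_iff_dvd.2
    ((Int.natCast_dvd_natCast.2 h).trans (dvd_apply_one_zero γ))⟩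
  map_one' := rfl
  map_mul' _ _ := rfl

@[simp] theorem coe_gamma0Incl {L L' : ℕ} (h : L ∣ L') (γ : Gamma0 L') :
    (gamma0Incl h γ : SL(2, ℤ)) = γ := rfl

theorem nebenChar_comp_unitsMap {L L' : ℕ} (h : L ∣ L') (χ : (ZMod L)ˣ →* Aˣ) (γ : Gamma0 L') :
    nebenChar (χ.comp (ZMod.unitsMap h)) γ = nebenChar χ (gamma0Incl h γ) := by
  show χ (ZMod.unitsMap h (gamma0UnitsHom L' γ)) = χ (gamma0UnitsHom L (gamma0Incl h γ))
  congr 1
  refine Units.ext ?_
  rw [ZMod.unitsMap_val, coe_gamma0UnitsHom, coe_gamma0UnitsHom, ZMod.cast_intCast h,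
    coe_gamma0Incl]

/-- Weights `χ (upper left entry)` when both levels are multiples of the level of `χ`. -/
theorem isWeight_upperUnits_of_dvd {L' L'' : ℕ} (h' : L ∣ L') (h'' : L ∣ L'') {ι : Type}
    (D : CosetSystem (Gamma0 L'') (Gamma0 L') ι) {e : ι → (ZMod L)ˣ}
    (he : UpperUnits L D.rep e) (χ : (ZMod L)ˣ →* Aˣ) :
    D.IsWeight (nebenChar (χ.comp (ZMod.unitsMap h''))) (nebenChar (χ.comp (ZMod.unitsMap h')))
      (fun i => (χ (e i) : A)) := by
  intro γ i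
  set j := D.next γ i
  rw [nebenChar_comp_unitsMap, nebenChar_comp_unitsMap]
  set g : Gamma0 L := gamma0Incl h'' γ with hg
  set h : Gamma0 L := gamma0Incl h' (D.elt γ i) with hh
  have key : e i * (gamma0UnitsHom L g)⁻¹ * gamma0UnitsHom L h = e j := by
    refine gamma0_unit_mul h _ _ (D.rep j) (he j).1 (he j).2 ?_
    have hd : (g : SL(2, ℤ)) 0 0 * (g : SL(2, ℤ)) 1 1 - (g : SL(2, ℤ)) 0 1 * (g : SL(2, ℤ)) 1 0
        = 1 := by
      have := (g : SL(2, ℤ)).det_coe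
      rwa [Matrix.det_fin_two] at this
    have hc : (((g : SL(2, ℤ)) 1 0 : ℤ) : ZMod L) = 0 := Gamma0_mem.mp g.2
    have ha : (((gamma0UnitsHom L g)⁻¹ : (ZMod L)ˣ) : ZMod L) =
        (((g : SL(2, ℤ)) 0 0 : ℤ) : ZMod L) := by
      refine (Units.eq_inv_of_mul_eq_one_right ?_).symm
      have := congrArg (Int.cast : ℤ → ZMod L) hd
      push_cast at this
      rw [hc, mul_zero, sub_zero] at this
      rw [coe_gamma0UnitsHom]
      linear_combination this
    rw [hh, coe_gamma0Incl, ← D.rep_mul γ i]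
    simp only [Matrix.mul_apply, Fin.sum_univ_two, Int.cast_add, Int.cast_mul, Units.val_mul,
      (he i).2, ha]
    rw [hg, coe_gamma0Incl] at hc ⊢
    rw [hc, mul_zero, add_zero]
  show (χ (e i) : A) * (χ (gamma0UnitsHom L h) : A) = (χ (gamma0UnitsHom L g) : A) * (χ (e j) : A)
  rw [← Units.val_mul, ← Units.val_mul, ← map_mul, ← map_mul, ← key]
  congr 2
  rw [mul_assoc (e i), mul_left_comm (gamma0UnitsHom L g), mul_inv_cancel_left]

theorem isSL2_of_mul_eq {M N : M2Z} {γ : SL(2, ℤ)} (hN : N.det ≠ 0)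
    (h : N * (γ : M2Z) = M * N) : M.det = 1 := by
  have := congrArg Matrix.det h
  rw [Matrix.det_mul, Matrix.det_mul, γ.det_coe, mul_one] at this
  exact mul_right_cancel₀ hN (this.symm.trans (one_mul _).symm)

variable {q : Nat.Primes}

theorem exists_bezout_level (hq : ¬ (q : ℕ) ∣ L) : ∃ x y : ℤ, (q : ℤ) * x - (L : ℤ) * y = 1 := by
  obtain ⟨s, t, h⟩ := Nat.isCoprime_iff_coprime.2 (q.2.coprime_iff_not_dvd.2 hq)
  exact ⟨s, -t, by linarith⟩

/-- An inverse of `q` modulo `L`. -/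
def bezoutX (hq : ¬ (q : ℕ) ∣ L) : ℤ := (exists_bezout_level hq).choose

/-- The cofactor of `bezoutX`. -/
def bezoutY (hq : ¬ (q : ℕ) ∣ L) : ℤ := (exists_bezout_level hq).choose_spec.choose

theorem bezout_level (hq : ¬ (q : ℕ) ∣ L) :
    (q : ℤ) * bezoutX hq - (L : ℤ) * bezoutY hq = 1 :=
  (exists_bezout_level hq).choose_spec.choose_spec

/-- The class of `q` modulo `L`. -/
def levelUnit (hq : ¬ (q : ℕ) ∣ L) : (ZMod L)ˣ :=
  ZMod.unitOfCoprime (q : ℕ) (q.2.coprime_iff_not_dvd.2 hq)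

theorem coe_levelUnit_inv (hq : ¬ (q : ℕ) ∣ L) :
    (((levelUnit hq)⁻¹ : (ZMod L)ˣ) : ZMod L) = ((bezoutX hq : ℤ) : ZMod L) := by
  refine (Units.eq_inv_of_mul_eq_one_right ?_).symm
  have := congrArg (Int.cast : ℤ → ZMod L) (bezout_level hq)
  push_cast at this
  rw [ZMod.natCast_self, zero_mul, sub_zero] at this
  rw [levelUnit, ZMod.coe_unitOfCoprime, mul_comm]
  exact this

variable (q) in
/-- The character at level `L * q`. -/
abbrev raiseChar (χ : (ZMod L)ˣ →* Aˣ) : (ZMod (L * (q : ℕ)))ˣ →* Aˣ :=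
  χ.comp (ZMod.unitsMap (Nat.dvd_mul_right L q))

theorem raiseChar_neg_one {χ : (ZMod L)ˣ →* Aˣ} (hχ : χ (-1) = 1) : raiseChar q χ (-1) = 1 := by
  rw [raiseChar, MonoidHom.comp_apply, ← hχ]
  congr 1
  exact Units.ext (by simp [ZMod.unitsMap_def])

/-- Restriction along `Γ₀(L q) ≤ Γ₀(L)` as a coset system. -/
def degenSystem₁ (L : ℕ) (q : Nat.Primes) :
    CosetSystem (Gamma0 (L * (q : ℕ))) (Gamma0 L) Unit :=
  CosetSystem.single 1 (by simp) fun γ => ⟨gamma0Incl (Nat.dvd_mul_right L q) γ, by simp⟩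

/-- The system of `!![q, 0; 0, 1]`. -/
def degenSystem₂ (L : ℕ) (q : Nat.Primes) :
    CosetSystem (Gamma0 (L * (q : ℕ))) (Gamma0 L) Unit :=
  CosetSystem.single !![((q : ℕ) : ℤ), 0; 0, 1]
    (by rw [Matrix.det_fin_two_of]; simpa using q.2.ne_zero) fun γ => by
      obtain ⟨m, hm⟩ := dvd_apply_one_zero γ
      push_cast at hm
      have hmul : (!![((q : ℕ) : ℤ), 0; 0, 1] : M2Z) * ((γ : SL(2, ℤ)) : M2Z) =
          !![(γ : SL(2, ℤ)) 0 0, (q : ℤ) * (γ : SL(2, ℤ)) 0 1;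
            (L : ℤ) * m, (γ : SL(2, ℤ)) 1 1] * !![((q : ℕ) : ℤ), 0; 0, 1] := by
        ext i j
        fin_cases i <;> fin_cases j <;> simp [Matrix.mul_apply, Fin.sum_univ_two, hm] <;> ring
      exact ⟨⟨⟨_, isSL2_of_mul_eq (by rw [Matrix.det_fin_two_of]; simpa using q.2.ne_zero) hmul⟩,
        mem_Gamma0_iff_dvd.2 (by simp)⟩, hmul⟩

/-- The Atkin–Lehner matrix. -/
def atkinMatrix (hq : ¬ (q : ℕ) ∣ L) : M2Z :=
  !![(q : ℤ) * bezoutX hq, bezoutY hq; (L : ℤ) * q, (q : ℤ)]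

theorem det_atkinMatrix (hq : ¬ (q : ℕ) ∣ L) : (atkinMatrix hq).det = (q : ℤ) := by
  rw [atkinMatrix, Matrix.det_fin_two_of]
  linear_combination ((q : ℕ) : ℤ) * bezout_level hq

/-- The Atkin–Lehner system. -/
def atkinSystem (hq : ¬ (q : ℕ) ∣ L) :
    CosetSystem (Gamma0 (L * (q : ℕ))) (Gamma0 (L * (q : ℕ))) Unit :=
  CosetSystem.single (atkinMatrix hq)
    (by rw [det_atkinMatrix]; exact_mod_cast q.2.ne_zero) fun γ => by
      obtain ⟨m, hm⟩ := dvd_apply_one_zero γ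
      push_cast at hm
      set x := bezoutX hq
      set y := bezoutY hq
      have hxy : ((q : ℕ) : ℤ) * x - (L : ℤ) * y = 1 := bezout_level hq
      set a := (γ : SL(2, ℤ)) 0 0
      set b := (γ : SL(2, ℤ)) 0 1
      set d := (γ : SL(2, ℤ)) 1 1
      set r : ℤ := (q : ℤ) * x * b + y * d
      have hmul : atkinMatrix hq * ((γ : SL(2, ℤ)) : M2Z) =
          !![(q : ℤ) * x * a + y * L * q * m - (L : ℤ) * r,
            x * r - y * x * a - y * y * (L : ℤ) * m;
            (L : ℤ) * q * (a + (q : ℤ) * m - (L : ℤ) * b - d),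
            -((L : ℤ) * a + (L : ℤ) * q * m) * y + x * ((L : ℤ) * q * b + (q : ℤ) * d)] *
            atkinMatrix hq := by
        ext i j
        fin_cases i <;> fin_cases j <;>
          simp [atkinMatrix, Matrix.mul_apply, Fin.sum_univ_two, hm, r, a, b, d, x, y]
        · linear_combination -(((q : ℕ) : ℤ) * x * a + y * L * q * m) * hxy
        · linear_combination -(((q : ℕ) : ℤ) * x * b + y * d) * hxy
        · linear_combination -((L : ℤ) * q * a + (L : ℤ) * q * q * m) * hxy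
        · linear_combination -((L : ℤ) * q * b + ((q : ℕ) : ℤ) * d) * hxy
      exact ⟨⟨⟨_, isSL2_of_mul_eq (by rw [det_atkinMatrix]; exact_mod_cast q.2.ne_zero) hmul⟩,
        mem_Gamma0_iff_dvd.2 (by push_cast; simp)⟩, hmul⟩

/-- Representatives of `Γ₀(L q)` in `Γ₀(L)` other than `1`. -/
def traceMatrix (hq : ¬ (q : ℕ) ∣ L) (b : Fin (q : ℕ)) : SL(2, ℤ) :=
  ⟨!![bezoutX hq, bezoutX hq * b + bezoutY hq; (L : ℤ), (L : ℤ) * b + q], by
    rw [Matrix.det_fin_two_of]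
    linear_combination bezout_level hq⟩

/-- Representatives of `Γ₀(L q)` in `Γ₀(L)`. -/
def traceRep (hq : ¬ (q : ℕ) ∣ L) : Option (Fin (q : ℕ)) → Gamma0 L
  | none => 1
  | some b => ⟨traceMatrix hq b, mem_Gamma0_iff_dvd.2 (by simp [traceMatrix])⟩

theorem neg_mem_Gamma0 {N : ℕ} {h : SL(2, ℤ)} (hh : -h ∈ Gamma0 N) : h ∈ Gamma0 N := by
  rw [Gamma0_mem] at hh ⊢
  simpa using hh

theorem mul_traceMatrix_inv_one_zero (hq : ¬ (q : ℕ) ∣ L) (g : SL(2, ℤ)) (b : Fin (q : ℕ)) :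
    (g * (traceMatrix hq b)⁻¹) 1 0 = g 1 0 * ((L : ℤ) * b + q) - g 1 1 * L := by
  rw [Matrix.SpecialLinearGroup.coe_mul, Matrix.SpecialLinearGroup.coe_inv,
    Matrix.adjugate_fin_two]
  simp [traceMatrix, Matrix.mul_apply, Fin.sum_univ_two]
  ring

theorem exists_traceRep (hq : ¬ (q : ℕ) ∣ L) (g : Gamma0 L) :
    ∃ j, (g : SL(2, ℤ)) * ((traceRep hq j : Gamma0 L) : SL(2, ℤ))⁻¹ ∈ Gamma0 (L * (q : ℕ)) := by
  have : Fact (q : ℕ).Prime := ⟨q.2⟩
  obtain ⟨c, hc⟩ := dvd_apply_one_zero g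
  by_cases hqc : (c : ZMod (q : ℕ)) = 0
  · refine ⟨none, ?_⟩
    rw [traceRep, Subgroup.coe_one, inv_one, mul_one, mem_Gamma0_iff_dvd, hc]
    push_cast
    exact mul_dvd_mul_left _ ((ZMod.intCast_zmod_eq_zero_iff_dvd _ _).1 hqc)
  · have hL : (L : ZMod (q : ℕ)) ≠ 0 := by
      rwa [Ne, ZMod.natCast_eq_zero_iff]
    let d : ZMod (q : ℕ) := ((g : SL(2, ℤ)) 1 1 : ℤ)
    let b : Fin (q : ℕ) :=
      ⟨(d / ((L : ZMod (q : ℕ)) * c)).val, ZMod.val_lt _⟩
    refine ⟨some b, ?_⟩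
    show (g : SL(2, ℤ)) * (traceMatrix hq b)⁻¹ ∈ _
    rw [mem_Gamma0_iff_dvd, mul_traceMatrix_inv_one_zero, hc]
    push_cast
    rw [mul_comm ((g : SL(2, ℤ)) 1 1) (L : ℤ), mul_assoc, ← mul_sub]
    refine mul_dvd_mul_left _ ((ZMod.intCast_zmod_eq_zero_iff_dvd _ _).1 ?_)
    push_cast
    rw [show (((b : ℕ) : ZMod (q : ℕ))) = d / ((L : ZMod (q : ℕ)) * c) from ZMod.natCast_zmod_val _,
      ZMod.natCast_self]
    field_simp
    ring

theorem traceRep_unique (hq : ¬ (q : ℕ) ∣ L) (i j : Option (Fin (q : ℕ)))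
    (h : ((traceRep hq j : Gamma0 L) : SL(2, ℤ)) * ((traceRep hq i : Gamma0 L) : SL(2, ℤ))⁻¹ ∈
      Gamma0 (L * (q : ℕ))) : i = j := by
  have hqL : ¬ ((q : ℕ) : ℤ) ∣ (L : ℤ) := fun h' => hq (Int.natCast_dvd_natCast.1 h')
  have hq' : Prime ((q : ℕ) : ℤ) := Nat.prime_iff_prime_int.1 q.2
  have hL : (L : ℤ) ≠ 0 := Nat.cast_ne_zero.2 fun h0 => hq (h0 ▸ dvd_zero _)
  cases i with
  | none =>
    cases j with
    | none => rfl
    | some b =>
      rw [traceRep, traceRep, Subgroup.coe_one, inv_one, mul_one, mem_Gamma0_iff_dvd] at h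
      push_cast at h
      exact absurd ((dvd_mul_left _ _).trans h) (by simpa [traceMatrix] using hqL)
  | some b =>
    cases j with
    | none =>
      rw [traceRep, traceRep, Subgroup.coe_one, one_mul, mem_Gamma0_iff_dvd] at h
      push_cast at h
      refine absurd ((dvd_mul_left _ _).trans h) ?_
      show ¬ _ ∣ (((traceMatrix hq b)⁻¹ : SL(2, ℤ)) : M2Z) 1 0
      rw [Matrix.SpecialLinearGroup.coe_inv, Matrix.adjugate_fin_two]
      simpa [traceMatrix] using hqL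
    | some b' =>
      rw [show (((traceRep hq (some b') : Gamma0 L)) : SL(2, ℤ)) = traceMatrix hq b' from rfl,
        show (((traceRep hq (some b) : Gamma0 L)) : SL(2, ℤ)) = traceMatrix hq b from rfl,
        mem_Gamma0_iff_dvd, mul_traceMatrix_inv_one_zero] at h
      simp [traceMatrix] at h
      have h2 : ((q : ℕ) : ℤ) ∣ (L : ℤ) * ((b : ℤ) - b') := by
        have h3 : ((q : ℕ) : ℤ) * L ∣ (L : ℤ) * ((L : ℤ) * ((b : ℤ) - b')) := by
          rw [mul_comm]
          exact (show (L : ℤ) * ((L : ℤ) * b + q) - ((L : ℤ) * b' + q) * L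
            = (L : ℤ) * ((L : ℤ) * ((b : ℤ) - b')) by ring) ▸ h
        rw [mul_comm ((q : ℕ) : ℤ)] at h3
        exact (mul_dvd_mul_iff_left hL).1 h3
      have h4 : ((q : ℕ) : ℤ) ∣ (b : ℤ) - b' := (hq'.dvd_or_dvd h2).resolve_left hqL
      have hb := b.isLt
      have hb' := b'.isLt
      have : (b : ℤ) - b' = 0 := Int.eq_zero_of_abs_lt_dvd h4 (by rw [abs_lt]; constructor <;> omega)
      exact congrArg some (Fin.ext (by omega))

/-- The trace system. -/
def traceSystem (hq : ¬ (q : ℕ) ∣ L) :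
    CosetSystem (Gamma0 L) (Gamma0 (L * (q : ℕ))) (Option (Fin (q : ℕ))) where
  rep j := ((traceRep hq j : SL(2, ℤ)) : M2Z)
  det_ne_zero j := by simp
  eq_of_mul_rep i j h hh e := by
    refine traceRep_unique hq i j ?_
    have hh' : h ∈ Gamma0 (L * (q : ℕ)) := hh.elim id neg_mem_Gamma0
    have e' : (h : SL(2, ℤ)) * ((traceRep hq i : Gamma0 L) : SL(2, ℤ)) = (traceRep hq j : Gamma0 L) :=
      Subtype.ext e
    rwa [← e', mul_inv_cancel_right]
  exists_mul_eq i γ := by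
    obtain ⟨j, hj⟩ := exists_traceRep hq (traceRep hq i * γ)
    refine ⟨j, ⟨_, hj⟩, ?_⟩
    show _ = ((_ * _ : SL(2, ℤ)) : M2Z) * _
    rw [← Matrix.SpecialLinearGroup.coe_mul, ← Matrix.SpecialLinearGroup.coe_mul,
      inv_mul_cancel_right, Subgroup.coe_mul]

/-- The weights of the trace. -/
def traceUnit (hq : ¬ (q : ℕ) ∣ L) : Option (Fin (q : ℕ)) → (ZMod L)ˣ
  | none => 1
  | some _ => (levelUnit hq)⁻¹

theorem upperUnits_traceUnit (hq : ¬ (q : ℕ) ∣ L) :
    UpperUnits L (traceSystem hq).rep (traceUnit hq) := by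
  intro j
  refine ⟨dvd_apply_one_zero (traceRep hq j), ?_⟩
  cases j with
  | none => simp [traceSystem, traceRep, traceUnit]
  | some b => simp [traceSystem, traceRep, traceMatrix, traceUnit, coe_levelUnit_inv]

theorem isWeight_trace (hq : ¬ (q : ℕ) ∣ L) (χ : (ZMod L)ˣ →* Aˣ) :
    (traceSystem hq).IsWeight (nebenChar χ) (nebenChar (raiseChar q χ))
      (fun j => (χ (traceUnit hq j) : A)) := by
  have := isWeight_upperUnits_of_dvd (Nat.dvd_mul_right L q) (dvd_refl L) (traceSystem hq)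
    (upperUnits_traceUnit hq) χ
  rwa [ZMod.unitsMap_self, MonoidHom.comp_id] at this

theorem isWeight_degen₁ (q : Nat.Primes) (χ : (ZMod L)ˣ →* Aˣ) :
    (degenSystem₁ L q).IsWeight (nebenChar (raiseChar q χ)) (nebenChar χ) (fun _ => (1 : A)) := by
  have := isWeight_upperUnits (Nat.dvd_mul_right L q) (degenSystem₁ L q) (e := fun _ => 1)
    (fun _ => by simp [degenSystem₁, CosetSystem.single]) χ
  simpa using this

theorem isWeight_degen₂ (hq : ¬ (q : ℕ) ∣ L) (χ : (ZMod L)ˣ →* Aˣ) :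
    (degenSystem₂ L q).IsWeight (nebenChar (raiseChar q χ)) (nebenChar χ)
      (fun _ => (χ (levelUnit hq) : A)) :=
  isWeight_upperUnits (Nat.dvd_mul_right L q) (degenSystem₂ L q) (e := fun _ => levelUnit hq)
    (fun _ => by simp [degenSystem₂, CosetSystem.single, levelUnit]) χ

theorem isWeight_atkin (hq : ¬ (q : ℕ) ∣ L) (χ : (ZMod L)ˣ →* Aˣ) :
    (atkinSystem hq).IsWeight (nebenChar (raiseChar q χ)) (nebenChar (raiseChar q χ))
      (fun _ => (1 : A)) := by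
  have := isWeight_upperUnits_of_dvd (Nat.dvd_mul_right L q) (Nat.dvd_mul_right L q)
    (atkinSystem hq) (e := fun _ => 1) (fun _ => by
      refine ⟨by simp [atkinSystem, CosetSystem.single, atkinMatrix], ?_⟩
      have := congrArg (Int.cast : ℤ → ZMod L) (bezout_level hq)
      push_cast at this
      rw [ZMod.natCast_self, zero_mul, sub_zero] at this
      simpa [atkinSystem, CosetSystem.single, atkinMatrix] using this) χ
  simpa using this

variable (q) in
/-- The first degeneracy map. -/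
def levelDegen₁ (χ : (ZMod L)ˣ →* Aˣ) (V : Type) [AddCommGroup V] [Module A V] :
    BettiMod L χ V →ₗ[A] BettiMod (L * (q : ℕ)) (raiseChar q χ) V :=
  (degenSystem₁ L q).transfer V (isWeight_degen₁ q χ)

/-- The second degeneracy map. -/
def levelDegen₂ (hq : ¬ (q : ℕ) ∣ L) (χ : (ZMod L)ˣ →* Aˣ) (V : Type) [AddCommGroup V]
    [Module A V] : BettiMod L χ V →ₗ[A] BettiMod (L * (q : ℕ)) (raiseChar q χ) V :=
  (degenSystem₂ L q).transfer V (isWeight_degen₂ hq χ)

/-- The trace to level `L`. -/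
def levelTrace (hq : ¬ (q : ℕ) ∣ L) (χ : (ZMod L)ˣ →* Aˣ) (V : Type) [AddCommGroup V]
    [Module A V] : BettiMod (L * (q : ℕ)) (raiseChar q χ) V →ₗ[A] BettiMod L χ V :=
  (traceSystem hq).transfer V (isWeight_trace hq χ)

/-- The Atkin–Lehner operator at `q`. -/
def levelAtkin (hq : ¬ (q : ℕ) ∣ L) (χ : (ZMod L)ˣ →* Aˣ) (V : Type) [AddCommGroup V]
    [Module A V] :
    BettiMod (L * (q : ℕ)) (raiseChar q χ) V →ₗ[A] BettiMod (L * (q : ℕ)) (raiseChar q χ) V :=
  (atkinSystem hq).transfer V (isWeight_atkin hq χ)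

end FermatLib.MLT

end
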