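import Fermat.Agent.MLT.BettiDefs
import Fermat.Agent.Modular.HeckeTransfer
import Mathlib.Algebra.BigOperators.GroupWithZero.Action

/-!
# Transfer operators on Betti cohomology with a character

A `CosetSystem Γ' Γ ι` is a finite family of integral matrices whose `Γ`-cosets are permuted by
`Γ'`; with weights compatible with the characters it maps `H¹(Γ, χ)` to `H¹(Γ', χ')`.  Hecke
operators, degeneracy maps and twists are all of this shape.
-/

set_option autoImplicit false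

noncomputable section

open scoped MatrixGroups
open Finset

namespace FermatLib.MLT

local notation "M2Z" => Matrix (Fin 2) (Fin 2) ℤ

/-- Integral matrices whose `Γ`-cosets are permuted by right multiplication by `Γ'`. -/
structure CosetSystem (Γ' Γ : Subgroup SL(2, ℤ)) (ι : Type) where
  rep : ι → Matrix (Fin 2) (Fin 2) ℤ
  det_ne_zero : ∀ i, (rep i).det ≠ 0
  eq_of_mul_rep : ∀ i j (h : SL(2, ℤ)), (h ∈ Γ ∨ -h ∈ Γ) → (h : M2Z) * rep i = rep j → i = j
  exists_mul_eq : ∀ i (γ : Γ'), ∃ j : ι, ∃ h : Γ,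
    rep i * ((γ : SL(2, ℤ)) : M2Z) = ((h : SL(2, ℤ)) : M2Z) * rep j

/-- A Hecke system is a coset system from `Γ` to itself. -/
def CosetSystem.ofHecke {Γ : Subgroup SL(2, ℤ)} {ι : Type} (D : Modular.HeckeSystem Γ ι) :
    CosetSystem Γ Γ ι :=
  ⟨D.rep, D.det_ne_zero, fun i j h _ => D.eq_of_mul_rep i j h, D.exists_mul_eq⟩

namespace CosetSystem

variable {Γ'' Γ' Γ : Subgroup SL(2, ℤ)} {ι κ : Type} (D : CosetSystem Γ' Γ ι)

/-- The index of the coset `Γ α i γ`. -/
def next (γ : Γ') (i : ι) : ι := (D.exists_mul_eq i γ).choose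

/-- The element `h` with `α i γ = h α (next γ i)`. -/
def elt (γ : Γ') (i : ι) : Γ := (D.exists_mul_eq i γ).choose_spec.choose

theorem rep_mul (γ : Γ') (i : ι) :
    D.rep i * ((γ : SL(2, ℤ)) : M2Z) = ((D.elt γ i : SL(2, ℤ)) : M2Z) * D.rep (D.next γ i) :=
  (D.exists_mul_eq i γ).choose_spec.choose_spec

theorem next_elt_coe_eq_of_eq {γ : Γ'} {i j : ι} {h : SL(2, ℤ)} (hh : h ∈ Γ ∨ -h ∈ Γ)
    (e : D.rep i * ((γ : SL(2, ℤ)) : M2Z) = (h : M2Z) * D.rep j) :
    D.next γ i = j ∧ (D.elt γ i : SL(2, ℤ)) = h := by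
  have e' := (D.rep_mul γ i).symm.trans e
  have hj : D.next γ i = j := by
    refine D.eq_of_mul_rep _ _ (h⁻¹ * (D.elt γ i : SL(2, ℤ))) (hh.imp
      (fun hm => mul_mem (inv_mem hm) (D.elt γ i).2) fun hm => ?_) ?_
    · have : -(h⁻¹ * (D.elt γ i : SL(2, ℤ))) = (-h)⁻¹ * (D.elt γ i : SL(2, ℤ)) := by
        rw [inv_neg, neg_mul]
      rw [this]
      exact mul_mem (inv_mem hm) (D.elt γ i).2
    rw [Matrix.SpecialLinearGroup.coe_mul, Matrix.mul_assoc, e', ← Matrix.mul_assoc,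
      ← Matrix.SpecialLinearGroup.coe_mul, inv_mul_cancel, Matrix.SpecialLinearGroup.coe_one,
      one_mul]
  rw [hj] at e'
  exact ⟨hj, Subtype.ext (Modular.matMul_right_cancel (D.det_ne_zero j) e')⟩

theorem next_elt_eq_of_eq {γ : Γ'} {h : Γ} {i j : ι}
    (e : D.rep i * ((γ : SL(2, ℤ)) : M2Z) = ((h : SL(2, ℤ)) : M2Z) * D.rep j) :
    D.next γ i = j ∧ D.elt γ i = h :=
  ⟨(D.next_elt_coe_eq_of_eq (.inl h.2) e).1,
    Subtype.ext (D.next_elt_coe_eq_of_eq (.inl h.2) e).2⟩

theorem next_elt_mul (γ δ : Γ') (i : ι) :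
    D.next (γ * δ) i = D.next δ (D.next γ i) ∧
      D.elt (γ * δ) i = D.elt γ i * D.elt δ (D.next γ i) := by
  refine D.next_elt_eq_of_eq ?_
  simp only [Subgroup.coe_mul, Matrix.SpecialLinearGroup.coe_mul]
  rw [← Matrix.mul_assoc, D.rep_mul, Matrix.mul_assoc, D.rep_mul, ← Matrix.mul_assoc]

theorem next_neg_one {γ : Γ'} (hγ : (γ : SL(2, ℤ)) = -1) (i : ι) :
    D.next γ i = i ∧ (D.elt γ i : SL(2, ℤ)) = -1 :=
  D.next_elt_coe_eq_of_eq (.inr (by rw [neg_neg]; exact one_mem Γ)) (by simp [hγ])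

theorem next_one (i : ι) : D.next 1 i = i :=
  (D.next_elt_eq_of_eq (γ := 1) (h := 1) (i := i) (j := i) (by simp)).1

theorem next_bijective (γ : Γ') : Function.Bijective (D.next γ) := by
  refine Function.bijective_iff_has_inverse.2 ⟨D.next γ⁻¹, fun i => ?_, fun i => ?_⟩
  · rw [← (D.next_elt_mul γ γ⁻¹ i).1, mul_inv_cancel, next_one]
  · rw [← (D.next_elt_mul γ⁻¹ γ i).1, inv_mul_cancel, next_one]

/-- The composite of `E` followed by `D`, provided the products represent distinct cosets. -/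
def comp (E : CosetSystem Γ'' Γ' κ)
    (hinj : ∀ (x y : κ × ι) (h : SL(2, ℤ)),
      (h : M2Z) * (D.rep x.2 * E.rep x.1) = D.rep y.2 * E.rep y.1 → x = y) :
    CosetSystem Γ'' Γ (κ × ι) where
  rep x := D.rep x.2 * E.rep x.1
  det_ne_zero x := by
    rw [Matrix.det_mul]
    exact mul_ne_zero (D.det_ne_zero _) (E.det_ne_zero _)
  eq_of_mul_rep x y h _ := hinj x y h
  exists_mul_eq x γ := ⟨(E.next γ x.1, D.next (E.elt γ x.1) x.2), D.elt (E.elt γ x.1) x.2, by
    rw [Matrix.mul_assoc, E.rep_mul, ← Matrix.mul_assoc, D.rep_mul, Matrix.mul_assoc]⟩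

theorem comp_next_elt (E : CosetSystem Γ'' Γ' κ) (hinj) (γ : Γ'') (x : κ × ι) :
    (D.comp E hinj).next γ x = (E.next γ x.1, D.next (E.elt γ x.1) x.2) ∧
      (D.comp E hinj).elt γ x = D.elt (E.elt γ x.1) x.2 := by
  refine (D.comp E hinj).next_elt_eq_of_eq ?_
  show D.rep x.2 * E.rep x.1 * _ = _ * (D.rep _ * E.rep _)
  rw [Matrix.mul_assoc, E.rep_mul, ← Matrix.mul_assoc, D.rep_mul, Matrix.mul_assoc]

variable {A : Type} [CommRing A]

/-- Weights compatible with characters `χ'` of `Γ'` and `χ` of `Γ`. -/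
def IsWeight (χ' : Γ' →* Aˣ) (χ : Γ →* Aˣ) (w : ι → A) : Prop :=
  ∀ γ i, w i * (χ (D.elt γ i) : A) = (χ' γ : A) * w (D.next γ i)

theorem isWeight_comp {χ'' : Γ'' →* Aˣ} {χ' : Γ' →* Aˣ} {χ : Γ →* Aˣ} (E : CosetSystem Γ'' Γ' κ)
    (hinj) {v : κ → A} {w : ι → A} (hv : E.IsWeight χ'' χ' v) (hw : D.IsWeight χ' χ w) :
    (D.comp E hinj).IsWeight χ'' χ (fun x => v x.1 * w x.2) := by
  intro γ x
  rw [(D.comp_next_elt E hinj γ x).1, (D.comp_next_elt E hinj γ x).2, mul_assoc, hw,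
    ← mul_assoc, hv]
  ring

variable [Fintype ι] {χ' : Γ' →* Aˣ} {χ : Γ →* Aˣ} {w : ι → A}
  (V : Type) [AddCommGroup V] [Module A V]

/-- The transfer on functions. -/
def transferFun (w : ι → A) : (Γ → V) →ₗ[A] (Γ' → V) where
  toFun c γ := ∑ i, w i • c (D.elt γ i)
  map_add' c d := by
    funext γ
    simp [smul_add, Finset.sum_add_distrib]
  map_smul' a c := by
    funext γ
    simp [Finset.smul_sum, smul_comm a]

theorem transferFun_mem (hw : D.IsWeight χ' χ w) {c : Γ → V}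
    (hc : c ∈ bettiCocycles Γ χ V) : D.transferFun V w c ∈ bettiCocycles Γ' χ' V := by
  refine ⟨fun γ δ => ?_, fun γ hγ => ?_⟩
  · show ∑ i, w i • c (D.elt (γ * δ) i) = ∑ i, w i • c (D.elt γ i) + _ • ∑ i, w i • c (D.elt δ i)
    simp only [(D.next_elt_mul _ _ _).2, hc.1, smul_add, Finset.sum_add_distrib, smul_smul,
      hw _ _, Finset.smul_sum]
    congr 1
    exact Equiv.sum_comp (Equiv.ofBijective _ (D.next_bijective γ))
      (fun i => ((χ' γ : A) * w i) • c (D.elt δ i))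
  · show ∑ i, w i • c (D.elt γ i) = 0
    exact Finset.sum_eq_zero fun i _ => by rw [hc.2 _ (D.next_neg_one hγ i).2, smul_zero]

theorem transferFun_cobdry (hw : D.IsWeight χ' χ w) (v : V) :
    D.transferFun V w (bettiCobdry Γ χ V v) = bettiCobdry Γ' χ' V ((∑ i, w i) • v) := by
  funext γ
  show ∑ i, w i • ((χ (D.elt γ i) : A) • v - v) = (χ' γ : A) • (∑ i, w i) • v - (∑ i, w i) • v
  simp only [smul_sub, smul_smul, hw _ _, Finset.sum_sub_distrib, Finset.sum_smul,
    Finset.smul_sum]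
  congr 1
  exact Equiv.sum_comp (Equiv.ofBijective _ (D.next_bijective γ))
    (fun i => ((χ' γ : A) * w i) • v)

/-- The transfer on cocycles. -/
def transferCocycles (hw : D.IsWeight χ' χ w) :
    bettiCocycles Γ χ V →ₗ[A] bettiCocycles Γ' χ' V :=
  (D.transferFun V w).restrict fun _ hc => D.transferFun_mem V hw hc

/-- The transfer on `H¹`. -/
def transfer (hw : D.IsWeight χ' χ w) : bettiH1 Γ χ V →ₗ[A] bettiH1 Γ' χ' V :=
  Submodule.mapQ _ _ (D.transferCocycles V hw) fun c hc => by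
    obtain ⟨v, hv⟩ := hc
    refine mem_bettiBoundaries.2 ⟨(∑ i, w i) • v, fun γ => ?_⟩
    show bettiCobdry Γ' χ' V ((∑ i, w i) • v) γ = D.transferFun V w (c : Γ → V) γ
    rw [← D.transferFun_cobdry V hw, hv]
    rfl

variable {V}

theorem transferCocycles_apply (hw : D.IsWeight χ' χ w) (c : bettiCocycles Γ χ V) (γ : Γ') :
    (D.transferCocycles V hw c : Γ' → V) γ = ∑ i, w i • (c : Γ → V) (D.elt γ i) := rfl

@[simp] theorem transfer_mk (hw : D.IsWeight χ' χ w) (c : bettiCocycles Γ χ V) :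
    D.transfer V hw (Submodule.Quotient.mk c) =
      Submodule.Quotient.mk (D.transferCocycles V hw c) := rfl

theorem transfer_map {W : Type} [AddCommGroup W] [Module A W] (hw : D.IsWeight χ' χ w)
    (f : V →ₗ[A] W) (x : bettiH1 Γ χ V) :
    bettiH1Map Γ' χ' f (D.transfer V hw x) = D.transfer W hw (bettiH1Map Γ χ f x) := by
  obtain ⟨c, rfl⟩ := Submodule.Quotient.mk_surjective _ x
  simp only [transfer_mk, bettiH1Map_mk]
  exact congrArg Submodule.Quotient.mk (Subtype.ext (funext fun γ => by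
    simp [transferCocycles_apply, map_sum]))

/-- The transfer of the composite system is the composite of the transfers. -/
theorem transfer_comp [Fintype κ] {χ'' : Γ'' →* Aˣ} (E : CosetSystem Γ'' Γ' κ) (hinj)
    {v : κ → A} (hv : E.IsWeight χ'' χ' v) (hw : D.IsWeight χ' χ w) (x : bettiH1 Γ χ V) :
    E.transfer V hv (D.transfer V hw x) =
      (D.comp E hinj).transfer V (D.isWeight_comp E hinj hv hw) x := by
  obtain ⟨c, rfl⟩ := Submodule.Quotient.mk_surjective _ x
  simp only [transfer_mk]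
  refine congrArg Submodule.Quotient.mk (Subtype.ext (funext fun γ => ?_))
  simp only [transferCocycles_apply, (D.comp_next_elt E hinj γ _).2, Fintype.sum_prod_type,
    Finset.smul_sum, smul_smul]

/-- Two systems representing the same cosets, with matching weights, have the same transfer. -/
theorem transfer_eq_of_equiv [Fintype κ] (D' : CosetSystem Γ' Γ κ) (π : ι ≃ κ) (u : ι → Γ)
    (hu : ∀ i, D.rep i = ((u i : SL(2, ℤ)) : M2Z) * D'.rep (π i))
    {w' : κ → A} (hw : D.IsWeight χ' χ w) (hw' : D'.IsWeight χ' χ w')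
    (huw : ∀ i, w i * (χ (u i) : A) = w' (π i)) (x : bettiH1 Γ χ V) :
    D.transfer V hw x = D'.transfer V hw' x := by
  obtain ⟨c, rfl⟩ := Submodule.Quotient.mk_surjective _ x
  simp only [transfer_mk]
  rw [Submodule.Quotient.eq]
  refine mem_bettiBoundaries.2 ⟨-∑ i, w i • (c : Γ → V) (u i), fun γ => ?_⟩
  have key : ∀ i, D.elt γ i * u (D.next γ i) = u i * D'.elt γ (π i) := by
    intro i
    have h : D'.elt γ (π i) = (u i)⁻¹ * D.elt γ i * u (D.next γ i) := by
      refine (D'.next_elt_eq_of_eq (j := π (D.next γ i)) ?_).2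
      have h1 := congrArg (fun M : M2Z => ((((u i)⁻¹ : Γ) : SL(2, ℤ)) : M2Z) * M) (D.rep_mul γ i)
      simp only [hu, ← Matrix.mul_assoc, ← Matrix.SpecialLinearGroup.coe_mul, ← Subgroup.coe_mul,
        inv_mul_cancel, Subgroup.coe_one, Matrix.SpecialLinearGroup.coe_one, one_mul] at h1
      rwa [mul_assoc (u i)⁻¹]
    rw [h]
    group
  have key' : ∀ i, w i • (c : Γ → V) (D.elt γ i)
      + (χ' γ : A) • w (D.next γ i) • (c : Γ → V) (u (D.next γ i))
      = w i • (c : Γ → V) (u i) + w' (π i) • (c : Γ → V) (D'.elt γ (π i)) := by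
    intro i
    have h := congrArg (fun g => w i • (c : Γ → V) g) (key i)
    simp only [bettiCocycles.map_mul, smul_add, smul_smul, hw γ i, huw i] at h
    rwa [smul_smul]
  have hsum : ∑ i, (w i • (c : Γ → V) (D.elt γ i)
      + (χ' γ : A) • w (D.next γ i) • (c : Γ → V) (u (D.next γ i)))
      = ∑ i, (w i • (c : Γ → V) (u i) + w' (π i) • (c : Γ → V) (D'.elt γ (π i))) :=
    Finset.sum_congr rfl fun i _ => key' i
  rw [Finset.sum_add_distrib, Finset.sum_add_distrib, ← Finset.smul_sum,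
    (D.next_bijective γ).sum_comp (fun i => w i • (c : Γ → V) (u i)),
    Equiv.sum_comp π (fun j => w' j • (c : Γ → V) (D'.elt γ j))] at hsum
  rw [Submodule.coe_sub, Pi.sub_apply, transferCocycles_apply, transferCocycles_apply, smul_neg,
    eq_sub_of_add_eq hsum]
  abel

end CosetSystem

end FermatLib.MLT

end
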