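import Fermat.Agent.MLT.SwitchChain
import Fermat.Agent.Descent.ThreeFiveSwitch

/-!
# Congruent traces from isomorphisms of torsion
-/

set_option autoImplicit false

open WeierstrassCurve WeierstrassCurve.Affine

namespace FermatLib.MLT

local notation "Ω" => AlgebraicClosure ℚ

/-- An equivariant isomorphism on `p`-torsion gives congruent traces. -/
theorem congruentTraces_of_equiv {p : ℕ} (hp : p.Prime) {W W' : WeierstrassCurve ℤ}
    (hΔ : W.Δ ≠ 0)
    (e : Submodule.torsionBy ℤ ((W.map (Int.castRingHom ℚ))⁄Ω).Point (p : ℤ) ≃+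
      Submodule.torsionBy ℤ ((W'.map (Int.castRingHom ℚ))⁄Ω).Point (p : ℤ))
    (he : ∀ (σ : Ω ≃ₐ[ℚ] Ω)
      (P : Submodule.torsionBy ℤ ((W.map (Int.castRingHom ℚ))⁄Ω).Point (p : ℤ)),
        e (σ • P) = σ • e P) :
    CongruentTraces p W W' := fun _ hℓ hg hg' hne =>
  FermatLib.Descent.dvd_apOfModel_sub_of_equiv W W' hΔ hp e he hℓ hg hg' hne

end FermatLib.MLT
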