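import Fermat.Agent.Galois.RepField
import Mathlib.GroupTheory.Index

/-!
# Two-dimensional representations that become reducible on a subgroup of index two

If an absolutely irreducible representation is not absolutely irreducible on a subgroup `L` of
index two, then the elements outside `L` have trace zero and the image of `L` is commutative and
semisimple.
-/

set_option autoImplicit false

open Matrix

namespace FermatLib.MLT

open FermatLib.Galois

variable {G : Type*} [Group G] {k : Type*} [Field k]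

local notation "M₂" R:max => Matrix (Fin 2) (Fin 2) R

theorem matrix_two_cayley_hamilton (A : M₂ k) : A * A - A.trace • A + A.det • 1 = 0 := by
  ext i j
  fin_cases i <;> fin_cases j <;>
    simp [Matrix.mul_apply, Fin.sum_univ_two, Matrix.trace_fin_two, Matrix.det_fin_two] <;> ring

theorem mul_self_eq_scalar_of_trace_eq_zero {A : M₂ k} (h : A.trace = 0) :
    A * A = (-A.det) • 1 := by
  have := matrix_two_cayley_hamilton A
  rw [h, zero_smul, sub_zero] at this
  rw [neg_smul, eq_neg_iff_add_eq_zero, this]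

variable {ρ : G →* M₂ k} {L : Subgroup G}

theorem det_map_ne_zero (ρ : G →* M₂ k) (g : G) : (ρ g).det ≠ 0 := fun h => by
  have h1 := congrArg Matrix.det (map_mul ρ g g⁻¹)
  rw [mul_inv_cancel, map_one, det_one, det_mul, h, zero_mul] at h1
  exact one_ne_zero h1

/-- The structure of a representation induced from a subgroup of index two. -/
theorem dihedral_structure (hρ : HasFullSpan ρ) (hL : L.index = 2)
    (hn : ¬ HasFullSpan (ρ.comp L.subtype)) :
    (∀ g, g ∉ L → (ρ g).trace = 0) ∧ (∀ a ∈ L, ∀ b ∈ L, ρ a * ρ b = ρ b * ρ a) ∧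
      ∀ a ∈ L, ∀ c : k, (ρ a - c • 1) * (ρ a - c • 1) = 0 → ρ a = c • 1 := by
  let f : k →+* AlgebraicClosure k := algebraMap k _
  let R := repMap f ρ
  have hR : HasFullSpan R := hρ.repMap f
  have hRn : ¬ NoStableLine (R.comp L.subtype) := fun h =>
    hn (HasFullSpan.of_repMap f ((noStableLine_iff_hasFullSpan _).mp h))
  simp only [NoStableLine, MonoidHom.coe_comp, Function.comp_apply, Subgroup.coe_subtype,
    Subtype.exists] at hRn
  push Not at hRn
  obtain ⟨v, hv0, hv⟩ := hRn
  have hv' : ∀ a ∈ L, ∃ α, R a *ᵥ v = α • v := fun a ha => hv a ha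
  obtain ⟨g, hg⟩ := hR.noStableLine v hv0
  have hgL : g ∉ L := fun h => by
    obtain ⟨α, hα⟩ := hv' g h
    exact hg α hα
  have hw : ∀ a ∈ L, ∃ β, R a *ᵥ (R g *ᵥ v) = β • (R g *ᵥ v) := fun a ha => by
    obtain ⟨β, hβ⟩ := hv' (g⁻¹ * a * g) (by simp [Subgroup.mul_mem_iff_of_index_two hL, inv_mem_iff, ha, hgL])
    refine ⟨β, ?_⟩
    rw [mulVec_mulVec, show R a * R g = R g * R (g⁻¹ * a * g) by
      rw [← map_mul, ← map_mul]; congr 1; group, ← mulVec_mulVec, hβ, mulVec_smul]
  have hext : ∀ X : M₂ (AlgebraicClosure k), X *ᵥ v = 0 → X *ᵥ (R g *ᵥ v) = 0 → X = 0 := by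
    intro X h1 h2
    have htop := eq_top_of_mem_of_ne_smul (W := LinearMap.ker (Matrix.toLin' X))
      (by simpa using h1) (by simpa using h2) hv0 hg
    apply Matrix.ext_of_mulVec_single
    intro j
    have : Pi.single j 1 ∈ LinearMap.ker (Matrix.toLin' X) := htop ▸ Submodule.mem_top
    rw [Matrix.zero_mulVec]
    simpa using this
  have hinjf : Function.Injective fun A : M₂ k => A.map f := Matrix.map_injective f.injective
  refine ⟨fun x hx => ?_, fun a ha b hb => hinjf ?_, fun a ha c hc => hinjf ?_⟩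
  · -- trace zero
    obtain ⟨α, hα⟩ := hv' (x * x) (Subgroup.mul_self_mem_of_index_two hL x)
    apply f.injective
    rw [← trace_repMap, map_zero]
    by_contra ht
    have hCH := congrArg (fun X => X *ᵥ v) (matrix_two_cayley_hamilton (R x))
    simp only [add_mulVec, sub_mulVec, smul_mulVec, one_mulVec, zero_mulVec, ← map_mul, hα] at hCH
    have hxv : R x *ᵥ v = (((R x).trace)⁻¹ * (α + (R x).det)) • v := by
      have h' : (R x).trace • R x *ᵥ v = (α + (R x).det) • v := by
        linear_combination (norm := module) -hCH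
      rw [mul_smul, ← h', smul_smul, inv_mul_cancel₀ ht, one_smul]
    have hgx : x⁻¹ * g ∈ L :=
      (Subgroup.mul_mem_iff_of_index_two hL).mpr (by simp [inv_mem_iff, hx, hgL])
    obtain ⟨β, hβ⟩ := hv' _ hgx
    apply hg (β * (((R x).trace)⁻¹ * (α + (R x).det)))
    rw [show g = x * (x⁻¹ * g) by group, map_mul, ← mulVec_mulVec, hβ, mulVec_smul, hxv, smul_smul]
  · -- commutativity
    show (ρ a * ρ b).map f = (ρ b * ρ a).map f
    rw [← sub_eq_zero, ← map_mul, ← map_mul, ← repMap_apply, ← repMap_apply, map_mul, map_mul]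
    obtain ⟨α, hα⟩ := hv' a ha
    obtain ⟨β, hβ⟩ := hv' b hb
    obtain ⟨γ, hγ⟩ := hw a ha
    obtain ⟨δ, hδ⟩ := hw b hb
    apply hext <;>
      simp only [R] at * <;>
      simp only [sub_mulVec, ← mulVec_mulVec, hα, hβ, hγ, hδ, mulVec_smul, smul_smul] <;>
      rw [mul_comm, sub_self]
  · -- semisimplicity
    show (ρ a).map f = (c • (1 : M₂ k)).map f
    have hc' : (R a - f c • 1) * (R a - f c • 1) = 0 := by
      have e : R a - f c • 1 = f.mapMatrix (ρ a - c • 1) := by
        ext i j
        fin_cases i <;> fin_cases j <;> simp [R]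
      rw [e, ← map_mul, hc, map_zero]
    have hone : (c • (1 : M₂ k)).map f = f c • 1 := by simp [Matrix.map_smul']
    rw [hone, ← repMap_apply, ← sub_eq_zero]
    apply hext
    · obtain ⟨α, hα⟩ := hv' a ha
      have h := congrArg (fun X => X *ᵥ v) hc'
      simp only [← mulVec_mulVec, sub_mulVec, smul_mulVec, one_mulVec, zero_mulVec, R] at h hα ⊢
      rw [hα, ← sub_smul, mulVec_smul, hα, smul_smul, smul_smul, ← sub_smul, smul_eq_zero,
        or_iff_left hv0] at h
      rw [hα, ← sub_smul, smul_eq_zero, or_iff_left hv0]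
      exact mul_self_eq_zero.mp (by linear_combination h)
    · obtain ⟨α, hα⟩ := hw a ha
      have hw0 : R g *ᵥ v ≠ 0 := fun h0 => hg 0 (by rw [h0, zero_smul])
      have h := congrArg (fun X => X *ᵥ (R g *ᵥ v)) hc'
      simp only [← mulVec_mulVec, sub_mulVec, smul_mulVec, one_mulVec, zero_mulVec, R] at h hα hw0 ⊢
      rw [hα, ← sub_smul, mulVec_smul, hα, smul_smul, smul_smul, ← sub_smul, smul_eq_zero,
        or_iff_left hw0] at h
      rw [hα, ← sub_smul, smul_eq_zero, or_iff_left hw0]
      exact mul_self_eq_zero.mp (by linear_combination h)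

end FermatLib.MLT
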