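import Fermat.Agent.MLT.LocQUniversal
import Fermat.Agent.Galois.Deform.Tangent
import Fermat.Agent.Galois.Deform.PowerSeries
import Mathlib.RingTheory.AdicCompletion.Functoriality

/-!
# Presentations from points with values in the dual numbers

`R` is a complete Noetherian local `𝒪`-algebra with residue field `k = ResidueField 𝒪`. Evaluation
`𝒪⟦X⟧ → R` at elements of the maximal ideal is surjective as soon as a point `R → k[ε]` killing all
of them is trivial; and `g` further elements suffice if these points form a space of dimension at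
most `g`.
-/

set_option autoImplicit false

noncomputable section

open IsLocalRing

namespace FermatLib.MLT

open FermatLib.Galois.Deform

variable {𝒪 : Type} [CommRing 𝒪] [IsLocalRing 𝒪]

attribute [local instance] FermatLib.Galois.Deform.dualAlgebra

variable {R : Type} [CommRing R] [Algebra 𝒪 R]

variable (𝒪 R) in
/-- The points of `R` with values in the dual numbers of the residue field. -/
abbrev DualPoint : Type := R →ₐ[𝒪] DualNumber (ResidueField 𝒪)

/-- The `ε`-component of a point. -/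
def dualSnd (φ : DualPoint 𝒪 R) (r : R) : ResidueField 𝒪 := TrivSqZeroExt.snd (φ r)

lemma fst_dualPoint [IsLocalRing R] (π : R →ₐ[𝒪] ResidueField 𝒪) (φ : DualPoint 𝒪 R) (r : R) :
    TrivSqZeroExt.fst (φ r) = π r :=
  AlgHom.congr_fun (res_unique ((dualRes 𝒪).comp φ) π) r

lemma dualSnd_algebraMap (φ : DualPoint 𝒪 R) (c : 𝒪) : dualSnd φ (algebraMap 𝒪 R c) = 0 := by
  rw [dualSnd, AlgHom.commutes]
  rfl

/-- Scale the `ε`-component. -/
def dualScale (c : ResidueField 𝒪) :
    DualNumber (ResidueField 𝒪) →ₐ[𝒪] DualNumber (ResidueField 𝒪) where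
  toFun x := TrivSqZeroExt.inl x.fst + TrivSqZeroExt.inr (c * x.snd)
  map_one' := by ext <;> simp
  map_zero' := by ext <;> simp
  map_add' x y := by ext <;> simp [mul_add]
  map_mul' x y := by
    ext
    · simp
    · simp
      ring
  commutes' a := by
    apply TrivSqZeroExt.ext <;>
      simp [RingHom.algebraMap_toAlgebra, TrivSqZeroExt.algebraMap_eq_inl]

/-- The sum of two points with the same reduction. -/
def dualAdd (φ φ' : DualPoint 𝒪 R) (h : ∀ r, (φ r).fst = (φ' r).fst) : DualPoint 𝒪 R where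
  toFun r := TrivSqZeroExt.inl (φ r).fst + TrivSqZeroExt.inr (dualSnd φ r + dualSnd φ' r)
  map_one' := by ext <;> simp [dualSnd]
  map_zero' := by ext <;> simp [dualSnd]
  map_add' x y := by ext <;> simp [dualSnd]; ring
  map_mul' x y := by
    ext
    · simp
    · simp [dualSnd, h x, h y]
      ring
  commutes' a := by
    apply TrivSqZeroExt.ext <;>
      simp [dualSnd, RingHom.algebraMap_toAlgebra, TrivSqZeroExt.algebraMap_eq_inl]

variable [IsLocalRing R] (π : R →ₐ[𝒪] ResidueField 𝒪)

/-- The point with zero `ε`-component. -/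
def dualZero : DualPoint 𝒪 R where
  toFun r := TrivSqZeroExt.inl (π r)
  map_one' := by rw [map_one]; rfl
  map_zero' := by rw [map_zero, TrivSqZeroExt.inl_zero]
  map_add' x y := by rw [map_add, TrivSqZeroExt.inl_add]
  map_mul' x y := by rw [map_mul, TrivSqZeroExt.inl_mul]
  commutes' a := by
    show TrivSqZeroExt.inl (π (algebraMap 𝒪 R a)) = _
    rw [AlgHom.commutes]
    rfl

variable {ι : Type}

/-- `ε`-components of the points of `R` that kill the elements `a`. -/
def tangentSpace (a : ι → R) : Submodule (ResidueField 𝒪) (R → ResidueField 𝒪) where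
  carrier := {l | ∃ φ : DualPoint 𝒪 R, (∀ i, φ (a i) = TrivSqZeroExt.inl (π (a i))) ∧ dualSnd φ = l}
  zero_mem' := ⟨dualZero π, fun _ => rfl, funext fun r => TrivSqZeroExt.snd_inl _ (π r)⟩
  add_mem' := by
    rintro _ _ ⟨φ, hφ, rfl⟩ ⟨φ', hφ', rfl⟩
    refine ⟨dualAdd φ φ' fun r => by rw [fst_dualPoint π, fst_dualPoint π], fun i => ?_,
      funext fun r => ?_⟩
    · have h1 := hφ i
      have h2 := hφ' i
      apply TrivSqZeroExt.ext <;> simp [dualAdd, dualSnd, h1, h2]
    · simp [dualSnd, dualAdd]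
  smul_mem' := by
    rintro c _ ⟨φ, hφ, rfl⟩
    refine ⟨(dualScale c).comp φ, fun i => ?_, funext fun r => ?_⟩
    · show TrivSqZeroExt.inl (φ (a i)).fst + TrivSqZeroExt.inr (c * (φ (a i)).snd) = _
      rw [hφ]
      simp
    · simp [dualSnd, dualScale]

/-- A tangent vector vanishing on the maximal ideal is zero. -/
lemma eq_zero_of_forall_maximalIdeal {a : ι → R} {l : R → ResidueField 𝒪}
    (hl : l ∈ tangentSpace π a) (h : ∀ r ∈ maximalIdeal R, l r = 0) : l = 0 := by
  obtain ⟨φ, -, rfl⟩ := hl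
  refine funext fun r => ?_
  obtain ⟨c, hc⟩ := IsLocalRing.residue_surjective (π r)
  have := h (r - algebraMap 𝒪 R c) ((res_eq_zero_iff π _).mp (by
    rw [map_sub, AlgHom.commutes, ResidueField.algebraMap_eq, hc, sub_self]))
  rwa [dualSnd, map_sub, TrivSqZeroExt.snd_sub, ← dualSnd, ← dualSnd, dualSnd_algebraMap,
    sub_zero] at this

variable [IsNoetherianRing R] [IsAdicComplete (maximalIdeal R) R] [Finite ι]
  [Finite (ResidueField 𝒪)]

omit [IsAdicComplete (maximalIdeal R) R] [Finite ι] in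
/-- Elements detecting all points span the maximal ideal with the uniformiser. -/
theorem maximalIdeal_eq_of_tangentSpace_eq_bot (a : ι → R) (ha : ∀ i, a i ∈ maximalIdeal R)
    (h : tangentSpace π a = ⊥) :
    maximalIdeal R = (maximalIdeal 𝒪).map (algebraMap 𝒪 R) ⊔ Ideal.span (Set.range a) := by
  set J : Ideal R := (maximalIdeal 𝒪).map (algebraMap 𝒪 R) ⊔ Ideal.span (Set.range a) with hJ
  have hJle : J ≤ maximalIdeal R := by
    refine sup_le ?_ (Ideal.span_le.mpr (by rintro _ ⟨i, rfl⟩; exact ha i))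
    rw [Ideal.map_le_iff_le_comap]
    intro c hc
    rw [Ideal.mem_comap, ← res_eq_zero_iff π, AlgHom.commutes, ResidueField.algebraMap_eq]
    exact (IsLocalRing.residue_eq_zero_iff c).mpr hc
  -- the maximal ideal is `J` up to squares
  have hsq : maximalIdeal R ≤ J ⊔ maximalIdeal R ^ 2 := by
    intro x hx
    by_contra hxI
    have hker : ∀ y ∈ J ⊔ maximalIdeal R ^ 2, π y = 0 := fun y hy => (res_eq_zero_iff π y).mpr
      ((sup_le hJle (Ideal.pow_le_self two_ne_zero) : J ⊔ maximalIdeal R ^ 2 ≤ _) hy)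
    let π' : (R ⧸ (J ⊔ maximalIdeal R ^ 2)) →ₐ[𝒪] ResidueField 𝒪 :=
      Ideal.Quotient.liftₐ _ π hker
    obtain ⟨φ', hφ'⟩ := exists_dual_hom π'
      (fun u v hu hv => by
        obtain ⟨u, rfl⟩ := Ideal.Quotient.mk_surjective u
        obtain ⟨v, rfl⟩ := Ideal.Quotient.mk_surjective v
        rw [← map_mul, Ideal.Quotient.eq_zero_iff_mem]
        refine Ideal.mem_sup_right ?_
        rw [pow_two]
        exact Ideal.mul_mem_mul ((res_eq_zero_iff π u).mp hu) ((res_eq_zero_iff π v).mp hv))
      (fun c hc => Ideal.Quotient.eq_zero_iff_mem.mpr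
        (Ideal.mem_sup_left (Ideal.mem_sup_left (Ideal.mem_map_of_mem _ hc))))
      (Ideal.Quotient.mk _ x) (fun h0 => hxI (Ideal.Quotient.eq_zero_iff_mem.mp h0))
    let φ : DualPoint 𝒪 R := φ'.comp (Ideal.Quotient.mkₐ 𝒪 _)
    have hmem : dualSnd φ ∈ tangentSpace π a := ⟨φ, fun i => by
      have h0 : φ (a i) = 0 := by
        show φ' (Ideal.Quotient.mk _ (a i)) = 0
        rw [Ideal.Quotient.eq_zero_iff_mem.mpr (Ideal.mem_sup_left (Ideal.mem_sup_right
          (Ideal.subset_span (Set.mem_range_self i)))), map_zero]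
      rw [h0, (res_eq_zero_iff π _).mpr (ha i), TrivSqZeroExt.inl_zero], rfl⟩
    rw [h, Submodule.mem_bot] at hmem
    refine hφ' ?_
    show φ x = 0
    refine TrivSqZeroExt.ext ?_ ?_
    · rw [fst_dualPoint π, (res_eq_zero_iff π x).mpr hx]; rfl
    · exact congrFun hmem x
  -- Nakayama
  refine le_antisymm ?_ hJle
  exact Submodule.le_of_le_smul_of_le_jacobson_bot
    (IsNoetherian.noetherian _) (IsLocalRing.maximalIdeal_le_jacobson _)
    (hsq.trans (by rw [pow_two, smul_eq_mul]))

/-- Elements detecting all points with values in the dual numbers generate. -/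
theorem evalHom_surjective_of_tangentSpace_eq_bot
    [IsAdicComplete (maximalIdeal (MvPowerSeries ι 𝒪)) (MvPowerSeries ι 𝒪)]
    (a : ι → R) (ha : ∀ i, a i ∈ maximalIdeal R) (h : tangentSpace π a = ⊥) :
    Function.Surjective (LocQ.evalHom (𝒪 := 𝒪) a ha) := by
  set f := LocQ.evalHom (𝒪 := 𝒪) a ha
  set J : Ideal R := (maximalIdeal 𝒪).map (algebraMap 𝒪 R) ⊔ Ideal.span (Set.range a) with hJ
  have hm : maximalIdeal R ≤ J := (maximalIdeal_eq_of_tangentSpace_eq_bot π a ha h).le
  have hmap : (maximalIdeal (MvPowerSeries ι 𝒪)).map f = maximalIdeal R := by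
    refine le_antisymm (Ideal.map_le_iff_le_comap.mpr fun x hx => ?_) (hm.trans (sup_le ?_ ?_))
    · rw [Ideal.mem_comap, ← res_eq_zero_iff π]
      rw [PowSer.maximalIdeal_eq] at hx
      have : maximalIdeal (MvPowerSeries ι 𝒪) ≤ RingHom.ker (π.toRingHom.comp f) := by
        rw [PowSer.maximalIdeal_eq]
        refine sup_le (Ideal.map_le_iff_le_comap.mpr fun c hc => ?_)
          (Ideal.span_le.mpr ?_)
        · rw [Ideal.mem_comap, RingHom.mem_ker]
          show π (f (MvPowerSeries.C c)) = 0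
          rw [LocQ.evalHom_C, AlgHom.commutes, ResidueField.algebraMap_eq]
          exact (IsLocalRing.residue_eq_zero_iff c).mpr hc
        · rintro _ ⟨i, rfl⟩
          show π (f (MvPowerSeries.X i)) = 0
          rw [LocQ.evalHom_X]
          exact (res_eq_zero_iff π _).mpr (ha i)
      exact RingHom.mem_ker.mp (this (by rw [PowSer.maximalIdeal_eq]; exact hx))
    · refine Ideal.map_le_iff_le_comap.mpr fun c hc => ?_
      rw [Ideal.mem_comap, ← LocQ.evalHom_C (ι := ι) ha c]
      refine Ideal.mem_map_of_mem f ?_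
      rw [PowSer.maximalIdeal_eq]
      exact Ideal.mem_sup_left (Ideal.mem_map_of_mem _ hc)
    · refine Ideal.span_le.mpr ?_
      rintro _ ⟨i, rfl⟩
      rw [SetLike.mem_coe, ← LocQ.evalHom_X (𝒪 := 𝒪) ha i]
      refine Ideal.mem_map_of_mem f ?_
      rw [PowSer.maximalIdeal_eq]
      exact Ideal.mem_sup_right (Ideal.subset_span ⟨i, rfl⟩)
  have : IsHausdorff ((maximalIdeal (MvPowerSeries ι 𝒪)).map f) R := by
    rw [hmap]; infer_instance
  refine surjective_of_mk_map_comp_surjective (I := maximalIdeal (MvPowerSeries ι 𝒪)) f ?_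
  intro y
  obtain ⟨r, rfl⟩ := Ideal.Quotient.mk_surjective y
  obtain ⟨c, hc⟩ := IsLocalRing.residue_surjective (π r)
  refine ⟨MvPowerSeries.C c, ?_⟩
  rw [RingHom.comp_apply, LocQ.evalHom_C, Ideal.Quotient.eq, hmap, ← res_eq_zero_iff π, map_sub,
    AlgHom.commutes, ResidueField.algebraMap_eq, hc, sub_self]

omit [IsNoetherianRing R] [IsAdicComplete (maximalIdeal R) R] [Finite ι]
  [Finite (ResidueField 𝒪)] in
/-- Any `a` extends by `g` elements to a presentation, if its tangent space has dimension `≤ g`. -/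
theorem exists_extension (a : ι → R) {g : ℕ}
    [FiniteDimensional (ResidueField 𝒪) (tangentSpace π a)]
    (hg : Module.finrank (ResidueField 𝒪) (tangentSpace π a) ≤ g) :
    ∃ b : Fin g → R, (∀ i, b i ∈ maximalIdeal R) ∧ tangentSpace π (Sum.elim a b) = ⊥ := by
  set k := ResidueField 𝒪
  set V := tangentSpace π a
  let ev : R → Module.Dual k V := fun r =>
    (LinearMap.proj r : (R → k) →ₗ[k] k).comp V.subtype
  set s := ev '' (maximalIdeal R : Set R)
  obtain ⟨e, he, hspan, -⟩ := Submodule.exists_fun_fin_finrank_span_eq k s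
  have hle : Module.finrank k (Submodule.span k s) ≤ g :=
    ((Submodule.finrank_le _).trans_eq (Subspace.dual_finrank_eq)).trans hg
  choose r hr hre using he
  refine ⟨fun i => if h : (i : ℕ) < Module.finrank k (Submodule.span k s) then r ⟨i, h⟩ else 0,
    fun i => ?_, (Submodule.eq_bot_iff _).mpr ?_⟩
  · dsimp only; split_ifs
    · exact hr _
    · exact zero_mem _
  rintro l ⟨φ, hφ, rfl⟩
  have hlV : dualSnd φ ∈ V := ⟨φ, fun i => hφ (Sum.inl i), rfl⟩
  refine eq_zero_of_forall_maximalIdeal π hlV fun x hx => ?_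
  have hall : ∀ y ∈ Submodule.span k s, y ⟨dualSnd φ, hlV⟩ = 0 := by
    rw [← hspan]
    intro y hy
    refine Submodule.span_induction (p := fun y _ => y ⟨dualSnd φ, hlV⟩ = 0) ?_ (by simp)
      (fun u v _ _ hu hv => by simp [hu, hv]) (fun c u _ hu => by simp [hu]) hy
    rintro _ ⟨j, rfl⟩
    rw [← hre j]
    show dualSnd φ (r j) = 0
    have := hφ (Sum.inr ⟨j, j.2.trans_le hle⟩)
    simp only [Sum.elim_inr, dif_pos j.2] at this
    rw [dualSnd, this]
    rfl
  exact hall _ (Submodule.subset_span ⟨x, hx, rfl⟩)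

end FermatLib.MLT

end
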