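import Fermat.Agent.Basic.PowerSeriesRegular
import Mathlib.RingTheory.AdicCompletion.Basic
import Mathlib.RingTheory.MvPowerSeries.Equiv
import Mathlib.RingTheory.MvPowerSeries.NoZeroDivisors
import Mathlib.RingTheory.KrullDimension.Regular
import Mathlib.RingTheory.KrullDimension.NonZeroDivisors
import Mathlib.RingTheory.KrullDimension.Field
import Mathlib.RingTheory.Filtration
import Mathlib.RingTheory.LocalRing.ResidueField.Basic

/-!
# Power series rings over a complete local ring, as coefficient rings for patching

`O⟦X₁,…,X_r⟧` is complete for its maximal ideal, has the residue field of `O`, and has dimension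
`r + 1` when `O` is a DVR; a prime whose quotient keeps the dimension is zero.
-/

set_option autoImplicit false

namespace FermatLib.MLT

open IsLocalRing MvPowerSeries

variable {𝒪 : Type*} [CommRing 𝒪] [IsLocalRing 𝒪] {r : ℕ}

local notation "P" => MvPowerSeries (Fin r) 𝒪

/-- The total degree of an exponent. -/
def expDeg (e : Fin r →₀ ℕ) : ℕ := ∑ i, e i

lemma expDeg_add (a b : Fin r →₀ ℕ) : expDeg (a + b) = expDeg a + expDeg b := by
  simp [expDeg, Finset.sum_add_distrib]

/-- Series whose degree-`i` coefficients lie in `𝔪 ^ (k - i)`. -/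
noncomputable def coeffFiltration (k : ℕ) : Ideal P where
  carrier := {f | ∀ e, coeff e f ∈ maximalIdeal 𝒪 ^ (k - expDeg e)}
  zero_mem' e := by simp
  add_mem' hf hg e := by
    rw [map_add]
    exact add_mem (hf e) (hg e)
  smul_mem' g f hf e := by
    rw [smul_eq_mul, coeff_mul]
    refine Submodule.sum_mem _ fun p hp => Ideal.mul_mem_left _ _ ?_
    refine Ideal.pow_le_pow_right ?_ (hf p.2)
    rw [← Finset.mem_antidiagonal.mp hp, expDeg_add]
    omega

lemma pow_maximalIdeal_le_coeffFiltration (k : ℕ) : maximalIdeal P ^ k ≤ coeffFiltration k := by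
  induction k with
  | zero => intro f _ e; simp
  | succ k ih =>
    rw [pow_succ']
    refine Ideal.mul_le.mpr fun a ha f hf e => ?_
    rw [coeff_mul]
    refine Submodule.sum_mem _ fun p hp => ?_
    by_cases hp1 : p.1 = 0
    · have hp2 : p.2 = e := by
        have := Finset.mem_antidiagonal.mp hp
        rwa [hp1, zero_add] at this
      have ha0 : coeff p.1 a ∈ maximalIdeal 𝒪 := by
        rw [hp1, coeff_zero_eq_constantCoeff_apply, mem_maximalIdeal, mem_nonunits_iff]
        exact fun h => ha (isUnit_iff_constantCoeff.mpr h)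
      have := Ideal.mul_mem_mul ha0 (ih hf p.2)
      rw [← pow_succ', hp2] at this
      rw [hp2]
      exact Ideal.pow_le_pow_right (by omega) this
    · refine Ideal.mul_mem_left _ _ (Ideal.pow_le_pow_right ?_ (ih hf p.2))
      rw [← Finset.mem_antidiagonal.mp hp, expDeg_add]
      have : 0 < expDeg p.1 := by
        obtain ⟨i, hi⟩ := Finsupp.ne_iff.mp hp1
        exact Finset.sum_pos' (fun _ _ => Nat.zero_le _)
          ⟨i, Finset.mem_univ _, Nat.pos_of_ne_zero (by simpa using hi)⟩
      omega

lemma coeffFiltration_le_pow_maximalIdeal (k : ℕ) : coeffFiltration k ≤ maximalIdeal P ^ k := by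
  classical
  induction k with
  | zero => simp
  | succ k ih =>
    intro f hf
    let g : Fin r → P := fun j e =>
      if ∀ i < j, e i = 0 then coeff (e + Finsupp.single j 1) f else 0
    have hg : ∀ j, g j ∈ coeffFiltration k := fun j e => by
      show (if _ then _ else _) ∈ _
      split_ifs with h
      · refine Ideal.pow_le_pow_right ?_ (hf (e + Finsupp.single j 1))
        rw [expDeg_add]
        have : expDeg (Finsupp.single j 1) = 1 := by
          simp [expDeg, Finsupp.single_apply]
        omega
      · exact zero_mem _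
    have heq : f = C (constantCoeff f) + ∑ j, X j * g j := by
      refine MvPowerSeries.ext fun e => ?_
      have hterm : ∀ j, coeff e (X j * g j) =
          if e j ≠ 0 ∧ ∀ i < j, e i = 0 then coeff e f else 0 := fun j => by
        rw [X_def, coeff_monomial_mul, one_mul]
        by_cases hj : e j = 0
        · rw [if_neg, if_neg (fun h => h.1 hj)]
          intro h
          have := h j
          simp [hj] at this
        · have hle : Finsupp.single j 1 ≤ e :=
            Finsupp.single_le_iff.mpr (Nat.one_le_iff_ne_zero.mpr hj)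
          rw [if_pos hle]
          show (if _ then _ else _) = _
          rw [tsub_add_cancel_of_le hle]
          have hiff : (∀ i < j, (e - Finsupp.single j 1 : Fin r →₀ ℕ) i = 0) ↔
              (e j ≠ 0 ∧ ∀ i < j, e i = 0) := by
            simp only [hj, ne_eq, not_false_eq_true, true_and]
            refine forall₂_congr fun i hi => ?_
            rw [Finsupp.tsub_apply, Finsupp.single_eq_of_ne hi.ne, tsub_zero]
          exact if_congr hiff rfl rfl
      rw [map_add, map_sum, coeff_C, Finset.sum_congr rfl fun j _ => hterm j]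
      by_cases he : e = 0
      · subst he
        simp
      · have hne : e.support.Nonempty := Finsupp.support_nonempty_iff.mpr he
        rw [if_neg he, zero_add, Finset.sum_eq_single (e.support.min' hne), if_pos]
        · refine ⟨Finsupp.mem_support_iff.mp (e.support.min'_mem hne), fun i hi => ?_⟩
          by_contra h
          exact absurd (e.support.min'_le i (Finsupp.mem_support_iff.mpr h)) (not_le.mpr hi)
        · intro j _ hj
          rw [if_neg]
          rintro ⟨h1, h2⟩
          have hle := e.support.min'_le j (Finsupp.mem_support_iff.mpr h1)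
          exact Finsupp.mem_support_iff.mp (e.support.min'_mem hne)
            (h2 _ (lt_of_le_of_ne hle (Ne.symm hj)))
        · simp
    rw [heq]
    refine add_mem ?_ (Submodule.sum_mem _ fun j _ => ?_)
    · have h0 : constantCoeff f ∈ maximalIdeal 𝒪 ^ (k + 1) := by
        have h00 := hf 0
        simpa [expDeg] using h00
      have := Ideal.mem_map_of_mem (C : 𝒪 →+* P) h0
      rw [Ideal.map_pow] at this
      refine Ideal.pow_right_mono (Ideal.map_le_iff_le_comap.mpr fun a ha => ?_) _ this
      rw [Ideal.mem_comap, mem_maximalIdeal, mem_nonunits_iff, isUnit_iff_constantCoeff,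
        constantCoeff_C]
      exact ha
    · rw [pow_succ']
      refine Ideal.mul_mem_mul ?_ (ih (hg j))
      rw [mem_maximalIdeal, mem_nonunits_iff, isUnit_iff_constantCoeff, constantCoeff_X]
      exact not_isUnit_zero

instance mvPowerSeries_isAdicComplete [IsNoetherianRing 𝒪] [IsAdicComplete (maximalIdeal 𝒪) 𝒪] :
    IsAdicComplete (maximalIdeal P) P where
  haus' x hx := by
    have h := (Submodule.mem_iInf _).mpr fun k => (SModEq.zero.mp (hx k) :
      x ∈ maximalIdeal P ^ k • (⊤ : Submodule P P))
    rw [Ideal.iInf_pow_smul_eq_bot_of_isLocalRing _ (maximalIdeal.isMaximal P).ne_top] at h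
    exact (Submodule.mem_bot _).mp h
  prec' f hf := by
    have hc : ∀ {m n}, m ≤ n → ∀ e,
        coeff e (f m) - coeff e (f n) ∈ maximalIdeal 𝒪 ^ (m - expDeg e) := by
      intro m n hmn e
      have h := hf hmn
      rw [SModEq.sub_mem, smul_eq_mul, Ideal.mul_top] at h
      have := pow_maximalIdeal_le_coeffFiltration m h e
      rwa [map_sub] at this
    have : ∀ e, ∃ a : 𝒪, ∀ m, coeff e (f m) - a ∈ maximalIdeal 𝒪 ^ (m - expDeg e) := by
      intro e
      obtain ⟨a, ha⟩ := IsPrecomplete.prec (I := maximalIdeal 𝒪) (M := 𝒪) inferInstance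
        (f := fun m => coeff e (f (m + expDeg e))) fun {m n} hmn => by
          rw [SModEq.sub_mem, smul_eq_mul, Ideal.mul_top]
          simpa using hc (Nat.add_le_add_right hmn (expDeg e)) e
      refine ⟨a, fun m => ?_⟩
      rcases le_or_gt (expDeg e) m with hm | hm
      · have := ha (m - expDeg e)
        rwa [SModEq.sub_mem, smul_eq_mul, Ideal.mul_top, Nat.sub_add_cancel hm] at this
      · rw [Nat.sub_eq_zero_of_le hm.le, pow_zero, Ideal.one_eq_top]
        trivial
    choose L hL using this
    refine ⟨L, fun n => ?_⟩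
    rw [SModEq.sub_mem, smul_eq_mul, Ideal.mul_top]
    refine coeffFiltration_le_pow_maximalIdeal n fun e => ?_
    rw [map_sub]
    exact hL e n

instance mvPowerSeries_finite_residueField [Finite (ResidueField 𝒪)] :
    Finite (ResidueField P) := by
  refine Finite.of_surjective
    (fun a : ResidueField 𝒪 => residue P (C (Function.surjInv residue_surjective a))) fun y => ?_
  obtain ⟨f, rfl⟩ := residue_surjective y
  refine ⟨residue 𝒪 (constantCoeff f), ?_⟩
  refine Ideal.Quotient.eq.mpr ?_
  rw [mem_maximalIdeal, mem_nonunits_iff, isUnit_iff_constantCoeff, map_sub, constantCoeff_C,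
    ← mem_nonunits_iff, ← mem_maximalIdeal]
  exact Ideal.Quotient.eq.mp (Function.surjInv_eq residue_surjective _)

instance mvPowerSeries_isDomain {σ R : Type*} [CommRing R] [IsDomain R] :
    IsDomain (MvPowerSeries σ R) :=
  NoZeroDivisors.to_isDomain _

/-- `dim O⟦X₁,…,X_r⟧ = r + 1` for a DVR `O`. -/
lemma ringKrullDim_mvPowerSeries {𝒪 : Type*} [CommRing 𝒪] [IsDomain 𝒪] [IsDiscreteValuationRing 𝒪] :
    ringKrullDim (MvPowerSeries (Fin r) 𝒪) = (r + 1 : ℕ) := by
  obtain ⟨ϖ, hϖ⟩ := IsDiscreteValuationRing.exists_irreducible 𝒪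
  have hm := Basic.ofList_X_append_C_eq_maximalIdeal (r := r) hϖ
  have hreg : RingTheory.Sequence.IsRegular (MvPowerSeries (Fin r) 𝒪)
      (List.ofFn (MvPowerSeries.X : Fin r → MvPowerSeries (Fin r) 𝒪) ++ [C ϖ]) := by
    refine ⟨Basic.isWeaklyRegular_X_append_C hϖ.ne_zero, ?_⟩
    rw [smul_eq_mul, Ideal.mul_top, hm]
    exact (maximalIdeal.isMaximal (MvPowerSeries (Fin r) 𝒪)).ne_top.symm
  rw [← ringKrullDim_add_length_eq_ringKrullDim_of_isRegular _ hreg, hm]
  have : IsField (MvPowerSeries (Fin r) 𝒪 ⧸ maximalIdeal (MvPowerSeries (Fin r) 𝒪)) :=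
    (Ideal.Quotient.maximal_ideal_iff_isField_quotient _).mp (maximalIdeal.isMaximal (MvPowerSeries (Fin r) 𝒪))
  rw [ringKrullDim_eq_zero_of_isField this, zero_add]
  simp

end FermatLib.MLT
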