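import Fermat.Agent.MLT.DualCriterion
import Fermat.Agent.MLT.PowerSeriesComplete

/-!
# Framing at a finite set of places

`FrameRing q₀ R` is the power series ring over `R` in the entries of the frames `1 + X_q`, `q ∈ T`,
with one entry at `q₀` fixed to remove the scalars. The dimension of the space of dual points killing
a family that detects the framed lifts is at most `dim S + Σ_q dim Z_q - 1`: here `S` consists of the
tangent vectors of `R` whose restrictions to `T` are coboundaries and `Z_q` is the centraliser of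
the residual representation at `q`.
-/

set_option autoImplicit false

noncomputable section

open IsLocalRing

namespace FermatLib.MLT.Frame

open FermatLib.Galois.Deform

variable {T : Type} (q₀ : T)

/-- The indices of the frame variables. -/
abbrev FrameIdx : Type := {x : T × Fin 2 × Fin 2 // x ≠ (q₀, 1, 1)}

/-- The number of frame variables. -/
def frameCount : ℕ := Nat.card (FrameIdx q₀)

/-- The frame ring. -/
abbrev FrameRing (R : Type) : Type := MvPowerSeries (Fin (frameCount q₀)) R

variable [Finite T]

/-- Enumeration of the frame variables. -/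
def frameEnum : FrameIdx q₀ ≃ Fin (frameCount q₀) := Finite.equivFin _

variable {R : Type} [CommRing R]

open Classical in
/-- The entries of the frame at `q`. -/
def frameEntry (q : T) (i j : Fin 2) : FrameRing q₀ R :=
  if h : (q, i, j) ≠ (q₀, 1, 1) then MvPowerSeries.X (frameEnum q₀ ⟨(q, i, j), h⟩) else 0

/-- The frame at `q`. -/
def frameMat (q : T) : Matrix (Fin 2) (Fin 2) (FrameRing q₀ R) :=
  1 + Matrix.of (frameEntry q₀ q)

lemma constantCoeff_frameEntry (q : T) (i j : Fin 2) :
    MvPowerSeries.constantCoeff (frameEntry (R := R) q₀ q i j) = 0 := by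
  rw [frameEntry]
  split_ifs
  · exact MvPowerSeries.constantCoeff_X _
  · exact map_zero _

lemma isUnit_frameMat (q : T) : IsUnit (frameMat (R := R) q₀ q) := by
  rw [Matrix.isUnit_iff_isUnit_det, MvPowerSeries.isUnit_iff_constantCoeff, RingHom.map_det]
  have : MvPowerSeries.constantCoeff.mapMatrix (frameMat (R := R) q₀ q) = 1 := by
    rw [frameMat, map_add, map_one]
    convert add_zero (1 : Matrix (Fin 2) (Fin 2) R)
    ext i j
    simp [constantCoeff_frameEntry]
  rw [this, Matrix.det_one]
  exact isUnit_one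

/-- The frame at `q` as a unit. -/
def frameUnit (q : T) : (Matrix (Fin 2) (Fin 2) (FrameRing q₀ R))ˣ := (isUnit_frameMat q₀ q).unit

variable {𝒪 : Type} [CommRing 𝒪] [Algebra 𝒪 R]

variable [IsLocalRing 𝒪]

attribute [local instance] FermatLib.Galois.Deform.dualAlgebra

variable [IsLocalRing R] (π : R →ₐ[𝒪] ResidueField 𝒪)

variable {G : Type*} [Group G]

/-- The `ε`-part of a product. -/
lemma map_dualSnd_mul {S : Type} [CommRing S] [IsLocalRing S] [Algebra 𝒪 S]
    (πS : S →ₐ[𝒪] ResidueField 𝒪) (φ : DualPoint 𝒪 S) (A B : Matrix (Fin 2) (Fin 2) S) :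
    (A * B).map (dualSnd φ) =
      A.map (dualSnd φ) * B.map πS + A.map πS * B.map (dualSnd φ) := by
  have hadd : ∀ u v, dualSnd φ (u + v) = dualSnd φ u + dualSnd φ v := fun u v => by simp [dualSnd]
  have hmul : ∀ u v, dualSnd φ (u * v) = dualSnd φ u * πS v + πS u * dualSnd φ v := fun u v => by
    simp [dualSnd, fst_dualPoint πS, add_comm, mul_comm]
  ext i j
  simp only [Matrix.map_apply, Matrix.add_apply, Matrix.mul_apply, Fin.sum_univ_two, hadd, hmul]
  ring

variable {H : T → Type*} (loc : ∀ q, H q → G) (M : G →* Matrix (Fin 2) (Fin 2) R)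
  {κ : Type} (aR : κ → R)

/-- Tangent vectors of `R` killing `aR` which are coboundaries at `T`. -/
def locallyTrivial : Submodule (ResidueField 𝒪) (R → ResidueField 𝒪) where
  carrier := {l | l ∈ tangentSpace π aR ∧ ∀ q, ∃ X : Matrix (Fin 2) (Fin 2) (ResidueField 𝒪),
    ∀ h, (M (loc q h)).map l = (M (loc q h)).map π * X - X * (M (loc q h)).map π}
  zero_mem' := ⟨zero_mem _, fun q => ⟨0, fun h => by
    simp only [mul_zero, zero_mul, sub_zero]; rfl⟩⟩
  add_mem' := fun {u v} ⟨hu, hu'⟩ ⟨hv, hv'⟩ => ⟨add_mem hu hv, fun q => by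
    obtain ⟨X, hX⟩ := hu' q
    obtain ⟨Y, hY⟩ := hv' q
    refine ⟨X + Y, fun h => ?_⟩
    have e : (M (loc q h)).map (u + v) = (M (loc q h)).map u + (M (loc q h)).map v := rfl
    rw [e, hX, hY, mul_add, add_mul]
    abel⟩
  smul_mem' := fun c {u} ⟨hu, hu'⟩ => ⟨Submodule.smul_mem _ c hu, fun q => by
    obtain ⟨X, hX⟩ := hu' q
    refine ⟨c • X, fun h => ?_⟩
    have e : (M (loc q h)).map (c • u) = c • (M (loc q h)).map u := rfl
    rw [e, hX, smul_sub, mul_smul_comm, smul_mul_assoc]⟩

/-- The centraliser of the residual representation at `q`. -/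
def localCentralizer (q : T) :
    Submodule (ResidueField 𝒪) (Matrix (Fin 2) (Fin 2) (ResidueField 𝒪)) where
  carrier := {X | ∀ h, X * (M (loc q h)).map π = (M (loc q h)).map π * X}
  zero_mem' := fun h => by simp
  add_mem' := fun hX hY h => by rw [add_mul, mul_add, hX h, hY h]
  smul_mem' := fun c X hX h => by rw [smul_mul_assoc, mul_smul_comm, hX h]

end FermatLib.MLT.Frame

end
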