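import Fermat.Agent.MLT.ResidualFlat
import Fermat.Agent.MLT.ResidualMultFrob
import Fermat.Prelude.Def_FreyPackage_IsConductorLevel

/-!
# The residual representation of the Frey curve: inputs for level lowering

Everything a lifting argument needs to know about the `p`-torsion of a Frey curve (`p ≥ 5`):
flat at `p`, ramified and unipotent at `2`, unramified elsewhere, and Frobenius at the primes of
a conductor level has eigenvalues `s, sq`.
-/

set_option autoImplicit false
set_option linter.style.haveILetI false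

noncomputable section

open WeierstrassCurve WeierstrassCurve.Affine Polynomial
open scoped WeierstrassCurve.Affine

namespace FermatLib.MLT

local notation "Qbar" => AlgebraicClosure ℚ
local notation "Γℚ" => (AlgebraicClosure ℚ ≃ₐ[ℚ] AlgebraicClosure ℚ)

variable (P : FreyPackage) [Fact P.p.Prime]

/-- The mod `p` representation of the Frey curve, coefficients along `ι`. -/
abbrev freyResidualRep {k : Type} [Field k] (ι : ZMod P.p →+* k) : ResidualGaloisRep k :=
  curveResidualRepExt P.freyCurveInt (FermatLib.Basic.Frey.freyCurveInt_Δ_ne_zero P) P.p ι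

omit [Fact P.p.Prime] in
theorem freyPackage_p_ne_two : P.p ≠ 2 := by
  have := P.hp5; omega

omit [Fact P.p.Prime] in
/-- Away from `2` the exponent `p` divides the discriminant valuations of the Frey curve. -/
theorem dvd_padicValInt_freyCurveInt {q : ℕ} (hq : q.Prime) (hq2 : q ≠ 2) :
    P.p ∣ padicValInt q P.freyCurveInt.Δ := by
  obtain ⟨z, hz⟩ : ∃ z : ℤ, (padicValInt q P.freyCurveInt.Δ : ℤ) = P.p * z :=
    ⟨2 * padicValRat q (P.a * P.b * P.c : ℤ), by
      have h := FermatLib.Basic.Frey.padicValRat_Δ P hq hq2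
      rw [FermatLib.Basic.Frey.freyCurve_Δ P, padicValRat.of_int] at h
      rw [h]; ring⟩
  exact Int.natCast_dvd_natCast.mp ⟨z, hz⟩

variable {k : Type} [Field k] (ι : ZMod P.p →+* k)

theorem freyResidualRep_not_isUnramifiedAt_two : ¬ (freyResidualRep P ι).IsUnramifiedAt 2 := by
  refine (mem_curveRamifiedPrimes_iff _ _ _ ι (FermatLib.Basic.Frey.freyCurveInt_isSemistableModel P)
    Nat.prime_two (freyPackage_p_ne_two P).symm).mp ?_
  rw [curveRamifiedPrimes_freyCurveInt]
  exact Finset.mem_insert_self _ _

omit [Fact P.p.Prime] in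
/-- Odd primes of a conductor level are multiplicative primes of the Frey curve. -/
theorem dvd_Δ_of_isConductorLevel {M q : ℕ} (hM : P.IsConductorLevel M) (hq : q.Prime)
    (hqM : q ∣ M) (hq2 : q ≠ 2) :
    (q : ℤ) ∣ P.freyCurveInt.Δ ∧ ¬ (q : ℤ) ∣ P.freyCurveInt.c₄ :=
  ⟨FermatLib.Basic.Frey.dvd_Δ_of_dvd_abc P hq hq2 (hM.support q hq hqM),
    FermatLib.Basic.Frey.not_dvd_freyCurveInt_c₄ P hq (hM.support q hq hqM)⟩

end FermatLib.MLT
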