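import Fermat.Agent.MLT.DihedralStructure
import Fermat.Agent.Galois.PlaceConjugate
import Fermat.Agent.EC.InertiaMinkowski
import Fermat.Agent.Mazur.GunitCyclo
import Fermat.Prelude.Def_GaloisRep_Residual

/-!
# Absolute irreducibility on subgroups of index two (Wiles' lemma)

A two-dimensional mod `p` representation of the Galois group of `ℚ` (`p` odd) with cyclotomic
determinant, unipotent inertia away from `p` and semistable shape at `p` stays absolutely
irreducible on every subgroup of index two once it is absolutely irreducible.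
-/

set_option autoImplicit false
set_option linter.style.haveILetI false

open Matrix
open scoped Pointwise

namespace FermatLib.MLT

open FermatLib.Galois

local notation "Qbar" => AlgebraicClosure ℚ
local notation "Γℚ" => (AlgebraicClosure ℚ ≃ₐ[ℚ] AlgebraicClosure ℚ)
local notation "M₂" R:max => Matrix (Fin 2) (Fin 2) R

variable {p : ℕ} [Fact p.Prime] {ρ : Γℚ →* M₂ (ZMod p)} {A : ValuationSubring Qbar}

/-- Inertia at `A` has a fixed vector in the quotient by a line: `1` is an eigenvalue. -/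
def HasInertialEigenOne (ρ : Γℚ →* M₂ (ZMod p)) (A : ValuationSubring Qbar) : Prop :=
  ∀ σ ∈ A.inertiaSubgroupIn ℚ, (ρ σ).trace = 1 + (ρ σ).det

/-- Inertia at `A` has commutative image containing an element with non-scalar square. -/
def HasInertialCartan (ρ : Γℚ →* M₂ (ZMod p)) (A : ValuationSubring Qbar) : Prop :=
  (∀ σ ∈ A.inertiaSubgroupIn ℚ, ∀ τ ∈ A.inertiaSubgroupIn ℚ, ρ σ * ρ τ = ρ τ * ρ σ) ∧
    ∃ τ ∈ A.inertiaSubgroupIn ℚ, ∀ c : ZMod p, ρ τ * ρ τ ≠ c • 1

theorem two_ne_zero_zmod (hp2 : p ≠ 2) : (2 : ZMod p) ≠ 0 := fun h => by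
  have : ((2 : ℕ) : ZMod p) = 0 := by exact_mod_cast h
  rw [ZMod.natCast_eq_zero_iff] at this
  exact hp2 ((Nat.prime_dvd_prime_iff_eq Fact.out Nat.prime_two).mp this)

/-- Cartan shape forces inertia into `L`. -/
theorem inertia_le_of_cartan (hρ : HasFullSpan ρ) {L : Subgroup Γℚ} (hL : L.index = 2)
    (hn : ¬ HasFullSpan (ρ.comp L.subtype)) (hA : HasInertialCartan ρ A) :
    A.inertiaSubgroupIn ℚ ≤ L := by
  obtain ⟨htr, hcomm, -⟩ := dihedral_structure hρ hL hn
  obtain ⟨hab, τ, hτ, hns⟩ := hA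
  intro σ hσ
  by_contra hσL
  have hτL : τ ∈ L := by
    by_contra hτL
    exact hns _ (mul_self_eq_scalar_of_trace_eq_zero (htr τ hτL))
  have hall : ∀ g, ρ τ * ρ g = ρ g * ρ τ := fun g => by
    by_cases hg : g ∈ L
    · exact hcomm τ hτL g hg
    · have hl : σ⁻¹ * g ∈ L := by simp [Subgroup.mul_mem_iff_of_index_two hL, inv_mem_iff, hσL, hg]
      rw [show g = σ * (σ⁻¹ * g) by group, map_mul, ← mul_assoc, hab τ hτ σ hσ, mul_assoc,
        hcomm τ hτL _ hl, ← mul_assoc]
  have hsc := hρ.eq_scalar_of_commute hall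
  refine hns (ρ τ 0 0 * ρ τ 0 0) ?_
  have : ρ τ = ρ τ 0 0 • (1 : M₂ (ZMod p)) := by
    conv_lhs => rw [hsc]
    ext i j; fin_cases i <;> fin_cases j <;> simp [Matrix.scalar_apply]
  nth_rw 1 [this]
  nth_rw 2 [this]
  rw [smul_mul_assoc, one_mul, smul_smul]

variable (hdet : ∀ σ, (ρ σ).det = ((ExtCitation.cycloChar p σ : (ZMod p)ˣ) : ZMod p))
include hdet

/-- An inertia element outside `L` has determinant `-1`. -/
theorem det_eq_neg_one_of_eigenOne (hρ : HasFullSpan ρ) {L : Subgroup Γℚ} (hL : L.index = 2)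
    (hn : ¬ HasFullSpan (ρ.comp L.subtype)) (hA : HasInertialEigenOne ρ A) {σ : Γℚ}
    (hσ : σ ∈ A.inertiaSubgroupIn ℚ) (hσL : σ ∉ L) :
    ((ExtCitation.cycloChar p σ : (ZMod p)ˣ) : ZMod p) = -1 := by
  have h := hA σ hσ
  rw [(dihedral_structure hρ hL hn).1 σ hσL, hdet] at h
  linear_combination -h

/-- Eigenvalue-one shape: once one inertia element leaves `L`, the character is `±1` on inertia. -/
theorem cycloChar_eq_of_eigenOne (hρ : HasFullSpan ρ) {L : Subgroup Γℚ} (hL : L.index = 2)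
    (hn : ¬ HasFullSpan (ρ.comp L.subtype)) (hA : HasInertialEigenOne ρ A) {σ : Γℚ}
    (hσ : σ ∈ A.inertiaSubgroupIn ℚ) (hσL : σ ∉ L) {τ : Γℚ} (hτ : τ ∈ A.inertiaSubgroupIn ℚ)
    (hτL : τ ∈ L) : ExtCitation.cycloChar p τ = 1 := by
  have h1 := det_eq_neg_one_of_eigenOne hdet hρ hL hn hA hσ hσL
  have h2 := det_eq_neg_one_of_eigenOne hdet hρ hL hn hA (mul_mem hσ hτ)
    (fun h => hσL ((Subgroup.mul_mem_cancel_right L hτL).mp h))
  rw [map_mul, Units.val_mul, h1] at h2
  exact Units.ext (by rw [Units.val_one]; linear_combination -h2)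

/-- For `p ≥ 5` the inertia at `p` lies in `L`. -/
theorem inertia_le_of_five_le (hp5 : 5 ≤ p) (hρ : HasFullSpan ρ) {L : Subgroup Γℚ}
    (hL : L.index = 2) (hn : ¬ HasFullSpan (ρ.comp L.subtype)) (hA : A.LiesOverPrime p)
    (hshape : HasInertialEigenOne ρ A ∨ HasInertialCartan ρ A) :
    A.inertiaSubgroupIn ℚ ≤ L := by
  rcases hshape with h | h
  swap
  · exact inertia_le_of_cartan hρ hL hn h
  intro σ hσ
  by_contra hσL
  haveI : NeZero p := ⟨(Fact.out : p.Prime).ne_zero⟩
  have h2 : (2 : ZMod p) ≠ 0 := two_ne_zero_zmod (by omega)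
  obtain ⟨τ, hτ, hτu⟩ := cycloChar_surjective_on_inertia p hA
    (Units.mk0 (2 : ZMod p) h2)
  have h3 : ¬ ((2 : ZMod p) = 1 ∨ (2 : ZMod p) = -1) := by
    rintro (h | h)
    · exact one_ne_zero (α := ZMod p) (by linear_combination h)
    · have : ((3 : ℕ) : ZMod p) = 0 := by push_cast; linear_combination h
      rw [ZMod.natCast_eq_zero_iff] at this
      have := Nat.le_of_dvd three_pos this
      omega
  have hval : ((ExtCitation.cycloChar p τ : (ZMod p)ˣ) : ZMod p) = 2 := by rw [hτu]; rfl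
  by_cases hτL : τ ∈ L
  · rw [cycloChar_eq_of_eigenOne hdet hρ hL hn h hσ hσL hτ hτL, Units.val_one] at hval
    exact h3 (Or.inl hval.symm)
  · rw [det_eq_neg_one_of_eigenOne hdet hρ hL hn h hτ hτL] at hval
    exact h3 (Or.inr hval.symm)

omit hdet in
theorem zmod_three_cases {p : ℕ} (hp : p = 3) (x : ZMod p) : x = 0 ∨ x = 1 ∨ x = -1 := by
  subst hp
  revert x
  decide

/-- In characteristic three the image of `L` is killed by four. -/
theorem pow_four_eq_one_of_det_eq_one (hp3 : p = 3) (hρ : HasFullSpan ρ) {L : Subgroup Γℚ}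
    (hL : L.index = 2) (hn : ¬ HasFullSpan (ρ.comp L.subtype)) {a : Γℚ} (ha : a ∈ L)
    (hd : (ρ a).det = 1) : ρ a * ρ a * (ρ a * ρ a) = 1 := by
  have h3 : (3 : ZMod p) = 0 := by
    have : ((3 : ℕ) : ZMod p) = 0 := by rw [ZMod.natCast_eq_zero_iff, hp3]
    exact_mod_cast this
  have hCH := matrix_two_cayley_hamilton (ρ a)
  rw [hd, one_smul] at hCH
  have hscal : ∀ c : ZMod p, c * c = 1 → (ρ a - c • 1) * (ρ a - c • 1) = 0 →
      ρ a * ρ a * (ρ a * ρ a) = 1 := fun c hc h0 => by
    rw [(dihedral_structure hρ hL hn).2.2 a ha c h0]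
    simp only [smul_mul_assoc, one_mul, smul_smul, hc, one_smul]
  rcases zmod_three_cases hp3 (ρ a).trace with ht | ht | ht <;> rw [ht] at hCH
  · rw [zero_smul, sub_zero] at hCH
    rw [eq_neg_of_add_eq_zero_left hCH, neg_mul_neg, one_mul]
  · refine hscal (-1) (by ring) ?_
    rw [← hCH]
    simp only [sub_mul, mul_sub, smul_mul_assoc, mul_smul_comm, one_mul, mul_one]
    match_scalars <;> first | linear_combination h3 | linear_combination -h3 | ring
  · refine hscal 1 (by ring) ?_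
    rw [← hCH]
    simp only [sub_mul, mul_sub, smul_mul_assoc, mul_smul_comm, one_mul, mul_one]
    match_scalars <;> first | linear_combination h3 | linear_combination -h3 | ring

/-- **Wiles' lemma.** Absolute irreducibility passes to every subgroup of index two. -/
theorem hasFullSpan_index_two (hp2 : p ≠ 2)
    (F : IntermediateField ℚ Qbar) [FiniteDimensional ℚ F] (hF : ∀ σ ∈ F.fixingSubgroup, ρ σ = 1)
    (hρ : HasFullSpan ρ)
    (haway : ∀ q : ℕ, q.Prime → q ≠ p → ∀ A : ValuationSubring Qbar, A.LiesOverPrime q →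
      ∀ σ ∈ A.inertiaSubgroupIn ℚ, (ρ σ).trace = 2)
    (hat : ∀ A : ValuationSubring Qbar, A.LiesOverPrime p →
      HasInertialEigenOne ρ A ∨ HasInertialCartan ρ A)
    (L : Subgroup Γℚ) (hL : L.index = 2) : HasFullSpan (ρ.comp L.subtype) := by
  by_contra hn
  have hp : p.Prime := Fact.out
  obtain ⟨htr, hcomm, -⟩ := dihedral_structure hρ hL hn
  have h2 : (2 : ZMod p) ≠ 0 := two_ne_zero_zmod hp2
  -- `L` contains the kernel of `ρ`
  have hker : ∀ σ, ρ σ = 1 → σ ∈ L := fun σ hσ => by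
    by_contra hσL
    apply h2
    rw [← htr σ hσL, hσ, Matrix.trace_one, Fintype.card_fin, Nat.cast_ofNat]
  have hFL : F.fixingSubgroup ≤ L := fun σ hσ => hker σ (hF σ hσ)
  -- inertia away from `p` lies in `L`
  have haL : ∀ q : ℕ, q.Prime → q ≠ p → ∀ B : ValuationSubring Qbar, B.LiesOverPrime q →
      ∀ σ ∈ B.inertiaSubgroupIn ℚ, σ ∈ L := fun q hq hqp B hB σ hσ => by
    by_contra hσL
    exact h2 ((haway q hq hqp B hB σ hσ).symm.trans (htr σ hσL))
  have hLtop : L ≠ ⊤ := fun h => by simp [h] at hL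
  -- conjugate places
  have hconjL : ∀ A B : ValuationSubring Qbar, A.LiesOverPrime p → B.LiesOverPrime p →
      A.inertiaSubgroupIn ℚ ≤ L → B.inertiaSubgroupIn ℚ ≤ L := by
    intro A B hA hB hle σ hσ
    obtain ⟨g, rfl⟩ := exists_smul_eq_of_liesOverPrime hp hB hA
    have h := hle (conj_mem_inertia_smul hp hB g hA hσ)
    by_contra hσL
    by_cases hg : g ∈ L <;>
      simp [Subgroup.mul_mem_iff_of_index_two hL, inv_mem_iff, hg, hσL] at h
  -- hence no inertia group at `p` lies in `L`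
  have hnot : ∀ A : ValuationSubring Qbar, A.LiesOverPrime p →
      ¬ A.inertiaSubgroupIn ℚ ≤ L := fun A hA hle =>
    hLtop (FermatLib.EC.eq_top_of_forall_inertia_le L F hFL fun q hq B hB σ hσ => by
      by_cases hqp : q = p
      · subst hqp; exact hconjL A B hA hB hle hσ
      · exact haL q hq hqp B hB σ hσ)
  rcases lt_or_ge p 5 with hlt | hp5
  swap
  · obtain ⟨A, hA⟩ := FermatLib.Basic.exists_liesOverPrime hp
    exact hnot A hA (inertia_le_of_five_le hdet hp5 hρ hL hn hA (hat A hA))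
  obtain hp3 : p = 3 := by
    have h := hp.two_le
    have h4 : p ≠ 4 := fun e => by subst e; exact absurd hp (by decide)
    omega
  have hshape : ∀ A : ValuationSubring Qbar, A.LiesOverPrime p → HasInertialEigenOne ρ A :=
    fun A hA => (hat A hA).resolve_right fun h => hnot A hA (inertia_le_of_cartan hρ hL hn h)
  -- `L` is the kernel of the cyclotomic character
  let L' : Subgroup Γℚ :=
    { carrier := {g | g ∈ L ↔ ExtCitation.cycloChar p g = 1}
      one_mem' := by simp
      mul_mem' := fun {a b} ha hb => by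
        simp only [Set.mem_ofPred_eq] at ha hb ⊢
        rw [Subgroup.mul_mem_iff_of_index_two hL, map_mul, ha, hb]
        rcases zmod_three_cases hp3 (ExtCitation.cycloChar p a : ZMod p) with h | h | h
        · exact absurd h (Units.ne_zero _)
        · rw [Units.ext (u := ExtCitation.cycloChar p a) (v := 1) h, one_mul]
          simp
        · rcases zmod_three_cases hp3 (ExtCitation.cycloChar p b : ZMod p) with h' | h' | h'
          · exact absurd h' (Units.ne_zero _)
          · rw [Units.ext (u := ExtCitation.cycloChar p b) (v := 1) h', mul_one]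
            simp
          · have ha1 : ExtCitation.cycloChar p a ≠ 1 := fun e => by
              rw [e, Units.val_one] at h; exact h2 (by linear_combination h)
            have hb1 : ExtCitation.cycloChar p b ≠ 1 := fun e => by
              rw [e, Units.val_one] at h'; exact h2 (by linear_combination h')
            have he : ExtCitation.cycloChar p a * ExtCitation.cycloChar p b = 1 :=
              Units.ext (by rw [Units.val_mul, h, h', neg_mul_neg, one_mul, Units.val_one])
            simp [ha1, hb1, he]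
      inv_mem' := fun {a} ha => by
        simp only [Set.mem_ofPred_eq] at ha ⊢
        rw [inv_mem_iff, map_inv, inv_eq_one, ha] }
  have hL'top : L' = ⊤ := by
    obtain ⟨ζ, hζ⟩ := FermatLib.Mazur.exists_isPrimitiveRoot_qbar p
    haveI : Algebra.IsAlgebraic ℚ Qbar := AlgebraicClosure.isAlgebraic ℚ
    haveI : FiniteDimensional ℚ (IntermediateField.adjoin ℚ {ζ}) :=
      IntermediateField.adjoin.finiteDimensional (Algebra.IsAlgebraic.isAlgebraic ζ).isIntegral
    refine FermatLib.EC.eq_top_of_forall_inertia_le L' (F ⊔ IntermediateField.adjoin ℚ {ζ})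
      (fun σ hσ => ?_) fun q hq B hB σ hσ => ?_
    · rw [IntermediateField.mem_fixingSubgroup_iff] at hσ
      refine iff_of_true (hFL ((IntermediateField.mem_fixingSubgroup_iff _ σ).mpr
        fun x hx => hσ x (le_sup_left (a := F) hx))) ?_
      exact (FermatLib.Mazur.cycloChar_eq_one_iff p hζ σ).mpr
        (hσ ζ (le_sup_right (a := F) (IntermediateField.mem_adjoin_simple_self ℚ ζ)))
    · by_cases hqp : q = p
      · subst hqp
        obtain ⟨σ₀, hσ₀, hσ₀L⟩ := SetLike.not_le_iff_exists.mp (hnot B hB)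
        constructor
        · exact fun hσL => cycloChar_eq_of_eigenOne hdet hρ hL hn (hshape B hB) hσ₀ hσ₀L hσ hσL
        · intro h1
          by_contra hσL
          have := det_eq_neg_one_of_eigenOne hdet hρ hL hn (hshape B hB) hσ hσL
          rw [h1, Units.val_one] at this
          exact h2 (by linear_combination this)
      · exact iff_of_true (haL q hq hqp B hB σ hσ)
          (FermatLib.Mazur.cycloChar_eq_one_of_mem_inertia p hq hqp hB hσ)
  have hLdet : ∀ a ∈ L, (ρ a).det = 1 := fun a ha => by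
    have : a ∈ L' := hL'top ▸ Subgroup.mem_top a
    rw [hdet, this.mp ha, Units.val_one]
  have hpow4 : ∀ a ∈ L, ρ a * ρ a * (ρ a * ρ a) = 1 := fun a ha =>
    pow_four_eq_one_of_det_eq_one hdet hp3 hρ hL hn ha (hLdet a ha)
  -- inertia in `L` acts trivially
  have htriv : ∀ q : ℕ, q.Prime → ∀ B : ValuationSubring Qbar, B.LiesOverPrime q →
      ∀ σ ∈ B.inertiaSubgroupIn ℚ, σ ∈ L → ρ σ = 1 := by
    intro q hq B hB σ hσ hσL
    have ht : (ρ σ).trace = 2 := by
      by_cases hqp : q = p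
      · subst hqp
        rw [hshape B hB σ hσ, hLdet σ hσL]
        norm_num
      · exact haway q hq hqp B hB σ hσ
    have hCH := matrix_two_cayley_hamilton (ρ σ)
    rw [ht, hLdet σ hσL, one_smul] at hCH
    have h0 : (ρ σ - (1 : ZMod p) • 1) * (ρ σ - (1 : ZMod p) • 1) = 0 := by
      rw [← hCH]
      simp only [sub_mul, mul_sub, one_smul, one_mul, mul_one]
      module
    have := (dihedral_structure hρ hL hn).2.2 σ hσL 1 h0
    rwa [one_smul] at this
  -- a fixed inertial reflection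
  obtain ⟨A₀, hA₀⟩ := FermatLib.Basic.exists_liesOverPrime hp
  obtain ⟨σ₀, hσ₀, hσ₀L⟩ := SetLike.not_le_iff_exists.mp (hnot A₀ hA₀)
  have hinv : ∀ g ∉ L, ρ g * ρ g = 1 := fun g hg => by
    rw [mul_self_eq_scalar_of_trace_eq_zero (htr g hg)]
    have hg' : g ∈ L' := hL'top ▸ Subgroup.mem_top g
    have hne : ExtCitation.cycloChar p g ≠ 1 := fun h => hg (hg'.mpr h)
    rcases zmod_three_cases hp3 (ExtCitation.cycloChar p g : ZMod p) with h | h | h
    · exact absurd h (Units.ne_zero _)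
    · exact absurd (Units.ext h) hne
    · rw [hdet, h, neg_neg, one_smul]
  set s := ρ σ₀ with hs
  have hss : s * s = 1 := hinv σ₀ hσ₀L
  have hflip : ∀ l ∈ L, s * ρ l * s * ρ l = 1 := fun l hl => by
    have h := hinv (σ₀ * l) (fun h => hσ₀L ((Subgroup.mul_mem_cancel_right L hl).mp h))
    rw [map_mul, ← mul_assoc] at h
    exact h
  have hflip' : ∀ l ∈ L, ρ l * s = s * ρ l⁻¹ := fun l hl => by
    have hi : ρ l * ρ l⁻¹ = 1 := by rw [← map_mul, mul_inv_cancel, map_one]
    calc ρ l * s = (s * s) * ρ l * s * (ρ l * ρ l⁻¹) := by rw [hss, hi, one_mul, mul_one]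
      _ = s * (s * ρ l * s * ρ l) * ρ l⁻¹ := by simp only [mul_assoc]
      _ = s * ρ l⁻¹ := by rw [hflip l hl, mul_one]
  let H : Subgroup Γℚ :=
    { carrier := {g | ∃ b ∈ L, ρ g = ρ (b * b) ∨ ρ g = s * ρ (b * b)}
      one_mem' := ⟨1, one_mem L, Or.inl (by simp)⟩
      mul_mem' := by
        rintro x y ⟨a, ha, hx⟩ ⟨b, hb, hy⟩
        have hsq : ∀ u ∈ L, ∀ w ∈ L, ρ (u * u) * ρ (w * w) = ρ ((u * w) * (u * w)) := by
          intro u hu w hw
          simp only [map_mul, mul_assoc]
          congr 1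
          exact (mul_assoc _ _ _).symm.trans
            ((congrArg (· * ρ w) (hcomm u hu w hw)).trans (mul_assoc _ _ _))
        have hswap : ρ (a * a) * s = s * ρ (a⁻¹ * a⁻¹) := by
          rw [hflip' (a * a) (mul_mem ha ha), _root_.mul_inv_rev]
        rcases hx with hx | hx <;> rcases hy with hy | hy
        · exact ⟨a * b, mul_mem ha hb, Or.inl (by rw [map_mul, hx, hy, hsq a ha b hb])⟩
        · exact ⟨a⁻¹ * b, mul_mem (inv_mem ha) hb, Or.inr (by
            rw [map_mul, hx, hy, ← mul_assoc, hswap, mul_assoc, hsq _ (inv_mem ha) b hb])⟩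
        · exact ⟨a * b, mul_mem ha hb, Or.inr (by
            rw [map_mul, hx, hy, mul_assoc, hsq a ha b hb])⟩
        · refine ⟨a⁻¹ * b, mul_mem (inv_mem ha) hb, Or.inl ?_⟩
          rw [map_mul, hx, hy, mul_assoc, ← mul_assoc (ρ (a * a)), hswap, ← mul_assoc, ← mul_assoc,
            hss, one_mul, hsq _ (inv_mem ha) b hb]
      inv_mem' := by
        rintro x ⟨a, ha, hx | hx⟩
        · refine ⟨a⁻¹, inv_mem ha, Or.inl ?_⟩
          have h1 : ρ x⁻¹ * ρ x = 1 := by rw [← map_mul, inv_mul_cancel, map_one]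
          have h2' : ρ (a * a) * ρ (a⁻¹ * a⁻¹) = 1 := by
            rw [← map_mul, show a * a * (a⁻¹ * a⁻¹) = 1 by group, map_one]
          calc ρ x⁻¹ = ρ x⁻¹ * (ρ (a * a) * ρ (a⁻¹ * a⁻¹)) := by rw [h2', mul_one]
            _ = ρ (a⁻¹ * a⁻¹) := by rw [← mul_assoc, ← hx, h1, one_mul]
        · refine ⟨a, ha, Or.inr ?_⟩
          have h1 : ρ x⁻¹ * ρ x = 1 := by rw [← map_mul, inv_mul_cancel, map_one]
          have h3 : ρ x * ρ x = 1 := by
            rw [hx, ← map_mul]
            exact hinv _ (fun h => hσ₀L ((Subgroup.mul_mem_cancel_right L (mul_mem ha ha)).mp h))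
          calc ρ x⁻¹ = ρ x⁻¹ * (ρ x * ρ x) := by rw [h3, mul_one]
            _ = s * ρ (a * a) := by rw [← mul_assoc, h1, one_mul, hx] }
  have hHtop : H = ⊤ := by
    refine FermatLib.EC.eq_top_of_forall_inertia_le H F
      (fun σ hσ => ⟨1, one_mem L, Or.inl (by simp [hF σ hσ])⟩) fun q hq B hB σ hσ => ?_
    by_cases hσL : σ ∈ L
    · exact ⟨1, one_mem L, Or.inl (by simp [htriv q hq B hB σ hσ hσL])⟩
    obtain rfl : q = p := by
      by_contra hqp
      exact hσL (haL q hq hqp B hB σ hσ)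
    obtain ⟨g, hg⟩ := exists_smul_eq_of_liesOverPrime hq hB hA₀
    subst hg
    -- `g σ g⁻¹` is inertial at the fixed place, so acts as `s`
    have hτ := conj_mem_inertia_smul hq hB g hA₀ hσ
    have hσ₀σ : ρ (σ₀ * (g * σ * g⁻¹)) = 1 := by
      refine htriv q hq _ hA₀ _ (mul_mem hσ₀ hτ) ?_
      by_cases hgL : g ∈ L <;>
        simp [Subgroup.mul_mem_iff_of_index_two hL, inv_mem_iff, hσ₀L, hσL, hgL]
    have hconj : ρ (g * σ * g⁻¹) = s := by
      calc ρ (g * σ * g⁻¹) = s * s * ρ (g * σ * g⁻¹) := by rw [hss, one_mul]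
        _ = s := by rw [mul_assoc, ← map_mul, hσ₀σ, mul_one]
    have hσeq : ρ σ = ρ g⁻¹ * s * ρ g := by
      rw [← hconj, ← map_mul, ← map_mul]; congr 1; group
    by_cases hgL : g ∈ L
    · refine ⟨g, hgL, Or.inr ?_⟩
      rw [hσeq, hflip' _ (inv_mem hgL), inv_inv, map_mul, mul_assoc]
    · have hl : σ₀⁻¹ * g ∈ L := by
        simp [Subgroup.mul_mem_iff_of_index_two hL, inv_mem_iff, hσ₀L, hgL]
      obtain ⟨l, rfl⟩ : ∃ l, g = σ₀ * l := ⟨σ₀⁻¹ * g, by group⟩
      rw [inv_mul_cancel_left] at hl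
      refine ⟨l, hl, Or.inr ?_⟩
      have hs' : ρ σ₀⁻¹ = s := by
        calc ρ σ₀⁻¹ = ρ σ₀⁻¹ * (s * s) := by rw [hss, mul_one]
          _ = s := by rw [← mul_assoc, hs, ← map_mul, inv_mul_cancel, map_one, one_mul]
      rw [hσeq, _root_.mul_inv_rev, map_mul, map_mul, hs', ← hs]
      calc ρ l⁻¹ * s * s * (s * ρ l) = ρ l⁻¹ * (s * s) * s * ρ l := by simp only [mul_assoc]
        _ = s * (ρ l * ρ l) := by
          rw [hss, mul_one, hflip' _ (inv_mem hl), inv_inv, mul_assoc]
        _ = s * ρ (l * l) := by rw [map_mul]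
  -- every element of `L` is a fourth power, hence trivial
  have hsq : ∀ a ∈ L, ∃ b ∈ L, ρ a = ρ (b * b) := fun a ha => by
    obtain ⟨b, hb, hab⟩ := (hHtop ▸ Subgroup.mem_top a : a ∈ H)
    refine ⟨b, hb, hab.resolve_right fun h => ?_⟩
    have hd := congrArg Matrix.det h
    rw [hLdet a ha, det_mul, hLdet _ (mul_mem hb hb), mul_one, hs, hdet] at hd
    exact hσ₀L ((hL'top ▸ Subgroup.mem_top σ₀ : σ₀ ∈ L').mpr (Units.ext hd.symm))
  have hLone : ∀ a ∈ L, ρ a = 1 := fun a ha => by
    obtain ⟨b, hb, hab⟩ := hsq a ha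
    obtain ⟨c, hc, hbc⟩ := hsq b hb
    rw [hab, map_mul, hbc, map_mul, hpow4 c hc]
  have hall : ∀ g, s * ρ g = ρ g * s := fun g => by
    by_cases hg : g ∈ L
    · rw [hLone g hg, mul_one, one_mul]
    · have hl : σ₀⁻¹ * g ∈ L := by
        simp [Subgroup.mul_mem_iff_of_index_two hL, inv_mem_iff, hσ₀L, hg]
      rw [show g = σ₀ * (σ₀⁻¹ * g) by group, map_mul, hLone _ hl, mul_one]
  have hsc := hρ.eq_scalar_of_commute hall
  have ht := htr σ₀ hσ₀L
  rw [← hs, hsc] at ht
  simp only [Matrix.trace_fin_two, Matrix.scalar_apply, Matrix.diagonal_apply_eq] at ht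
  have hs0 : s 0 0 = 0 := (mul_eq_zero.mp (show (2 : ZMod p) * s 0 0 = 0 by rw [two_mul]; exact ht)).resolve_left h2
  rw [hsc, hs0] at hss
  simp at hss

end FermatLib.MLT
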