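import Fermat.Agent.MLT.InertiaShapeVal
import Fermat.Agent.MLT.ResidualTW
import Fermat.Agent.EC.AtPOrdinary
import Fermat.Agent.EC.RedTorsion
import Fermat.Agent.Mazur.GunitKummerRam

/-!
# The shape of inertia at `p` on the `p`-torsion of a semistable curve

At a place over an odd prime `p` of a semistable model, either `1` is an eigenvalue of every
inertia element on `E[p]`, or inertia acts through a nonsplit Cartan subgroup with an element
whose square is not scalar (all of `E[p]` reduces to infinity; tame characters of level two).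
-/

set_option autoImplicit false
set_option linter.style.haveILetI false

noncomputable section

namespace FermatLib.MLT.InertiaShape

open WeierstrassCurve WeierstrassCurve.Affine FermatLib.AtP FermatLib.EC
open scoped WeierstrassCurve.Affine Pointwise

local notation "ℚbar" => AlgebraicClosure ℚ
local notation "Γℚ" => (AlgebraicClosure ℚ ≃ₐ[ℚ] AlgebraicClosure ℚ)

variable (W : WeierstrassCurve ℤ) (hΔ : W.Δ ≠ 0) (p : ℕ) [Fact p.Prime]
  {A : ValuationSubring ℚbar}

/-- If the kernel of reduction misses part of `E[p]`, inertia has the eigenvalue one. -/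
theorem hasInertialEigenOne_of_kernelProper (hgm : GoodOrOddMult W p) (hA : A.LiesOverPrime p)
    (hprop : KernelProper W A p) : HasInertialEigenOne (curveMat W hΔ p) A := by
  haveI := isElliptic_map_rat hΔ
  intro σ hσ
  obtain ⟨f, hf⟩ : ∃ f, f = (curveResidualRep W hΔ p).ρ σ - 1 := ⟨_, rfl⟩
  have hdet : LinearMap.det f = 0 := by
    by_contra h0
    have hu : IsUnit f := (LinearMap.isUnit_iff_isUnit_det f).2 (isUnit_iff_ne_zero.2 h0)
    obtain ⟨P, hP, hPk⟩ := hprop
    obtain ⟨y₀, hy₀⟩ := ((Module.End.isUnit_iff f).1 hu).2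
      (⟨P, (Submodule.mem_torsionBy_iff _ _).2 (by rw [natCast_zsmul]; exact hP)⟩ : Tors W p)
    suffices hex : ∀ y : Tors W p,
        σ • (y : Pts W) - (y : Pts W) = P → False from
      hex y₀ (by rw [hf] at hy₀; exact congrArg Subtype.val hy₀)
    intro y hy'
    refine hPk ?_
    rw [← hy']
    refine isKerPt_inertia_sub W hgm hA hσ (n := 1) ?_
    rw [pow_one, ← natCast_zsmul]
    exact (Submodule.mem_torsionBy_iff _ _).1 y.2
  obtain ⟨b, hb⟩ : ∃ b, b = FermatLib.Galois.residualBasis (curveResidualRep W hΔ p) := ⟨_, rfl⟩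
  have hM : (curveMat W hΔ p σ - 1).det = 0 := by
    have e : curveMat W hΔ p σ - 1 = LinearMap.toMatrix b b f := by
      rw [hf, map_sub, hb, show LinearMap.toMatrix _ _ (1 : Module.End (ZMod p) _) = 1 from
        LinearMap.toMatrix_one _]
      rfl
    rw [e, LinearMap.det_toMatrix, hdet]
  simp only [Matrix.det_fin_two, Matrix.sub_apply, Matrix.one_apply_eq, ne_eq, Fin.zero_ne_one,
    not_false_eq_true, Matrix.one_apply_ne, one_ne_zero, sub_zero] at hM
  rw [Matrix.trace_fin_two, Matrix.det_fin_two]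
  linear_combination -hM

section Supersingular

variable [(W.map (Int.castRingHom ℚ)).IsElliptic]

omit [(W.map (Int.castRingHom ℚ)).IsElliptic] in
/-- A nonzero torsion point in the kernel of reduction: valuations of its coordinates. -/
theorem valuation_coord {x y : ℚbar}
    (h : ((W.map (Int.castRingHom ℚ))⁄ℚbar).toAffine.Nonsingular x y) (hx : 1 < A.valuation x) :
    A.valuation (x / y) ^ 2 = (A.valuation x)⁻¹ ∧ x / y ≠ 0 := by
  obtain ⟨-, -, hν, hν1⟩ := (integralAt_intCurve W A).inE1_aux h.1 (not_mem_iff_valuation.2 hx)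
  have h1 : A.valuation (y ^ 2 * x⁻¹ ^ 3) = 1 :=
    (res_ne_zero_iff hν).1 (by rw [hν1]; exact one_ne_zero)
  have hx0 : x ≠ 0 := fun e => by simp [e] at hx
  have hy0 : y ≠ 0 := fun e => by simp [e] at h1
  refine ⟨?_, div_ne_zero hx0 hy0⟩
  rw [← map_pow, ← map_inv₀, show (x / y) ^ 2 = x⁻¹ / (y ^ 2 * x⁻¹ ^ 3) by field_simp, map_div₀,
    h1, div_one]

variable {p}

omit [(W.map (Int.castRingHom ℚ)).IsElliptic] in
/-- In the supersingular case `E[p]` maps additively and injectively to the residue field, and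
inertia acts through the character `σ ↦ σu/u`. -/
theorem exists_twistedHom (hp2 : p ≠ 2) (hA : A.LiesOverPrime p) {u : ℚbar} (hu0 : u ≠ 0)
    (hu1 : A.valuation u < 1)
    (hcoord : ∀ (x y : ℚbar) (h : ((W.map (Int.castRingHom ℚ))⁄ℚbar).toAffine.Nonsingular x y),
      p • (Point.some x y h : Pts W) = 0 → A.valuation (x / y) = A.valuation u ∧
        A.valuation (u ^ 2 * x) = 1 ∧ A.valuation (u ^ 3 * y) = 1) :
    ∃ Φ : Tors W p →+ IsLocalRing.ResidueField A, Function.Injective Φ ∧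
      ∀ σ ∈ A.inertiaSubgroupIn ℚ, ∀ P : Tors W p,
        Φ (σ • P) = res A (σ u / u) * Φ P := by
  classical
  obtain ⟨V, hV⟩ : ∃ V, V = ((W.map (Int.castRingHom ℚ))⁄ℚbar : WeierstrassCurve ℚbar) := ⟨_, rfl⟩
  subst hV
  have hI := integralAt_intCurve W A
  let C : WeierstrassCurve.VariableChange ℚbar := ⟨(Units.mk0 u hu0)⁻¹, 0, 0, 0⟩
  have hCu : ((C.u⁻¹ : ℚbarˣ) : ℚbar) = u := by simp [C]
  have hCu' : (C.u : ℚbar) = u⁻¹ := by simp [C]
  have huA : u ∈ A := mem_iff_valuation.2 hu1.le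
  have hur : res A u = 0 := (res_eq_zero_iff huA).2 hu1
  set V := ((W.map (Int.castRingHom ℚ))⁄ℚbar : WeierstrassCurve ℚbar)
  have ha₁ : (C • V).a₁ = u * V.a₁ := by rw [variableChange_a₁, hCu]; simp [C]
  have ha₂ : (C • V).a₂ = u ^ 2 * V.a₂ := by rw [variableChange_a₂, hCu]; simp [C]
  have ha₃ : (C • V).a₃ = u ^ 3 * V.a₃ := by rw [variableChange_a₃, hCu]; simp [C]
  have ha₄ : (C • V).a₄ = u ^ 4 * V.a₄ := by rw [variableChange_a₄, hCu]; simp [C]
  have ha₆ : (C • V).a₆ = u ^ 6 * V.a₆ := by rw [variableChange_a₆, hCu]; simp [C]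
  have hV' : IntegralAt A (C • V) :=
    ⟨ha₁ ▸ mul_mem huA hI.a₁, ha₂ ▸ mul_mem (pow_mem huA 2) hI.a₂,
      ha₃ ▸ mul_mem (pow_mem huA 3) hI.a₃, ha₄ ▸ mul_mem (pow_mem huA 4) hI.a₄,
      ha₆ ▸ mul_mem (pow_mem huA 6) hI.a₆⟩
  have hred : IsTangentModel (redCurve A (C • V)) 0 0 := by
    refine ⟨?_, ?_, ?_, ?_, ?_⟩ <;> simp only [redCurve]
    · rw [ha₁, res_mul huA hI.a₁, hur]; simp
    · rw [ha₂, res_mul (pow_mem huA 2) hI.a₂, res_pow huA, hur]; simp
    · rw [ha₃, res_mul (pow_mem huA 3) hI.a₃, res_pow huA, hur]; simp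
    · rw [ha₄, res_mul (pow_mem huA 4) hI.a₄, res_pow huA, hur]; simp
    · rw [ha₆, res_mul (pow_mem huA 6) hI.a₆, res_pow huA, hur]; simp
  have htwo : res A (2 : ℚbar) ≠ 0 := by
    have h2A : (2 : ℚbar) ∈ A := ofNat_mem_place 2
    rw [res_ne_zero_iff h2A]
    exact v_two_eq_one Fact.out hp2 hA
  have hsymm : ∀ (x y : ℚbar) (h : V.toAffine.Nonsingular x y), ∃ h',
      (vcEquiv V C).symm (Point.some x y h) = Point.some (u ^ 2 * x) (u ^ 3 * y) h' := by
    intro x y h
    obtain ⟨P', hP'⟩ := (vcEquiv V C).surjective (Point.some x y h)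
    rw [← hP', AddEquiv.symm_apply_apply]
    rcases P' with _ | ⟨x', y', h'⟩
    · exact absurd ((map_zero (vcEquiv V C)).symm.trans hP').symm (Point.some_ne_zero h)
    rw [vcEquiv_some, Point.some.injEq] at hP'
    obtain ⟨hX, hY⟩ := hP'
    simp only [vcX, vcY, hCu'] at hX hY
    have ex : x' = u ^ 2 * x := by rw [← hX]; simp only [C]; field_simp; ring
    have ey : y' = u ^ 3 * y := by rw [← hY]; simp only [C]; field_simp; ring
    subst ex ey
    exact ⟨h', rfl⟩
  have hmemE0 : ∀ P : Tors W p,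
      (vcEquiv V C).symm.toAddMonoidHom ((Tors W p).toAddSubgroup.subtype P) ∈ E0 hV' := by
    rintro ⟨P, hP⟩
    rcases P with _ | ⟨x, y, h⟩
    · show InE0 A ((vcEquiv V C).symm 0)
      rw [map_zero]; trivial
    · obtain ⟨h', e⟩ := hsymm x y h
      show InE0 A ((vcEquiv V C).symm (Point.some x y h))
      rw [e]
      obtain ⟨-, hx', hy'⟩ := hcoord x y h
        (by rw [← natCast_zsmul]; exact (Submodule.mem_torsionBy_iff _ _).1 hP)
      have hxA : u ^ 2 * x ∈ A := mem_iff_valuation.2 hx'.le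
      have hyA : u ^ 3 * y ∈ A := mem_iff_valuation.2 hy'.le
      refine Or.inr ⟨hxA, hyA, (Affine.nonsingular_iff' _ _).2
        ⟨hV'.equation_red h'.1 hxA, Or.inr ?_⟩⟩
      simp only [hred.a₁, hred.a₃, add_zero, neg_zero, zero_mul]
      refine mul_ne_zero ?_ ((res_ne_zero_iff hyA).2 hy')
      rw [← res_ofNat (A := A) 2]
      exact htwo
  let ψ : Tors W p →+ E0 hV' :=
    AddMonoidHom.codRestrict ((vcEquiv V C).symm.toAddMonoidHom.comp
      (Tors W p).toAddSubgroup.subtype) (E0 hV') hmemE0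
  let Φ : Tors W p →+ IsLocalRing.ResidueField A :=
    ((hred.cuspHom rfl).comp (redHom hV')).comp ψ
  have hΦ : ∀ (x y : ℚbar) (h : V.toAffine.Nonsingular x y) (hP : _),
      Φ ⟨Point.some x y h, hP⟩ = res A (x / y / u) ∧ A.valuation (x / y / u) = 1 := by
    intro x y h hP
    obtain ⟨h', e⟩ := hsymm x y h
    obtain ⟨ht, hx', hy'⟩ := hcoord x y h
      (by rw [← natCast_zsmul]; exact (Submodule.mem_torsionBy_iff _ _).1 hP)
    have hxA : u ^ 2 * x ∈ A := mem_iff_valuation.2 hx'.le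
    have hyA : u ^ 3 * y ∈ A := mem_iff_valuation.2 hy'.le
    have hy0 : res A (u ^ 3 * y) ≠ 0 := (res_ne_zero_iff hyA).2 hy'
    refine ⟨?_, by rw [map_div₀, ht, div_self (A.valuation.ne_zero_iff.2 hu0)]⟩
    show cuspVal 0 (redPt A ((vcEquiv V C).symm (Point.some x y h))) = _
    rw [e]
    have hns : (redCurve A (C • V)).toAffine.Nonsingular (res A (u ^ 2 * x))
        (res A (u ^ 3 * y)) := by
      have := hmemE0 ⟨Point.some x y h, hP⟩
      change InE0 A ((vcEquiv V C).symm (Point.some x y h)) at this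
      rw [e] at this
      exact (this.resolve_left (not_not.2 hxA)).2.2
    rw [redPt_some hxA hns]
    show res A (u ^ 2 * x) / (res A (u ^ 3 * y) - 0 * _) = _
    rw [zero_mul, sub_zero, ← res_div hxA hy0]
    congr 1
    field_simp
  refine ⟨Φ, (injective_iff_map_eq_zero Φ).2 ?_, ?_⟩
  · rintro ⟨P, hP⟩ h0
    rcases P with _ | ⟨x, y, h⟩
    · rfl
    · obtain ⟨e, h1⟩ := hΦ x y h hP
      rw [e, res_eq_zero_iff (mem_iff_valuation.2 h1.le), h1] at h0
      exact absurd h0 (lt_irrefl _)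
  · rintro σ hσ ⟨P, hP⟩
    rcases P with _ | ⟨x, y, h⟩
    · have e : (⟨Point.zero, hP⟩ : Tors W p) = 0 := rfl
      rw [e, smul_zero, map_zero, mul_zero]
    · obtain ⟨h', e⟩ := galois_smul_some W σ h
      obtain ⟨e1, h1⟩ := hΦ x y h hP
      have hσP : (Point.some (σ x) (σ y) h' : Pts W) ∈ Tors W p := e ▸ (σ • (⟨_, hP⟩ : Tors W p)).2
      obtain ⟨e2, -⟩ := hΦ (σ x) (σ y) h' hσP
      rw [show σ • (⟨Point.some x y h, hP⟩ : Tors W p) = ⟨_, hσP⟩ from Subtype.ext e, e2, e1]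
      have hin := isInertial_of_mem hσ
      have hcσ : σ u / u ∈ A := by
        rw [mem_iff_valuation, map_div₀]
        exact (congrArg (· / A.valuation u) (hin.map_val u)).trans_le
          (div_self (A.valuation.ne_zero_iff.2 hu0)).le
      have htA : x / y / u ∈ A := mem_iff_valuation.2 h1.le
      have hσtA : σ (x / y / u) ∈ A := mem_iff_valuation.2 ((hin.map_val _).trans h1).le
      have hres : res A (σ (x / y / u)) = res A (x / y / u) :=
        (res_eq_res_iff hσtA htA).2 (hin.congr _ h1.le)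
      rw [← hres, ← res_mul hcσ hσtA]
      congr 1
      have : σ u ≠ 0 := (map_ne_zero σ).2 hu0
      rw [map_div₀, map_div₀]
      field_simp

omit [(W.map (Int.castRingHom ℚ)).IsElliptic] in
/-- The tame character `σ ↦ σu/u` of level two has large image on inertia. -/
theorem exists_inertia_pow_ne_one (hp2 : p ≠ 2) (hA : A.LiesOverPrime p) {u : ℚbar}
    (hu : A.valuation u ^ (p ^ 2 - 1) = A.valuation (p : ℚbar)) :
    ∃ τ ∈ A.inertiaSubgroupIn ℚ, res A (τ u / u) ^ (2 * (p - 1)) ≠ 1 := by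
  have hp : p.Prime := Fact.out
  by_contra hall
  simp only [not_exists, not_and, not_not] at hall
  obtain ⟨n, hn⟩ : ∃ n, n = p ^ 2 - 1 := ⟨_, rfl⟩
  rw [← hn] at hu
  obtain ⟨q, hq⟩ : ∃ q, p = q + 1 := ⟨p - 1, by have := hp.two_le; omega⟩
  have hn' : n = q * (q + 2) := by
    rw [hn, hq]; exact Nat.sub_eq_of_eq_add (by ring)
  have hn0 : 0 < n := by
    rw [hn']; exact Nat.mul_pos (by have := hp.two_le; omega) (by omega)
  have hcop : n.Coprime p := by
    refine (hp.coprime_iff_not_dvd.2 fun h => ?_).symm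
    have h1 : p ∣ n + 1 := by
      rw [hn, Nat.sub_add_cancel (Nat.one_le_pow _ _ hp.pos)]
      exact dvd_pow_self p two_ne_zero
    exact hp.not_dvd_one ((Nat.dvd_add_right h).1 h1)
  have hu0 : u ≠ 0 := fun e => by
    rw [e, map_zero, zero_pow hn0.ne'] at hu
    exact (A.valuation.ne_zero_iff.2 (Nat.cast_ne_zero.2 hp.ne_zero)) hu.symm
  have key : ∀ π : ℚbar, π ^ n = (p : ℚbar) → ∀ τ ∈ A.inertiaSubgroupIn ℚ,
      τ (π ^ (2 * (p - 1))) = π ^ (2 * (p - 1)) := by
    intro π hπ τ hτ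
    have hπ0 : π ≠ 0 := fun e => by
      rw [e, zero_pow hn0.ne'] at hπ
      exact Nat.cast_ne_zero.2 hp.ne_zero hπ.symm
    have hvu : A.valuation u ≠ 0 := A.valuation.ne_zero_iff.2 hu0
    have hw : A.valuation (π / u) = 1 := by
      rw [map_div₀, (pow_left_inj₀ zero_le zero_le hn0.ne').1
        ((by rw [← map_pow, hπ, hu] : A.valuation π ^ n = A.valuation u ^ n)), div_self hvu]
    have hin := isInertial_of_mem hτ
    have hwA : π / u ∈ A := mem_iff_valuation.2 hw.le
    have hwne : res A (π / u) ≠ 0 := (res_ne_zero_iff hwA).2 hw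
    have hτwA : τ (π / u) ∈ A := mem_iff_valuation.2 ((hin.map_val _).trans hw).le
    have hτu : τ u / u ∈ A := by
      rw [mem_iff_valuation, map_div₀]
      exact (congrArg (· / A.valuation u) (hin.map_val u)).trans_le (div_self hvu).le
    obtain ⟨ζ, hζ⟩ : ∃ ζ, ζ = τ π / π := ⟨_, rfl⟩
    have hζe : ζ = τ (π / u) / (π / u) * (τ u / u) := by
      have : τ u ≠ 0 := (map_ne_zero τ).2 hu0
      rw [hζ, map_div₀]; field_simp
    have hqA : τ (π / u) / (π / u) ∈ A := div_mem_of_res_ne_zero hτwA hwne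
    have hζA : ζ ∈ A := hζe ▸ mul_mem hqA hτu
    have hζr : res A ζ = res A (τ u / u) := by
      rw [hζe, res_mul hqA hτu, res_div hτwA hwne,
        (res_eq_res_iff hτwA hwA).2 (hin.congr _ hw.le), div_self hwne, one_mul]
    have hζn : ζ ^ n = 1 := by
      rw [hζ, div_pow, ← map_pow, hπ, map_natCast, div_self (Nat.cast_ne_zero.2 hp.ne_zero)]
    have hζ1 : ζ ^ (2 * (p - 1)) = 1 := by
      refine FermatLib.Mazur.eq_one_of_pow_eq_one_of_sub_one_mem hA hcop hn0
        (by rw [← pow_mul, mul_comm, pow_mul, hζn, one_pow]) ?_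
      rw [mem_nonunits_iff_res]
      refine ⟨sub_mem (pow_mem hζA _) A.one_mem, ?_⟩
      rw [res_sub (pow_mem hζA _) A.one_mem, res_pow hζA, hζr, hall τ hτ, res_one, sub_self]
    rw [map_pow, show τ π = ζ * π by rw [hζ, div_mul_cancel₀ _ hπ0], mul_pow, hζ1, one_mul]
  obtain ⟨π, hπ⟩ := IsAlgClosed.exists_pow_nat_eq (p : ℚbar) hn0
  obtain ⟨m, hm⟩ : ∃ m, p + 1 = 2 * m := by
    obtain ⟨j, hj⟩ := hp.odd_of_ne_two hp2
    exact ⟨j + 1, by omega⟩
  have hm2 : 2 ≤ m := by have := hp.two_le; omega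
  obtain ⟨r, hr, s, hs⟩ := Nat.exists_prime_and_dvd (n := m) (by omega)
  have hpow : ((π ^ (2 * (p - 1))) ^ s) ^ r = algebraMap ℚ ℚbar (p : ℚ) := by
    rw [map_natCast, ← hπ, ← pow_mul, ← pow_mul]
    congr 1
    rw [hn', hq, Nat.add_sub_cancel, show q + 2 = 2 * m by omega, hs]
    ring
  have hdvd : (r : ℤ) ∣ padicValRat p (p : ℚ) := by
    refine FermatLib.Mazur.dvd_padicValRat_of_forall_inertia hp hr
      (Nat.cast_ne_zero.2 hp.ne_zero) hpow ?_
    intro B hB σ hσ
    obtain ⟨g, hg⟩ := FermatLib.Galois.exists_smul_eq_of_liesOverPrime hp hB hA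
    have hσ' := FermatLib.Galois.conj_mem_inertia_smul hp hB g (hg ▸ hA) hσ
    rw [hg] at hσ'
    have h := key (g π) (by rw [← map_pow, hπ, map_natCast]) _ hσ'
    rw [AlgEquiv.mul_apply, AlgEquiv.mul_apply, ← map_pow, show g⁻¹ (g (π ^ (2 * (p - 1)))) = π ^ (2 * (p - 1))
      from g.symm_apply_apply _] at h
    rw [map_pow σ, g.injective h]
  rw [padicValRat.self hp.one_lt, Int.natCast_dvd_ofNat] at hdvd
  exact hr.ne_one (Nat.dvd_one.1 hdvd)

variable (p)

/-- If all of `E[p]` reduces to infinity, inertia has the Cartan shape. -/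
theorem hasInertialCartan_of_all_kerPt (hp2 : p ≠ 2) (hA : A.LiesOverPrime p)
    (hker : ∀ P : Pts W, p • P = 0 → IsKerPt A.valuation P) :
    HasInertialCartan (curveMat W hΔ p) A := by
  have hp : p.Prime := Fact.out
  have hnt : Nontrivial (Tors W p) := by
    have hc : Nat.card (Tors W p) = p ^ 2 := natCard_torsion_map_rat W hΔ p
    haveI : Finite (Tors W p) := Nat.finite_of_card_ne_zero (hc ▸ pow_ne_zero 2 hp.ne_zero)
    exact Finite.one_lt_card_iff_nontrivial.mp (hc ▸ Nat.one_lt_pow two_ne_zero hp.one_lt)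
  obtain ⟨⟨P, hP⟩, hP0⟩ := exists_ne (0 : Tors W p)
  rcases P with _ | ⟨x₀, y₀, h₀⟩
  · exact absurd rfl hP0
  have htor : p • (Point.some x₀ y₀ h₀ : Pts W) = 0 := by
    rw [← natCast_zsmul]; exact (Submodule.mem_torsionBy_iff _ _).1 hP
  obtain ⟨d, hd⟩ : ∃ d, d = (p ^ 2 - 1) / 2 := ⟨_, rfl⟩
  have heven : 2 ∣ p ^ 2 - 1 := by
    obtain ⟨j, rfl⟩ := hp.odd_of_ne_two hp2
    exact ⟨2 * j ^ 2 + 2 * j, Nat.sub_eq_of_eq_add (by ring)⟩
  have hd0 : d ≠ 0 := by
    have : 4 ≤ p ^ 2 := le_trans (by norm_num) (Nat.pow_le_pow_left hp.two_le 2)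
    omega
  obtain ⟨u, hu⟩ : ∃ u, u = x₀ / y₀ := ⟨_, rfl⟩
  have hx0v : 1 < A.valuation x₀ := hker _ htor
  obtain ⟨hu2, hu0⟩ := valuation_coord W h₀ hx0v
  rw [← hu] at hu2 hu0
  have e0 := valuation_x_pow_mul_eq_one W hp hp2 hA hker h₀ htor
  rw [← hd] at e0
  have hu1 : A.valuation u < 1 := by
    refine (pow_lt_one_iff_of_nonneg zero_le two_ne_zero).1 ?_
    rw [hu2]; exact inv_lt_one_of_one_lt₀ hx0v
  have hcoord : ∀ (x y : ℚbar) (h : ((W.map (Int.castRingHom ℚ))⁄ℚbar).toAffine.Nonsingular x y),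
      p • (Point.some x y h : Pts W) = 0 → A.valuation (x / y) = A.valuation u ∧
        A.valuation (u ^ 2 * x) = 1 ∧ A.valuation (u ^ 3 * y) = 1 := by
    intro x y h ht
    have hxv : 1 < A.valuation x := hker _ ht
    have e1 := valuation_x_pow_mul_eq_one W hp hp2 hA hker h ht
    rw [← hd, ← e0] at e1
    have hxx : A.valuation x = A.valuation x₀ := (pow_left_inj₀ zero_le zero_le hd0).1
      (mul_right_cancel₀ (A.valuation.ne_zero_iff.2 (Nat.cast_ne_zero.2 hp.ne_zero)) e1)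
    obtain ⟨ht2, ht0⟩ := valuation_coord W h hxv
    have hteq : A.valuation (x / y) = A.valuation u :=
      (pow_left_inj₀ zero_le zero_le two_ne_zero).1 (by rw [ht2, hu2, hxx])
    have hy0 : y ≠ 0 := fun e => ht0 (by rw [e, div_zero])
    have h2 : A.valuation (u ^ 2 * x) = 1 := by
      rw [map_mul, map_pow, hu2, ← hxx, inv_mul_cancel₀ (zero_lt_one.trans hxv).ne']
    refine ⟨hteq, h2, ?_⟩
    rw [show u ^ 3 * y = u ^ 2 * x * (u / (x / y)) by
        have hx0 : x ≠ 0 := fun e => ht0 (by rw [e, zero_div])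
        field_simp, map_mul, h2, one_mul, map_div₀, hteq,
      div_self (A.valuation.ne_zero_iff.2 hu0)]
  obtain ⟨Φ, hinj, hΦ⟩ := exists_twistedHom W hp2 hA hu0 hu1 hcoord
  refine ⟨fun σ hσ τ hτ => ?_, ?_⟩
  · rw [← map_mul, ← map_mul]
    show FermatLib.Galois.repMatrix _ _ (σ * τ) = FermatLib.Galois.repMatrix _ _ (τ * σ)
    rw [FermatLib.Galois.repMatrix_apply, FermatLib.Galois.repMatrix_apply]
    congr 1
    refine LinearMap.ext fun (z : Tors W p) => hinj ?_
    show Φ ((σ * τ) • z) = Φ ((τ * σ) • z)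
    rw [mul_smul, mul_smul, hΦ σ hσ, hΦ τ hτ, hΦ τ hτ, hΦ σ hσ, mul_left_comm]
  have hun : A.valuation u ^ (p ^ 2 - 1) = A.valuation (p : ℚbar) := by
    rw [← Nat.mul_div_cancel' heven, ← hd, pow_mul, hu2, inv_pow]
    exact inv_eq_of_mul_eq_one_right e0
  obtain ⟨τ, hτ, hne⟩ := exists_inertia_pow_ne_one hp2 hA hun
  refine ⟨τ, hτ, fun c hc => hne ?_⟩
  haveI : CharP (IsLocalRing.ResidueField A) p := by
    refine (CharP.charP_iff_prime_eq_zero hp).2 ?_
    rw [← res_natCast (A := A) p, res_eq_zero_iff (natCast_mem_place p)]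
    exact (A.mem_nonunits_iff).1 hA
  obtain ⟨b, hb⟩ : ∃ b, b = FermatLib.Galois.residualBasis (curveResidualRep W hΔ p) := ⟨_, rfl⟩
  have hend : ∀ z : Tors W p, (τ * τ) • z = c • z := by
    intro z
    have h1 : LinearMap.toMatrix b b ((curveResidualRep W hΔ p).ρ (τ * τ)) =
        LinearMap.toMatrix b b (c • (1 : Module.End (ZMod p) _)) := by
      rw [map_smul (LinearMap.toMatrix b b), show LinearMap.toMatrix b b
        (1 : Module.End (ZMod p) _) = 1 from LinearMap.toMatrix_one _, ← hc, ← map_mul, hb]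
      rfl
    exact LinearMap.congr_fun ((LinearMap.toMatrix b b).injective h1) z
  obtain ⟨z, hz⟩ : ∃ z : Tors W p, z ≠ 0 := exists_ne 0
  have hz' : Φ z ≠ 0 := fun e => hz (hinj (e.trans (map_zero Φ).symm))
  have hc' := congrArg Φ (hend z)
  rw [mul_smul, hΦ τ hτ, hΦ τ hτ, ← ZMod.natCast_zmod_val c, Nat.cast_smul_eq_nsmul,
    map_nsmul, nsmul_eq_mul, ← mul_assoc] at hc'
  have hsq : res A (τ u / u) * res A (τ u / u) =
      ZMod.castHom dvd_rfl (IsLocalRing.ResidueField A) c := by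
    rw [mul_right_cancel₀ hz' hc', ← map_natCast (ZMod.castHom dvd_rfl (IsLocalRing.ResidueField A)),
      ZMod.natCast_zmod_val]
  have hc0 : c ≠ 0 := by
    intro e
    rw [e, map_zero, ← pow_two, pow_eq_zero_iff two_ne_zero] at hsq
    have := hΦ τ hτ z
    rw [hsq, zero_mul] at this
    exact hz ((smul_eq_zero_iff_eq τ).1 (hinj (this.trans (map_zero Φ).symm)))
  rw [pow_mul, pow_two, hsq, ← map_pow, ZMod.pow_card_sub_one_eq_one hc0, map_one]

end Supersingular

end FermatLib.MLT.InertiaShape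

namespace FermatLib.MLT

open FermatLib.AtP

local notation "Qbar" => AlgebraicClosure ℚ

/-- The shape of inertia at `p` of a model which is semistable at the odd prime `p`. -/
theorem curveMat_inertia_shape (W : WeierstrassCurve ℤ) (hΔ : W.Δ ≠ 0) (p : ℕ) [Fact p.Prime]
    (hp2 : p ≠ 2) (hss : ¬ (p : ℤ) ∣ W.Δ ∨ ¬ (p : ℤ) ∣ W.c₄)
    {A : ValuationSubring Qbar} (hA : A.LiesOverPrime p) :
    HasInertialEigenOne (curveMat W hΔ p) A ∨ HasInertialCartan (curveMat W hΔ p) A := by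
  haveI := isElliptic_map_rat hΔ
  by_cases hprop : KernelProper W A p
  · exact Or.inl (InertiaShape.hasInertialEigenOne_of_kernelProper W hΔ p
      (hss.imp id fun h => ⟨hp2, h⟩) hA hprop)
  · refine Or.inr (InertiaShape.hasInertialCartan_of_all_kerPt W hΔ p hp2 hA fun P hP => ?_)
    by_contra h
    exact hprop ⟨P, hP, h⟩

end FermatLib.MLT
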