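import Fermat.Agent.EC.AtPKernel

/-!
# Valuations of `p`-torsion points in the supersingular case

If every `p`-torsion point at a place over an odd prime `p` reduces to infinity, then all
`x`-coordinates of nonzero `p`-torsion points have the same valuation `v(p) ^ (-2/(p²-1))`.
-/

set_option autoImplicit false

noncomputable section

namespace FermatLib.MLT.InertiaShape

open Polynomial WeierstrassCurve WeierstrassCurve.Affine
open scoped WeierstrassCurve.Affine

universe u

/-- One-slope Newton polygon: if no coefficient is strictly between the leading coefficient and a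
unit, and no root is integral, then all roots have the same valuation. -/
theorem valuation_pow_natDegree_mul_eq_one {L : Type u} [Field L] [IsAlgClosed L]
    (A : ValuationSubring L) {f : L[X]}
    (hle : ∀ i, A.valuation (f.coeff i) ≤ 1)
    (hgap : ∀ i, A.valuation (f.coeff i) < 1 →
      A.valuation (f.coeff i) ≤ A.valuation f.leadingCoeff)
    (hbig : ∀ r ∈ f.roots, 1 < A.valuation r) {r : L} (hr : r ∈ f.roots) :
    A.valuation r ^ f.natDegree * A.valuation f.leadingCoeff = 1 := by
  classical
  set M := f.roots with hM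
  set d := f.natDegree with hd
  set lc := f.leadingCoeff with hlc
  have hspl : M.card = d := IsAlgClosed.card_roots_eq_natDegree
  have hlc0 : lc ≠ 0 := leadingCoeff_ne_zero.mpr (ne_zero_of_mem_roots hr)
  have hlcpos : 0 < A.valuation lc := zero_lt_iff.2 (A.valuation.ne_zero_iff.2 hlc0)
  obtain ⟨r₁, hr₁, hmax⟩ : ∃ r₁ ∈ M, ∀ s ∈ M, A.valuation s ≤ A.valuation r₁ := by
    obtain ⟨r₁, h₁, h₂⟩ :=
      Finset.exists_max_image M.toFinset A.valuation ⟨r, Multiset.mem_toFinset.2 hr⟩
    exact ⟨r₁, Multiset.mem_toFinset.1 h₁, fun s hs => h₂ s (Multiset.mem_toFinset.2 hs)⟩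
  set R := A.valuation r₁ with hR
  have hR1 : 1 < R := hbig r₁ hr₁
  have hR0 : 0 < R := zero_lt_one.trans hR1
  have hr₁0 : r₁ ≠ 0 := A.valuation.ne_zero_iff.1 hR0.ne'
  have hmem : ∀ s ∈ M, s / r₁ ∈ A := fun s hs => by
    rw [← A.valuation_le_one_iff, map_div₀]
    exact (div_le_one₀ hR0).2 (hmax s hs)
  obtain ⟨w, hw⟩ : ∃ w : L → A, ∀ s ∈ M, (w s : L) = s / r₁ :=
    ⟨fun s => if h : s ∈ M then ⟨_, hmem s h⟩ else 0, fun s hs => by
      show ((if h : s ∈ M then _ else 0 : A) : L) = _
      rw [dif_pos hs]⟩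
  set g : A[X] := (M.map fun s => X - C (w s)).prod with hg
  have hgL : g.map (algebraMap A L) = (M.map fun s => X - C (s / r₁)).prod := by
    rw [hg, Polynomial.map_multiset_prod, Multiset.map_map]
    congr 1
    refine Multiset.map_congr rfl fun s hs => ?_
    rw [Function.comp_apply, Polynomial.map_sub, map_X, map_C]
    exact congrArg (fun z => X - C z) (hw s hs)
  have hcomp : f.comp (C r₁ * X) = C (lc * r₁ ^ d) * g.map (algebraMap A L) := by
    conv_lhs => rw [← C_leadingCoeff_mul_prod_multiset_X_sub_C hspl]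
    rw [mul_comp, C_comp, multiset_prod_comp, Multiset.map_map, hgL, map_mul, mul_assoc]
    congr 1
    rw [← hspl, ← Multiset.prod_replicate, ← Multiset.map_const', map_multiset_prod,
      Multiset.map_map, ← Multiset.prod_map_mul]
    congr 1
    refine Multiset.map_congr rfl fun s _ => ?_
    simp only [Function.comp_apply, sub_comp, X_comp, C_comp]
    rw [mul_sub, ← C_mul, mul_div_cancel₀ _ hr₁0]
  have hcoeff : ∀ j, A.valuation (f.coeff j) * R ^ j =
      A.valuation lc * R ^ d * A.valuation ((g.coeff j : A) : L) := fun j => by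
    have h := congrArg (fun q : L[X] => A.valuation (q.coeff j)) hcomp
    rw [comp_C_mul_X_coeff, coeff_C_mul, coeff_map, map_mul, map_mul, map_mul, map_pow, map_pow] at h
    exact h
  set T := M.filter (fun s => A.valuation s < R) with hT
  set S := M.filter (fun s => ¬ A.valuation s < R) with hS
  have hST : T + S = M := Multiset.filter_add_not _ _
  have hunit : A.valuation ((g.coeff T.card : A) : L) = 1 := by
    rw [← A.valuation_eq_one_iff]
    refine (IsLocalRing.residue_ne_zero_iff_isUnit _).1 ?_
    rw [← coeff_map, hg, Polynomial.map_multiset_prod, Multiset.map_map]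
    conv => enter [1, 1, 1, 2]; rw [← hST]
    rw [Multiset.map_add, Multiset.prod_add]
    have hTX : (T.map ((fun q : A[X] => q.map (IsLocalRing.residue A)) ∘
        fun s => X - C (w s))) = T.map fun _ => (X : (IsLocalRing.ResidueField A)[X]) := by
      refine Multiset.map_congr rfl fun s hs => ?_
      obtain ⟨hsM, hlt⟩ := Multiset.mem_filter.1 hs
      have hz : IsLocalRing.residue A (w s) = 0 := by
        rw [IsLocalRing.residue_eq_zero_iff, A.valuation_lt_one_iff, hw s hsM, map_div₀]
        exact (div_lt_one₀ hR0).2 hlt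
      simp [hz]
    rw [hTX, Multiset.map_const', Multiset.prod_replicate]
    nth_rw 2 [show T.card = 0 + T.card from (zero_add _).symm]
    rw [coeff_X_pow_mul, coeff_zero_multiset_prod, Multiset.map_map]
    refine Multiset.prod_ne_zero fun h => ?_
    obtain ⟨s, hs, h0⟩ := Multiset.mem_map.1 h
    obtain ⟨hsM, hge⟩ := Multiset.mem_filter.1 hs
    have h0' : IsLocalRing.residue A (w s) = 0 := by simpa using h0
    rw [IsLocalRing.residue_eq_zero_iff, A.valuation_lt_one_iff, hw s hsM, map_div₀,
      div_lt_one₀ hR0] at h0'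
    exact hge h0'
  have hkey := hcoeff T.card
  rw [hunit, mul_one, ← hspl, ← hST, Multiset.card_add, pow_add,
    mul_comm (R ^ T.card), ← mul_assoc] at hkey
  have hk : A.valuation (f.coeff T.card) = A.valuation lc * R ^ S.card :=
    mul_right_cancel₀ (pow_ne_zero _ hR0.ne') hkey
  have hSpos : 0 < S.card :=
    Multiset.card_pos_iff_exists_mem.2 ⟨r₁, Multiset.mem_filter.2 ⟨hr₁, lt_irrefl _⟩⟩
  have hone : A.valuation lc * R ^ S.card = 1 := by
    rw [← hk]
    refine (hle _).eq_or_lt.resolve_right fun hlt => ?_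
    have h := hgap _ hlt
    rw [hk] at h
    exact h.not_gt (lt_mul_of_one_lt_right hlcpos (one_lt_pow₀ hR1 hSpos.ne'))
  have hT0 : T = 0 := by
    by_contra hne
    obtain ⟨t, ht⟩ := Multiset.exists_mem_of_ne_zero hne
    have hprod : 1 < (T.map A.valuation).prod := by
      obtain ⟨T', hT'⟩ := Multiset.exists_cons_of_mem ht
      have hge : 1 ≤ (T'.map A.valuation).prod := Multiset.one_le_prod_of_one_le fun b hb => by
        obtain ⟨s, hs, rfl⟩ := Multiset.mem_map.1 hb
        exact (hbig s (Multiset.mem_filter.1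
          (show s ∈ T from hT' ▸ Multiset.mem_cons_of_mem hs)).1).le
      rw [hT', Multiset.map_cons, Multiset.prod_cons]
      exact one_lt_mul_of_lt_of_le (hbig t (Multiset.mem_filter.1 ht).1) hge
    have hS' : S.map A.valuation = S.map fun _ => R :=
      Multiset.map_congr rfl fun s hs => le_antisymm (hmax s (Multiset.mem_filter.1 hs).1)
        (not_lt.1 (Multiset.mem_filter.1 hs).2)
    have h0 := hle 0
    rw [(IsAlgClosed.splits f).coeff_zero_eq_leadingCoeff_mul_prod_roots, map_mul, map_mul,
      map_multiset_prod, ← hM, ← hlc, ← hST, Multiset.map_add, Multiset.prod_add, hS',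
      Multiset.map_const', Multiset.prod_replicate] at h0
    have hneg : A.valuation ((-1 : L) ^ f.natDegree) = 1 := by simp
    rw [hneg, one_mul] at h0
    have : A.valuation lc * R ^ S.card <
        A.valuation lc * ((T.map A.valuation).prod * R ^ S.card) :=
      mul_lt_mul_of_pos_left (lt_mul_of_one_lt_left (pow_pos hR0 _) hprod) hlcpos
    rw [hone] at this
    exact h0.not_gt this
  have hrR : A.valuation r = R := by
    refine le_antisymm (hmax r hr) (not_lt.1 fun h => ?_)
    exact Multiset.notMem_zero r (hT0 ▸ (Multiset.mem_filter.2 ⟨hr, h⟩ : r ∈ T))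
  rw [hrR, ← hspl, ← hST, hT0, zero_add, mul_comm]
  exact hone

open FermatLib.AtP

local notation "ℚbar" => AlgebraicClosure ℚ

variable (W : WeierstrassCurve ℤ) [(W.map (Int.castRingHom ℚ)).IsElliptic]
  {A : ValuationSubring ℚbar} {p : ℕ}

/-- In the supersingular case the valuation of the `x`-coordinates is determined. -/
theorem valuation_x_pow_mul_eq_one (hp : p.Prime) (hp2 : p ≠ 2) (hA : A.LiesOverPrime p)
    (hker : ∀ P : Pts W, p • P = 0 → IsKerPt A.valuation P) {x y : ℚbar}
    (h : ((W.map (Int.castRingHom ℚ))⁄ℚbar).toAffine.Nonsingular x y)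
    (hP : p • (Point.some x y h : Pts W) = 0) :
    A.valuation x ^ ((p ^ 2 - 1) / 2) * A.valuation (p : ℚbar) = 1 := by
  have hodd : Odd p := hp.odd_of_ne_two hp2
  have hp0 : (p : ℚbar) ≠ 0 := Nat.cast_ne_zero.2 hp.ne_zero
  obtain ⟨f, hf⟩ : ∃ f, f = ((W.map (Int.castRingHom ℚ))⁄ℚbar).preΨ' p := ⟨_, rfl⟩
  have hdeg : f.natDegree = (p ^ 2 - 1) / 2 := by
    rw [hf, natDegree_preΨ' _ hp0, if_neg (Nat.not_even_iff_odd.2 hodd)]
  have hlc : f.leadingCoeff = p := by
    rw [hf, leadingCoeff_preΨ' _ hp0, if_neg (Nat.not_even_iff_odd.2 hodd)]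
  have hint : ∀ i, ∃ n : ℤ, f.coeff i = n := fun i => by
    rw [hf, baseChange_eq_map, map_preΨ', coeff_map, eq_intCast]
    exact ⟨_, rfl⟩
  have hroot : x ∈ f.roots := by
    refine (mem_roots ?_).2 ?_
    · intro e
      rw [e, leadingCoeff_zero] at hlc
      exact hp0 hlc.symm
    · rw [hf]
      exact xCoord_isRoot W hodd (P := Point.some x y h) hP (Point.some_ne_zero h)
  have key := valuation_pow_natDegree_mul_eq_one A (f := f)
    (fun i => by obtain ⟨n, hn⟩ := hint i; rw [hn]; exact valuation_intCast_le_one n)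
    (fun i hlt => by
      obtain ⟨n, hn⟩ := hint i
      rw [hn] at hlt ⊢
      rw [hlc]
      have hdvd : (p : ℤ) ∣ n := by
        by_contra hd
        exact hlt.ne (valuation_intCast_eq_one hp hA hd)
      obtain ⟨m, rfl⟩ := hdvd
      rw [Int.cast_mul, Int.cast_natCast, map_mul]
      exact mul_le_of_le_one_right' (valuation_intCast_le_one m))
    (fun r hr => ?_) hroot
  · rwa [hdeg, hlc] at key
  · obtain ⟨z, hz⟩ := EC.exists_nonsingular_of_isAlgClosed
      (((W.map (Int.castRingHom ℚ))⁄ℚbar)).toAffine r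
    refine hker (Point.some r z hz) ((EC.nsmul_some_eq_zero_iff hz p).2 ?_)
    rw [ΨSq_ofNat, if_neg (Nat.not_even_iff_odd.2 hodd), mul_one, eval_pow, ← hf,
      (isRoot_of_mem_roots hr).eq_zero]
    exact zero_pow two_ne_zero

end FermatLib.MLT.InertiaShape
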