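import Fermat.Agent.MLT.LocQUniversal
import Fermat.Agent.MLT.PowerSeriesComplete

/-!
# Primes below an `O`-point of `O⟦X⟧`

The kernel of an `O`-point of `O⟦X⟧` has height at least the number of variables, so inside it
`r` equations leave a prime whose quotient has dimension at least `#X - r + 1`.
-/

set_option autoImplicit false

namespace FermatLib.MLT.LocQ

open IsLocalRing MvPowerSeries

variable {O : Type} [CommRing O] [IsDomain O] [IsDiscreteValuationRing O]
  [IsAdicComplete (maximalIdeal O) O] {σ : Type} [Fintype σ]

omit [IsDomain O] [IsDiscreteValuationRing O] [IsAdicComplete (maximalIdeal O) O] in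
/-- Series with no terms of degree below `n`. -/
lemma mem_span_X_pow {n : ℕ} {f : MvPowerSeries σ O}
    (hf : ∀ e : σ →₀ ℕ, e.degree < n → coeff e f = 0) :
    f ∈ Ideal.span (Set.range (X : σ → MvPowerSeries σ O)) ^ n := by
  classical
  induction n generalizing f with
  | zero => simp
  | succ n ih =>
    let pick : (σ →₀ ℕ) → Option σ := fun e => e.support.toList.head?
    let g : σ → MvPowerSeries σ O := fun j e =>
      if pick (e + Finsupp.single j 1) = some j then coeff (e + Finsupp.single j 1) f else 0
    have hg : ∀ j, g j ∈ Ideal.span (Set.range (X : σ → MvPowerSeries σ O)) ^ n :=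
      fun j => ih fun e he => by
        show (if _ then _ else _) = _
        split_ifs with h
        · refine hf _ ?_
          rw [map_add, Finsupp.degree_single]
          omega
        · rfl
    have hpick : ∀ e j, pick e = some j → e j ≠ 0 := fun e j h => by
      have := List.mem_of_mem_head? (Option.mem_def.mpr h)
      rwa [Finset.mem_toList, Finsupp.mem_support_iff] at this
    have heq : f = ∑ j, X j * g j := by
      refine MvPowerSeries.ext fun e => ?_
      have hterm : ∀ j, coeff e (X j * g j) = if pick e = some j then coeff e f else 0 := fun j => by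
        rw [X_def, coeff_monomial_mul, one_mul]
        by_cases hj : e j = 0
        · rw [if_neg, if_neg fun h => hpick e j h hj]
          intro h
          have := h j
          simp [hj] at this
        · have hle : Finsupp.single j 1 ≤ e :=
            Finsupp.single_le_iff.mpr (Nat.one_le_iff_ne_zero.mpr hj)
          rw [if_pos hle]
          show (if _ then _ else _) = _
          rw [tsub_add_cancel_of_le hle]
      rw [map_sum, Finset.sum_congr rfl fun j _ => hterm j]
      rcases h : pick e with _ | i
      · have he : e = 0 := by simpa [pick, List.head?_eq_none_iff] using h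
        simp only [reduceCtorEq, if_false, Finset.sum_const_zero]
        rw [he]
        exact hf 0 (by simp)
      · simp
    rw [heq, pow_succ']
    exact Submodule.sum_mem _ fun j _ => Ideal.mul_mem_mul (Ideal.subset_span ⟨j, rfl⟩) (hg j)

omit [IsDiscreteValuationRing O] [IsAdicComplete (maximalIdeal O) O] in
/-- Homomorphisms into a Noetherian local ring agreeing on constants and on variables, whose
values lie in the maximal ideal, are equal. -/
theorem ringHom_ext_of_X {R : Type} [CommRing R] [IsLocalRing R] [IsNoetherianRing R]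
    {f g : MvPowerSeries σ O →+* R} (hC : ∀ c, f (C c) = g (C c))
    (hX : ∀ i, f (X i) = g (X i)) (hm : ∀ i, f (X i) ∈ maximalIdeal R) : f = g := by
  refine RingHom.ext fun F => sub_eq_zero.mp ?_
  rw [← Submodule.mem_bot R,
    ← Ideal.iInf_pow_eq_bot_of_isLocalRing _ (maximalIdeal.isMaximal R).ne_top, Submodule.mem_iInf]
  intro n
  have hcoe : f.comp MvPolynomial.coeToMvPowerSeries.ringHom =
      g.comp MvPolynomial.coeToMvPowerSeries.ringHom :=
    MvPolynomial.ringHom_ext (fun c => by simpa using hC c) fun i => by simpa using hX i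
  have hsub : ∀ h : MvPowerSeries σ O →+* R, (∀ i, h (X i) ∈ maximalIdeal R) →
      h (F - (truncTotal n F : MvPowerSeries σ O)) ∈ maximalIdeal R ^ n := fun h hh => by
    refine Ideal.le_comap_pow h n (Ideal.pow_right_mono ?_ n (?_ : _ ∈ Ideal.span (Set.range X) ^ n))
    · rw [Ideal.span_le]
      rintro _ ⟨i, rfl⟩
      exact hh i
    · exact mem_span_X_pow fun e he => by
        rw [map_sub, MvPolynomial.coeff_coe, coeff_truncTotal _ he, sub_self]
  have h := sub_mem (hsub f hm) (hsub g fun i => hX i ▸ hm i)
  have e : f (truncTotal n F : MvPowerSeries σ O) = g (truncTotal n F : MvPowerSeries σ O) := by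
    simpa using RingHom.congr_fun hcoe (truncTotal n F)
  rw [map_sub, map_sub, e, sub_sub_sub_cancel_right] at h
  exact h

omit [IsAdicComplete (maximalIdeal O) O] [Fintype σ] in
/-- The variables take values in the maximal ideal at a point. -/
theorem point_X_mem (y : MvPowerSeries σ O →+* O) (hy : ∀ c, y (C c) = c) (i : σ) :
    y (X i) ∈ maximalIdeal O := by
  by_contra h
  rw [IsLocalRing.notMem_maximalIdeal] at h
  obtain ⟨u, hu⟩ := h
  have hunit : IsUnit (1 - C (↑u⁻¹ : O) * X i : MvPowerSeries σ O) := by
    rw [isUnit_iff_constantCoeff]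
    simp
  have := hunit.map y
  rw [map_sub, map_one, map_mul, hy, ← hu, Units.inv_mul, sub_self] at this
  exact not_isUnit_zero this

/-- The kernel of an `O`-point has height at least the number of variables. -/
theorem card_le_height_ker (y : MvPowerSeries σ O →+* O) (hy : ∀ c, y (C c) = c) :
    (Fintype.card σ : ℕ∞) ≤ (RingHom.ker y).height := by
  classical
  let e : σ ≃ Fin (Fintype.card σ) := Fintype.equivFin σ
  let E : Type := MvPowerSeries (Fin (Fintype.card σ)) O
  have hC : ∀ i, (C (y (X i)) : E) ∈ maximalIdeal E := fun i => by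
    rw [mem_maximalIdeal, mem_nonunits_iff, isUnit_iff_constantCoeff, constantCoeff_C]
    exact point_X_mem y hy i
  have hY : ∀ j, (X j : E) ∈ maximalIdeal E := fun j => by
    rw [mem_maximalIdeal, mem_nonunits_iff, isUnit_iff_constantCoeff, constantCoeff_X]
    exact not_isUnit_zero
  let val : Finset σ → σ → E := fun S i => if i ∈ S then C (y (X i)) else C (y (X i)) + X (e i)
  have hval : ∀ S i, val S i ∈ maximalIdeal E := fun S i => by
    show (if _ then _ else _ : E) ∈ _
    split_ifs
    exacts [hC i, add_mem (hC i) (hY (e i))]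
  let Ψ : Finset σ → MvPowerSeries σ O →+* E := fun S => evalHom (val S) (hval S)
  have hΨC : ∀ S c, Ψ S (C c) = C c := fun S c => by
    rw [evalHom_C, MvPowerSeries.algebraMap_apply]; simp
  have hΨX : ∀ S i, Ψ S (X i) = val S i := fun S i => evalHom_X _ i
  haveI hprime : ∀ S, (RingHom.ker (Ψ S)).IsPrime := fun S => RingHom.ker_isPrime _
  have key : ∀ S : Finset σ, (S.card : ℕ∞) ≤ (RingHom.ker (Ψ S)).height := by
    intro S
    induction S using Finset.induction_on with
    | empty => simp
    | insert a S ha ih =>
      let kill : Fin (Fintype.card σ) → E := fun j => if j = e a then 0 else X j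
      have hkill : ∀ j, kill j ∈ maximalIdeal E := fun j => by
        show (if _ then _ else _ : E) ∈ _
        split_ifs
        exacts [zero_mem _, hY j]
      let η : E →+* E := evalHom kill hkill
      have hcomp : η.comp (Ψ S) = Ψ (insert a S) := by
        refine ringHom_ext_of_X (fun c => ?_) (fun i => ?_) fun i => ?_
        · rw [RingHom.comp_apply, hΨC, hΨC]
          exact (evalHom_C _ c).trans (by rw [MvPowerSeries.algebraMap_apply]; simp)
        · rw [RingHom.comp_apply, hΨX, hΨX]
          have hηC : ∀ c, η (C c) = C c := fun c =>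
            (evalHom_C _ c).trans (by rw [MvPowerSeries.algebraMap_apply]; simp)
          have hηX : ∀ j, η (X j) = kill j := fun j => evalHom_X _ j
          simp only [val, Finset.mem_insert]
          by_cases hia : i = a
          · subst hia
            simp [ha, hηC, hηX, kill]
          · by_cases hiS : i ∈ S
            · simp [hiS, hηC]
            · simp [hia, hiS, hηC, hηX, kill, e.injective.ne hia]
        · rw [RingHom.comp_apply, hΨX]
          simp only [val]
          have hηC : ∀ c, η (C c) = C c := fun c =>
            (evalHom_C _ c).trans (by rw [MvPowerSeries.algebraMap_apply]; simp)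
          split_ifs
          · rw [hηC]; exact hC i
          · rw [map_add, hηC]
            exact add_mem (hC i) ((evalHom_X (𝒪 := O) hkill (e i)).symm ▸ hkill (e i))
      have hlt : RingHom.ker (Ψ S) < RingHom.ker (Ψ (insert a S)) := by
        refine lt_of_le_of_ne (fun z hz => ?_) fun heq => ?_
        · rw [RingHom.mem_ker] at hz ⊢
          rw [← hcomp, RingHom.comp_apply, hz, map_zero]
        · have h1 : (X a - C (y (X a)) : MvPowerSeries σ O) ∈ RingHom.ker (Ψ (insert a S)) := by
            rw [RingHom.mem_ker, map_sub, hΨX, hΨC]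
            simp [val]
          rw [← heq, RingHom.mem_ker, map_sub, hΨX, hΨC] at h1
          simp only [val, if_neg ha, add_sub_cancel_left] at h1
          exact absurd (congrArg (coeff (Finsupp.single (e a) 1)) h1) (by simp)
      rw [Finset.card_insert_of_notMem ha, Nat.cast_add, Nat.cast_one]
      exact le_trans (add_le_add ih le_rfl) (Ideal.height_add_one_le_of_lt_of_isPrime hlt)
  refine le_trans (key Finset.univ) (Ideal.height_mono fun z hz => ?_)
  have hcomp : (C : O →+* E).comp y = Ψ Finset.univ := by
    refine ringHom_ext_of_X (fun c => ?_) (fun i => ?_) fun i => ?_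
    · rw [RingHom.comp_apply, hy, hΨC]
    · rw [RingHom.comp_apply, hΨX]
      simp [val]
    · exact hC i
  rw [RingHom.mem_ker] at hz ⊢
  refine MvPowerSeries.C_injective (σ := Fin (Fintype.card σ)) ?_
  rw [map_zero]
  exact (RingHom.congr_fun hcomp z).trans hz

/-- Inside an `O`-point, `r` equations leave dimension at least `#X - r + 1`. -/
theorem exists_isPrime_le_ker (y : MvPowerSeries σ O →+* O) (hy : ∀ c, y (C c) = c)
    (s : Finset (MvPowerSeries σ O)) (hs : ∀ x ∈ s, y x = 0) :
    ∃ P : Ideal (MvPowerSeries σ O), P.IsPrime ∧ (↑s : Set (MvPowerSeries σ O)) ⊆ P ∧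
      P ≤ RingHom.ker y ∧
      ((Fintype.card σ - s.card + 1 : ℕ) : WithBot ℕ∞) ≤ ringKrullDim (MvPowerSeries σ O ⧸ P) := by
  classical
  obtain ⟨p, hp⟩ : ∃ p, p = RingHom.ker y := ⟨_, rfl⟩
  haveI : p.IsPrime := hp ▸ RingHom.ker_isPrime y
  have hsp : (↑s : Set (MvPowerSeries σ O)) ⊆ p := fun x hx => hp ▸ RingHom.mem_ker.mpr (hs x hx)
  let J : Ideal (MvPowerSeries σ O) := Ideal.span (↑s : Set (MvPowerSeries σ O))
  have hJ : J ≤ p := Ideal.span_le.mpr hsp
  haveI : (p.map (Ideal.Quotient.mk J)).IsPrime := Ideal.isPrime_map_quotientMk_of_isPrime hJ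
  have hh : ((Fintype.card σ - s.card : ℕ) : ℕ∞) ≤ (p.map (Ideal.Quotient.mk J)).height := by
    have h := (hp ▸ card_le_height_ker y hy : (Fintype.card σ : ℕ∞) ≤ p.height).trans
      (Ideal.height_le_height_add_encard_of_subset _ hsp)
    rw [Set.encard_coe_eq_coe_finsetCard] at h
    rw [ENat.natCast_sub]
    exact tsub_le_iff_right.mpr h
  obtain ⟨l, hl, hlen⟩ := Order.exists_series_of_le_height
    (⟨p.map (Ideal.Quotient.mk J), inferInstance⟩ : PrimeSpectrum (MvPowerSeries σ O ⧸ J))
    (n := Fintype.card σ - s.card) (by
      rw [← PrimeSpectrum.height_eq_orderHeight]; exact hh)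
  let f : PrimeSpectrum (MvPowerSeries σ O ⧸ J) → PrimeSpectrum (MvPowerSeries σ O) :=
    PrimeSpectrum.comap (Ideal.Quotient.mk J)
  have hf : StrictMono f := fun P P' hlt =>
    lt_of_le_of_ne (Ideal.comap_mono hlt.le) fun h => hlt.ne (PrimeSpectrum.ext
      (Ideal.comap_injective_of_surjective _ Ideal.Quotient.mk_surjective
        (congrArg PrimeSpectrum.asIdeal h)))
  let L := l.map f hf
  have hlast : L.last.asIdeal = p := by
    show Ideal.comap (Ideal.Quotient.mk J) l.last.asIdeal = p
    rw [hl, Ideal.comap_map_of_surjective _ Ideal.Quotient.mk_surjective, ← RingHom.ker_eq_comap_bot,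
      Ideal.mk_ker, sup_of_le_left hJ]
  let top : PrimeSpectrum (MvPowerSeries σ O) := ⟨maximalIdeal _, inferInstance⟩
  have htop : L.last < top := by
    obtain ⟨ϖ, hϖ⟩ := IsDiscreteValuationRing.exists_irreducible O
    refine lt_of_le_of_ne (IsLocalRing.le_maximalIdeal L.last.2.ne_top) fun h => hϖ.ne_zero ?_
    have hm : C ϖ ∈ top.asIdeal := by
      rw [mem_maximalIdeal, mem_nonunits_iff, isUnit_iff_constantCoeff, constantCoeff_C]
      exact hϖ.not_isUnit
    rw [← h, hlast, hp, RingHom.mem_ker, hy] at hm
    exact hm
  let L' := L.snoc top htop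
  refine ⟨L'.head.asIdeal, L'.head.2, ?_, ?_, ?_⟩
  · intro x hx
    rw [RelSeries.head_snoc]
    show Ideal.Quotient.mk J x ∈ l.head.asIdeal
    rw [Ideal.Quotient.eq_zero_iff_mem.mpr (Ideal.subset_span hx)]
    exact zero_mem _
  · rw [RelSeries.head_snoc, ← hp, ← hlast]
    exact LTSeries.head_le_last L
  · rw [ringKrullDim_quotient]
    refine Order.le_krullDim_iff.mpr ⟨⟨L'.length,
      fun i => ⟨L' i, SetLike.coe_subset_coe.mpr (LTSeries.head_le L' i)⟩,
      fun i => L'.step i⟩, ?_⟩
    show L.length + 1 = _
    rw [show L.length = l.length from rfl, hlen]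

end FermatLib.MLT.LocQ
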