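import Mathlib

/-!
# Kernels of polynomial parametrisations in power series rings

For polynomials `θ i` the map `X i ↦ T · θ i` from `k⟦X⟧` to `(k[Y])⟦T⟧` has a prime kernel. An
element of the kernel dies under any ring homomorphism sending the `X i` to the values of the
`θ i` at a point.
-/

set_option autoImplicit false

namespace FermatLib.MLT.LocQ

open MvPowerSeries IsLocalRing

variable {ι κ k : Type*} [Field k] [Finite ι]

/-- The ideal generated by the variables. -/
noncomputable def varIdeal (ι k : Type*) [Field k] : Ideal (MvPowerSeries ι k) :=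
  Ideal.span (Set.range MvPowerSeries.X)

lemma mem_varIdeal_pow {n : ℕ} {f : MvPowerSeries ι k}
    (hf : ∀ e : ι →₀ ℕ, e.degree < n → MvPowerSeries.coeff e f = 0) : f ∈ varIdeal ι k ^ n := by
  classical
  induction n generalizing f with
  | zero => simp
  | succ n ih =>
    have := Fintype.ofFinite ι
    let pick : (ι →₀ ℕ) → Option ι := fun e => e.support.toList.head?
    let g : ι → MvPowerSeries ι k := fun j e =>
      if pick (e + Finsupp.single j 1) = some j then MvPowerSeries.coeff (e + Finsupp.single j 1) f
      else 0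
    have hg : ∀ j, g j ∈ varIdeal ι k ^ n := fun j => ih fun e he => by
      show (if _ then _ else _) = _
      split_ifs with h
      · refine hf _ ?_
        rw [map_add, Finsupp.degree_single]
        omega
      · rfl
    have hpick : ∀ e j, pick e = some j → e j ≠ 0 := fun e j h => by
      have := List.mem_of_mem_head? (Option.mem_def.mpr h)
      rwa [Finset.mem_toList, Finsupp.mem_support_iff] at this
    have heq : f = ∑ j, MvPowerSeries.X j * g j := by
      refine MvPowerSeries.ext fun e => ?_
      have hterm : ∀ j, MvPowerSeries.coeff e (MvPowerSeries.X j * g j) =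
          if pick e = some j then MvPowerSeries.coeff e f else 0 := fun j => by
        rw [MvPowerSeries.X_def, MvPowerSeries.coeff_monomial_mul, one_mul]
        by_cases hj : e j = 0
        · rw [if_neg, if_neg fun h => hpick e j h hj]
          intro h
          have := h j
          simp [hj] at this
        · have hle : Finsupp.single j 1 ≤ e :=
            Finsupp.single_le_iff.mpr (Nat.one_le_iff_ne_zero.mpr hj)
          rw [if_pos hle]
          show (if _ then _ else _) = _
          rw [tsub_add_cancel_of_le hle]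
      rw [map_sum, Finset.sum_congr rfl fun j _ => hterm j]
      rcases h : pick e with _ | i
      · have he : e = 0 := by
          simpa [pick, List.head?_eq_none_iff] using h
        simp only [reduceCtorEq, if_false, Finset.sum_const_zero]
        rw [he]
        exact hf 0 (by simp)
      · simp
    rw [heq, pow_succ']
    exact Submodule.sum_mem _ fun j _ =>
      Ideal.mul_mem_mul (Ideal.subset_span ⟨j, rfl⟩) (hg j)

lemma sub_truncTotal_mem_pow (f : MvPowerSeries ι k) (n : ℕ) :
    f - (truncTotal n f : MvPowerSeries ι k) ∈ varIdeal ι k ^ n :=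
  mem_varIdeal_pow fun e he => by
    rw [map_sub, MvPolynomial.coeff_coe, coeff_truncTotal _ he, sub_self]

omit [Finite ι] in
lemma varIdeal_le_maximalIdeal : varIdeal ι k ≤ maximalIdeal (MvPowerSeries ι k) := by
  rw [varIdeal, Ideal.span_le]
  rintro _ ⟨i, rfl⟩
  rw [SetLike.mem_coe, mem_maximalIdeal, mem_nonunits_iff, MvPowerSeries.isUnit_iff_constantCoeff,
    MvPowerSeries.constantCoeff_X]
  exact not_isUnit_zero

/-- An ideal containing all truncations of `f` contains `f`. -/
lemma mem_of_truncTotal_mem {J : Ideal (MvPowerSeries ι k)} {f : MvPowerSeries ι k}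
    (h : ∀ n, (truncTotal n f : MvPowerSeries ι k) ∈ J) : f ∈ J := by
  by_cases hJ : J = ⊤
  · simp [hJ]
  have : Nontrivial (MvPowerSeries ι k ⧸ J) := Ideal.Quotient.nontrivial_iff.mpr hJ
  have : IsLocalRing (MvPowerSeries ι k ⧸ J) :=
    .of_surjective' (Ideal.Quotient.mk J) Ideal.Quotient.mk_surjective
  rw [← Ideal.Quotient.eq_zero_iff_mem, ← Submodule.mem_bot (MvPowerSeries ι k ⧸ J),
    ← Ideal.iInf_pow_eq_bot_of_isLocalRing _ (maximalIdeal.isMaximal _).ne_top, Submodule.mem_iInf]
  intro n
  have hloc : IsLocalHom (Ideal.Quotient.mk J) :=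
    Ideal.Quotient.mk_surjective.isLocalHom
  have hm : (varIdeal ι k).map (Ideal.Quotient.mk J) ≤ maximalIdeal _ :=
    (Ideal.map_mono varIdeal_le_maximalIdeal).trans
      (((IsLocalRing.local_hom_TFAE (Ideal.Quotient.mk J)).out 0 2).mp hloc)
  have h1 := Ideal.mem_map_of_mem (Ideal.Quotient.mk J) (sub_truncTotal_mem_pow f n)
  rw [Ideal.map_pow, map_sub, Ideal.Quotient.eq_zero_iff_mem.mpr (h n), sub_zero] at h1
  exact Ideal.pow_right_mono hm n h1

/-- `X i ↦ T · θ i` on polynomials. -/
noncomputable def scaledEval (θ : ι → MvPolynomial κ k) :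
    MvPolynomial ι k →+* PowerSeries (MvPolynomial κ k) :=
  MvPolynomial.eval₂Hom (PowerSeries.C.comp MvPolynomial.C)
    fun i => PowerSeries.C (θ i) * PowerSeries.X

omit [Finite ι] in
lemma scaledEval_monomial (θ : ι → MvPolynomial κ k) (e : ι →₀ ℕ) (c : k) :
    scaledEval θ (MvPolynomial.monomial e c) =
      PowerSeries.C (MvPolynomial.aeval θ (MvPolynomial.monomial e c)) *
        PowerSeries.X ^ e.degree := by
  simp only [scaledEval, MvPolynomial.eval₂Hom_monomial, MvPolynomial.aeval_monomial,
    MvPolynomial.algebraMap_eq, RingHom.comp_apply, Finsupp.prod, map_mul, map_prod, map_pow,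
    mul_pow, Finset.prod_mul_distrib, Finset.prod_pow_eq_pow_sum, Finsupp.degree_apply]
  ring

omit [Finite ι] in
lemma coeff_scaledEval_eq_zero (θ : ι → MvPolynomial κ k) {d : ℕ} {p : MvPolynomial ι k}
    (h : ∀ e, e.degree ≤ d → p.coeff e = 0) :
    PowerSeries.coeff d (scaledEval θ p) = 0 := by
  rw [p.as_sum, map_sum, map_sum]
  refine Finset.sum_eq_zero fun e he => ?_
  rw [scaledEval_monomial, PowerSeries.coeff_C_mul, PowerSeries.coeff_X_pow, if_neg, mul_zero]
  intro hde
  exact MvPolynomial.mem_support_iff.mp he (h e hde.ge)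

omit [Finite ι] in
lemma coeff_scaledEval_congr (θ : ι → MvPolynomial κ k) {d : ℕ} {p p' : MvPolynomial ι k}
    (h : ∀ e, e.degree ≤ d → p.coeff e = p'.coeff e) :
    PowerSeries.coeff d (scaledEval θ p) = PowerSeries.coeff d (scaledEval θ p') := by
  rw [← sub_eq_zero, ← map_sub, ← map_sub]
  exact coeff_scaledEval_eq_zero θ fun e he => by rw [MvPolynomial.coeff_sub, h e he, sub_self]

/-- `X i ↦ T · θ i` on power series. -/
noncomputable def paramHom (θ : ι → MvPolynomial κ k) :
    MvPowerSeries ι k →+* PowerSeries (MvPolynomial κ k) where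
  toFun f := PowerSeries.mk fun d => PowerSeries.coeff d (scaledEval θ (truncTotal (d + 1) f))
  map_one' := by
    ext d : 1
    rw [PowerSeries.coeff_mk, truncTotal_one (by omega), map_one]
  map_zero' := by
    ext d : 1
    simp
  map_add' f g := by
    ext d : 1
    simp
  map_mul' f g := by
    ext d : 1
    rw [PowerSeries.coeff_mk, coeff_scaledEval_congr θ
      (p' := truncTotal (d + 1) f * truncTotal (d + 1) g) fun e he => ?_, map_mul,
      PowerSeries.coeff_mul, PowerSeries.coeff_mul]
    · refine Finset.sum_congr rfl fun x hx => ?_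
      have hx' := Finset.HasAntidiagonal.mem_antidiagonal.mp hx
      simp only [PowerSeries.coeff_mk]
      congr 1 <;> refine coeff_scaledEval_congr θ fun e he => ?_ <;>
        rw [coeff_truncTotal _ (by omega), coeff_truncTotal _ (by omega)]
    · rw [coeff_truncTotal _ (by omega), coeff_truncTotal_mul_truncTotal_eq_coeff_mul _ _ (by omega)]

lemma paramHom_coe (θ : ι → MvPolynomial κ k) (p : MvPolynomial ι k) :
    paramHom θ p = scaledEval θ p := by
  ext d : 1
  simp only [paramHom, RingHom.coe_mk, MonoidHom.coe_mk, OneHom.coe_mk, PowerSeries.coeff_mk]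
  refine coeff_scaledEval_congr θ fun e he => ?_
  rw [coeff_truncTotal _ (by omega), MvPolynomial.coeff_coe]

lemma paramHom_X (θ : ι → MvPolynomial κ k) (i : ι) :
    paramHom θ (MvPowerSeries.X i) = PowerSeries.C (θ i) * PowerSeries.X := by
  rw [← MvPolynomial.coe_X, paramHom_coe]
  simp [scaledEval]

/-- The kernel of the parametrisation. -/
noncomputable def paramKernel (θ : ι → MvPolynomial κ k) : Ideal (MvPowerSeries ι k) :=
  RingHom.ker (paramHom θ)

instance paramKernel_isPrime (θ : ι → MvPolynomial κ k) : (paramKernel θ).IsPrime :=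
  RingHom.ker_isPrime _

lemma X_mem_paramKernel {θ : ι → MvPolynomial κ k} {i : ι} :
    MvPowerSeries.X i ∈ paramKernel θ ↔ θ i = 0 := by
  rw [paramKernel, RingHom.mem_ker, paramHom_X]
  simp [PowerSeries.X_ne_zero, map_eq_zero_iff _ PowerSeries.C_injective]

/-- An element of the kernel dies under a homomorphism which sends the variables to the values
of the `θ i` at a point. -/
theorem map_eq_zero_of_mem_paramKernel {θ : ι → MvPolynomial κ k} {R : Type*} [CommRing R]
    (χ : MvPowerSeries ι k →+* R) (a : κ → R)
    (ha : ∀ i, χ (MvPowerSeries.X i) =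
      MvPolynomial.eval₂ (χ.comp MvPowerSeries.C) a (θ i))
    {f : MvPowerSeries ι k} (hf : f ∈ paramKernel θ) : χ f = 0 := by
  have hθ : ∀ d, PowerSeries.coeff d (scaledEval θ (truncTotal (d + 1) f)) = 0 := fun d => by
    have := congrArg (PowerSeries.coeff d) (show paramHom θ f = 0 from hf)
    simpa [paramHom] using this
  refine RingHom.mem_ker.mp (mem_of_truncTotal_mem fun n => RingHom.mem_ker.mpr ?_)
  let ev := MvPolynomial.eval₂Hom (χ.comp MvPowerSeries.C) a
  have h1 : χ.comp MvPolynomial.coeToMvPowerSeries.ringHom =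
      ev.comp (MvPolynomial.aeval θ).toRingHom := by
    apply MvPolynomial.ringHom_ext
    · intro c
      simp [ev]
    · intro i
      simp [ev, ha]
  have h2 : MvPolynomial.aeval θ (truncTotal n f) = 0 := by
    set p := truncTotal n f with hp
    have hdeg : ∀ e ∈ p.support, e.degree ∈ Finset.range n := fun e he => by
      rw [Finset.mem_range]
      by_contra hge
      exact MvPolynomial.mem_support_iff.mp he (coeff_truncTotal_eq_zero _ (not_lt.mp hge))
    have hsum : MvPolynomial.aeval θ p = ∑ d ∈ Finset.range n,
        PowerSeries.coeff d (scaledEval θ p) := by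
      conv_lhs => rw [p.as_sum]
      conv_rhs => rw [p.as_sum]
      simp only [map_sum]
      rw [Finset.sum_comm]
      refine Finset.sum_congr rfl fun e he => ?_
      simp [scaledEval_monomial, PowerSeries.coeff_X_pow, hdeg e he]
    rw [hsum]
    refine Finset.sum_eq_zero fun d hd => ?_
    rw [← hθ d]
    refine coeff_scaledEval_congr θ fun e he => ?_
    rw [Finset.mem_range] at hd
    rw [hp, coeff_truncTotal _ (by omega), coeff_truncTotal _ (by omega)]
  calc χ (truncTotal n f : MvPowerSeries ι k)
      = (χ.comp MvPolynomial.coeToMvPowerSeries.ringHom) (truncTotal n f) := by simp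
    _ = 0 := by rw [h1, RingHom.comp_apply]; exact (congrArg ev h2).trans (map_zero ev)

end FermatLib.MLT.LocQ
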