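import Mathlib

/-!
# Local lifting equations at an auxiliary prime `q ≠ p`

A framed lift of a tame representation at `q` is a pair `(Φ, T)` of `2 × 2` matrices with
`Φ T = T ^ q Φ`. Write `Φ = h + P` and `T = c + N` with traceless
`N = (n₁ n₂; n₃ -n₁)` and `P = (p₁ p₂; p₃ -p₁)`, `Q(n) = n₁² + n₂ n₃`.

* When `T` has eigenvalues `ζ ≠ ζ⁻¹` with `ζ ^ q = ζ`: `n_i p_j = n_j p_i`, `4 Q(n) = (ζ - ζ⁻¹)²`.
* When `T` is unipotent: `Q(n) = 0`, and a prime not containing `q`, `q - 1`, `2` contains either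
  all `n_i` or the Steinberg ideal.
-/

set_option autoImplicit false

namespace FermatLib.MLT.LocQ

open Matrix

variable {R : Type*} [CommRing R]

/-- The quadratic form `n₁² + n₂ n₃`. -/
def quad (n₁ n₂ n₃ : R) : R := n₁ ^ 2 + n₂ * n₃

/-- The matrix `c + (n₁ n₂; n₃ -n₁)`. -/
def ofCoord (c n₁ n₂ n₃ : R) : Matrix (Fin 2) (Fin 2) R := !![c + n₁, n₂; n₃, c - n₁]

lemma trace_ofCoord (c n₁ n₂ n₃ : R) : (ofCoord c n₁ n₂ n₃).trace = 2 * c := by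
  simp [ofCoord, Matrix.trace_fin_two_of]; ring

lemma det_ofCoord (c n₁ n₂ n₃ : R) : (ofCoord c n₁ n₂ n₃).det = c ^ 2 - quad n₁ n₂ n₃ := by
  simp [ofCoord, Matrix.det_fin_two_of, quad]; ring

lemma map_ofCoord {S : Type*} [CommRing S] (f : R →+* S) (c n₁ n₂ n₃ : R) :
    (ofCoord c n₁ n₂ n₃).map f = ofCoord (f c) (f n₁) (f n₂) (f n₃) := by
  ext i j; fin_cases i <;> fin_cases j <;> simp [ofCoord]

/-- Cayley–Hamilton for a matrix of determinant `1`. -/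
lemma sq_eq_of_det_one (M : Matrix (Fin 2) (Fin 2) R) (hd : M.det = 1) :
    M * M = M.trace • M - 1 := by
  rw [Matrix.det_fin_two] at hd
  ext i j
  fin_cases i <;> fin_cases j <;>
    simp [Matrix.mul_apply, Fin.sum_univ_two, Matrix.trace_fin_two]
  · linear_combination -hd
  · ring
  · ring
  · linear_combination -hd

/-- A matrix with distinct eigenvalues `ζ, ζ'`, `ζ ζ' = 1`, fixed by `x ↦ x ^ q`, satisfies
`M ^ q = M`. -/
lemma pow_eq_self {𝒪 : Type*} [CommRing 𝒪] [IsDomain 𝒪] [Algebra 𝒪 R]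
    {M : Matrix (Fin 2) (Fin 2) R} {ζ ζ' : 𝒪} {q : ℕ} (hd : M.det = 1)
    (ht : M.trace = algebraMap 𝒪 R (ζ + ζ')) (hmul : ζ * ζ' = 1) (hne : ζ ≠ ζ')
    (hq : ζ ^ q = ζ) (hq' : ζ' ^ q = ζ') : M ^ q = M := by
  have key : ∀ m : ℕ, ∃ u v : 𝒪,
      M ^ m = algebraMap 𝒪 R u • M + algebraMap 𝒪 R v • (1 : Matrix (Fin 2) (Fin 2) R) ∧
        ζ ^ m = u * ζ + v ∧ ζ' ^ m = u * ζ' + v := by
    intro m
    induction m with
    | zero => exact ⟨0, 1, by simp, by simp, by simp⟩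
    | succ m ih =>
      obtain ⟨u, v, h1, h2, h3⟩ := ih
      refine ⟨u * (ζ + ζ') + v, -u, ?_, ?_, ?_⟩
      · rw [pow_succ, h1, add_mul, smul_mul_assoc, sq_eq_of_det_one M hd, ht, smul_mul_assoc,
          one_mul, smul_sub, smul_smul, map_add (algebraMap 𝒪 R) (u * _), map_mul, map_neg,
          add_smul, neg_smul]
        abel
      · rw [pow_succ, h2]; linear_combination u * (-hmul)
      · rw [pow_succ, h3]; linear_combination u * (-hmul)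
  obtain ⟨u, v, h1, h2, h3⟩ := key q
  rw [hq] at h2
  rw [hq'] at h3
  have hu : u = 1 := by
    have : (u - 1) * (ζ - ζ') = 0 := by linear_combination h3 - h2
    exact sub_eq_zero.mp ((mul_eq_zero.mp this).resolve_right (sub_ne_zero.mpr hne))
  have hv : v = 0 := by rw [hu] at h2; linear_combination -h2
  rw [h1, hu, hv, map_one, map_zero, one_smul, zero_smul, add_zero]

/-- Commuting matrices: the traceless parts are proportional. -/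
lemma minors_of_commute (h2 : IsUnit (2 : R)) {h p₁ p₂ p₃ c n₁ n₂ n₃ : R}
    (hc : ofCoord h p₁ p₂ p₃ * ofCoord c n₁ n₂ n₃ = ofCoord c n₁ n₂ n₃ * ofCoord h p₁ p₂ p₃) :
    n₁ * p₂ = n₂ * p₁ ∧ n₁ * p₃ = n₃ * p₁ ∧ n₂ * p₃ = n₃ * p₂ := by
  have e00 := congrFun (congrFun hc 0) 0
  have e01 := congrFun (congrFun hc 0) 1
  have e10 := congrFun (congrFun hc 1) 0
  simp [ofCoord, Matrix.mul_apply, Fin.sum_univ_two] at e00 e01 e10
  refine ⟨h2.mul_left_cancel ?_, h2.mul_left_cancel ?_, ?_⟩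
  · linear_combination -e01
  · linear_combination e10
  · linear_combination -e00

/-- **Principal series side.** -/
theorem theta_relations {𝒪 : Type*} [CommRing 𝒪] [IsDomain 𝒪] [Algebra 𝒪 R]
    (h2 : IsUnit (2 : R)) {q : ℕ} {ζ ζ' : 𝒪} (hmul : ζ * ζ' = 1) (hne : ζ ≠ ζ')
    (hq : ζ ^ q = ζ) (hq' : ζ' ^ q = ζ') {h p₁ p₂ p₃ c n₁ n₂ n₃ : R}
    (hdet : (ofCoord c n₁ n₂ n₃).det = 1)
    (htr : (ofCoord c n₁ n₂ n₃).trace = algebraMap 𝒪 R (ζ + ζ'))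
    (htame : ofCoord h p₁ p₂ p₃ * ofCoord c n₁ n₂ n₃ =
      ofCoord c n₁ n₂ n₃ ^ q * ofCoord h p₁ p₂ p₃) :
    (n₁ * p₂ = n₂ * p₁ ∧ n₁ * p₃ = n₃ * p₁ ∧ n₂ * p₃ = n₃ * p₂) ∧
      4 * quad n₁ n₂ n₃ = algebraMap 𝒪 R ((ζ - ζ') ^ 2) := by
  rw [pow_eq_self hdet htr hmul hne hq hq'] at htame
  refine ⟨minors_of_commute h2 htame, ?_⟩
  rw [det_ofCoord] at hdet
  rw [trace_ofCoord, map_add] at htr
  rw [map_pow, map_sub]
  have hmul' : algebraMap 𝒪 R ζ * algebraMap 𝒪 R ζ' = 1 := by rw [← map_mul, hmul, map_one]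
  linear_combination -4 * hdet + (2 * c + (algebraMap 𝒪 R ζ + algebraMap 𝒪 R ζ')) * htr + 4 * hmul'

/-- The four entries of `Φ N - q N Φ`. -/
def stEntry (q h p₁ p₂ p₃ n₁ n₂ n₃ : R) : Fin 4 → R :=
  ![h * n₁ + (p₁ * n₁ + p₂ * n₃) - q * (h * n₁ + n₁ * p₁ + n₂ * p₃),
    h * n₂ + (p₁ * n₂ - p₂ * n₁) - q * (h * n₂ + n₁ * p₂ - n₂ * p₁),
    h * n₃ + (p₃ * n₁ - p₁ * n₃) - q * (h * n₃ + n₃ * p₁ - n₁ * p₃),
    -(h * n₁) + (p₃ * n₂ + p₁ * n₁) - q * (-(h * n₁) + n₃ * p₂ + n₁ * p₁)]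

/-- The Steinberg ideal `St₁`. -/
def stIdeal (q h p₁ p₂ p₃ n₁ n₂ n₃ : R) : Ideal R :=
  Ideal.span (Set.range (stEntry q h p₁ p₂ p₃ n₁ n₂ n₃) ∪
    {quad n₁ n₂ n₃, 4 * quad p₁ p₂ p₃ - (q - 1) ^ 2})

lemma stIdeal_le_iff {q h p₁ p₂ p₃ n₁ n₂ n₃ : R} {I : Ideal R} :
    stIdeal q h p₁ p₂ p₃ n₁ n₂ n₃ ≤ I ↔ (∀ i, stEntry q h p₁ p₂ p₃ n₁ n₂ n₃ i ∈ I) ∧
      quad n₁ n₂ n₃ ∈ I ∧ 4 * quad p₁ p₂ p₃ - (q - 1) ^ 2 ∈ I := by
  rw [stIdeal, Ideal.span_le, Set.union_subset_iff, Set.range_subset_iff, Set.insert_subset_iff,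
    Set.singleton_subset_iff]
  rfl

lemma one_add_nilpotent_pow {N : Matrix (Fin 2) (Fin 2) R} (hN : N * N = 0) (q : ℕ) :
    (1 + N) ^ q = 1 + (q : R) • N := by
  induction q with
  | zero => simp
  | succ m ih =>
    rw [pow_succ, ih, mul_add, mul_one, add_mul, one_mul, smul_mul_assoc, hN, smul_zero, add_zero,
      Nat.cast_succ, add_smul, one_smul]
    abel

/-- **Unipotent side.** -/
theorem unipotent_relations (h2 : IsUnit (2 : R)) {q : ℕ} {h p₁ p₂ p₃ c n₁ n₂ n₃ : R}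
    (hdet : (ofCoord c n₁ n₂ n₃).det = 1) (htr : (ofCoord c n₁ n₂ n₃).trace = 2)
    (htame : ofCoord h p₁ p₂ p₃ * ofCoord c n₁ n₂ n₃ =
      ofCoord c n₁ n₂ n₃ ^ q * ofCoord h p₁ p₂ p₃) :
    quad n₁ n₂ n₃ = 0 ∧ ∀ i, stEntry (q : R) h p₁ p₂ p₃ n₁ n₂ n₃ i = 0 := by
  rw [trace_ofCoord] at htr
  obtain rfl : c = 1 := h2.mul_left_cancel (by rw [htr, mul_one])
  rw [det_ofCoord] at hdet
  have hQ : quad n₁ n₂ n₃ = 0 := by linear_combination -hdet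
  refine ⟨hQ, ?_⟩
  have hsplit : ofCoord 1 n₁ n₂ n₃ = 1 + ofCoord 0 n₁ n₂ n₃ := by
    ext i j; fin_cases i <;> fin_cases j <;> simp [ofCoord, sub_eq_add_neg]
  have hN : ofCoord 0 n₁ n₂ n₃ * ofCoord 0 n₁ n₂ n₃ = 0 := by
    rw [quad] at hQ
    ext i j
    fin_cases i <;> fin_cases j <;> simp [ofCoord, Matrix.mul_apply, Fin.sum_univ_two]
    · linear_combination hQ
    · ring
    · ring
    · linear_combination hQ
  rw [hsplit, one_add_nilpotent_pow hN] at htame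
  have e00 := congrFun (congrFun htame 0) 0
  have e01 := congrFun (congrFun htame 0) 1
  have e10 := congrFun (congrFun htame 1) 0
  have e11 := congrFun (congrFun htame 1) 1
  simp [ofCoord, Matrix.mul_apply, Fin.sum_univ_two] at e00 e01 e10 e11
  intro i
  fin_cases i <;> simp [stEntry]
  · linear_combination e00
  · linear_combination e01
  · linear_combination e10
  · linear_combination e11

/-- In a prime away from `2`, `q`, `q - 1`: either unramified or Steinberg. -/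
theorem mem_or_stIdeal_le {P : Ideal R} [hP : P.IsPrime] {q h p₁ p₂ p₃ n₁ n₂ n₃ : R}
    (h2 : (2 : R) ∉ P) (hq : q ∉ P) (hq1 : q - 1 ∉ P)
    (hdet : h ^ 2 - quad p₁ p₂ p₃ - q ∈ P) (hQ : quad n₁ n₂ n₃ ∈ P)
    (he : ∀ i, stEntry q h p₁ p₂ p₃ n₁ n₂ n₃ i ∈ P) :
    (n₁ ∈ P ∧ n₂ ∈ P ∧ n₃ ∈ P) ∨ stIdeal q h p₁ p₂ p₃ n₁ n₂ n₃ ≤ P := by
  by_cases hF : 4 * quad p₁ p₂ p₃ - (q - 1) ^ 2 ∈ P
  · exact Or.inr (stIdeal_le_iff.mpr ⟨he, hQ, hF⟩)
  left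
  simp only [← Ideal.Quotient.eq_zero_iff_mem, map_add, map_sub, map_mul, map_pow, map_one,
    map_ofNat, quad] at *
  have e0 := he 0
  have e1 := he 1
  have e2 := he 2
  have e3 := he 3
  simp [stEntry, map_add, map_sub, map_mul, map_neg] at e0 e1 e2 e3
  set g := Ideal.Quotient.mk P
  have hs : 2 * g p₁ * g n₁ + g p₂ * g n₃ + g p₃ * g n₂ = 0 := by
    have hm : (1 - g q) * (2 * g p₁ * g n₁ + g p₂ * g n₃ + g p₃ * g n₂) = 0 := by
      linear_combination e0 + e3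
    exact (mul_eq_zero.mp hm).resolve_left fun hz => hq1 (by linear_combination -hz)
  have ha : 2 * ((1 - g q) * g h) * g n₁ + (1 + g q) * (g p₂ * g n₃ - g p₃ * g n₂) = 0 := by
    linear_combination e0 - e3
  have hb : (1 - g q) * g h * g n₂ + (1 + g q) * (g p₁ * g n₂ - g p₂ * g n₁) = 0 := by
    linear_combination e1
  have hc : (1 - g q) * g h * g n₃ + (1 + g q) * (g p₃ * g n₁ - g p₁ * g n₃) = 0 := by
    linear_combination e2
  have hne : 2 * (g q * (4 * (g p₁ ^ 2 + g p₂ * g p₃) - (g q - 1) ^ 2)) ≠ 0 :=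
    mul_ne_zero h2 (mul_ne_zero hq hF)
  refine ⟨?_, ?_, ?_⟩
  · have hm : 2 * (g q * (4 * (g p₁ ^ 2 + g p₂ * g p₃) - (g q - 1) ^ 2)) * g n₁ = 0 := by
      linear_combination -((1 - g q) * g h) * ha - (1 + g q) * g p₃ * hb + (1 + g q) * g p₂ * hc
      + (1 + g q) ^ 2 * g p₁ * hs + 2 * (1 - g q) ^ 2 * g n₁ * hdet
    exact (mul_eq_zero.mp hm).resolve_left hne
  · have hm : 2 * (g q * (4 * (g p₁ ^ 2 + g p₂ * g p₃) - (g q - 1) ^ 2)) * g n₂ = 0 := by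
      linear_combination -2 * ((1 - g q) * g h - (1 + g q) * g p₁) * hb - (1 + g q) * g p₂ * ha
      + (1 + g q) ^ 2 * g p₂ * hs + 2 * (1 - g q) ^ 2 * g n₂ * hdet
    exact (mul_eq_zero.mp hm).resolve_left hne
  · have hm : 2 * (g q * (4 * (g p₁ ^ 2 + g p₂ * g p₃) - (g q - 1) ^ 2)) * g n₃ = 0 := by
      linear_combination -2 * ((1 - g q) * g h + (1 + g q) * g p₁) * hc + (1 + g q) * g p₃ * ha
      + (1 + g q) ^ 2 * g p₃ * hs + 2 * (1 - g q) ^ 2 * g n₃ * hdet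
    exact (mul_eq_zero.mp hm).resolve_left hne

/-- Modulo an ideal containing `q - 1`, the unipotent relations give the minors. -/
theorem minors_mem_of_stEntry {I : Ideal R} (h2 : IsUnit (2 : R))
    {q h p₁ p₂ p₃ n₁ n₂ n₃ : R} (hq1 : q - 1 ∈ I)
    (he : ∀ i, stEntry q h p₁ p₂ p₃ n₁ n₂ n₃ i ∈ I) :
    n₁ * p₂ - n₂ * p₁ ∈ I ∧ n₁ * p₃ - n₃ * p₁ ∈ I ∧ n₂ * p₃ - n₃ * p₂ ∈ I := by
  have h2' : IsUnit (2 : R ⧸ I) := by
    simpa only [map_ofNat] using h2.map (Ideal.Quotient.mk I)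
  have e0 := he 0
  have e1 := he 1
  have e2 := he 2
  simp only [← Ideal.Quotient.eq_zero_iff_mem, map_sub, map_mul, map_one] at *
  simp [stEntry, map_add, map_sub, map_mul] at e0 e1 e2
  set g := Ideal.Quotient.mk I
  have hg : g q = 1 := sub_eq_zero.mp hq1
  rw [hg] at e0 e1 e2
  refine ⟨h2'.mul_left_cancel ?_, h2'.mul_left_cancel ?_, ?_⟩
  · linear_combination -e1
  · linear_combination e2
  · linear_combination -e0

end FermatLib.MLT.LocQ
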