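import Fermat.Agent.MLT.LocQParamKernel
import Fermat.Agent.MLT.LocQRelations

/-!
# The Steinberg component of the special fibre

In `k⟦n, p, x⟧` (one sextuple for each `q ∈ T`, and extra variables `x`, some of which may be
killed) the ideal of minors, `Q(n)`, `Q(p)` has as radical the kernel `K` of the parametrisation
`n = a v`, `p = b v`, `v = (st, s², -t²)`, and becomes equal to `K` after localisation at `K`.
-/

set_option autoImplicit false

namespace FermatLib.MLT.LocQ

open MvPowerSeries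

variable {T E k : Type*} [Field k] [Finite T] [Finite E]

/-- Index of the variables. -/
abbrev StVar (T E : Type*) := (T × Fin 6) ⊕ E

/-- The variable `n_(i+1)` at `q`. -/
noncomputable def nVar (q : T) (i : Fin 3) : MvPowerSeries (StVar T E) k :=
  X (Sum.inl (q, Fin.castLE (by norm_num) i))

/-- The variable `p_(i+1)` at `q`. -/
noncomputable def pVar (q : T) (i : Fin 3) : MvPowerSeries (StVar T E) k :=
  X (Sum.inl (q, Fin.natAdd 3 i))

/-- The variable `x_e`. -/
noncomputable def xVar (e : E) : MvPowerSeries (StVar T E) k := X (Sum.inr e)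

/-- Parameters `s, t, a, b` at `q`, and the extra variables. -/
abbrev StParam (T E : Type*) := (T × Fin 4) ⊕ E

open MvPolynomial in
/-- The six coordinates of the parametrisation at `q`. -/
noncomputable def stCoord (q : T) : Fin 6 → MvPolynomial (StParam T E) k :=
  let s := MvPolynomial.X (Sum.inl (q, 0))
  let t := MvPolynomial.X (Sum.inl (q, 1))
  let a := MvPolynomial.X (Sum.inl (q, 2))
  let b := MvPolynomial.X (Sum.inl (q, 3))
  ![a * (s * t), a * s ^ 2, -(a * t ^ 2), b * (s * t), b * s ^ 2, -(b * t ^ 2)]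

open Classical in
/-- The parametrisation; the variables `x_e`, `e ∈ Z`, go to zero. -/
noncomputable def stParam (Z : Set E) : StVar T E → MvPolynomial (StParam T E) k :=
  Sum.elim (fun qi => stCoord qi.1 qi.2) fun e => if e ∈ Z then 0 else MvPolynomial.X (Sum.inr e)

/-- The prime `K`. -/
noncomputable def stKernel (Z : Set E) : Ideal (MvPowerSeries (StVar T E) k) :=
  paramKernel (stParam Z)

instance stKernel_isPrime (Z : Set E) :
    (stKernel Z : Ideal (MvPowerSeries (StVar T E) k)).IsPrime :=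
  paramKernel_isPrime _

/-- The six generators of the relations at `q`. -/
noncomputable def stRelGen (q : T) : Fin 5 → MvPowerSeries (StVar T E) k :=
  ![nVar q 0 * pVar q 1 - nVar q 1 * pVar q 0, nVar q 0 * pVar q 2 - nVar q 2 * pVar q 0,
    nVar q 1 * pVar q 2 - nVar q 2 * pVar q 1, quad (nVar q 0) (nVar q 1) (nVar q 2),
    quad (pVar q 0) (pVar q 1) (pVar q 2)]

/-- The relation ideal. -/
noncomputable def stRelIdeal (Z : Set E) : Ideal (MvPowerSeries (StVar T E) k) :=
  Ideal.span (Set.range (fun qi : T × Fin 5 => stRelGen qi.1 qi.2) ∪ xVar '' Z)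

lemma paramHom_stParam_nVar (Z : Set E) (q : T) (i : Fin 3) :
    paramHom (stParam Z) (nVar q i : MvPowerSeries (StVar T E) k) =
      PowerSeries.C (stCoord q (Fin.castLE (by norm_num) i)) * PowerSeries.X := by
  rw [nVar, paramHom_X]; rfl

lemma paramHom_stParam_pVar (Z : Set E) (q : T) (i : Fin 3) :
    paramHom (stParam Z) (pVar q i : MvPowerSeries (StVar T E) k) =
      PowerSeries.C (stCoord q (Fin.natAdd 3 i)) * PowerSeries.X := by
  rw [pVar, paramHom_X]; rfl

theorem stRelIdeal_le_stKernel (Z : Set E) :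
    (stRelIdeal Z : Ideal (MvPowerSeries (StVar T E) k)) ≤ stKernel Z := by
  rw [stRelIdeal, Ideal.span_le, Set.union_subset_iff]
  constructor
  · rintro _ ⟨⟨q, i⟩, rfl⟩
    rw [SetLike.mem_coe, stKernel, paramKernel, RingHom.mem_ker]
    fin_cases i <;>
      simp [stRelGen, quad, paramHom_stParam_nVar, paramHom_stParam_pVar, stCoord, Fin.natAdd,
        Fin.castLE] <;> ring
  · rintro _ ⟨e, he, rfl⟩
    exact X_mem_paramKernel.mpr (by simp [stParam, he])

/-- `K` dies under every homomorphism whose values at each `q` are of the form `(a v, b v)`. -/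
theorem stKernel_le_ker {R : Type*} [CommRing R] (Z : Set E)
    (χ : MvPowerSeries (StVar T E) k →+* R)
    (hloc : ∀ q, ∃ s t a b : R,
      χ (nVar q 0) = a * (s * t) ∧ χ (nVar q 1) = a * s ^ 2 ∧ χ (nVar q 2) = -(a * t ^ 2) ∧
      χ (pVar q 0) = b * (s * t) ∧ χ (pVar q 1) = b * s ^ 2 ∧ χ (pVar q 2) = -(b * t ^ 2))
    (hZ : ∀ e ∈ Z, χ (xVar e) = 0) : stKernel Z ≤ RingHom.ker χ := by
  classical
  choose s t a b h1 h2 h3 h4 h5 h6 using hloc
  intro f hf
  rw [RingHom.mem_ker]
  refine map_eq_zero_of_mem_paramKernel χ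
    (Sum.elim (fun qj => ![s qj.1, t qj.1, a qj.1, b qj.1] qj.2) fun e => χ (xVar e)) ?_ hf
  rintro (⟨q, i⟩ | e)
  · fin_cases i <;> simp [stParam, stCoord]
    exacts [h1 q, h2 q, h3 q, h4 q, h5 q, h6 q]
  · by_cases he : e ∈ Z
    · simp [stParam, he]; exact hZ e he
    · simp [stParam, he]; rfl

omit [Finite T] [Finite E] in
lemma map_stRelGen {R : Type*} [CommRing R] {Z : Set E}
    {χ : MvPowerSeries (StVar T E) k →+* R} (h : stRelIdeal Z ≤ RingHom.ker χ) (q : T) :
    χ (nVar q 0) * χ (pVar q 1) = χ (nVar q 1) * χ (pVar q 0) ∧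
      χ (nVar q 0) * χ (pVar q 2) = χ (nVar q 2) * χ (pVar q 0) ∧
      χ (nVar q 1) * χ (pVar q 2) = χ (nVar q 2) * χ (pVar q 1) ∧
      χ (nVar q 0) ^ 2 + χ (nVar q 1) * χ (nVar q 2) = 0 ∧
      χ (pVar q 0) ^ 2 + χ (pVar q 1) * χ (pVar q 2) = 0 := by
  have hg : ∀ i, χ (stRelGen q i) = 0 := fun i =>
    RingHom.mem_ker.mp (h (Ideal.subset_span (Or.inl ⟨(q, i), rfl⟩)))
  refine ⟨?_, ?_, ?_, ?_, ?_⟩
  · exact sub_eq_zero.mp (by simpa [stRelGen] using hg 0)
  · exact sub_eq_zero.mp (by simpa [stRelGen] using hg 1)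
  · exact sub_eq_zero.mp (by simpa [stRelGen] using hg 2)
  · simpa [stRelGen, quad] using hg 3
  · simpa [stRelGen, quad] using hg 4

/-- Over a field the relations cut out the image of the parametrisation. -/
lemma exists_stPoint {L : Type*} [Field L] {n₁ n₂ n₃ p₁ p₂ p₃ : L}
    (h12 : n₁ * p₂ = n₂ * p₁) (h13 : n₁ * p₃ = n₃ * p₁) (h23 : n₂ * p₃ = n₃ * p₂)
    (hn : n₁ ^ 2 + n₂ * n₃ = 0) (hp : p₁ ^ 2 + p₂ * p₃ = 0) :
    ∃ s t a b : L, n₁ = a * (s * t) ∧ n₂ = a * s ^ 2 ∧ n₃ = -(a * t ^ 2) ∧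
      p₁ = b * (s * t) ∧ p₂ = b * s ^ 2 ∧ p₃ = -(b * t ^ 2) := by
  by_cases h2 : n₂ = 0
  · subst h2
    have h1 : n₁ = 0 := by simpa using hn
    subst h1
    by_cases h3 : n₃ = 0
    · subst h3
      by_cases g2 : p₂ = 0
      · subst g2
        have g1 : p₁ = 0 := by simpa using hp
        subst g1
        exact ⟨0, 1, 0, -p₃, by ring, by ring, by ring, by ring, by ring, by ring⟩
      · refine ⟨1, p₁ / p₂, 0, p₂, by ring, by ring, by ring, by field_simp, by ring, ?_⟩
        field_simp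
        linear_combination hp
    · have g1 : p₁ = 0 := (mul_eq_zero.mp (show n₃ * p₁ = 0 by linear_combination -h13)).resolve_left h3
      have g2 : p₂ = 0 := (mul_eq_zero.mp (show n₃ * p₂ = 0 by linear_combination -h23)).resolve_left h3
      subst g1 g2
      exact ⟨0, 1, -n₃, -p₃, by ring, by ring, by ring, by ring, by ring, by ring⟩
  · refine ⟨1, n₁ / n₂, n₂, p₂, by field_simp, by ring, ?_, ?_, by ring, ?_⟩
    · field_simp; linear_combination hn
    · field_simp; linear_combination -h12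
    · field_simp
      linear_combination n₂ * h23 + p₂ * hn

/-- **Every prime containing the relations contains `K`.** -/
theorem stKernel_le_of_isPrime {Z : Set E} {P : Ideal (MvPowerSeries (StVar T E) k)} [P.IsPrime]
    (h : stRelIdeal Z ≤ P) : stKernel Z ≤ P := by
  set χ := (algebraMap (MvPowerSeries (StVar T E) k ⧸ P)
    (FractionRing (MvPowerSeries (StVar T E) k ⧸ P))).comp (Ideal.Quotient.mk P)
  have hker : RingHom.ker χ = P := by
    rw [RingHom.ker_comp_of_injective _ (IsFractionRing.injective _ _), Ideal.mk_ker]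
  have h' : stRelIdeal Z ≤ RingHom.ker χ := hker.symm ▸ h
  refine hker ▸ stKernel_le_ker Z χ (fun q => ?_) fun e he =>
    RingHom.mem_ker.mp (h' (Ideal.subset_span (Or.inr ⟨e, he, rfl⟩)))
  obtain ⟨e1, e2, e3, e4, e5⟩ := map_stRelGen h' q
  exact exists_stPoint e1 e2 e3 e4 e5

lemma nVar_one_notMem_stKernel (Z : Set E) (q : T) :
    (nVar q 1 : MvPowerSeries (StVar T E) k) ∉ stKernel Z := by
  rw [nVar, stKernel, X_mem_paramKernel]
  simp [stParam, stCoord]

universe u in
lemma exists_mul_mem_of_forall_hom {A : Type u} [CommRing A] {K I : Ideal A} [K.IsPrime] {f : A}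
    (h : ∀ (R : Type u) [CommRing R] (χ : A →+* R), I ≤ RingHom.ker χ →
      (∀ u ∉ K, IsUnit (χ u)) → χ f = 0) : ∃ u ∉ K, u * f ∈ I := by
  let J := I.map (algebraMap A (Localization.AtPrime K))
  have hf := h (Localization.AtPrime K ⧸ J)
    ((Ideal.Quotient.mk J).comp (algebraMap A (Localization.AtPrime K)))
    (fun x hx => RingHom.mem_ker.mpr
      (Ideal.Quotient.eq_zero_iff_mem.mpr (Ideal.mem_map_of_mem _ hx)))
    fun u hu => (IsLocalization.map_units (Localization.AtPrime K) (⟨u, hu⟩ : K.primeCompl)).map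
      (Ideal.Quotient.mk J)
  rw [RingHom.comp_apply, Ideal.Quotient.eq_zero_iff_mem,
    IsLocalization.algebraMap_mem_map_algebraMap_iff K.primeCompl] at hf
  obtain ⟨u, hu, hmul⟩ := hf
  exact ⟨u, hu, hmul⟩

/-- **Locally at `K` the relations generate `K`.** -/
theorem exists_mul_mem_stRelIdeal {Z : Set E} {f : MvPowerSeries (StVar T E) k}
    (hf : f ∈ stKernel Z) : ∃ u ∉ stKernel Z, u * f ∈ stRelIdeal Z := by
  refine exists_mul_mem_of_forall_hom fun R _ χ h' hunit => ?_
  exact RingHom.mem_ker.mp <| stKernel_le_ker Z χ (fun q => by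
    obtain ⟨v, hv⟩ := hunit _ (nVar_one_notMem_stKernel Z q)
    obtain ⟨e1, e2, e3, e4, e5⟩ := map_stRelGen h' q
    have hvi : χ (nVar q 1) * (↑v⁻¹ : R) = 1 := by rw [← hv, Units.mul_inv]
    refine ⟨1, χ (nVar q 0) * ↑v⁻¹, χ (nVar q 1), χ (pVar q 1), ?_, by ring, ?_, ?_, by ring, ?_⟩
    · linear_combination -(χ (nVar q 0)) * hvi
    · linear_combination ↑v⁻¹ * ↑v⁻¹ * χ (nVar q 1) * e4 -
        (χ (nVar q 2)) * (1 + χ (nVar q 1) * ↑v⁻¹) * hvi
    · linear_combination -↑v⁻¹ * e1 - χ (pVar q 0) * hvi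
    · linear_combination ↑v⁻¹ * ↑v⁻¹ * (χ (nVar q 1) * e3 + χ (pVar q 1) * e4) -
        (χ (pVar q 2)) * (1 + χ (nVar q 1) * ↑v⁻¹) * hvi
    ) (fun e he => RingHom.mem_ker.mp (h' (Ideal.subset_span (Or.inr ⟨e, he, rfl⟩)))) hf

end FermatLib.MLT.LocQ
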