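import Fermat.Agent.MLT.LocQSteinberg
import Fermat.Agent.MLT.LocQHeight
import Fermat.Agent.MLT.SupportQuadric
import Mathlib.RingTheory.MvPowerSeries.Rename

/-!
# The characteristic zero Steinberg component is unique

In `O⟦X⟧`, with a traceless pair `(N, P)` at each `q`, the relations `Q(N) = 0`, `Q(P) = e²`,
`P N = e N` (`e` in the maximal ideal), together with the vanishing of a set `Z` of further
variables, have only one component of full dimension not containing `ϖ`, and it passes through
every `O`-point with all `N ≠ 0`.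

Proof: a full prime reduces to `stKernel` mod `ϖ` (`stKernel_le_of_isPrime` and a dimension
count), and locally there the relations and `ϖ` generate (`exists_mul_mem_stRelIdeal`); so any two
full primes agree by Krull's intersection theorem. Inside a point with all `N ≠ 0` three of the
six relations at each `q` imply the others, so some full prime lies below the point.
-/

set_option autoImplicit false

namespace FermatLib.MLT.LocQ

open IsLocalRing

/-- The relations at one prime: `Q(n)`, `Q(p) - e²` and the entries of `P N - e N`. -/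
def stLiftGen {R : Type*} [CommRing R] (n p : Fin 3 → R) (e : R) : Fin 6 → R :=
  ![n 0 ^ 2 + n 1 * n 2, p 0 ^ 2 + p 1 * p 2 - e ^ 2,
    p 0 * n 0 + p 1 * n 2 - e * n 0, p 0 * n 1 - p 1 * n 0 - e * n 1,
    p 2 * n 0 - p 0 * n 2 - e * n 2, p 2 * n 1 + p 0 * n 0 + e * n 0]

variable {O : Type} [CommRing O] [IsDomain O] [IsDiscreteValuationRing O]
  [IsAdicComplete (maximalIdeal O) O] {σ T : Type} [Fintype σ] [Fintype T]

/-- The variables at `q`. -/
noncomputable def stLiftVars (v : T × Fin 6 → σ) (q : T) (j : Fin 6) : MvPowerSeries σ O :=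
  MvPowerSeries.X (v (q, j))

/-- The relation ideal. -/
noncomputable def stLiftIdeal (v : T × Fin 6 → σ) (e : T → O) (Z : Finset σ) :
    Ideal (MvPowerSeries σ O) :=
  Ideal.span ((Set.range fun qi : T × Fin 6 =>
      stLiftGen (fun j : Fin 3 => stLiftVars v qi.1 (Fin.castAdd 3 j))
        (fun j : Fin 3 => stLiftVars v qi.1 (Fin.natAdd 3 j)) (MvPowerSeries.C (e qi.1)) qi.2) ∪
    MvPowerSeries.X '' (Z : Set σ))

omit [IsAdicComplete (maximalIdeal O) O] [Fintype σ] [Fintype T] in
private lemma mem_stLiftIdeal_gen (v : T × Fin 6 → σ) (e : T → O) (Z : Finset σ) (q : T)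
    (i : Fin 6) :
    stLiftGen (fun j : Fin 3 => stLiftVars v q (Fin.castAdd 3 j))
      (fun j : Fin 3 => stLiftVars v q (Fin.natAdd 3 j)) (MvPowerSeries.C (e q)) i ∈
        stLiftIdeal v e Z :=
  Ideal.subset_span (Or.inl ⟨(q, i), rfl⟩)

private lemma map_stLiftGen {R S : Type*} [CommRing R] [CommRing S] (f : R →+* S)
    (n p : Fin 3 → R) (e : R) (i : Fin 6) :
    f (stLiftGen n p e i) = stLiftGen (fun j => f (n j)) (fun j => f (p j)) (f e) i := by
  fin_cases i <;> simp [stLiftGen]

private lemma minor_mem_stKernel {E k : Type} [Field k] [Finite T] [Finite E] (Z : Set E) (q : T)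
    (i j : Fin 3) :
    nVar q i * pVar q j - nVar q j * pVar q i ∈ stKernel (T := T) (k := k) Z := by
  have h : ∀ l : Fin 5, stRelGen q l ∈ stKernel (T := T) (k := k) Z := fun l =>
    stRelIdeal_le_stKernel Z (Ideal.subset_span (Or.inl ⟨(q, l), rfl⟩))
  have e0 := h 0
  have e1 := h 1
  have e2 := h 2
  simp only [stRelGen, Matrix.cons_val_zero, Matrix.cons_val_one, Matrix.cons_val] at e0 e1 e2
  have n0 := Submodule.neg_mem _ e0
  have n1 := Submodule.neg_mem _ e1
  have n2 := Submodule.neg_mem _ e2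
  rw [neg_sub] at n0 n1 n2
  match i, j with
  | 0, 0 | 1, 1 | 2, 2 => simp
  | 0, 1 => exact e0
  | 0, 2 => exact e1
  | 1, 2 => exact e2
  | 1, 0 => exact n0
  | 2, 0 => exact n1
  | 2, 1 => exact n2

/-- Where `n 1` is invertible three of the six relations imply the others. -/
private lemma stLiftGen_mem_of_one {R : Type*} [CommRing R] {P : Ideal R} (hP : P.IsPrime)
    {n p : Fin 3 → R} {e : R} (hn : n 1 ∉ P) (g0 : stLiftGen n p e 0 ∈ P)
    (g3 : stLiftGen n p e 3 ∈ P) (g5 : stLiftGen n p e 5 ∈ P) (i : Fin 6) :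
    stLiftGen n p e i ∈ P := by
  have cancel : ∀ x, n 1 * x ∈ P → x ∈ P := fun x hx => (hP.mem_or_mem hx).resolve_left hn
  match i with
  | 0 => exact g0
  | 3 => exact g3
  | 5 => exact g5
  | 1 =>
    refine cancel _ ?_
    have e1 : n 1 * stLiftGen n p e 1 =
        p 1 * stLiftGen n p e 5 + (p 0 + e) * stLiftGen n p e 3 := by
      simp [stLiftGen]; ring
    exact e1 ▸ add_mem (P.mul_mem_left _ g5) (P.mul_mem_left _ g3)
  | 2 =>
    refine cancel _ ?_
    have e2 : n 1 * stLiftGen n p e 2 =
        n 0 * stLiftGen n p e 3 + p 1 * stLiftGen n p e 0 := by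
      simp [stLiftGen]; ring
    exact e2 ▸ add_mem (P.mul_mem_left _ g3) (P.mul_mem_left _ g0)
  | 4 =>
    refine cancel _ ?_
    have e4 : n 1 * stLiftGen n p e 4 =
        n 0 * stLiftGen n p e 5 - (p 0 + e) * stLiftGen n p e 0 := by
      simp [stLiftGen]; ring
    exact e4 ▸ sub_mem (P.mul_mem_left _ g5) (P.mul_mem_left _ g0)

/-- Where `n 2` is invertible three of the six relations imply the others. -/
private lemma stLiftGen_mem_of_two {R : Type*} [CommRing R] {P : Ideal R} (hP : P.IsPrime)
    {n p : Fin 3 → R} {e : R} (hn : n 2 ∉ P) (g0 : stLiftGen n p e 0 ∈ P)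
    (g2 : stLiftGen n p e 2 ∈ P) (g4 : stLiftGen n p e 4 ∈ P) (i : Fin 6) :
    stLiftGen n p e i ∈ P := by
  have cancel : ∀ x, n 2 * x ∈ P → x ∈ P := fun x hx => (hP.mem_or_mem hx).resolve_left hn
  match i with
  | 0 => exact g0
  | 2 => exact g2
  | 4 => exact g4
  | 1 =>
    refine cancel _ ?_
    have e1 : n 2 * stLiftGen n p e 1 =
        p 2 * stLiftGen n p e 2 - (p 0 - e) * stLiftGen n p e 4 := by
      simp [stLiftGen]; ring
    exact e1 ▸ sub_mem (P.mul_mem_left _ g2) (P.mul_mem_left _ g4)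
  | 3 =>
    refine cancel _ ?_
    have e3 : n 2 * stLiftGen n p e 3 =
        (p 0 - e) * stLiftGen n p e 0 - n 0 * stLiftGen n p e 2 := by
      simp [stLiftGen]; ring
    exact e3 ▸ sub_mem (P.mul_mem_left _ g0) (P.mul_mem_left _ g2)
  | 5 =>
    refine cancel _ ?_
    have e5 : n 2 * stLiftGen n p e 5 =
        p 2 * stLiftGen n p e 0 - n 0 * stLiftGen n p e 4 := by
      simp [stLiftGen]; ring
    exact e5 ▸ sub_mem (P.mul_mem_left _ g0) (P.mul_mem_left _ g4)

/-- Series over `O` modulo `ϖ`, with the variables named as in `stKernel`. -/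
private noncomputable def stReduce {E : Type} (g : σ ≃ StVar T E) :
    MvPowerSeries σ O →+* MvPowerSeries (StVar T E) (ResidueField O) :=
  ((MvPowerSeries.renameEquiv (ResidueField O) g).toRingEquiv.toRingHom).comp
    (MvPowerSeries.map (residue O))

omit [IsAdicComplete (maximalIdeal O) O] [Fintype σ] [Fintype T] in
private lemma stReduce_X {E : Type} (g : σ ≃ StVar T E) (i : σ) :
    stReduce (O := O) g (MvPowerSeries.X i) = MvPowerSeries.X (g i) := by
  simp [stReduce]

omit [IsAdicComplete (maximalIdeal O) O] [Fintype σ] [Fintype T] in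
private lemma stReduce_C {E : Type} (g : σ ≃ StVar T E) (c : O) :
    stReduce g (MvPowerSeries.C c) = MvPowerSeries.C (residue O c) := by
  simp [stReduce]

omit [IsAdicComplete (maximalIdeal O) O] [Fintype σ] [Fintype T] in
private lemma stReduce_surjective {E : Type} (g : σ ≃ StVar T E) :
    Function.Surjective (stReduce (O := O) g) := by
  refine (MvPowerSeries.renameEquiv (ResidueField O) g).surjective.comp fun f => ?_
  exact ⟨fun m => Function.surjInv residue_surjective (f m),
    funext fun m => Function.surjInv_eq residue_surjective (f m)⟩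

omit [IsAdicComplete (maximalIdeal O) O] [Fintype σ] [Fintype T] in
private lemma stReduce_eq_zero {E : Type} (g : σ ≃ StVar T E) {ϖ : O}
    (hϖ : maximalIdeal O = Ideal.span {ϖ}) {f : MvPowerSeries σ O} (hf : stReduce g f = 0) :
    ∃ f₁, f = MvPowerSeries.C ϖ * f₁ := by
  have hf' : MvPowerSeries.map (residue O) f = 0 :=
    (map_eq_zero_iff _ (MvPowerSeries.renameEquiv (ResidueField O) g).injective).mp hf
  have h : ∀ m, ∃ a, MvPowerSeries.coeff m f = ϖ * a := fun m => by
    have hm := congrArg (MvPowerSeries.coeff m) hf'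
    rw [MvPowerSeries.coeff_map, map_zero, residue_eq_zero_iff, hϖ,
      Ideal.mem_span_singleton'] at hm
    obtain ⟨a, ha⟩ := hm
    exact ⟨a, by rw [← ha, mul_comm]⟩
  choose a ha using h
  refine ⟨a, MvPowerSeries.ext fun m => ?_⟩
  rw [MvPowerSeries.coeff_C_mul, ha]
  rfl

/-- **Uniqueness of the Steinberg component.** -/
theorem le_ker_of_stLift (v : T × Fin 6 → σ) (hv : Function.Injective v) (e : T → O)
    (he : ∀ q, e q ∈ maximalIdeal O) (Z : Finset σ) (hZ : ∀ z ∈ Z, z ∉ Set.range v)
    {Q : Ideal (MvPowerSeries σ O)} [Q.IsPrime] (hQ : stLiftIdeal v e Z ≤ Q)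
    {ϖ : O} (hϖ : maximalIdeal O = Ideal.span {ϖ}) (hϖQ : MvPowerSeries.C ϖ ∉ Q)
    (hdim : ((Fintype.card σ - 3 * Fintype.card T - Z.card + 1 : ℕ) : WithBot ℕ∞) ≤
      ringKrullDim (MvPowerSeries σ O ⧸ Q))
    (y : MvPowerSeries σ O →+* O) (hyC : ∀ c, y (MvPowerSeries.C c) = c)
    (hy : stLiftIdeal v e Z ≤ RingHom.ker y)
    (hn : ∀ q, ∃ j : Fin 3, y (stLiftVars v q (Fin.castAdd 3 j)) ≠ 0) :
    Q ≤ RingHom.ker y := by
  classical
  -- the variables
  let E : Type := {x : σ // x ∉ Set.range v}
  let g : σ ≃ StVar T E := (Equiv.ofBijective (Sum.elim v Subtype.val : StVar T E → σ)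
    ⟨hv.sumElim Subtype.val_injective fun a b h => b.2 ⟨a, h⟩, fun x => by
      by_cases hx : x ∈ Set.range v
      · obtain ⟨a, ha⟩ := hx
        exact ⟨Sum.inl a, ha⟩
      · exact ⟨Sum.inr ⟨x, hx⟩, rfl⟩⟩).symm
  have hgv : ∀ a, g (v a) = Sum.inl a := fun a => (Equiv.symm_apply_eq _).mpr rfl
  have hgx : ∀ x : E, g x.1 = Sum.inr x := fun x => (Equiv.symm_apply_eq _).mpr rfl
  let ψ := stReduce (O := O) g
  let Z' : Set E := {x | x.1 ∈ Z}
  let I := stLiftIdeal v e Z
  have hψn : ∀ q j, ψ (stLiftVars v q (Fin.castAdd 3 j)) = nVar q j := fun q j => by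
    rw [stLiftVars, stReduce_X, hgv]; rfl
  have hψp : ∀ q j, ψ (stLiftVars v q (Fin.natAdd 3 j)) = pVar q j := fun q j => by
    rw [stLiftVars, stReduce_X, hgv]; rfl
  have hψe : ∀ q, ψ (MvPowerSeries.C (e q)) = 0 := fun q => by
    rw [stReduce_C, (residue_eq_zero_iff _).mpr (he q), map_zero]
  -- the relations mod `ϖ`
  have hrel : stRelIdeal Z' ≤ I.map ψ := by
    rw [stRelIdeal, Ideal.span_le]
    rintro _ (⟨⟨q, i⟩, rfl⟩ | ⟨x, hx, rfl⟩)
    · have hb : ∀ i, stLiftGen (nVar q) (pVar q) 0 i ∈ I.map ψ := fun i => by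
        have h := Ideal.mem_map_of_mem ψ (mem_stLiftIdeal_gen v e Z q i)
        rw [map_stLiftGen, hψe, funext (hψn q), funext (hψp q)] at h
        exact h
      have h0 := hb 0
      have h1 := hb 1
      have h2 := hb 2
      have h3 := hb 3
      have h4 := hb 4
      have h5 := hb 5
      simp only [stLiftGen, Matrix.cons_val_zero, Matrix.cons_val_one, Matrix.cons_val,
        zero_pow two_ne_zero, sub_zero, add_zero, zero_mul] at h0 h1 h2 h3 h4 h5
      rw [SetLike.mem_coe]
      fin_cases i <;> simp only [stRelGen, quad]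
      · convert Submodule.neg_mem _ h3 using 1
        simp; ring
      · convert h4 using 1
        simp; ring
      · convert sub_mem h5 h2 using 1
        simp; ring
      · simpa using h0
      · simpa using h1
    · have h := Ideal.mem_map_of_mem ψ
        (show MvPowerSeries.X x.1 ∈ I from Ideal.subset_span (Or.inr ⟨x.1, hx, rfl⟩))
      rw [stReduce_X, hgx] at h
      exact h
  let Kt := (stKernel Z').comap ψ
  have hϖKt : MvPowerSeries.C ϖ ∈ Kt := by
    rw [Ideal.mem_comap, stReduce_C,
      (residue_eq_zero_iff _).mpr (hϖ ▸ Ideal.mem_span_singleton_self ϖ), map_zero]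
    exact zero_mem _
  -- the dimension of the reduced kernel
  have hnm : ∀ i, (MvPowerSeries.X i : MvPowerSeries σ O) ∈ maximalIdeal _ := fun i => by
    rw [mem_maximalIdeal, mem_nonunits_iff, MvPowerSeries.isUnit_iff_constantCoeff,
      MvPowerSeries.constantCoeff_X]
    exact not_isUnit_zero
  have hϖm : MvPowerSeries.C ϖ ∈ maximalIdeal (MvPowerSeries σ O) := by
    rw [mem_maximalIdeal, mem_nonunits_iff, MvPowerSeries.isUnit_iff_constantCoeff,
      MvPowerSeries.constantCoeff_C, ← mem_nonunits_iff, ← mem_maximalIdeal]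
    exact hϖ ▸ Ideal.mem_span_singleton_self ϖ
  let rest : Finset σ := Finset.univ \ (Finset.univ.image v ∪ Z)
  have hrest : rest.card + (6 * Fintype.card T + Z.card) = Fintype.card σ := by
    have hd : Disjoint (Finset.univ.image v) Z := Finset.disjoint_right.mpr fun z hz hz' =>
      hZ z hz (by simpa using hz')
    rw [← Finset.card_univ (α := σ), ← Finset.card_sdiff_add_card_eq_card
      (Finset.subset_univ (Finset.univ.image v ∪ Z)), Finset.card_union_of_disjoint hd,
      Finset.card_image_of_injective _ hv, Finset.card_univ, Fintype.card_prod, Fintype.card_fin,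
      mul_comm (Fintype.card T) 6]
  have hdimK : ringKrullDim (MvPowerSeries σ O ⧸ Kt) ≤
      (Fintype.card σ - 3 * Fintype.card T - Z.card : ℕ) := by
    let V : T → Ideal (MvPowerSeries σ O) := fun q => quadVars
      (fun j : Fin 3 => stLiftVars v q (Fin.castAdd 3 j))
      (fun j : Fin 3 => stLiftVars v q (Fin.natAdd 3 j))
    have hq : ∀ q ∈ (Finset.univ : Finset T), Cuts (V q) Kt 3 := fun q _ => by
      refine (cuts_quadSt (n := fun j : Fin 3 => stLiftVars v q (Fin.castAdd 3 j))
        (p := fun j : Fin 3 => stLiftVars v q (Fin.natAdd 3 j)) (fun j => hnm _)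
        fun j => hnm _).mono (quadSt_le ?_ ?_ fun i j => ?_) le_rfl
      · rw [Ideal.mem_comap]
        simp only [qForm, map_add, map_mul, map_pow]
        rw [hψn, hψn, hψn]
        exact stRelIdeal_le_stKernel Z' (Ideal.subset_span (Or.inl ⟨(q, 3), rfl⟩))
      · rw [Ideal.mem_comap]
        simp only [qForm, map_add, map_mul, map_pow]
        rw [hψp, hψp, hψp]
        exact stRelIdeal_le_stKernel Z' (Ideal.subset_span (Or.inl ⟨(q, 4), rfl⟩))
      · rw [Ideal.mem_comap, map_sub, map_mul, map_mul, hψn, hψn, hψp, hψp]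
        exact minor_mem_stKernel Z' q i j
    have h1 := Cuts.finsetSup Finset.univ hq
    let W : Ideal (MvPowerSeries σ O) :=
      Ideal.span (insert (MvPowerSeries.C ϖ) (MvPowerSeries.X '' (Z : Set σ)))
    have h2 : Cuts W Kt 0 := by
      refine ⟨∅, by simp, by simp, le_trans (Ideal.span_le.mpr ?_)
        (le_sup_left.trans Ideal.le_radical)⟩
      rintro x (rfl | ⟨z, hz, rfl⟩)
      · exact hϖKt
      · rw [SetLike.mem_coe, Ideal.mem_comap, stReduce_X, hgx ⟨z, hZ z hz⟩]
        exact stRelIdeal_le_stKernel Z' (Ideal.subset_span (Or.inr ⟨⟨z, hZ z hz⟩, hz, rfl⟩))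
    have h3 : Cuts (maximalIdeal _) (Finset.univ.sup V ⊔ W) rest.card := by
      refine ⟨rest.image MvPowerSeries.X, Finset.card_image_le, ?_, ?_⟩
      · rw [Finset.coe_image]
        rintro _ ⟨i, -, rfl⟩
        exact hnm i
      · refine le_trans ?_ Ideal.le_radical
        intro f hf
        have h0 : MvPowerSeries.constantCoeff f ∈ maximalIdeal O := by
          rw [mem_maximalIdeal, mem_nonunits_iff, MvPowerSeries.isUnit_iff_constantCoeff] at hf
          exact hf
        rw [hϖ, Ideal.mem_span_singleton'] at h0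
        obtain ⟨a, ha⟩ := h0
        rw [show f = MvPowerSeries.C (MvPowerSeries.constantCoeff f) +
          (f - MvPowerSeries.C (MvPowerSeries.constantCoeff f)) by ring]
        refine add_mem ?_ ?_
        · rw [← ha, map_mul]
          exact Ideal.mem_sup_left (Ideal.mem_sup_right
            (Ideal.mul_mem_left _ _ (Ideal.subset_span (Set.mem_insert _ _))))
        · refine (Ideal.span_le.mpr ?_ :
            Ideal.span (Set.range MvPowerSeries.X) ≤ _) (mem_span_X_of_constantCoeff (by simp))
          rintro _ ⟨i, rfl⟩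
          by_cases hi : i ∈ Finset.univ.image v ∪ Z
          · rcases Finset.mem_union.mp hi with h | h
            · obtain ⟨⟨q, k⟩, -, rfl⟩ := Finset.mem_image.mp h
              refine Ideal.mem_sup_left (Ideal.mem_sup_left
                (Finset.le_sup (Finset.mem_univ q) (f := V) ?_))
              refine Fin.addCases (m := 3) (n := 3) (fun j => ?_) (fun j => ?_) k
              · exact Ideal.mem_sup_left (Ideal.subset_span ⟨j, rfl⟩)
              · exact Ideal.mem_sup_right (Ideal.subset_span ⟨j, rfl⟩)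
            · exact Ideal.mem_sup_left (Ideal.mem_sup_right
                (Ideal.subset_span (Set.mem_insert_of_mem _ ⟨i, h, rfl⟩)))
          · exact Ideal.mem_sup_right (Ideal.subset_span
              (Finset.mem_coe.mpr (Finset.mem_image_of_mem _
                (Finset.mem_sdiff.mpr ⟨Finset.mem_univ i, hi⟩))))
    refine ((h1.sup h2).trans h3).mono ?_ ?_ |>.ringKrullDim_quotient_le
    · exact sup_le (Finset.sup_le fun q _ => le_rfl) le_rfl
    · simp only [Finset.sum_const, Finset.card_univ, smul_eq_mul, add_zero]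
      omega
  -- a full prime reduces into the kernel
  have hle : ∀ P : Ideal (MvPowerSeries σ O), P.IsPrime → I ≤ P →
      ((Fintype.card σ - 3 * Fintype.card T - Z.card + 1 : ℕ) : WithBot ℕ∞) ≤
        ringKrullDim (MvPowerSeries σ O ⧸ P) → P ≤ Kt := by
    intro P hP hIP hd
    obtain ⟨P', hP', hPP', hϖP', hd'⟩ := exists_prime_mem_ringKrullDim hd hϖm
    have hker : RingHom.ker ψ ≤ P' := fun f hf => by
      obtain ⟨f₁, rfl⟩ := stReduce_eq_zero g hϖ (RingHom.mem_ker.mp hf)
      exact Ideal.mul_mem_right _ _ hϖP'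
    haveI : (P'.map ψ).IsPrime := Ideal.map_isPrime_of_surjective (stReduce_surjective g) hker
    have h1 : Kt ≤ P' := fun f hf => by
      have h := stKernel_le_of_isPrime (hrel.trans (Ideal.map_mono (hIP.trans hPP'))) hf
      rw [← Ideal.mem_comap, Ideal.comap_map_of_surjective _ (stReduce_surjective g),
        ← RingHom.ker_eq_comap_bot, sup_of_le_left hker] at h
      exact h
    rw [Nat.add_sub_cancel] at hd'
    exact eq_of_le_of_ringKrullDim_quotient_eq h1 hdimK hd' ▸ hPP'
  -- locally at the kernel the relations and `ϖ` generate `Q`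
  have hQKt := hle Q inferInstance hQ hdim
  have hiter : ∀ (n : ℕ), ∀ f ∈ Q, ∃ u ∉ Kt, ∃ b, u * f - MvPowerSeries.C ϖ ^ n * b ∈ I := by
    intro n
    induction n with
    | zero =>
      intro f _
      exact ⟨1, fun h => (inferInstance : Kt.IsPrime).ne_top ((Ideal.eq_top_iff_one _).mpr h), f,
        by simp⟩
    | succ n ih =>
      intro f hf
      obtain ⟨w, hw, hwf⟩ := exists_mul_mem_stRelIdeal (hQKt hf)
      obtain ⟨u, rfl⟩ := stReduce_surjective g w
      obtain ⟨i, hi, hiu⟩ := (Ideal.mem_map_iff_of_surjective ψ (stReduce_surjective g)).mp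
        (hrel hwf)
      obtain ⟨f₁, hf₁⟩ := stReduce_eq_zero g hϖ (f := u * f - i)
        (show ψ (u * f - i) = 0 by rw [map_sub, map_mul, hiu]; exact sub_self _)
      have hf₁Q : f₁ ∈ Q := by
        refine (‹Q.IsPrime›.mem_or_mem ?_).resolve_left hϖQ
        rw [← hf₁]
        exact sub_mem (Ideal.mul_mem_left _ _ hf) (hQ hi)
      obtain ⟨u', hu', b, hb⟩ := ih f₁ hf₁Q
      refine ⟨u' * u, fun h => ((inferInstance : Kt.IsPrime).mem_or_mem h).elim hu' hw, b, ?_⟩
      have e : u' * u * f - MvPowerSeries.C ϖ ^ (n + 1) * b =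
          u' * i + MvPowerSeries.C ϖ * (u' * f₁ - MvPowerSeries.C ϖ ^ n * b) := by
        linear_combination u' * hf₁
      rw [e]
      exact add_mem (Ideal.mul_mem_left _ _ hi) (Ideal.mul_mem_left _ _ hb)
  -- three relations at each `q`
  have hn12 : ∀ q, y (stLiftVars v q (Fin.castAdd 3 1)) ≠ 0 ∨
      y (stLiftVars v q (Fin.castAdd 3 2)) ≠ 0 := fun q => by
    obtain ⟨j, hj⟩ := hn q
    by_contra h
    push Not at h
    have h0 : y (stLiftVars v q (Fin.castAdd 3 0)) ^ 2 = 0 := by
      have := RingHom.mem_ker.mp (hy (mem_stLiftIdeal_gen v e Z q 0))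
      rw [map_stLiftGen] at this
      simp only [stLiftGen, Matrix.cons_val_zero] at this
      rw [h.1, zero_mul, add_zero] at this
      exact this
    rw [pow_eq_zero_iff two_ne_zero] at h0
    fin_cases j
    exacts [hj h0, hj h.1, hj h.2]
  let idx : T → Fin 3 → Fin 6 := fun q =>
    if y (stLiftVars v q (Fin.castAdd 3 1)) ≠ 0 then ![0, 3, 5] else ![0, 2, 4]
  let s : Finset (MvPowerSeries σ O) := (Finset.univ.image fun qj : T × Fin 3 =>
      stLiftGen (fun j : Fin 3 => stLiftVars v qj.1 (Fin.castAdd 3 j))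
        (fun j : Fin 3 => stLiftVars v qj.1 (Fin.natAdd 3 j)) (MvPowerSeries.C (e qj.1))
        (idx qj.1 qj.2)) ∪ Z.image MvPowerSeries.X
  have hscard : s.card ≤ 3 * Fintype.card T + Z.card := by
    refine (Finset.card_union_le _ _).trans (add_le_add (Finset.card_image_le.trans ?_)
      Finset.card_image_le)
    rw [Finset.card_univ, Fintype.card_prod, Fintype.card_fin, mul_comm]
  obtain ⟨P, hP, hsP, hPy, hPdim⟩ := exists_isPrime_le_ker y hyC s fun x hx => by
    refine RingHom.mem_ker.mp (hy ?_)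
    rcases Finset.mem_union.mp hx with h | h
    · obtain ⟨qj, -, rfl⟩ := Finset.mem_image.mp h
      exact mem_stLiftIdeal_gen v e Z _ _
    · obtain ⟨z, hz, rfl⟩ := Finset.mem_image.mp h
      exact Ideal.subset_span (Or.inr ⟨z, hz, rfl⟩)
  have hIP : I ≤ P := by
    refine Ideal.span_le.mpr ?_
    rintro _ (⟨⟨q, i⟩, rfl⟩ | ⟨z, hz, rfl⟩)
    · have hs' : ∀ j : Fin 3, stLiftGen (fun j : Fin 3 => stLiftVars v q (Fin.castAdd 3 j))
          (fun j : Fin 3 => stLiftVars v q (Fin.natAdd 3 j)) (MvPowerSeries.C (e q)) (idx q j) ∈ P :=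
        fun j => hsP (Finset.mem_union_left _ (Finset.mem_image.mpr ⟨(q, j), Finset.mem_univ _, rfl⟩))
      rw [SetLike.mem_coe]
      by_cases h1 : y (stLiftVars v q (Fin.castAdd 3 1)) ≠ 0
      · have hidx : idx q = ![0, 3, 5] := if_pos h1
        rw [hidx] at hs'
        exact stLiftGen_mem_of_one hP (fun h => h1 (RingHom.mem_ker.mp (hPy h))) (hs' 0) (hs' 1)
          (hs' 2) i
      · have hidx : idx q = ![0, 2, 4] := if_neg h1
        rw [hidx] at hs'
        exact stLiftGen_mem_of_two hP
          (fun h => (hn12 q).resolve_left h1 (RingHom.mem_ker.mp (hPy h))) (hs' 0) (hs' 1) (hs' 2) i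
    · exact hsP (Finset.mem_union_right _ (Finset.mem_image_of_mem _ hz))
  have hPKt : P ≤ Kt := hle P hP hIP (le_trans (Nat.cast_le.mpr (by omega)) hPdim)
  -- Krull intersection
  intro f hf
  refine hPy ?_
  let K := Kt.map (Ideal.Quotient.mk P)
  haveI : K.IsPrime := Ideal.isPrime_map_quotientMk_of_isPrime hPKt
  let L := Localization.AtPrime K
  let α : MvPowerSeries σ O →+* L :=
    (algebraMap (MvPowerSeries σ O ⧸ P) L).comp (Ideal.Quotient.mk P)
  have hα : ∀ x, x ∈ Kt ↔ α x ∈ maximalIdeal L := fun x => by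
    rw [RingHom.comp_apply, IsLocalization.AtPrime.to_map_mem_maximal_iff L K]
    refine ⟨fun h => Ideal.mem_map_of_mem _ h, fun h => ?_⟩
    rw [← Ideal.mem_comap, Ideal.comap_map_of_surjective _ Ideal.Quotient.mk_surjective,
      ← RingHom.ker_eq_comap_bot, Ideal.mk_ker, sup_of_le_left hPKt] at h
    exact h
  have hmem : ∀ n : ℕ, α f ∈ maximalIdeal L ^ n := fun n => by
    obtain ⟨u, hu, b, hb⟩ := hiter n f hf
    have h0 : α (u * f - MvPowerSeries.C ϖ ^ n * b) = 0 := by
      rw [RingHom.comp_apply, Ideal.Quotient.eq_zero_iff_mem.mpr (hIP hb), map_zero]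
    rw [map_sub, map_mul, map_mul, map_pow, sub_eq_zero] at h0
    have hun : IsUnit (α u) :=
      IsLocalRing.notMem_maximalIdeal.mp fun h => hu ((hα u).mpr h)
    refine (Ideal.unit_mul_mem_iff_mem _ hun).mp ?_
    rw [h0]
    exact Ideal.mul_mem_right _ _ (Ideal.pow_mem_pow ((hα _).mp hϖKt) n)
  haveI : IsNoetherianRing L := IsLocalization.isNoetherianRing K.primeCompl L inferInstance
  have hz : α f = 0 := by
    by_contra h0
    have hK := @Ideal.iInf_pow_eq_bot_of_isLocalRing L _ (maximalIdeal L) inferInstance inferInstance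
      (maximalIdeal.isMaximal L).ne_top
    have h1 : α f ∈ ⨅ n : ℕ, maximalIdeal L ^ n := by
      rw [Submodule.mem_iInf]
      exact hmem
    rw [hK] at h1
    exact h0 h1
  rw [RingHom.comp_apply,
    map_eq_zero_iff _ (IsLocalization.injective L K.primeCompl_le_nonZeroDivisors),
    Ideal.Quotient.eq_zero_iff_mem] at hz
  exact hz

end FermatLib.MLT.LocQ
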