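import Fermat.Agent.MLT.PatchModule
import Fermat.Agent.MLT.PatchSupport
import Fermat.Agent.MLT.PowerSeriesComplete
import Fermat.Agent.Basic.PatchingDescent

/-!
# Ultralimits of modules and the relations of a patching datum
-/

set_option autoImplicit false

namespace FermatLib.MLT

open Filter IsLocalRing

/-! ### Limits in finite modules -/

section ModuleLimit

variable {R : Type} [CommRing R] [IsLocalRing R] {M : Type} [AddCommGroup M] [Module R M]

/-- `x` is the limit of `a` in the adic topology of a module. -/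
def IsULimM (a : ℕ → M) (x : M) : Prop :=
  ∀ k, ∀ᶠ n in (patchUltrafilter : Filter ℕ),
    a n - x ∈ maximalIdeal R ^ k • (⊤ : Submodule R M)

lemma IsULimM.sum {ι : Type} (t : Finset ι) {a : ι → ℕ → M} {x : ι → M}
    (h : ∀ i, IsULimM (R := R) (a i) (x i)) :
    IsULimM (R := R) (fun n => ∑ i ∈ t, a i n) (∑ i ∈ t, x i) := by
  intro k
  filter_upwards [(eventually_all_finset t).mpr fun i _ => h i k] with n hn
  rw [← Finset.sum_sub_distrib]
  exact Submodule.sum_mem _ hn

lemma IsULimM.const (x : M) : IsULimM (R := R) (fun _ => x) x := fun k =>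
  Eventually.of_forall fun _ => by simp

end ModuleLimit

lemma IsULim.map {A B : Type} [CommRing A] [IsLocalRing A] [CommRing B] [IsLocalRing B]
    {a : ℕ → A} {s : A} (h : IsULim a s) (f : A →+* B) [IsLocalHom f] :
    IsULim (fun n => f (a n)) (f s) := by
  intro k
  filter_upwards [h k] with n hn
  have := Ideal.mem_map_of_mem f hn
  rw [Ideal.map_pow, map_sub] at this
  exact Ideal.pow_right_mono ((IsLocalRing.local_hom_TFAE f).out 0 2 |>.mp ‹IsLocalHom f›) k this

/-! ### The datum as a patching system -/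

variable {𝒪 : Type} [CommRing 𝒪] {ℓ r : ℕ} {R : Type} [CommRing R] [Algebra 𝒪 R]
  {M : Type} [AddCommGroup M] [Module R M] (D : Algebra.PatchingDatum 𝒪 ℓ r R M)

/-- The relation ideal `((1 + X_j) ^ ℓ ^ n - 1)_j`. -/
noncomputable def datumRel (𝒪 : Type) [CommRing 𝒪] (ℓ r n : ℕ) : Ideal (MvPowerSeries (Fin r) 𝒪) :=
  Ideal.span (Set.range fun j : Fin r =>
    ((1 + MvPowerSeries.X j) ^ (ℓ ^ n) - 1 : MvPowerSeries (Fin r) 𝒪))

section

variable [IsLocalRing 𝒪]

instance : IsLocalHom (MvPowerSeries.constantCoeff : MvPowerSeries (Fin r) 𝒪 →+* 𝒪) :=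
  ⟨fun _ h => MvPowerSeries.isUnit_iff_constantCoeff.mpr h⟩

lemma datumRel_le_pow (hℓ : (ℓ : 𝒪) ∈ maximalIdeal 𝒪) (n : ℕ) :
    datumRel 𝒪 ℓ r n ≤ maximalIdeal (MvPowerSeries (Fin r) 𝒪) ^ (n + 1) := by
  refine Ideal.span_le.mpr ?_
  rintro _ ⟨j, rfl⟩
  induction n with
  | zero =>
    simp [MvPowerSeries.isUnit_iff_constantCoeff]
  | succ n ih =>
    set a : MvPowerSeries (Fin r) 𝒪 := (1 + MvPowerSeries.X j) ^ (ℓ ^ n) with ha
    show (1 + MvPowerSeries.X j) ^ (ℓ ^ (n + 1)) - 1 ∈ maximalIdeal _ ^ (n + 1 + 1)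
    rw [pow_succ ℓ n, pow_mul, ← ha, ← geom_sum_mul, pow_succ' (maximalIdeal _) (n + 1)]
    refine Ideal.mul_mem_mul ?_ ih
    rw [mem_maximalIdeal, mem_nonunits_iff, MvPowerSeries.isUnit_iff_constantCoeff,
      ← mem_nonunits_iff, ← mem_maximalIdeal]
    simpa [ha] using hℓ

end

/-! ### The module at level zero -/

/-! ### The limit level -/

end FermatLib.MLT
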