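import Fermat.Agent.MLT.LevelBookkeeping
import Fermat.Agent.MLT.ModTransfer.Residual

/-!
# Weak modularity

The liftings produce an eigenform of some squarefree level with the eigenvalues of the curve
outside a finite set; this gives modularity at the exact conductor.
-/

set_option autoImplicit false

open WeierstrassCurve

namespace FermatLib.MLT

/-- An eigenform of squarefree level with the eigenvalues of `W` outside a finite set. -/
def IsWeaklyModular (W : WeierstrassCurve ℤ) : Prop :=
  ∃ (N : ℕ) (S : Finset ℕ) (f : CuspForm (CongruenceSubgroup.Gamma0 N) 2),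
    Squarefree N ∧ f.IsNormalizedEigenform ∧
      ∀ ℓ : ℕ, ℓ.Prime → W.IsGoodPrimeFor ℓ → ¬ ℓ ∣ N → ℓ ∉ S →
        ModularFormClass.qCoeff f ℓ = (W.apOfModel ℓ : ℂ)

/-- Weak modularity gives exact conductor modularity. -/
theorem exactConductor_of_weaklyModular (hattach : Galois.PadicAttachment)
    (h35 : NewformFrobeniusAtBadPrime) {W : WeierstrassCurve ℤ} (hΔ : W.Δ ≠ 0)
    (h : IsWeaklyModular W) : Mlc1IsModularModelOfExactConductorLevel W := by
  obtain ⟨N, S, f, hsq, hf, hc⟩ := h
  exact exactConductor_of_squarefree_level hattach h35 hΔ hsq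
    (isModularModelOfLevel_of_forall_notMem hattach hΔ hf S hc)

end FermatLib.MLT
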