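import Fermat.Agent.MLT.ResidualCurveExt
import Fermat.Agent.EC.FlatMult
import Fermat.Agent.EC.FlatGood
import Fermat.Agent.Galois.FlatBaseChange
import Fermat.Agent.Basic.FreyCurveFacts

/-!
# Flatness at `p` of the residual representation of a curve

For a model over `ℤ` semistable at an odd prime `p` with `p ∣ v_p(Δ)` (in particular good at `p`)
the residual representation, with any finite field of coefficients, is flat at `p`.
-/

set_option autoImplicit false
set_option linter.style.haveILetI false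

noncomputable section

open WeierstrassCurve WeierstrassCurve.Affine
open scoped WeierstrassCurve.Affine

namespace FermatLib.MLT

open FermatLib.EC FermatLib.Galois

local notation "Qbar" => AlgebraicClosure ℚ
local notation "Γℚ" => (AlgebraicClosure ℚ ≃ₐ[ℚ] AlgebraicClosure ℚ)

variable (W : WeierstrassCurve ℤ) (hΔ : W.Δ ≠ 0) (p : ℕ) [Fact p.Prime]

include hΔ in
/-- The finite flat model of `E[p]`. -/
theorem hasModelAt_torsion_of_dvd_padicValInt (hp2 : p ≠ 2)
    (hss : (p : ℤ) ∣ W.Δ → ¬ (p : ℤ) ∣ W.c₄) (hv : p ∣ padicValInt p W.Δ) :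
    FlatModel.HasModelAt p
      (Submodule.torsionBy ℤ ((W.map (Int.castRingHom ℚ))⁄Qbar).Point (p : ℤ))
      (fun (σ : Γℚ) (x : Submodule.torsionBy ℤ
        ((W.map (Int.castRingHom ℚ))⁄Qbar).Point (p : ℤ)) => σ • x) := by
  haveI := isElliptic_map_rat hΔ
  have hp : p.Prime := Fact.out
  by_cases hd : (p : ℤ) ∣ W.Δ
  · obtain ⟨j, hj⟩ := hv
    obtain ⟨u, hu⟩ := padicValInt_dvd (p := p) W.Δ
    refine Flat.hasModelAt_torsionBy_intCurve_of_multiplicative hp ?_ hd (hss hd) (j := j) (u := u)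
      ?_ (by rw [← hj]; exact hu)
    · have := hp.two_le; omega
    intro hpu
    have h2 : (p : ℤ) ^ (padicValInt p W.Δ + 1) ∣ W.Δ := by
      conv_rhs => rw [hu]
      rw [pow_succ]
      exact mul_dvd_mul_left _ hpu
    rcases (padicValInt_dvd_iff (p := p) (padicValInt p W.Δ + 1) W.Δ).mp h2 with h | h
    · exact hΔ h
    · omega
  · obtain ⟨A, hA⟩ := FermatLib.Basic.exists_liesOverPrime hp
    refine Flat.hasModelAt_torsionBy_of_good hp hA (integralAt_intCurve W A) ?_ hp.ne_zero
    rw [res_Δ_intCurve]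
    exact (res_intCast_ne_zero_iff A hp hA W.Δ).mpr hd

/-- The residual representation is flat at `p`. -/
theorem curveResidualRep_isFlatAt (hp2 : p ≠ 2) (hss : (p : ℤ) ∣ W.Δ → ¬ (p : ℤ) ∣ W.c₄)
    (hv : p ∣ padicValInt p W.Δ) :
    (GaloisRepAdic.ofResidualGaloisRep (curveResidualRep W hΔ p)).IsFlatAt p :=
  haveI := isElliptic_map_rat hΔ
  Flat.isFlatAt_of_torsion_model (W := W.map (Int.castRingHom ℚ))
    (GaloisRepAdic.ofResidualGaloisRep (curveResidualRep W hΔ p))
    (AddEquiv.refl _) (fun _ _ => rfl) (hasModelAt_torsion_of_dvd_padicValInt W hΔ p hp2 hss hv)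

/-- With coefficients in any finite field. -/
theorem curveResidualRepExt_isFlatAt {k : Type} [Field k] [Finite k] (ι : ZMod p →+* k)
    (hp2 : p ≠ 2) (hss : (p : ℤ) ∣ W.Δ → ¬ (p : ℤ) ∣ W.c₄) (hv : p ∣ padicValInt p W.Δ) :
    (GaloisRepAdic.ofResidualGaloisRep (curveResidualRepExt W hΔ p ι)).IsFlatAt p :=
  FlatModel.isFlatAt_baseChange (B := k) ι ⟨fun _ h =>
    isUnit_iff_ne_zero.2 fun h0 => h.ne_zero (by rw [h0, map_zero])⟩
    (curveResidualRep_isFlatAt W hΔ p hp2 hss hv)

end FermatLib.MLT
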