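import Fermat.Agent.MLT.PatchModule

/-!
# Morphisms of patching systems and their limits
-/

set_option autoImplicit false

namespace FermatLib.MLT

open Filter IsLocalRing

variable {S B : Type} [CommRing S] [IsLocalRing S] [CommRing B] [IsLocalRing B]
  {R₀ M₀ R₀' M₀' R₀'' M₀'' : Type}
  [CommRing R₀] [AddCommGroup M₀] [Module R₀ M₀]
  [CommRing R₀'] [AddCommGroup M₀'] [Module R₀' M₀']
  [CommRing R₀''] [AddCommGroup M₀''] [Module R₀'' M₀'']
  {𝔞 𝔞' 𝔞'' : Ideal S} {d d' d'' : ℕ}

/-- A levelwise `B`-linear map of patching systems respecting the `S`-structures. -/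
structure PatchHom (P : PatchSystem S B R₀ M₀ 𝔞 d) (P' : PatchSystem S B R₀' M₀' 𝔞' d') where
  toFun : ∀ n, (P.level n).N →ₗ[B] (P'.level n).N
  φ_compat : ∀ n (s : S) (x : (P.level n).N),
    (P.level n).φ s • toFun n x = (P'.level n).φ s • toFun n x

variable {P : PatchSystem S B R₀ M₀ 𝔞 d} {P' : PatchSystem S B R₀' M₀' 𝔞' d'}
  {P'' : PatchSystem S B R₀'' M₀'' 𝔞'' d''}

namespace PatchHom

/-- The composite of two morphisms of systems. -/
def comp (g : PatchHom P' P'') (f : PatchHom P P') : PatchHom P P'' where
  toFun n := (g.toFun n).comp (f.toFun n)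
  φ_compat n s x := by
    rw [LinearMap.comp_apply, ← g.φ_compat n s, ← map_smul, f.φ_compat n s, map_smul]

/-- The identity morphism. -/
def id (P : PatchSystem S B R₀ M₀ 𝔞 d) : PatchHom P P where
  toFun _ := LinearMap.id
  φ_compat _ _ _ := rfl

/-- `A` is a matrix lift of the morphism at level `n`. -/
def Rel (f : PatchHom P P') (n : ℕ) (A : Matrix (Fin d') (Fin d) S) : Prop :=
  ∀ j, f.toFun n ((P.level n).b j) = ∑ i, (P'.level n).φ (A i j) • (P'.level n).b i

lemma exists_rel (f : PatchHom P P') (n : ℕ) : ∃ A, f.Rel n A := by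
  choose c hc using fun j => (P'.level n).b_span (f.toFun n ((P.level n).b j))
  exact ⟨fun i j => c j i, hc⟩

variable [IsNoetherianRing S] [IsAdicComplete (maximalIdeal S) S] [Finite (ResidueField S)]

/-- The limit matrix of a morphism. -/
noncomputable def limMatrix (f : PatchHom P P') : Matrix (Fin d') (Fin d) S :=
  fun i j => ulim fun n => (f.exists_rel n).choose i j

lemma isULim_limMatrix (f : PatchHom P P') {A : ℕ → Matrix (Fin d') (Fin d) S}
    (hA : ∀ n, f.Rel n (A n)) (i : Fin d') (j : Fin d) :
    IsULim (fun n => A n i j) (f.limMatrix i j) := by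
  refine (isULim_ulim fun n => (f.exists_rel n).choose i j).congr fun k => ?_
  filter_upwards [P'.eventually_J_le k] with n hJ
  refine hJ ((P'.level n).b_rel (fun i => (f.exists_rel n).choose i j - A n i j) ?_ i)
  simp only [map_sub, sub_smul, Finset.sum_sub_distrib, ← (f.exists_rel n).choose_spec j, ← hA n j,
    sub_self]

lemma limMatrix_eq (f : PatchHom P P') {A : ℕ → Matrix (Fin d') (Fin d) S}
    {L : Matrix (Fin d') (Fin d) S} (hA : ∀ n, f.Rel n (A n))
    (hL : ∀ i j, IsULim (fun n => A n i j) (L i j)) : f.limMatrix = L :=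
  Matrix.ext fun i j => (f.isULim_limMatrix hA i j).unique (hL i j)

lemma limMatrix_comp (g : PatchHom P' P'') (f : PatchHom P P') :
    (g.comp f).limMatrix = g.limMatrix * f.limMatrix := by
  refine limMatrix_eq _ (A := fun n => (g.exists_rel n).choose * (f.exists_rel n).choose)
    (fun n j => ?_) fun i j => ?_
  · show g.toFun n (f.toFun n ((P.level n).b j)) = _
    rw [(f.exists_rel n).choose_spec j, map_sum]
    simp only [Matrix.mul_apply, map_sum, map_mul, Finset.sum_smul]
    rw [Finset.sum_comm (γ := Fin d'')]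
    refine Finset.sum_congr rfl fun k _ => ?_
    rw [map_smul, g.φ_compat n, (g.exists_rel n).choose_spec k, Finset.smul_sum]
    exact Finset.sum_congr rfl fun i _ => by rw [smul_smul, mul_comm]
  · simp only [Matrix.mul_apply]
    exact IsULim.sum _ fun k _ => (g.isULim_limMatrix (fun n => (g.exists_rel n).choose_spec) i k).mul
      (f.isULim_limMatrix (fun n => (f.exists_rel n).choose_spec) k j)

/-- The limit matrix intertwines the patched actions. -/
lemma limMatrix_mul_rho (f : PatchHom P P') (z : B) :
    f.limMatrix * P.rho z = P'.rho z * f.limMatrix := by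
  have hA := fun n => ((P.level n).exists_rel z).choose_spec
  have hA' := fun n => ((P'.level n).exists_rel z).choose_spec
  have hF := fun n => (f.exists_rel n).choose_spec
  refine Matrix.ext fun i j => ?_
  simp only [Matrix.mul_apply]
  refine (IsULim.sum Finset.univ fun k _ => (f.isULim_limMatrix hF i k).mul
    (P.isULim_limMatrix (IsULim.const z) hA k j)).unique ?_
  refine (IsULim.sum Finset.univ fun k _ => (P'.isULim_limMatrix (IsULim.const z) hA' i k).mul
    (f.isULim_limMatrix hF k j)).congr fun k => ?_
  filter_upwards [P'.eventually_J_le k] with n hJ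
  refine hJ ((P'.level n).b_rel (fun i => (∑ k, ((P'.level n).exists_rel z).choose i k *
    (f.exists_rel n).choose k j) - ∑ k, (f.exists_rel n).choose i k *
      ((P.level n).exists_rel z).choose k j) ?_ i)
  have h1 : z • f.toFun n ((P.level n).b j) = ∑ i, (P'.level n).φ
      (∑ k, ((P'.level n).exists_rel z).choose i k * (f.exists_rel n).choose k j) •
        (P'.level n).b i := by
    rw [hF n j, Finset.smul_sum]
    simp only [map_sum, map_mul, Finset.sum_smul]
    rw [Finset.sum_comm (γ := Fin d')]
    refine Finset.sum_congr rfl fun k _ => ?_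
    rw [smul_comm, hA' n k, Finset.smul_sum]
    exact Finset.sum_congr rfl fun i _ => by rw [smul_smul, mul_comm]
  have h2 : f.toFun n (z • (P.level n).b j) = ∑ i, (P'.level n).φ
      (∑ k, (f.exists_rel n).choose i k * ((P.level n).exists_rel z).choose k j) •
        (P'.level n).b i := by
    rw [hA n j, map_sum]
    simp only [map_sum, map_mul, Finset.sum_smul]
    rw [Finset.sum_comm (γ := Fin d')]
    refine Finset.sum_congr rfl fun k _ => ?_
    rw [map_smul, f.φ_compat n, hF n k, Finset.smul_sum]
    exact Finset.sum_congr rfl fun i _ => by rw [smul_smul, mul_comm]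
  simp only [map_sub, sub_smul, Finset.sum_sub_distrib, ← h1, ← h2, map_smul, sub_self]

/-- The limit of a morphism as a map of patched modules. -/
noncomputable def lim (f : PatchHom P P') : P.Patched →ₗ[B] P'.Patched where
  toFun v := (Matrix.mulVec f.limMatrix v : Fin d' → S)
  map_add' v w := Matrix.mulVec_add f.limMatrix v w
  map_smul' z v := by
    show Matrix.mulVec f.limMatrix (Matrix.toLinAlgEquiv' (P.rho z) v) =
      Matrix.toLinAlgEquiv' (P'.rho z) (Matrix.mulVec f.limMatrix v)
    simp only [Matrix.toLinAlgEquiv'_apply]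
    rw [Matrix.mulVec_mulVec, Matrix.mulVec_mulVec, limMatrix_mul_rho]

end PatchHom

end FermatLib.MLT
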