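import Fermat.Agent.MLT.SupportCoker

/-!
# Levelwise facts about old parts, in the limit

Multiples in the range of a family of morphisms at every level are in the range in the limit; an
endomorphism acting at every level by `c n` acts in the limit by the limit of `c n`.
-/

set_option autoImplicit false

namespace FermatLib.MLT

open Filter IsLocalRing

variable {S B : Type} [CommRing S] [IsLocalRing S] [CommRing B] [IsLocalRing B]
  {R₀ M₀ R₀' M₀' : Type}
  [CommRing R₀] [AddCommGroup M₀] [Module R₀ M₀]
  [CommRing R₀'] [AddCommGroup M₀'] [Module R₀' M₀']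
  {𝔞 𝔞' : Ideal S} {d d' : ℕ}
  {P : PatchSystem S B R₀ M₀ 𝔞 d} {P' : PatchSystem S B R₀' M₀' 𝔞' d'}
  [IsNoetherianRing S] [IsAdicComplete (maximalIdeal S) S] [Finite (ResidueField S)]

/-- A difference of limits. -/
theorem IsULim.sub {T : Type} [CommRing T] [IsLocalRing T] {a a' : ℕ → T} {s s' : T}
    (h : IsULim a s) (h' : IsULim a' s') : IsULim (fun n => a n - a' n) (s - s') := by
  simpa [sub_eq_add_neg] using h.add ((IsULim.const (-1)).mul h')

/-- A product of limits. -/
theorem IsULim.prod {T : Type} [CommRing T] [IsLocalRing T] {ι : Type*} (t : Finset ι)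
    {a : ι → ℕ → T} {s : ι → T} (h : ∀ i ∈ t, IsULim (a i) (s i)) :
    IsULim (fun n => ∏ i ∈ t, a i n) (∏ i ∈ t, s i) := by
  classical
  induction t using Finset.induction_on with
  | empty => simpa using IsULim.const (1 : T)
  | insert i t hi ih =>
    simp only [Finset.prod_insert hi]
    exact (h i (Finset.mem_insert_self _ _)).mul (ih fun j hj => h j (Finset.mem_insert_of_mem hj))

/-- An endomorphism which is multiplication by `c n` at level `n` is multiplication by the limit of
`c n` in the limit. -/
theorem PatchHom.lim_eq_smul_of_isULim (f : PatchHom P P) {c : ℕ → B} {z : B} (hc : IsULim c z)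
    (h : ∀ n x, f.toFun n x = c n • x) (v : P.Patched) : f.lim v = z • v := by
  have hA : ∀ n, f.Rel n ((P.level n).exists_rel (c n)).choose := fun n j => by
    rw [h]
    exact ((P.level n).exists_rel (c n)).choose_spec j
  have hm : f.limMatrix = P.rho z := f.limMatrix_eq hA fun i j =>
    P.isULim_limMatrix hc (fun n => ((P.level n).exists_rel (c n)).choose_spec) i j
  funext i
  rw [PatchHom.lim_apply, hm, PatchSystem.patched_smul_apply]

variable {κ : Type} [Fintype κ]

/-- If `z` maps every level into the range of the family, it does so in the limit. -/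
theorem smul_mem_range_patchUp [DecidableEq κ] (u : κ → PatchHom P' P) (z : B)
    (h : ∀ n x, ∃ v : κ → (P'.level n).N, z • x = ∑ a, (u a).toFun n (v a)) (x : P.Patched) :
    z • x ∈ LinearMap.range (patchUp u) := by
  classical
  choose v hv using fun n j => h n ((P.level n).b j)
  choose C hC using fun n j a => (P'.level n).b_span (v n j a)
  refine ⟨fun a => P'.patchedOf fun l => ∑ j, ulim (fun n => C n j a l) * x j, funext fun i => ?_⟩
  rw [patchUp_apply, PatchSystem.patched_smul_apply]
  refine (congrArg (fun y : P.Patched => y i) (rfl : ∑ a, (u a).lim _ = _)).trans ?_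
  refine (Finset.sum_apply i _ fun a => (show Fin d → S from (u a).lim _)).trans ?_
  have key : ∀ j, P.rho z i j = ∑ a, ∑ l, (u a).limMatrix i l * ulim (fun n => C n j a l) := by
    intro j
    refine ((P.isULim_limMatrix (IsULim.const z) (A := fun n =>
      Matrix.of fun i j => ∑ a, ∑ l, ((u a).exists_rel n).choose i l * C n j a l) (fun n j => ?_)
      i j).unique ?_)
    · rw [hv n j]
      simp only [hC n j, map_sum, map_smul, Matrix.of_apply, map_mul, Finset.sum_smul]
      rw [eq_comm, Finset.sum_comm]
      refine Finset.sum_congr rfl fun a _ => ?_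
      rw [Finset.sum_comm]
      refine Finset.sum_congr rfl fun l _ => ?_
      rw [(u a).φ_compat n, ((u a).exists_rel n).choose_spec l, Finset.smul_sum]
      exact Finset.sum_congr rfl fun i' _ => by rw [smul_smul, mul_comm]
    · exact IsULim.sum _ fun a _ => IsULim.sum _ fun l _ =>
        ((u a).isULim_limMatrix (fun n => ((u a).exists_rel n).choose_spec) i l).mul
          (isULim_ulim fun n => C n j a l)
  refine Eq.trans ?_ (Finset.sum_congr rfl fun j _ => by rw [key j]).symm
  simp only [PatchHom.lim_apply, PatchSystem.patchedOf, Finset.mul_sum, Finset.sum_mul, mul_assoc]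
  rw [eq_comm, Finset.sum_comm]
  exact Finset.sum_congr rfl fun a _ => Finset.sum_comm

/-- An old part of smaller rank leaves a non-zero cokernel in the special fibre. -/
theorem exists_mem_associatedPrimes_patchCokerFibre [IsNoetherianRing B]
    [IsAdicComplete (maximalIdeal B) B] [Finite (ResidueField B)] (u : κ → PatchHom P' P) (ϖ : S)
    (hϖ : ϖ ∈ maximalIdeal S) (hd : Fintype.card κ * d' < d) :
    ∃ Q, Q ∈ associatedPrimes B (patchCokerFibre u ϖ) := by
  classical
  have : Nontrivial (patchCokerFibre u ϖ) := by
    rw [Submodule.Quotient.nontrivial_iff]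
    intro htop
    let U : Matrix (Fin d) (κ × Fin d') S := Matrix.of fun i aj => (u aj.1).limMatrix i aj.2
    have hsurj : Function.Surjective (Matrix.mulVecLin (U.map (residue S))) := by
      intro y
      choose y' hy' using fun i => residue_surjective (y i)
      have hmem : P.patchedOf y' ∈ patchCokerDenom u ϖ := by
        rw [htop]
        trivial
      obtain ⟨_, ⟨v, rfl⟩, _, ⟨w, rfl⟩, hvw⟩ := Submodule.mem_sup.mp hmem
      refine ⟨fun aj => residue S (P'.coord (v aj.1) aj.2), funext fun i => ?_⟩
      have h1 : (patchUp u v) i + (P.phi ϖ • w) i = y' i := congrFun hvw i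
      have hup : (patchUp u v) i = ∑ aj : κ × Fin d', U i aj * P'.coord (v aj.1) aj.2 := by
        rw [Fintype.sum_prod_type]
        refine (congrArg (fun y : P.Patched => y i) (patchUp_apply u v)).trans ?_
        exact (Finset.sum_apply i _ fun a => (show Fin d → S from (u a).lim (v a))).trans rfl
      rw [← hy' i, ← h1, P.phi_smul_apply, map_add, map_mul, (residue_eq_zero_iff ϖ).mpr hϖ,
        zero_mul, add_zero, hup, map_sum, Matrix.mulVecLin_apply]
      simp [Matrix.mulVec, dotProduct]
    have := LinearMap.finrank_le_finrank_of_surjective hsurj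
    simp at this
    omega
  exact associatedPrimes.nonempty B _

end FermatLib.MLT
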