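import Fermat.Agent.MLT.SupportBranches
import Fermat.Agent.MLT.SupportQuadric

/-!
# Level raising on the special fibre of patched modules

`up : (Fin 2 → N) → M` is the old part, `C` its cokernel, `down ∘ up` the matrix `G`. If `C` is
killed by the branch `b₁` at `i`, `det G` vanishes where `b₀` and `b₁` meet on `N`, and the special fibre
of `M` has a component with branch `b₀` at `i`, then it also has one with `b₁` at `i` and the same
branches elsewhere.
-/

set_option autoImplicit false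

namespace FermatLib.MLT

open IsLocalRing

variable {B : Type*} [CommRing B] [IsLocalRing B] [IsNoetherianRing B] {ι : Type*} [Fintype ι]
  {β : Type*} (D : BranchSystem B ι β)

namespace BranchSystem

/-- A crossing at an index where two branches are lines meeting in a point. -/
theorem exists_linear_crossing [DecidableEq ι] (i : ι) {b₀ b₁ : β} (hδ : D.δ i = 1)
    (hcross : Cuts (D.V i) (D.br i b₀ ⊔ D.br i b₁) 0) {l : B} (hl : l ∈ maximalIdeal B)
    (hb₁ : D.br i b₁ ≤ (D.br i b₀ ⊔ Ideal.span {l}).radical)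
    {Q₀ : Ideal B} (hb₀ : D.br i b₀ ≤ Q₀)
    (hdim : ringKrullDim (B ⧸ Q₀) = D.dim) :
    ∃ P : Ideal B, P.IsPrime ∧ Q₀ ≤ P ∧ D.br i b₁ ≤ P ∧
      ∃ J : Ideal B, J ≤ P ∧ ∃ m k : ℕ, Cuts (D.V i) J m ∧ m + k ≤ D.δ i ∧
        (D.dim : WithBot ℕ∞) ≤ ringKrullDim (B ⧸ P) + k := by
  obtain ⟨P, hP, hle, hlP, hd⟩ := exists_prime_mem_ringKrullDim hdim.ge hl
  have hb₁P : D.br i b₁ ≤ P := hb₁.trans ((Ideal.IsPrime.radical_le_iff hP).mpr
    (sup_le (hb₀.trans hle) ((Ideal.span_singleton_le_iff_mem _).mpr hlP)))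
  refine ⟨P, hP, hle, hb₁P, _, sup_le (hb₀.trans hle) hb₁P, 0, 1, hcross, by omega, ?_⟩
  refine le_trans (le_of_eq ?_) (add_le_add hd le_rfl)
  have : D.dim = D.dim - 1 + 1 := by
    have := D.dim_eq i
    omega
  exact_mod_cast this

end BranchSystem

variable {M Mb N C Cb : Type*} [AddCommGroup M] [Module B M] [Module.Finite B M]
  [AddCommGroup Mb] [Module B Mb] [Module.Finite B Mb]
  [AddCommGroup N] [Module B N] [Module.Finite B N]
  [AddCommGroup C] [Module B C] [Module.Finite B C]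
  [AddCommGroup Cb] [Module B Cb] [Module.Finite B Cb]

/-- **Level raising flip.** -/
theorem exists_assocPrime_raise
    (hdim : ∀ Q ∈ associatedPrimes B Mb, ringKrullDim (B ⧸ Q) = D.dim)
    (hbr : ∀ Q ∈ associatedPrimes B Mb, ∀ j, ∃ b, D.br j b ≤ Q)
    {ϖ : B} (q : M →ₗ[B] Mb) (hq : Function.Surjective q)
    (hker : ∀ x, q x = 0 ↔ ∃ y, x = ϖ • y)
    (qC : C →ₗ[B] Cb) (hqC : Function.Surjective qC)
    (hkerC : ∀ x, qC x = 0 ↔ ∃ y, x = ϖ • y)
    (hdimC : ∀ Q ∈ associatedPrimes B Cb, ringKrullDim (B ⧸ Q) = D.dim)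
    {κ : Type*} [Fintype κ] [DecidableEq κ] [Nonempty κ]
    (up : (κ → N) →ₗ[B] M) (down : M →ₗ[B] (κ → N)) (hdown : Function.Surjective down)
    (G : Matrix κ κ B) (hG : ∀ v a, down (up v) a = ∑ b, G a b • v b)
    (π : M →ₗ[B] C) (hπ : Function.Surjective π) (hexact : ∀ x, π x = 0 ↔ x ∈ LinearMap.range up)
    (i : ι) {b₀ b₁ : β}
    (hC : D.br i b₁ ≤ Module.annihilator B C) (hdet : G.det ∈ D.br i b₀ ⊔ D.br i b₁ ⊔ Module.annihilator B N)
    {Q₀ : Ideal B} (hQ₀ : Q₀ ∈ associatedPrimes B Mb) {σ : ι → β}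
    (hσ : ∀ j, D.br j (σ j) ≤ Q₀) (hi : σ i = b₀)
    {P : Ideal B} [P.IsPrime] (hQP : Q₀ ≤ P) (hb₁P : D.br i b₁ ≤ P)
    {J : Ideal B} {m k : ℕ} (hJP : J ≤ P) (hcut : Cuts (D.V i) J m) (hmk : m + k ≤ D.δ i)
    (hPdim : (D.dim : WithBot ℕ∞) ≤ ringKrullDim (B ⧸ P) + k) :
    ∃ Q ∈ associatedPrimes B Mb, D.br i b₁ ≤ Q ∧ ∀ j, j ≠ i → D.br j (σ j) ≤ Q := by
  classical
  have := hQ₀.isPrime
  have hannQ₀ : Module.annihilator B Mb ≤ Q₀ := by
    have h := IsAssociatedPrime.annihilator_le hQ₀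
    rwa [Submodule.annihilator_top] at h
  have hϖQ₀ : ϖ ∈ Q₀ := hannQ₀ (Module.mem_annihilator.mpr fun y => by
    obtain ⟨x, rfl⟩ := hq y
    rw [← map_smul, hker]
    exact ⟨x, rfl⟩)
  have hannM : Module.annihilator B M ≤ Q₀ := le_trans (fun r hr =>
    Module.mem_annihilator.mpr fun y => by
      obtain ⟨x, rfl⟩ := hq y
      rw [← map_smul, Module.mem_annihilator.mp hr, map_zero]) hannQ₀
  have hprod : Module.annihilator B C * Module.annihilator B N ≤ Module.annihilator B M :=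
    Ideal.mul_le.mpr fun r hr s hs => Module.mem_annihilator.mpr fun x => by
      obtain ⟨v, hv⟩ := (hexact (r • x)).mp (by rw [map_smul, Module.mem_annihilator.mp hr])
      rw [mul_comm, mul_smul, ← hv, ← map_smul,
        show s • v = 0 from funext fun a => Module.mem_annihilator.mp hs (v a), map_zero]
  have hCP : Module.annihilator B C ≤ P := by
    rcases (Ideal.IsPrime.mul_le ‹Q₀.IsPrime›).mp (hprod.trans hannM) with h | h
    · exact h.trans hQP
    · exact annihilator_coker_le_of_det_mem up down hdown G hG π (fun x => (hexact x).mp)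
        (h.trans hQP) (sup_le (sup_le ((hi ▸ hσ i).trans hQP) hb₁P) (h.trans hQP) hdet)
  have hCbP : Module.annihilator B Cb ≤ P := annihilator_fibre_le qC hkerC (hQP hϖQ₀) hCP
  obtain ⟨Q, hQC, hQle⟩ := exists_assocPrime_le hCbP
  have := hQC.isPrime
  have hannQ : Module.annihilator B Cb ≤ Q := by
    have h := IsAssociatedPrime.annihilator_le hQC
    rwa [Submodule.annihilator_top] at h
  have hCQ : Module.annihilator B C ≤ Q := le_trans (fun r hr =>
    Module.mem_annihilator.mpr fun y => by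
      obtain ⟨x, rfl⟩ := hqC y
      rw [← map_smul, Module.mem_annihilator.mp hr, map_zero]) hannQ
  have hϖQ : ϖ ∈ Q := hannQ (Module.mem_annihilator.mpr fun y => by
    obtain ⟨x, rfl⟩ := hqC y
    rw [← map_smul, hkerC]
    exact ⟨x, rfl⟩)
  have hMQ : Module.annihilator B M ≤ Q := le_trans (fun r hr =>
    Module.mem_annihilator.mpr fun y => by
      obtain ⟨x, rfl⟩ := hπ y
      rw [← map_smul, Module.mem_annihilator.mp hr, map_zero]) hCQ
  have hQ : Q ∈ associatedPrimes B Mb := assocPrime_mem_of_annihilator_le hdim hQC (hdimC Q hQC)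
    (annihilator_fibre_le q hker hϖQ hMQ)
  exact ⟨Q, hQ, hC.trans hCQ, D.pattern_of_le P i hJP hcut hmk hPdim
    (fun j _ => (hσ j).trans hQP) hQle (hbr Q hQ)⟩

end FermatLib.MLT
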