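import Fermat.Agent.MLT.PatchSystem
import Mathlib.LinearAlgebra.Matrix.ToLin
import Mathlib.Algebra.Module.RingHom

/-!
# The patched module and the limit of the maps to `R₀`
-/

set_option autoImplicit false

namespace FermatLib.MLT

open Filter IsLocalRing

variable {S B R₀ M₀ : Type} [CommRing S] [IsLocalRing S] [CommRing B] [IsLocalRing B]
  [CommRing R₀] [AddCommGroup M₀] [Module R₀ M₀] {𝔞 : Ideal S} {d : ℕ}
  [IsNoetherianRing S] [IsAdicComplete (maximalIdeal S) S] [Finite (ResidueField S)]

namespace PatchSystem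

variable (P : PatchSystem S B R₀ M₀ 𝔞 d)

/-- The patched module: `Fin d → S` with `B` acting through `rho`. -/
def Patched (_P : PatchSystem S B R₀ M₀ 𝔞 d) : Type := Fin d → S

instance : AddCommGroup P.Patched := inferInstanceAs (AddCommGroup (Fin d → S))

noncomputable instance : Module B P.Patched :=
  Module.compHom (Fin d → S) ((Matrix.toLinAlgEquiv' (R := S) (n := Fin d)).toRingEquiv.toRingHom.comp
    P.rho)

lemma patched_smul_apply (z : B) (v : P.Patched) (i : Fin d) :
    (z • v) i = ∑ j, P.rho z i j * v j := by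
  show (Matrix.toLinAlgEquiv' (P.rho z) v) i = _
  rw [Matrix.toLinAlgEquiv'_apply]
  rfl

/-- The standard basis vectors of the patched module. -/
def patchedBasis (i : Fin d) : P.Patched := (Pi.single i 1 : Fin d → S)

variable [IsNoetherianRing B] [IsAdicComplete (maximalIdeal B) B] [Finite (ResidueField B)]

lemma phi_smul_apply (s : S) (v : P.Patched) (i : Fin d) : (P.phi s • v) i = s * v i := by
  rw [patched_smul_apply, rho_phi, Finset.sum_eq_single i] <;>
    simp +contextual [Matrix.scalar_apply, Matrix.diagonal, eq_comm]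

lemma sum_phi_smul_patchedBasis (c : Fin d → S) :
    ∑ i, P.phi (c i) • P.patchedBasis i = (c : P.Patched) := by
  funext j
  show (∑ i, P.phi (c i) • P.patchedBasis i : Fin d → S) j = c j
  rw [Finset.sum_apply]
  simp [phi_smul_apply, patchedBasis, Pi.single_apply, mul_ite]

section Psi

variable [IsNoetherianRing R₀] [IsLocalRing R₀] [IsAdicComplete (maximalIdeal R₀) R₀]
  [Finite (ResidueField R₀)]

omit [IsNoetherianRing S] [IsAdicComplete (maximalIdeal S) S] [Finite (ResidueField S)]
  [IsNoetherianRing B] [IsAdicComplete (maximalIdeal B) B] [Finite (ResidueField B)]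
  [IsNoetherianRing R₀] [IsAdicComplete (maximalIdeal R₀) R₀] [Finite (ResidueField R₀)] in
lemma psi_mem_pow (n : ℕ) {k : ℕ} {z : B} (hz : z ∈ maximalIdeal B ^ k) :
    (P.level n).ψ z ∈ maximalIdeal R₀ ^ k := by
  have hloc : IsLocalHom (P.level n).ψ := (P.level n).ψ_surjective.isLocalHom
  have := Ideal.mem_map_of_mem (P.level n).ψ hz
  rw [Ideal.map_pow] at this
  exact Ideal.pow_right_mono ((IsLocalRing.local_hom_TFAE (P.level n).ψ).out 0 2 |>.mp hloc) k this

/-- The limit of the maps `B → R₀`. -/
noncomputable def psi : B →+* R₀ where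
  toFun z := ulim fun n => (P.level n).ψ z
  map_one' := IsULim.ulim_eq (by simpa using IsULim.const (1 : R₀))
  map_zero' := IsULim.ulim_eq (by simpa using IsULim.const (0 : R₀))
  map_mul' x y := IsULim.ulim_eq (by
    simpa using (isULim_ulim fun n => (P.level n).ψ x).mul (isULim_ulim fun n => (P.level n).ψ y))
  map_add' x y := IsULim.ulim_eq (by
    simpa using (isULim_ulim fun n => (P.level n).ψ x).add (isULim_ulim fun n => (P.level n).ψ y))

lemma isULim_psi {z : B} {c : ℕ → B} (hc : IsULim c z) :
    IsULim (fun n => (P.level n).ψ (c n)) (P.psi z) := by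
  refine (isULim_ulim fun n => (P.level n).ψ z).congr fun k => ?_
  filter_upwards [hc k] with n hn
  have := P.psi_mem_pow n hn
  rw [map_sub] at this
  rw [← neg_sub]
  exact neg_mem this

lemma psi_eq {z : B} {c : ℕ → B} (hc : IsULim c z) {r : R₀} (h : ∀ n, (P.level n).ψ (c n) = r) :
    P.psi z = r :=
  (P.isULim_psi hc).unique (by simpa [h] using IsULim.const r)

lemma psi_phi_eq_zero {s : S} (hs : s ∈ 𝔞) : P.psi (P.phi s) = 0 :=
  P.psi_eq (P.isULim_phi s) fun n => (P.level n).ψ_φ s hs

end Psi

end PatchSystem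

end FermatLib.MLT
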