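import Fermat.Agent.MLT.UltraLimit
import Mathlib.RingTheory.Nakayama
import Mathlib.RingTheory.Finiteness.Basic
import Mathlib.Data.Matrix.Basic
import Mathlib.LinearAlgebra.Matrix.Charpoly.Basic
import Mathlib.Algebra.Module.Submodule.Pointwise
import Mathlib.SetTheory.Cardinal.NatCard

/-!
# Patching systems and their limit

`S` is the ring of diamond operators and framing variables, `B` any complete local ring mapping to
all the deformation rings (typically a power series ring, or a local deformation ring with
auxiliary variables), `R₀` the deformation ring at level zero and `M₀` its module.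

At level `n` we have a `B`-module `N`, free of rank `d` over `S/J n` through `φ : S → B`, with
`N/φ(𝔞)N → M₀` compatible with `ψ : B → R₀`. The limit is a ring map `B → Matrix d d S`, whose
kernel `annih` plays the role of the annihilator of the patched module.
-/

set_option autoImplicit false

namespace FermatLib.MLT

open Filter IsLocalRing

/-- One level of a patching system. -/
structure PatchLevel (S B R₀ M₀ : Type) [CommRing S] [IsLocalRing S] [CommRing B] [IsLocalRing B]
    [CommRing R₀] [AddCommGroup M₀] [Module R₀ M₀] (𝔞 J : Ideal S) (d : ℕ) : Type 1 where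
  N : Type
  [instAddCommGroup : AddCommGroup N]
  [instModule : Module B N]
  φ : S →+* B
  φ_maximalIdeal : (maximalIdeal S).map φ ≤ maximalIdeal B
  ψ : B →+* R₀
  ψ_surjective : Function.Surjective ψ
  ψ_φ : ∀ s ∈ 𝔞, ψ (φ s) = 0
  π : N →+ M₀
  π_smul : ∀ (f : B) (x : N), π (f • x) = ψ f • π x
  ker_π_le : ∀ x : N, π x = 0 → x ∈ (𝔞.map φ) • (⊤ : Submodule B N)
  b : Fin d → N
  b_span : ∀ x : N, ∃ c : Fin d → S, x = ∑ i, φ (c i) • b i
  b_rel : ∀ c : Fin d → S, ∑ i, φ (c i) • b i = 0 → ∀ i, c i ∈ J

attribute [instance] PatchLevel.instAddCommGroup PatchLevel.instModule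

/-- A patching system: levels whose relation ideals shrink to zero. -/
structure PatchSystem (S B R₀ M₀ : Type) [CommRing S] [IsLocalRing S] [CommRing B] [IsLocalRing B]
    [CommRing R₀] [AddCommGroup M₀] [Module R₀ M₀] (𝔞 : Ideal S) (d : ℕ) : Type 1 where
  J : ℕ → Ideal S
  J_tendsto : ∀ k, ∀ᶠ n in atTop, J n ≤ maximalIdeal S ^ k
  level : ∀ n, PatchLevel S B R₀ M₀ 𝔞 (J n) d

variable {S B R₀ M₀ : Type} [CommRing S] [IsLocalRing S] [CommRing B] [IsLocalRing B]
    [CommRing R₀] [AddCommGroup M₀] [Module R₀ M₀] {𝔞 : Ideal S} {d : ℕ}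

namespace PatchLevel

variable {J : Ideal S} (L : PatchLevel S B R₀ M₀ 𝔞 J d)

/-- `A` is a matrix lift of the action of `z` on level `L`. -/
def Rel (z : B) (A : Matrix (Fin d) (Fin d) S) : Prop :=
  ∀ j, z • L.b j = ∑ i, L.φ (A i j) • L.b i

lemma exists_rel (z : B) : ∃ A, L.Rel z A := by
  choose c hc using fun j => L.b_span (z • L.b j)
  exact ⟨fun i j => c j i, hc⟩

lemma rel_unique {z : B} {A A' : Matrix (Fin d) (Fin d) S} (h : L.Rel z A) (h' : L.Rel z A')
    (i j : Fin d) : A i j - A' i j ∈ J := by
  refine L.b_rel (fun i => A i j - A' i j) ?_ i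
  simp only [map_sub, sub_smul, Finset.sum_sub_distrib, ← h j, ← h' j, sub_self]

lemma rel_add {z z' : B} {A A' : Matrix (Fin d) (Fin d) S} (h : L.Rel z A) (h' : L.Rel z' A') :
    L.Rel (z + z') (A + A') := fun j => by
  simp [add_smul, h j, h' j, Finset.sum_add_distrib]

lemma rel_mul {z z' : B} {A A' : Matrix (Fin d) (Fin d) S} (h : L.Rel z A) (h' : L.Rel z' A') :
    L.Rel (z * z') (A * A') := fun j => by
  rw [mul_smul, h' j, Finset.smul_sum]
  simp only [Matrix.mul_apply, map_sum, map_mul, Finset.sum_smul]
  rw [Finset.sum_comm]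
  refine Finset.sum_congr rfl fun k _ => ?_
  rw [smul_comm, h k, Finset.smul_sum]
  exact Finset.sum_congr rfl fun i _ => by rw [smul_smul, mul_comm]

lemma rel_phi (s : S) : L.Rel (L.φ s) (Matrix.scalar (Fin d) s) := fun j => by
  rw [Finset.sum_eq_single j] <;> simp +contextual [Matrix.scalar_apply, Matrix.diagonal]

lemma rel_one : L.Rel 1 1 := by
  simpa using L.rel_phi 1

lemma rel_zero : L.Rel 0 0 := fun j => by simp

/-- The elements of `N` all of whose coordinates can be taken in `I`. -/
def coeffSubmodule (I : Ideal S) : Submodule B L.N where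
  carrier := {x | ∃ c : Fin d → S, (∀ i, c i ∈ I) ∧ x = ∑ i, L.φ (c i) • L.b i}
  zero_mem' := ⟨0, fun _ => I.zero_mem, by simp⟩
  add_mem' := by
    rintro _ _ ⟨c, hc, rfl⟩ ⟨c', hc', rfl⟩
    exact ⟨c + c', fun i => I.add_mem (hc i) (hc' i), by
      simp [add_smul, Finset.sum_add_distrib]⟩
  smul_mem' := by
    rintro z _ ⟨c, hc, rfl⟩
    obtain ⟨A, hA⟩ := L.exists_rel z
    refine ⟨fun i => ∑ j, A i j * c j, fun i => I.sum_mem fun j _ => I.mul_mem_left _ (hc j), ?_⟩
    rw [Finset.smul_sum]
    simp only [smul_comm z, hA _, Finset.smul_sum, map_sum, map_mul, Finset.sum_smul, smul_smul]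
    rw [Finset.sum_comm]
    exact Finset.sum_congr rfl fun i _ => Finset.sum_congr rfl fun j _ => by rw [mul_comm]

lemma map_smul_top_eq_coeffSubmodule (I : Ideal S) :
    (I.map L.φ) • (⊤ : Submodule B L.N) = L.coeffSubmodule I := by
  refine le_antisymm ?_ ?_
  · refine Submodule.smul_le.mpr fun a ha x _ => ?_
    refine Submodule.span_induction (p := fun a _ => a • x ∈ L.coeffSubmodule I) ?_ ?_ ?_ ?_ ha
    · rintro _ ⟨s, hs, rfl⟩
      obtain ⟨c, rfl⟩ := L.b_span x
      refine ⟨fun i => s * c i, fun i => I.mul_mem_right _ hs, ?_⟩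
      simp [Finset.smul_sum, smul_smul]
    · simp
    · intro a b _ _ ha hb
      rw [add_smul]
      exact add_mem ha hb
    · intro r a _ ha
      rw [smul_eq_mul, mul_smul]
      exact Submodule.smul_mem _ r ha
  · rintro _ ⟨c, hc, rfl⟩
    exact Submodule.sum_mem _ fun i _ =>
      Submodule.smul_mem_smul (Ideal.mem_map_of_mem _ (hc i)) trivial

lemma exists_rel_mem {z : B} {I : Ideal S}
    (h : ∀ j, z • L.b j ∈ (I.map L.φ) • (⊤ : Submodule B L.N)) :
    ∃ A, L.Rel z A ∧ ∀ i j, A i j ∈ I := by
  rw [L.map_smul_top_eq_coeffSubmodule] at h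
  choose c hc hz using h
  exact ⟨fun i j => c j i, hz, fun i j => hc j i⟩

lemma smul_mem_of_rel {z : B} {A : Matrix (Fin d) (Fin d) S} (h : L.Rel z A) {I : Ideal S}
    (hA : ∀ i j, A i j ∈ I) (x : L.N) :
    z • x ∈ (I.map L.φ) • (⊤ : Submodule B L.N) := by
  rw [L.map_smul_top_eq_coeffSubmodule]
  obtain ⟨c, rfl⟩ := L.b_span x
  rw [Finset.smul_sum]
  refine Submodule.sum_mem _ fun j _ => ?_
  rw [smul_comm, h j]
  exact Submodule.smul_mem _ _ ⟨fun i => A i j, fun i => hA i j, rfl⟩

end PatchLevel

/-- A finite module of cardinality at most `D` over a local ring is killed by `𝔪 ^ D`. -/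
lemma pow_maximalIdeal_smul_eq_bot_of_card_le {M : Type} [AddCommGroup M] [Module B M] [Finite M]
    {D : ℕ} (hD : Nat.card M ≤ D) : maximalIdeal B ^ D • (⊤ : Submodule B M) = ⊥ := by
  have key : ∀ i, maximalIdeal B ^ i • (⊤ : Submodule B M) = ⊥ ∨
      Nat.card (maximalIdeal B ^ i • (⊤ : Submodule B M) : Submodule B M) + i ≤ Nat.card M := by
    intro i
    induction i with
    | zero =>
      exact Or.inr (by simp)
    | succ i ih =>
      rw [pow_succ', ← smul_eq_mul, Submodule.smul_assoc]
      rcases ih with h | h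
      · exact Or.inl (by rw [h, Submodule.smul_bot])
      · set P : Submodule B M := maximalIdeal B ^ i • ⊤
        by_cases hP : P = ⊥
        · exact Or.inl (by rw [hP, Submodule.smul_bot])
        · refine Or.inr ?_
          have hle : maximalIdeal B • P ≤ P := Submodule.smul_le_right
          have hne : ¬ P ≤ maximalIdeal B • P := fun hle' => hP
            (Submodule.eq_bot_of_le_smul_of_le_jacobson_bot _ _ (IsNoetherian.noetherian _) hle'
              (IsLocalRing.maximalIdeal_le_jacobson _))
          have : Nat.card (maximalIdeal B • P : Submodule B M) < Nat.card P := by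
            have : ((maximalIdeal B • P : Submodule B M) : Set M) ⊂ (P : Set M) :=
              ⟨hle, hne⟩
            exact (Set.toFinite (P : Set M)).card_lt_card this
          omega
  rcases key D with h | h
  · exact h
  · have : 0 < Nat.card (maximalIdeal B ^ D • (⊤ : Submodule B M) : Submodule B M) :=
      Nat.card_pos
    omega

/-- The exponent with `𝔪_B ^ levelExponent` carrying every level into `φ(𝔪_S)`. -/
noncomputable def levelExponent (S : Type) [CommRing S] [IsLocalRing S] (d : ℕ) : ℕ :=
  Nat.card (Fin d → ResidueField S)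

variable [Finite (ResidueField S)]

namespace PatchLevel

variable {J : Ideal S} (L : PatchLevel S B R₀ M₀ 𝔞 J d)

lemma pow_smul_le (k : ℕ) :
    maximalIdeal B ^ (levelExponent S d * k) • (⊤ : Submodule B L.N) ≤
      ((maximalIdeal S ^ k).map L.φ) • ⊤ := by
  induction k with
  | zero => simp [Ideal.map_top, Ideal.one_eq_top]
  | succ k ih =>
    have h1 : maximalIdeal B ^ levelExponent S d • (⊤ : Submodule B L.N) ≤
        ((maximalIdeal S).map L.φ) • ⊤ := by
      set I := (maximalIdeal S).map L.φ with hI
      let q := (I • ⊤ : Submodule B L.N).mkQ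
      have hwd : ∀ s t : S, residue S s = residue S t → ∀ i,
          q (L.φ s • L.b i) = q (L.φ t • L.b i) := fun s t h i => by
        refine (Submodule.Quotient.eq _).mpr ?_
        rw [← sub_smul, ← map_sub]
        exact Submodule.smul_mem_smul (Ideal.mem_map_of_mem _ (Ideal.Quotient.eq.mp h)) trivial
      choose sec hsec using residue_surjective (R := S)
      let g : (Fin d → ResidueField S) → L.N ⧸ (I • ⊤ : Submodule B L.N) :=
        fun c => ∑ i, q (L.φ (sec (c i)) • L.b i)
      have hg : Function.Surjective g := by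
        intro y
        obtain ⟨x, rfl⟩ := (I • ⊤ : Submodule B L.N).mkQ_surjective y
        obtain ⟨c, rfl⟩ := L.b_span x
        refine ⟨fun i => residue S (c i), ?_⟩
        rw [map_sum]
        exact Finset.sum_congr rfl fun i _ => hwd _ _ (hsec _) i
      have : Finite (L.N ⧸ (I • ⊤ : Submodule B L.N)) := Finite.of_surjective g hg
      have hbot := pow_maximalIdeal_smul_eq_bot_of_card_le (B := B)
        (M := L.N ⧸ (I • ⊤ : Submodule B L.N)) (D := levelExponent S d)
        (Nat.card_le_card_of_surjective g hg)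
      rw [← Submodule.ker_mkQ (I • ⊤ : Submodule B L.N)]
      refine LinearMap.le_ker_iff_map.mpr ?_
      rw [Submodule.map_smul'', Submodule.map_top, Submodule.range_mkQ, hbot]
    rw [Nat.mul_succ, pow_add, ← smul_eq_mul, Submodule.smul_assoc]
    calc maximalIdeal B ^ (levelExponent S d * k) •
          (maximalIdeal B ^ levelExponent S d • (⊤ : Submodule B L.N))
        ≤ maximalIdeal B ^ (levelExponent S d * k) • ((maximalIdeal S).map L.φ • ⊤) :=
          Submodule.smul_mono le_rfl h1
      _ = (maximalIdeal S).map L.φ •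
          (maximalIdeal B ^ (levelExponent S d * k) • (⊤ : Submodule B L.N)) := by
          rw [← Submodule.smul_assoc, ← Submodule.smul_assoc, smul_eq_mul, smul_eq_mul, mul_comm]
      _ ≤ (maximalIdeal S).map L.φ • ((maximalIdeal S ^ k).map L.φ • ⊤) :=
          Submodule.smul_mono le_rfl ih
      _ = ((maximalIdeal S ^ (k + 1)).map L.φ) • ⊤ := by
          rw [← Submodule.smul_assoc, smul_eq_mul, pow_succ', Ideal.map_mul]

lemma exists_rel_of_mem_pow {z : B} {k : ℕ}
    (hz : z ∈ maximalIdeal B ^ (levelExponent S d * k)) :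
    ∃ A, L.Rel z A ∧ ∀ i j, A i j ∈ maximalIdeal S ^ k :=
  L.exists_rel_mem fun _ => L.pow_smul_le k (Submodule.smul_mem_smul hz trivial)

end PatchLevel

variable [IsNoetherianRing S] [IsAdicComplete (maximalIdeal S) S]

namespace PatchSystem

variable (P : PatchSystem S B R₀ M₀ 𝔞 d)

lemma eventually_J_le (k : ℕ) :
    ∀ᶠ n in (patchUltrafilter : Filter ℕ), P.J n ≤ maximalIdeal S ^ k :=
  eventually_patchUltrafilter (P.J_tendsto k)

/-- The limit matrix of the action of `z`. -/
noncomputable def limMatrix (z : B) : Matrix (Fin d) (Fin d) S :=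
  fun i j => ulim fun n => ((P.level n).exists_rel z).choose i j

lemma isULim_limMatrix {z : B} {c : ℕ → B} {A : ℕ → Matrix (Fin d) (Fin d) S}
    (hc : IsULim c z) (hA : ∀ n, (P.level n).Rel (c n) (A n)) (i j : Fin d) :
    IsULim (fun n => A n i j) (P.limMatrix z i j) := by
  refine (isULim_ulim fun n => ((P.level n).exists_rel z).choose i j).congr fun k => ?_
  filter_upwards [hc (levelExponent S d * k), P.eventually_J_le k] with n hn hJ
  have hn' : z - c n ∈ maximalIdeal B ^ (levelExponent S d * k) := by
    rw [← neg_sub]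
    exact neg_mem hn
  obtain ⟨E, hE, hEk⟩ := (P.level n).exists_rel_of_mem_pow hn'
  have h2 := (P.level n).rel_add (hA n) hE
  rw [add_sub_cancel] at h2
  have h3 := hJ ((P.level n).rel_unique ((P.level n).exists_rel z).choose_spec h2 i j)
  rw [Matrix.add_apply] at h3
  have := add_mem h3 (hEk i j)
  convert this using 1
  ring

lemma limMatrix_eq {z : B} {A : Matrix (Fin d) (Fin d) S} {c : ℕ → B}
    {A' : ℕ → Matrix (Fin d) (Fin d) S} (hc : IsULim c z)
    (hA : ∀ n, (P.level n).Rel (c n) (A' n))
    (hlim : ∀ i j, IsULim (fun n => A' n i j) (A i j)) : P.limMatrix z = A :=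
  Matrix.ext fun i j => (P.isULim_limMatrix hc hA i j).unique (hlim i j)

/-- The patched action `B → Matrix d d S`. -/
noncomputable def rho : B →+* Matrix (Fin d) (Fin d) S where
  toFun := P.limMatrix
  map_one' := P.limMatrix_eq (IsULim.const 1) (fun n => (P.level n).rel_one)
    fun i j => IsULim.const _
  map_zero' := P.limMatrix_eq (IsULim.const 0) (fun n => (P.level n).rel_zero)
    fun i j => IsULim.const _
  map_mul' x y := P.limMatrix_eq (IsULim.const (x * y))
    (fun n => (P.level n).rel_mul ((P.level n).exists_rel x).choose_spec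
      ((P.level n).exists_rel y).choose_spec) fun i j => by
    simp only [Matrix.mul_apply]
    exact IsULim.sum _ fun k _ =>
      (P.isULim_limMatrix (IsULim.const x) (fun n => ((P.level n).exists_rel x).choose_spec) i k).mul
        (P.isULim_limMatrix (IsULim.const y) (fun n => ((P.level n).exists_rel y).choose_spec) k j)
  map_add' x y := P.limMatrix_eq (IsULim.const (x + y))
    (fun n => (P.level n).rel_add ((P.level n).exists_rel x).choose_spec
      ((P.level n).exists_rel y).choose_spec) fun i j => by
    simp only [Matrix.add_apply]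
    exact
      (P.isULim_limMatrix (IsULim.const x) (fun n => ((P.level n).exists_rel x).choose_spec) i j).add
        (P.isULim_limMatrix (IsULim.const y) (fun n => ((P.level n).exists_rel y).choose_spec) i j)

/-- The annihilator of the patched module. -/
noncomputable def annih : Ideal B := RingHom.ker P.rho

lemma rho_mem {z : B} {c : ℕ → B} (hc : IsULim c z) {I : Ideal S}
    (h : ∀ k, ∀ᶠ n in (patchUltrafilter : Filter ℕ), ∀ x : (P.level n).N,
      c n • x ∈ ((I ⊔ maximalIdeal S ^ k).map (P.level n).φ) • (⊤ : Submodule B (P.level n).N))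
    (i j : Fin d) : P.rho z i j ∈ I := by
  refine (P.isULim_limMatrix hc (fun n => ((P.level n).exists_rel (c n)).choose_spec) i j
    ).mem_of_eventually fun k => ?_
  filter_upwards [h k, P.eventually_J_le k] with n hn hJ
  obtain ⟨A, hA, hAmem⟩ := (P.level n).exists_rel_mem fun j => hn ((P.level n).b j)
  have h3 := hJ ((P.level n).rel_unique ((P.level n).exists_rel (c n)).choose_spec hA i j)
  have := add_mem (Ideal.mem_sup_right (S := I) h3) (hAmem i j)
  rwa [sub_add_cancel] at this

/-- `z` kills the patched module iff it acts more and more trivially on the levels. -/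
lemma mem_annih_iff {z : B} :
    z ∈ P.annih ↔ ∀ k, ∀ᶠ n in (patchUltrafilter : Filter ℕ), ∀ x : (P.level n).N,
      z • x ∈ maximalIdeal B ^ k • (⊤ : Submodule B (P.level n).N) := by
  constructor
  · intro hz k
    have hA : ∀ i j, IsULim (fun n => ((P.level n).exists_rel z).choose i j) 0 := fun i j => by
      have h := P.isULim_limMatrix (IsULim.const z)
        (fun n => ((P.level n).exists_rel z).choose_spec) i j
      rwa [show P.limMatrix z = 0 from RingHom.mem_ker.mp hz, Matrix.zero_apply] at h
    have hev : ∀ᶠ n in (patchUltrafilter : Filter ℕ),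
        ∀ i j, ((P.level n).exists_rel z).choose i j ∈ maximalIdeal S ^ k := by
      simp only [eventually_all]
      intro i j
      filter_upwards [hA i j k] with n hn
      simpa using hn
    filter_upwards [hev] with n hn x
    refine Submodule.smul_mono_left ?_
      ((P.level n).smul_mem_of_rel ((P.level n).exists_rel z).choose_spec hn x)
    rw [Ideal.map_pow]
    exact Ideal.pow_right_mono (P.level n).φ_maximalIdeal k
  · intro h
    refine RingHom.mem_ker.mpr (Matrix.ext fun i j => (Submodule.mem_bot S).mp ?_)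
    refine P.rho_mem (IsULim.const z) (fun k => ?_) i j
    filter_upwards [h (levelExponent S d * k)] with n hn x
    rw [bot_sup_eq]
    exact (P.level n).pow_smul_le k (hn x)

lemma le_annih {I : Ideal B} (h : ∀ n, ∀ z ∈ I, ∀ x : (P.level n).N, z • x = 0) :
    I ≤ P.annih := fun z hz =>
  P.mem_annih_iff.mpr fun _ => Eventually.of_forall fun n x => by simp [h n z hz x]

lemma annih_ne_top (hd : 0 < d) : P.annih ≠ ⊤ := by
  rw [annih, ne_eq, Ideal.eq_top_iff_one, RingHom.mem_ker, map_one]
  intro h
  exact one_ne_zero (α := S) (by simpa using congrArg (fun A => A ⟨0, hd⟩ ⟨0, hd⟩) h)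

variable [IsNoetherianRing B] [IsAdicComplete (maximalIdeal B) B] [Finite (ResidueField B)]

/-- The limit of the structure maps `S → B`. -/
noncomputable def phi : S →+* B where
  toFun s := ulim fun n => (P.level n).φ s
  map_one' := IsULim.ulim_eq (by simpa using IsULim.const (1 : B))
  map_zero' := IsULim.ulim_eq (by simpa using IsULim.const (0 : B))
  map_mul' x y := IsULim.ulim_eq (by
    simpa using (isULim_ulim fun n => (P.level n).φ x).mul (isULim_ulim fun n => (P.level n).φ y))
  map_add' x y := IsULim.ulim_eq (by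
    simpa using (isULim_ulim fun n => (P.level n).φ x).add (isULim_ulim fun n => (P.level n).φ y))

lemma isULim_phi (s : S) : IsULim (fun n => (P.level n).φ s) (P.phi s) := isULim_ulim _

lemma phi_eq {s : S} {z : B} (h : ∀ n, (P.level n).φ s = z) : P.phi s = z :=
  (P.isULim_phi s).unique (by simpa [h] using IsULim.const z)

lemma rho_phi (s : S) : P.rho (P.phi s) = Matrix.scalar (Fin d) s :=
  P.limMatrix_eq (P.isULim_phi s) (fun n => (P.level n).rel_phi s) fun _ _ => IsULim.const _

end PatchSystem

end FermatLib.MLT
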