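import Fermat.Agent.MLT.SieveBasic

/-!
The squarefree sieve for binary forms of degree `≤ 4`: the counting core.
-/

set_option autoImplicit false

noncomputable section

open Polynomial Finset

namespace FermatLib.MLT

lemma natDegree_reflect_le_of_le {d : ℕ} {f : ℤ[X]} (hd : f.natDegree ≤ d) :
    (f.reflect d).natDegree ≤ d := by
  rw [Polynomial.natDegree_le_iff_coeff_eq_zero]
  intro i hi
  rw [Polynomial.coeff_reflect, Polynomial.revAt_eq_self_of_lt hi]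
  exact Polynomial.coeff_eq_zero_of_natDegree_lt (by omega)

lemma exists_root_line {d : ℕ} {f : ℤ[X]} (hd : f.natDegree ≤ d) {p : ℕ} (hp : p.Prime) {t s : ℤ}
    (hs : ¬ (p : ℤ) ∣ s) (h : (p : ℤ) ^ 2 ∣ binForm d f t s) :
    ∃ x ∈ rootsSq f p, (p : ℤ) ^ 2 ∣ t - x * s := by
  obtain ⟨u, v, huv⟩ :=
    ((Nat.prime_iff_prime_int.mp hp).coprime_iff_not_dvd.mpr hs).symm.pow_right (n := 2)
  have hsu : s * u ≡ 1 [ZMOD (p : ℤ) ^ 2] :=
    Int.modEq_iff_dvd.mpr ⟨v, by linear_combination -huv⟩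
  have h1 := dvd_eval_of_dvd_binForm hd hsu h
  have hpos : (0 : ℤ) < (p : ℤ) ^ 2 := by have := hp.pos; positivity
  set x := (t * u % (p : ℤ) ^ 2).toNat with hx
  have hxz : (x : ℤ) = t * u % (p : ℤ) ^ 2 := Int.toNat_of_nonneg (Int.emod_nonneg _ hpos.ne')
  have hxd : (p : ℤ) ^ 2 ∣ (x : ℤ) - t * u := by
    rw [hxz]; exact Int.ModEq.dvd (Int.mod_modEq _ _).symm
  refine ⟨x, Finset.mem_filter.mpr ⟨Finset.mem_range.mpr ?_, ?_⟩, ?_⟩
  · have : (x : ℤ) < (p : ℤ) ^ 2 := hxz ▸ Int.emod_lt_of_pos _ hpos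
    exact_mod_cast this
  · have := dvd_add (hxd.trans (Polynomial.sub_dvd_eval_sub (x : ℤ) (t * u) f)) h1
    simpa using this
  · have h2 : t - (x : ℤ) * s = t * (1 - s * u) - ((x : ℤ) - t * u) * s := by ring
    rw [h2]
    exact dvd_sub (dvd_mul_of_dvd_right (Int.modEq_iff_dvd.mp hsu) _) (dvd_mul_of_dvd_left hxd _)

/-- The finitely many lines containing all primitive solutions of `p² ∣ D(t, s)`. -/
def sieveLines (d : ℕ) (f : ℤ[X]) (p : ℕ) : Finset (ℤ × ℤ) :=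
  (rootsSq f p).image (fun x : ℕ ↦ ((1 : ℤ), -(x : ℤ))) ∪
    (rootsSq (f.reflect d) p).image (fun y : ℕ ↦ (-(y : ℤ), (1 : ℤ)))

lemma sieveLines_one {d : ℕ} {f : ℤ[X]} {p : ℕ} {l : ℤ × ℤ} (hl : l ∈ sieveLines d f p) :
    l.1 = 1 ∨ l.2 = 1 := by
  simp only [sieveLines, Finset.mem_union, Finset.mem_image] at hl
  rcases hl with ⟨x, -, rfl⟩ | ⟨y, -, rfl⟩ <;> simp

lemma exists_mem_sieveLines {d : ℕ} {f : ℤ[X]} (hd : f.natDegree ≤ d) {p : ℕ} (hp : p.Prime)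
    {t s : ℤ} (hts : IsCoprime t s) (h : (p : ℤ) ^ 2 ∣ binForm d f t s) :
    ∃ l ∈ sieveLines d f p, (p : ℤ) ^ 2 ∣ l.1 * t + l.2 * s := by
  simp only [sieveLines, Finset.mem_union, Finset.mem_image]
  by_cases hs : (p : ℤ) ∣ s
  · have ht : ¬ (p : ℤ) ∣ t := fun ht ↦
      (Nat.prime_iff_prime_int.mp hp).not_isUnit (hts.isUnit_of_dvd' ht hs)
    rw [← binForm_reflect] at h
    obtain ⟨y, hy, hy'⟩ := exists_root_line (natDegree_reflect_le_of_le hd) hp ht h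
    exact ⟨(-(y : ℤ), 1), Or.inr ⟨y, hy, rfl⟩, by simpa [sub_eq_neg_add] using hy'⟩
  · obtain ⟨x, hx, hx'⟩ := exists_root_line hd hp hs h
    exact ⟨(1, -(x : ℤ)), Or.inl ⟨x, hx, rfl⟩, by simpa [sub_eq_add_neg] using hx'⟩

lemma card_le_of_dvd_sub {T : Finset ℤ} {A : ℤ} {X r : ℕ} (hr : 0 < r)
    (hT : T ⊆ Ioc A (A + X)) (h : ∀ x ∈ T, ∀ y ∈ T, (r : ℤ) ∣ x - y) :
    (#T : ℝ) ≤ (X : ℝ) / r + 1 := by
  have h1 : #T ≤ X / r + 1 := by
    calc #T ≤ #(Finset.range (X / r + 1)) := by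
          refine Finset.card_le_card_of_injOn (fun x ↦ ((x - A - 1).toNat / r)) ?_ ?_
          · intro x hx
            have := hT hx
            rw [Finset.mem_Ioc] at this
            rw [Finset.mem_coe, Finset.mem_range, Nat.lt_succ_iff]
            exact Nat.div_le_div_right (by omega)
          · intro x hx y hy hxy
            have h2 := Finset.mem_Ioc.mp (hT hx)
            have h3 := Finset.mem_Ioc.mp (hT hy)
            simp only at hxy
            set m := (x - A - 1).toNat with hm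
            set n := (y - A - 1).toNat with hn
            have hxy2 := h x hx y hy
            have := Nat.div_add_mod m r
            have := Nat.div_add_mod n r
            have := Nat.mod_lt m hr
            have := Nat.mod_lt n hr
            rw [hxy] at *
            have := Int.eq_zero_of_abs_lt_dvd hxy2 (by rw [abs_lt]; constructor <;> omega)
            omega
      _ = X / r + 1 := Finset.card_range _
  calc (#T : ℝ) ≤ ((X / r + 1 : ℕ) : ℝ) := by exact_mod_cast h1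
    _ ≤ (X : ℝ) / r + 1 := by push_cast; gcongr; exact Nat.cast_div_le

lemma le_card_filter_dvd_sub (A v : ℤ) (X : ℕ) {r : ℕ} (hr : 0 < r) :
    (X : ℝ) / r - 1 ≤ #((Ioc A (A + X)).filter fun x ↦ (r : ℤ) ∣ v - x) := by
  have hset : (Ioc A (A + X)).filter (fun x ↦ (r : ℤ) ∣ v - x) =
      (Ioc A (A + X)).filter (fun x ↦ x ≡ v [ZMOD (r : ℤ)]) := by
    simp only [Int.modEq_iff_dvd]
  rw [hset]
  have h := Int.Ioc_filter_modEq_card A (A + X) (r := (r : ℤ)) (by exact_mod_cast hr) v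
  have h1 := Int.sub_one_lt_floor (((A + X : ℤ) - v : ℚ) / ((r : ℤ) : ℚ))
  have h2 := Int.floor_le (((A : ℤ) - v : ℚ) / ((r : ℤ) : ℚ))
  have h3 : ((X : ℚ) / r - 1) ≤ (#((Ioc A (A + X)).filter fun x ↦ x ≡ v [ZMOD (r : ℤ)]) : ℤ) := by
    rw [h]
    have hr' : (0 : ℚ) < r := by exact_mod_cast hr
    push_cast at h1 h2 ⊢
    refine le_trans ?_ (le_max_left _ _)
    have : ((A : ℚ) + X - v) / r = ((A : ℚ) - v) / r + X / r := by ring
    linarith
  have h4 : (((X : ℚ) / r - 1 : ℚ) : ℝ) ≤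
      (((#((Ioc A (A + X)).filter fun x ↦ x ≡ v [ZMOD (r : ℤ)]) : ℤ) : ℚ) : ℝ) := Rat.cast_le.mpr h3
  push_cast at h4
  exact h4

lemma card_pairs_le {α : Type*} {S : Finset α} {φ ψ : α → ℤ} {A B : ℤ} {X r r' : ℕ}
    (hr : 0 < r) (hr' : 0 < r') (hinj : Set.InjOn (fun w ↦ (φ w, ψ w)) S)
    (hφ : ∀ w ∈ S, φ w ∈ Ioc A (A + X)) (hψ : ∀ w ∈ S, ψ w ∈ Ioc B (B + X))
    (h1 : ∀ w ∈ S, ∀ w' ∈ S, (r : ℤ) ∣ φ w - φ w')
    (h2 : ∀ w ∈ S, ∀ w' ∈ S, φ w = φ w' → (r' : ℤ) ∣ ψ w - ψ w') :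
    (#S : ℝ) ≤ ((X : ℝ) / r + 1) * ((X : ℝ) / r' + 1) := by
  classical
  rw [Finset.card_eq_sum_card_image φ S]
  push_cast
  refine (Finset.sum_le_card_nsmul _ _ ((X : ℝ) / r' + 1) fun b hb ↦ ?_).trans ?_
  · rw [← Finset.card_image_of_injOn (f := ψ) (s := S.filter fun w ↦ φ w = b) ?_]
    · refine card_le_of_dvd_sub (A := B) hr' ?_ ?_
      · intro z hz
        obtain ⟨w, hw, rfl⟩ := Finset.mem_image.mp hz
        exact hψ w (Finset.mem_filter.mp hw).1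
      · intro z hz z' hz'
        obtain ⟨w, hw, rfl⟩ := Finset.mem_image.mp hz
        obtain ⟨w', hw', rfl⟩ := Finset.mem_image.mp hz'
        rw [Finset.mem_filter] at hw hw'
        exact h2 w hw.1 w' hw'.1 (hw.2.trans hw'.2.symm)
    · intro w hw w' hw' h
      rw [Finset.mem_coe, Finset.mem_filter] at hw hw'
      exact hinj hw.1 hw'.1 (Prod.ext (hw.2.trans hw'.2.symm) h)
  · rw [nsmul_eq_mul]
    refine mul_le_mul_of_nonneg_right (card_le_of_dvd_sub (A := A) hr ?_ ?_) (by positivity)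
    · intro z hz
      obtain ⟨w, hw, rfl⟩ := Finset.mem_image.mp hz
      exact hφ w hw
    · intro z hz z' hz'
      obtain ⟨w, hw, rfl⟩ := Finset.mem_image.mp hz
      obtain ⟨w', hw', rfl⟩ := Finset.mem_image.mp hz'
      exact h1 w hw w' hw'

lemma sum_inv_sq_le_inv {S : Finset ℕ} {k N : ℕ} (hk : k ≠ 0) (h : ∀ p ∈ S, k < p ∧ p ≤ N) :
    (∑ p ∈ S, ((p : ℝ) ^ 2)⁻¹) ≤ (k : ℝ)⁻¹ := by
  refine (Finset.sum_le_sum_of_subset_of_nonneg (t := Ioc k (max k N))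
    (fun p hp ↦ Finset.mem_Ioc.mpr ⟨(h p hp).1, (h p hp).2.trans (le_max_right _ _)⟩)
    fun i _ _ ↦ by positivity).trans ?_
  refine (sum_Ioc_inv_sq_le_sub hk (le_max_left _ _)).trans ?_
  simp

/-- `a * X < t ≤ (a+1) * X`, `c * X < s ≤ (c+1) * X` and a congruence modulo `M`. -/
def sieveBox (M : ℕ) (t₀ s₀ a c : ℤ) (X : ℕ) : Finset (ℤ × ℤ) :=
  (Ioc (a * X) (a * X + X)).filter (fun t ↦ (M : ℤ) ∣ t₀ - t) ×ˢ
    (Ioc (c * X) (c * X + X)).filter (fun s ↦ (M : ℤ) ∣ s₀ - s)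

variable {d : ℕ} {f : ℤ[X]} {M : ℕ} {t₀ s₀ a c : ℤ} {X : ℕ} {p : ℕ}

lemma dvd_sub_of_mem_sieveBox {w w' : ℤ × ℤ} (hw : w ∈ sieveBox M t₀ s₀ a c X)
    (hw' : w' ∈ sieveBox M t₀ s₀ a c X) : (M : ℤ) ∣ w.1 - w'.1 ∧ (M : ℤ) ∣ w.2 - w'.2 := by
  simp only [sieveBox, Finset.mem_product, Finset.mem_filter] at hw hw'
  exact ⟨by simpa using dvd_sub hw'.1.2 hw.1.2, by simpa using dvd_sub hw'.2.2 hw.2.2⟩

lemma abs_le_of_mem_sieveBox {w : ℤ × ℤ} (hw : w ∈ sieveBox M t₀ s₀ a c X) :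
    |w.1| ≤ ((a.natAbs + c.natAbs + 1) * X : ℕ) ∧
      |w.2| ≤ ((a.natAbs + c.natAbs + 1) * X : ℕ) := by
  simp only [sieveBox, Finset.mem_product, Finset.mem_filter, Finset.mem_Ioc] at hw
  have hX : (0 : ℤ) ≤ X := Int.natCast_nonneg X
  have ha := abs_mul a (X : ℤ)
  have hc := abs_mul c (X : ℤ)
  rw [Nat.abs_cast] at ha hc
  push_cast
  have h1 : |a| * (X : ℤ) ≥ 0 := by positivity
  have h2 : |c| * (X : ℤ) ≥ 0 := by positivity
  have := le_abs_self (a * (X : ℤ)); have := neg_abs_le (a * (X : ℤ))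
  have := le_abs_self (c * (X : ℤ)); have := neg_abs_le (c * (X : ℤ))
  constructor <;> rw [abs_le] <;> constructor <;>
    linarith [hw.1.1.1, hw.1.1.2, hw.2.1.1, hw.2.1.2]

/-- The points excluded at the prime `p`. -/
def sieveBad (d : ℕ) (f : ℤ[X]) (M : ℕ) (t₀ s₀ a c : ℤ) (X p : ℕ) : Finset (ℤ × ℤ) :=
  open Classical in
  (sieveBox M t₀ s₀ a c X).filter fun w ↦
    ((p : ℤ) ∣ w.1 ∧ (p : ℤ) ∣ w.2) ∨
      (IsCoprime w.1 w.2 ∧ (p : ℤ) ^ 2 ∣ binForm d f w.1 w.2)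

lemma card_sieveBad_le_sum (hd : f.natDegree ≤ d) (hp : p.Prime) {bE bL : ℝ}
    (hE : ∀ S ⊆ sieveBox M t₀ s₀ a c X, (∀ w ∈ S, (p : ℤ) ∣ w.1 ∧ (p : ℤ) ∣ w.2) → (#S : ℝ) ≤ bE)
    (hL : ∀ l : ℤ × ℤ, (l.1 = 1 ∨ l.2 = 1) → ∀ S ⊆ sieveBox M t₀ s₀ a c X,
      (∀ w ∈ S, IsCoprime w.1 w.2 ∧ (p : ℤ) ^ 2 ∣ l.1 * w.1 + l.2 * w.2) → (#S : ℝ) ≤ bL) :
    (#(sieveBad d f M t₀ s₀ a c X p) : ℝ) ≤ bE + #(sieveLines d f p) * bL := by
  classical
  set P := sieveBox M t₀ s₀ a c X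
  set SE := P.filter fun w ↦ (p : ℤ) ∣ w.1 ∧ (p : ℤ) ∣ w.2
  set SL := (sieveLines d f p).biUnion fun l ↦
    P.filter fun w ↦ IsCoprime w.1 w.2 ∧ (p : ℤ) ^ 2 ∣ l.1 * w.1 + l.2 * w.2
  have hsub : sieveBad d f M t₀ s₀ a c X p ⊆ SE ∪ SL := by
    intro w hw
    rw [sieveBad, Finset.mem_filter] at hw
    obtain ⟨hwP, h | ⟨hcop, h⟩⟩ := hw
    · exact Finset.mem_union_left _ (Finset.mem_filter.mpr ⟨hwP, h⟩)
    · obtain ⟨l, hl, hl'⟩ := exists_mem_sieveLines hd hp hcop h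
      exact Finset.mem_union_right _
        (Finset.mem_biUnion.mpr ⟨l, hl, Finset.mem_filter.mpr ⟨hwP, hcop, hl'⟩⟩)
  have h1 : (#(sieveBad d f M t₀ s₀ a c X p) : ℝ) ≤ #SE + #SL := by
    exact_mod_cast (Finset.card_le_card hsub).trans (Finset.card_union_le _ _)
  refine h1.trans (add_le_add ?_ ?_)
  · exact hE SE (Finset.filter_subset _ _) fun w hw ↦ (Finset.mem_filter.mp hw).2
  · refine (Nat.cast_le.mpr Finset.card_biUnion_le).trans ?_
    push_cast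
    refine (Finset.sum_le_card_nsmul _ _ bL fun l hl ↦ ?_).trans (le_of_eq (nsmul_eq_mul _ _))
    exact hL l (sieveLines_one hl) _ (Finset.filter_subset _ _)
      fun w hw ↦ (Finset.mem_filter.mp hw).2

lemma card_sieveBad_small (hd : f.natDegree ≤ d) (hp : p.Prime) (hM : 0 < M) (hpM : ¬ p ∣ M)
    (hlines : #(sieveLines d f p) ≤ 8) :
    (#(sieveBad d f M t₀ s₀ a c X p) : ℝ) ≤
      9 * ((X : ℝ) ^ 2 / (M : ℝ) ^ 2 * ((p : ℝ) ^ 2)⁻¹ + 2 * X + 1) := by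
  have hp1 : (1 : ℝ) ≤ p := by exact_mod_cast hp.one_le
  have hM1 : (1 : ℝ) ≤ M := by exact_mod_cast hM
  have hcop : IsCoprime (M : ℤ) (p : ℤ) :=
    (Nat.isCoprime_iff_coprime.mpr ((Nat.Prime.coprime_iff_not_dvd hp).mpr hpM)).symm
  set bd : ℝ := (X : ℝ) ^ 2 / (M : ℝ) ^ 2 * ((p : ℝ) ^ 2)⁻¹ + 2 * X + 1
  have hle : ∀ {r r' : ℕ}, (1 : ℝ) ≤ r → (1 : ℝ) ≤ r' → (r : ℝ) * r' = (M : ℝ) ^ 2 * (p : ℝ) ^ 2 →
      ((X : ℝ) / r + 1) * ((X : ℝ) / r' + 1) ≤ bd := by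
    intro r r' hr hr' hrr
    have e1 : (X : ℝ) / r ≤ X := div_le_self (Nat.cast_nonneg _) hr
    have e2 : (X : ℝ) / r' ≤ X := div_le_self (Nat.cast_nonneg _) hr'
    have e3 : (X : ℝ) / r * ((X : ℝ) / r') = (X : ℝ) ^ 2 / (M : ℝ) ^ 2 * ((p : ℝ) ^ 2)⁻¹ := by
      rw [div_mul_div_comm, hrr, ← div_eq_mul_inv, div_div, sq (X : ℝ)]
    simp only [bd]
    nlinarith
  refine (card_sieveBad_le_sum (bE := bd) (bL := bd) hd hp ?_ ?_).trans ?_
  · intro S hS h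
    have hbox := fun w (hw : w ∈ S) ↦ Finset.mem_product.mp (hS hw)
    refine (card_pairs_le (r := M * p) (r' := M * p) (φ := Prod.fst) (ψ := Prod.snd)
      (A := a * X) (B := c * X) (Nat.mul_pos hM hp.pos) (Nat.mul_pos hM hp.pos)
      (fun _ _ _ _ h ↦ h) (fun w hw ↦ (Finset.mem_filter.mp (hbox w hw).1).1)
      (fun w hw ↦ (Finset.mem_filter.mp (hbox w hw).2).1) ?_ ?_).trans (hle ?_ ?_ ?_)
    · intro w hw w' hw'
      push_cast
      exact hcop.mul_dvd (dvd_sub_of_mem_sieveBox (hS hw) (hS hw')).1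
        (dvd_sub (h w hw).1 (h w' hw').1)
    · intro w hw w' hw' _
      push_cast
      exact hcop.mul_dvd (dvd_sub_of_mem_sieveBox (hS hw) (hS hw')).2
        (dvd_sub (h w hw).2 (h w' hw').2)
    all_goals push_cast
    · nlinarith
    · nlinarith
    · ring
  · intro l hl S hS h
    have hbox := fun w (hw : w ∈ S) ↦ Finset.mem_product.mp (hS hw)
    have hcop2 : IsCoprime (M : ℤ) ((p : ℤ) ^ 2) := hcop.pow_right
    rcases hl with hl | hl
    · refine (card_pairs_le (r := M) (r' := M * p ^ 2) (φ := Prod.snd) (ψ := Prod.fst)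
        (A := c * X) (B := a * X) hM (Nat.mul_pos hM (pow_pos hp.pos 2))
        (fun _ _ _ _ h ↦ Prod.ext (congrArg Prod.snd h) (congrArg Prod.fst h))
        (fun w hw ↦ (Finset.mem_filter.mp (hbox w hw).2).1)
        (fun w hw ↦ (Finset.mem_filter.mp (hbox w hw).1).1) ?_ ?_).trans (hle ?_ ?_ ?_)
      · exact fun w hw w' hw' ↦ (dvd_sub_of_mem_sieveBox (hS hw) (hS hw')).2
      · intro w hw w' hw' he
        push_cast
        refine hcop2.mul_dvd (dvd_sub_of_mem_sieveBox (hS hw) (hS hw')).1 ?_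
        have := dvd_sub (h w hw).2 (h w' hw').2
        rwa [hl, he, one_mul, one_mul, add_sub_add_right_eq_sub] at this
      all_goals push_cast
      · exact hM1
      · nlinarith
      · ring
    · refine (card_pairs_le (r := M) (r' := M * p ^ 2) (φ := Prod.fst) (ψ := Prod.snd)
        (A := a * X) (B := c * X) hM (Nat.mul_pos hM (pow_pos hp.pos 2))
        (fun _ _ _ _ h ↦ h)
        (fun w hw ↦ (Finset.mem_filter.mp (hbox w hw).1).1)
        (fun w hw ↦ (Finset.mem_filter.mp (hbox w hw).2).1) ?_ ?_).trans (hle ?_ ?_ ?_)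
      · exact fun w hw w' hw' ↦ (dvd_sub_of_mem_sieveBox (hS hw) (hS hw')).1
      · intro w hw w' hw' he
        push_cast
        refine hcop2.mul_dvd (dvd_sub_of_mem_sieveBox (hS hw) (hS hw')).2 ?_
        have := dvd_sub (h w hw).2 (h w' hw').2
        rwa [hl, he, one_mul, one_mul, add_sub_add_left_eq_sub] at this
      all_goals push_cast
      · exact hM1
      · nlinarith
      · ring
  · have hb : 0 ≤ bd := by simp only [bd]; positivity
    have h8 : (#(sieveLines d f p) : ℝ) ≤ 8 := by exact_mod_cast hlines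
    nlinarith

lemma card_sieveBad_large (hd : f.natDegree ≤ d) (hp : p.Prime)
    (hlines : #(sieveLines d f p) ≤ 8) :
    (#(sieveBad d f M t₀ s₀ a c X p) : ℝ) ≤
      (2 + 160 * ((a.natAbs + c.natAbs + 1 : ℕ) : ℝ) ^ 2) * (X : ℝ) ^ 2 * ((p : ℝ) ^ 2)⁻¹ + 18 := by
  set K : ℕ := a.natAbs + c.natAbs + 1 with hK
  have hp0 : (0 : ℝ) < p := by exact_mod_cast hp.pos
  refine (card_sieveBad_le_sum (bE := 2 * (X : ℝ) ^ 2 * ((p : ℝ) ^ 2)⁻¹ + 2)
    (bL := 20 * ((K : ℝ) ^ 2) * (X : ℝ) ^ 2 * ((p : ℝ) ^ 2)⁻¹ + 2) hd hp ?_ ?_).trans ?_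
  · intro S hS h
    have hbox := fun w (hw : w ∈ S) ↦ Finset.mem_product.mp (hS hw)
    refine (card_pairs_le (r := p) (r' := p) (φ := Prod.fst) (ψ := Prod.snd)
      (A := a * X) (B := c * X) hp.pos hp.pos (fun _ _ _ _ h ↦ h)
      (fun w hw ↦ (Finset.mem_filter.mp (hbox w hw).1).1)
      (fun w hw ↦ (Finset.mem_filter.mp (hbox w hw).2).1)
      (fun w hw w' hw' ↦ dvd_sub (h w hw).1 (h w' hw').1)
      (fun w hw w' hw' _ ↦ dvd_sub (h w hw).2 (h w' hw').2)).trans ?_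
    have e : (X : ℝ) ^ 2 * ((p : ℝ) ^ 2)⁻¹ = ((X : ℝ) / p) ^ 2 := by
      rw [div_pow, div_eq_mul_inv]
    nlinarith [sq_nonneg ((X : ℝ) / p - 1)]
  · intro l hl S hS h
    have := card_mul_le_of_cross_dvd (S := S) (q := p ^ 2) (X := K * X) (pow_pos hp.pos 2)
      (fun w hw ↦ (h w hw).1) (fun w hw ↦ abs_le_of_mem_sieveBox (hS hw)) (fun w hw w' hw' ↦ ?_)
    · have h1 : ((p : ℝ) ^ 2) * #S ≤ 2 * (p : ℝ) ^ 2 + 20 * ((K : ℝ) * X) ^ 2 := by
        exact_mod_cast this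
      rw [← le_div_iff₀' (by positivity)] at h1
      refine h1.trans (le_of_eq ?_)
      field_simp
      ring
    · push_cast
      rcases hl with hl | hl
      · have h2 := dvd_sub ((h w hw).2.mul_right w'.2) ((h w' hw').2.mul_right w.2)
        rw [hl] at h2
        convert! h2 using 1
        ring
      · have h2 := dvd_sub ((h w' hw').2.mul_left w.1) ((h w hw).2.mul_left w'.1)
        rw [hl] at h2
        convert! h2 using 1
        ring
  · have h8 : (#(sieveLines d f p) : ℝ) ≤ 8 := by exact_mod_cast hlines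
    have hb : (0 : ℝ) ≤ 20 * ((K : ℝ) ^ 2) * (X : ℝ) ^ 2 * ((p : ℝ) ^ 2)⁻¹ + 2 := by positivity
    nlinarith

/-- The sieve when every prime outside `M` is large and prime to the resultant. -/
theorem exists_squarefree_binForm_aux (hd : f.natDegree ≤ d) (hd4 : d ≤ 4) (hM : 0 < M)
    (hprim : ∀ p : ℕ, p.Prime → p ∣ M → ¬ ((p : ℤ) ∣ t₀ ∧ (p : ℤ) ∣ s₀))
    (hlarge : ∀ p : ℕ, p.Prime → ¬ p ∣ M → 36 < p ∧ #(sieveLines d f p) ≤ 8)
    (a c : ℤ) (X₀ : ℕ) :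
    ∃ X : ℕ, X₀ ≤ X ∧ ∃ t s : ℤ, (a * X < t ∧ t ≤ (a + 1) * X) ∧ (c * X < s ∧ s ≤ (c + 1) * X) ∧
      IsCoprime t s ∧ t ≡ t₀ [ZMOD M] ∧ s ≡ s₀ [ZMOD M] ∧ binForm d f t s ≠ 0 ∧
      ∀ p : ℕ, p.Prime → ¬ p ∣ M → ¬ (p : ℤ) ^ 2 ∣ binForm d f t s := by
  classical
  set K : ℕ := a.natAbs + c.natAbs + 1 with hK
  set C : ℕ := (∑ i ∈ range (d + 1), (f.coeff i).natAbs) + 1 with hC
  set A : ℝ := 2 + 160 * (K : ℝ) ^ 2 with hA
  have hM' : (0 : ℝ) < M := by exact_mod_cast hM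
  have hA0 : 0 < A := by positivity
  set y : ℕ := ⌈4 * (M : ℝ) ^ 2 * A⌉₊ + 36 with hy
  set δ : ℝ := 1 / (72 * (M : ℝ) ^ 2 * C * (K : ℝ) ^ 2) with hδ
  have hδ0 : 0 < δ := by positivity
  obtain ⟨n₀, hn₀⟩ := Filter.eventually_atTop.mp (eventually_card_primesLE_le hδ0)
  obtain ⟨q, hqM, hq⟩ := Nat.exists_infinite_primes (M + 1)
  set Z : ℕ := ⌈4 * (M : ℝ) ^ 2 * (27 * ((y : ℝ) + 1) + 2)⌉₊ with hZ
  set X : ℕ := X₀ + n₀ + q + M + Z + 1 with hX
  refine ⟨X, by omega, ?_⟩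
  set N : ℕ := C * (K * X) ^ 2 with hN
  have hKX : X ≤ K * X := Nat.le_mul_of_pos_left X (by omega)
  have hKXN : K * X ≤ N :=
    le_trans (Nat.le_self_pow two_ne_zero _) (Nat.le_mul_of_pos_left _ (by omega))
  set P := sieveBox M t₀ s₀ a c X with hP
  set Ps := (Nat.primesLE N).filter fun p ↦ ¬ p ∣ M with hPs
  have hPs' : ∀ p ∈ Ps, p.Prime ∧ ¬ p ∣ M ∧ p ≤ N := fun p hp ↦ by
    rw [hPs, Finset.mem_filter, Nat.mem_primesLE] at hp
    exact ⟨hp.1.2, hp.2, hp.1.1⟩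
  have hqPs : q ∈ Ps := by
    rw [hPs, Finset.mem_filter, Nat.mem_primesLE]
    exact ⟨⟨by omega, hq⟩, fun h ↦ by have := Nat.le_of_dvd hM h; omega⟩
  -- counting
  have hcount : (#(Ps.biUnion fun p ↦ sieveBad d f M t₀ s₀ a c X p) : ℝ) < #P := by
    set Q : ℝ := (X : ℝ) ^ 2 / (M : ℝ) ^ 2 with hQ
    have hQ0 : 0 ≤ Q := by positivity
    have hX1 : (1 : ℝ) ≤ X := by exact_mod_cast (show 1 ≤ X by omega)
    have hsmall : ∑ p ∈ Ps.filter (· ≤ y), (#(sieveBad d f M t₀ s₀ a c X p) : ℝ) ≤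
        Q / 4 + 27 * ((y : ℝ) + 1) * X := by
      refine (Finset.sum_le_sum (g := fun p : ℕ ↦ 9 * Q * ((p : ℝ) ^ 2)⁻¹ + 27 * (X : ℝ))
        fun p hp ↦ ?_).trans ?_
      · obtain ⟨hp', hpM, -⟩ := hPs' p (Finset.mem_filter.mp hp).1
        refine (card_sieveBad_small hd hp' hM hpM (hlarge p hp' hpM).2).trans ?_
        simp only [Q]
        nlinarith
      rw [Finset.sum_add_distrib, Finset.sum_const, nsmul_eq_mul, ← Finset.mul_sum]
      refine add_le_add ?_ ?_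
      · have := sum_inv_sq_le_inv (S := Ps.filter (· ≤ y)) (k := 36) (N := N) (by norm_num)
          fun p hp ↦ by
            obtain ⟨hp', hpM, hpN⟩ := hPs' p (Finset.mem_filter.mp hp).1
            exact ⟨(hlarge p hp' hpM).1, hpN⟩
        norm_num at this
        nlinarith
      · have : #(Ps.filter (· ≤ y)) ≤ y + 1 := by
          refine (Finset.card_le_card fun p hp ↦ ?_).trans (le_of_eq (Finset.card_range (y + 1)))
          exact Finset.mem_range.mpr (Nat.lt_succ_of_le (Finset.mem_filter.mp hp).2)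
        have : (#(Ps.filter (· ≤ y)) : ℝ) ≤ (y : ℝ) + 1 := by exact_mod_cast this
        nlinarith
    have hbig : ∑ p ∈ Ps.filter (fun p ↦ ¬ p ≤ y), (#(sieveBad d f M t₀ s₀ a c X p) : ℝ) ≤
        Q / 4 + Q / 4 := by
      refine (Finset.sum_le_sum (g := fun p : ℕ ↦ A * (X : ℝ) ^ 2 * ((p : ℝ) ^ 2)⁻¹ + 18)
        fun p hp ↦ ?_).trans ?_
      · obtain ⟨hp', hpM, -⟩ := hPs' p (Finset.mem_filter.mp hp).1
        exact card_sieveBad_large hd hp' (hlarge p hp' hpM).2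
      rw [Finset.sum_add_distrib, Finset.sum_const, nsmul_eq_mul, ← Finset.mul_sum]
      refine add_le_add ?_ ?_
      · have hy0 : (0 : ℝ) < y := by exact_mod_cast (show 0 < y by omega)
        have hy4 : 4 * (M : ℝ) ^ 2 * A ≤ y := by
          rw [hy]; push_cast; linarith [Nat.le_ceil (4 * (M : ℝ) ^ 2 * A)]
        have := sum_inv_sq_le_inv (S := Ps.filter (fun p ↦ ¬ p ≤ y)) (k := y) (N := N) (by omega)
          fun p hp ↦ by
            rw [Finset.mem_filter] at hp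
            exact ⟨not_le.mp hp.2, (hPs' p hp.1).2.2⟩
        refine (mul_le_mul_of_nonneg_left this (by positivity)).trans ?_
        simp only [Q]
        rw [div_div, ← div_eq_mul_inv, div_le_div_iff₀ hy0 (by positivity)]
        nlinarith [mul_le_mul_of_nonneg_left hy4 (sq_nonneg (X : ℝ))]
      · have h1 : (#(Ps.filter fun p ↦ ¬ p ≤ y) : ℝ) ≤ δ * N := by
          refine le_trans ?_ (hn₀ N (by omega))
          exact_mod_cast Finset.card_le_card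
            ((Finset.filter_subset _ _).trans (Finset.filter_subset _ _))
        have hC0 : (0 : ℝ) < C := by exact_mod_cast (show 0 < C by omega)
        have hK0 : (0 : ℝ) < K := by exact_mod_cast (show 0 < K by omega)
        have h2 : δ * (N : ℝ) = Q / 72 := by
          simp only [hN, hδ, Q]
          push_cast
          field_simp
        nlinarith
    have hlow : Q - 2 * X ≤ (#P : ℝ) := by
      rw [hP, sieveBox, Finset.card_product]
      push_cast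
      have h1 := le_card_filter_dvd_sub (a * (X : ℤ)) t₀ X hM
      have h2 := le_card_filter_dvd_sub (c * (X : ℤ)) s₀ X hM
      have hXM : (1 : ℝ) ≤ (X : ℝ) / M := by
        rw [le_div_iff₀ hM', one_mul]; exact_mod_cast (show M ≤ X by omega)
      have h3 : (X : ℝ) / M ≤ X := div_le_self (by positivity) (by exact_mod_cast hM)
      have h4 := mul_le_mul h1 h2 (by linarith) (Nat.cast_nonneg _)
      simp only [Q, ← div_pow]
      nlinarith
    have hfin : (27 * ((y : ℝ) + 1) + 2) * X < Q / 4 := by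
      have h1 : 4 * (M : ℝ) ^ 2 * (27 * ((y : ℝ) + 1) + 2) < X :=
        lt_of_le_of_lt (le_of_le_of_eq (Nat.le_ceil _) (congrArg Nat.cast hZ.symm))
          (Nat.cast_lt.mpr (show Z < X by omega))
      simp only [Q]
      rw [div_div, lt_div_iff₀ (by positivity)]
      nlinarith [mul_lt_mul_of_pos_right h1 (lt_of_lt_of_le one_pos hX1)]
    calc (#(Ps.biUnion fun p ↦ sieveBad d f M t₀ s₀ a c X p) : ℝ)
        ≤ ∑ p ∈ Ps, (#(sieveBad d f M t₀ s₀ a c X p) : ℝ) := by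
          exact_mod_cast Finset.card_biUnion_le
      _ < #P := by
          rw [← Finset.sum_filter_add_sum_filter_not Ps (· ≤ y)]
          linarith
  -- a good point
  obtain ⟨⟨t, s⟩, hwP, hgood⟩ := Finset.exists_mem_notMem_of_card_lt_card (by exact_mod_cast hcount)
  have hgood' : ∀ p ∈ Ps, ¬ (((p : ℤ) ∣ t ∧ (p : ℤ) ∣ s) ∨
      (IsCoprime t s ∧ (p : ℤ) ^ 2 ∣ binForm d f t s)) := fun p hp h ↦
    hgood (Finset.mem_biUnion.mpr ⟨p, hp, by
      rw [sieveBad, Finset.mem_filter]; exact ⟨hwP, h⟩⟩)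
  obtain ⟨hat, hcs⟩ : |t| ≤ ((K * X : ℕ) : ℤ) ∧ |s| ≤ ((K * X : ℕ) : ℤ) :=
    abs_le_of_mem_sieveBox hwP
  have hwP' := hwP
  simp only [hP, sieveBox, Finset.mem_product, Finset.mem_filter, Finset.mem_Ioc] at hwP'
  obtain ⟨⟨⟨ht1, ht2⟩, htM⟩, ⟨hs1, hs2⟩, hsM⟩ := hwP'
  have hcop : IsCoprime t s := by
    rw [Int.isCoprime_iff_gcd_eq_one]
    by_contra hg
    obtain ⟨p, hp, hpg⟩ := Nat.exists_prime_and_dvd hg
    have hpt : (p : ℤ) ∣ t := (Int.natCast_dvd_natCast.mpr hpg).trans (Int.gcd_dvd_left t s)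
    have hps : (p : ℤ) ∣ s := (Int.natCast_dvd_natCast.mpr hpg).trans (Int.gcd_dvd_right t s)
    by_cases hpM : p ∣ M
    · have hpM' : (p : ℤ) ∣ M := Int.natCast_dvd_natCast.mpr hpM
      refine hprim p hp hpM ⟨?_, ?_⟩
      · simpa using dvd_add (hpM'.trans htM) hpt
      · simpa using dvd_add (hpM'.trans hsM) hps
    · by_cases h0 : t = 0 ∧ s = 0
      · exact hgood' q hqPs (Or.inl ⟨by simp [h0.1], by simp [h0.2]⟩)
      · refine hgood' p ?_ (Or.inl ⟨hpt, hps⟩)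
        rw [hPs, Finset.mem_filter, Nat.mem_primesLE]
        refine ⟨⟨?_, hp⟩, hpM⟩
        rw [Int.abs_eq_natAbs] at hat hcs
        rcases not_and_or.mp h0 with h0 | h0
        · have := Nat.le_of_dvd (by omega) (Int.natCast_dvd.mp hpt); omega
        · have := Nat.le_of_dvd (by omega) (Int.natCast_dvd.mp hps); omega
  have hne : binForm d f t s ≠ 0 := fun h ↦ hgood' q hqPs (Or.inr ⟨hcop, by simp [h]⟩)
  refine ⟨t, s, ⟨ht1, by linarith⟩, ⟨hs1, by linarith⟩, hcop, Int.modEq_iff_dvd.mpr htM,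
    Int.modEq_iff_dvd.mpr hsM, hne, fun p hp hpM hdvd ↦ hgood' p ?_ (Or.inr ⟨hcop, hdvd⟩)⟩
  rw [hPs, Finset.mem_filter, Nat.mem_primesLE]
  refine ⟨⟨?_, hp⟩, hpM⟩
  have h1 := Int.le_of_dvd (abs_pos.mpr hne) ((dvd_abs _ _).mpr hdvd)
  have hKX1 : (1 : ℤ) ≤ ((K * X : ℕ) : ℤ) := by exact_mod_cast (show 1 ≤ K * X by omega)
  have h2 := abs_binForm_le d f hKX1 hat hcs
  have h3 : (∑ i ∈ range (d + 1), |f.coeff i|) ≤ (C : ℤ) := by
    rw [hC]; push_cast [Int.natCast_natAbs]; linarith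
  have h4 : ((K * X : ℕ) : ℤ) ^ d ≤ ((K * X : ℕ) : ℤ) ^ 4 := pow_le_pow_right₀ hKX1 hd4
  have h5 : (p : ℤ) ^ 2 ≤ (N : ℤ) ^ 2 := by
    have hC1 : (1 : ℤ) ≤ C := by exact_mod_cast (show 1 ≤ C by omega)
    calc (p : ℤ) ^ 2 ≤ (C : ℤ) * ((K * X : ℕ) : ℤ) ^ 4 :=
          (h1.trans h2).trans (mul_le_mul h3 h4 (by positivity) (by positivity))
      _ ≤ (C : ℤ) * (C * ((K * X : ℕ) : ℤ) ^ 4) :=
          le_mul_of_one_le_left (by positivity) hC1
      _ = (N : ℤ) ^ 2 := by rw [hN]; push_cast; ring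
  have := (pow_le_pow_iff_left₀ (Int.natCast_nonneg p) (Int.natCast_nonneg N) two_ne_zero).mp h5
  exact_mod_cast this

end FermatLib.MLT
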