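import Mathlib.Analysis.Complex.Polynomial.Basic
import Fermat.Agent.MLT.SieveCore

/-!
Squarefree values of binary forms of degree `≤ 4` with local conditions and a real cone.

* `exists_squarefree_binForm` : congruence modulo `M`, box `(aX,(a+1)X] × (cX,(c+1)X]`.
* `exists_squarefree_binForm_of_local` : finitely many local conditions, open cone in `ℝ²`.
-/

set_option autoImplicit false

noncomputable section

open Polynomial Finset

namespace FermatLib.MLT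

variable {d : ℕ} {f : ℤ[X]}

/-- No fixed square divisor at a prime `p > d` not dividing the content. -/
lemma exists_not_sq_dvd_binForm_of_lt (hd : f.natDegree ≤ d) {p : ℕ} (hp : p.Prime) (hdp : d < p)
    {i : ℕ} (hi : ¬ (p : ℤ) ∣ f.coeff i) :
    ∃ t s : ℤ, ¬ ((p : ℤ) ∣ t ∧ (p : ℤ) ∣ s) ∧ ¬ (p : ℤ) ^ 2 ∣ binForm d f t s := by
  have : Fact p.Prime := ⟨hp⟩
  set F : (ZMod p)[X] := f.map (Int.castRingHom (ZMod p)) with hF
  have hF0 : F ≠ 0 := by
    intro h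
    refine hi ((ZMod.intCast_zmod_eq_zero_iff_dvd _ p).mp ?_)
    have := congrArg (fun G ↦ Polynomial.coeff G i) h
    simpa [hF] using this
  obtain ⟨x, hx⟩ : ∃ x : ZMod p, F.eval x ≠ 0 := by
    by_contra! h
    refine hF0 (Polynomial.eq_zero_of_natDegree_lt_card_of_eval_eq_zero F
      (f := (id : ZMod p → ZMod p)) Function.injective_id h ?_)
    rw [ZMod.card]
    exact lt_of_le_of_lt Polynomial.natDegree_map_le (by omega)
  refine ⟨x.val, 1, fun h ↦ hp.one_lt.ne' ?_, fun h ↦ hx ?_⟩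
  · exact_mod_cast Int.eq_one_of_dvd_one (Int.natCast_nonneg p) h.2
  · have h1 : (p : ℤ) ∣ binForm d f (x.val : ℤ) 1 := dvd_trans (dvd_pow_self _ two_ne_zero) h
    rw [binForm_one hd] at h1
    have := (ZMod.intCast_zmod_eq_zero_iff_dvd _ p).mpr h1
    rw [show x = (((x.val : ℕ) : ℤ) : ZMod p) by simp, hF, Polynomial.eval_intCast_map,
      Int.coe_castRingHom, Int.cast_id]
    exact this

/-- Separability of the reversed dehomogenisation. -/
lemma separable_reflect (hd : f.natDegree ≤ d) (hd1 : d ≤ f.natDegree + 1)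
    (hf : (f.map (Int.castRingHom ℚ)).Separable) :
    ((f.reflect d).map (Int.castRingHom ℚ)).Separable := by
  rw [← Polynomial.separable_map (algebraMap ℚ ℂ), Polynomial.map_map] at hf ⊢
  set φ := (algebraMap ℚ ℂ).comp (Int.castRingHom ℚ)
  set F := f.map φ with hF
  have hφ : Function.Injective φ := RingHom.injective_int φ
  have hFd : F.natDegree ≤ d := (Polynomial.natDegree_map_le).trans hd
  have hgF : (f.reflect d).map φ = F.reflect d := (Polynomial.reflect_map φ f d).symm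
  rw [hgF]
  by_contra hns
  -- a common root of the polynomial and its derivative
  rw [Polynomial.separable_def] at hns
  obtain ⟨y, hy0, hy1⟩ : ∃ y : ℂ, (F.reflect d).eval y = 0 ∧
      (derivative (F.reflect d)).eval y = 0 := by
    have hrel : ¬ IsRelPrime (F.reflect d) (derivative (F.reflect d)) :=
      fun h ↦ hns h.isCoprime
    simp only [IsRelPrime, not_forall] at hrel
    obtain ⟨e, he1, he2, he3⟩ := hrel
    have hG0 : F.reflect d ≠ 0 := by
      intro h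
      refine not_separable_zero (R := ℂ) ?_
      rw [Polynomial.reflect_eq_zero_iff] at h
      rwa [h] at hf
    have he0 : e ≠ 0 := ne_zero_of_dvd_ne_zero hG0 he1
    obtain ⟨y, hy⟩ := IsAlgClosed.exists_root e fun h ↦
      he3 (Polynomial.isUnit_iff_degree_eq_zero.mpr h)
    exact ⟨y, Polynomial.eval_eq_zero_of_dvd_of_eval_eq_zero he1 hy,
      Polynomial.eval_eq_zero_of_dvd_of_eval_eq_zero he2 hy⟩
  have e0 : ∀ z : ℂ, (F.reflect d).eval z = ∑ i ∈ range (d + 1), F.coeff i * z ^ (d - i) := by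
    intro z
    rw [Polynomial.eval_eq_sum_range' (n := d + 1) ?_, ← Finset.sum_range_reflect]
    · refine Finset.sum_congr rfl fun i hi ↦ ?_
      have := Finset.mem_range.mp hi
      rw [Polynomial.coeff_reflect, Polynomial.revAt_le (by omega),
        show d - (d + 1 - 1 - i) = i by omega, show d + 1 - 1 - i = d - i by omega]
    · rw [Nat.lt_succ_iff, Polynomial.natDegree_le_iff_coeff_eq_zero]
      intro i hi
      rw [Polynomial.coeff_reflect, Polynomial.revAt_eq_self_of_lt hi]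
      exact Polynomial.coeff_eq_zero_of_natDegree_lt (by omega)
  have e1 : derivative (F.reflect d) =
      ∑ i ∈ range (d + 1), C (F.coeff i * ((d - i : ℕ) : ℂ)) * X ^ (d - i - 1) := by
    have hsum : F.reflect d = ∑ i ∈ range (d + 1), C (F.coeff i) * X ^ (d - i) :=
      Polynomial.funext fun z ↦ by simp [e0, Polynomial.eval_finsetSum]
    rw [hsum, derivative_sum]
    simp only [derivative_C_mul_X_pow]
  rw [e0] at hy0
  rw [e1, Polynomial.eval_finsetSum] at hy1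
  simp only [eval_mul, eval_C, eval_pow, eval_X] at hy1
  rcases eq_or_ne y 0 with rfl | hy
  · -- `0` can only be a simple root
    have h0 : F.coeff d = 0 := by
      rw [Finset.sum_eq_single d] at hy0
      · simpa using hy0
      · intro i hi hne
        have := Finset.mem_range.mp hi
        rw [zero_pow (by omega), mul_zero]
      · simp
    rcases Nat.eq_zero_or_pos d with rfl | hdpos
    · have : F = 0 := by rw [Polynomial.eq_C_of_natDegree_le_zero hFd, h0, map_zero]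
      rw [this] at hf
      exact not_separable_zero hf
    have h1 : F.coeff (d - 1) = 0 := by
      rw [Finset.sum_eq_single (d - 1)] at hy1
      · simpa [show d - (d - 1) = 1 by omega] using hy1
      · intro i hi hne
        have := Finset.mem_range.mp hi
        rcases Nat.lt_or_ge i d with h | h
        · rw [zero_pow (by omega), mul_zero]
        · simp [show d - i = 0 by omega]
      · simp
    have hdeg : F.natDegree = f.natDegree :=
      Polynomial.natDegree_map_eq_of_injective hφ f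
    have hF0 : F ≠ 0 := fun h ↦ not_separable_zero (h ▸ hf)
    have hlc := Polynomial.coeff_natDegree (p := F)
    rcases (show F.natDegree = d ∨ F.natDegree = d - 1 by omega) with h | h <;> rw [h] at hlc
    · exact hF0 (Polynomial.leadingCoeff_eq_zero.mp (hlc ▸ h0))
    · exact hF0 (Polynomial.leadingCoeff_eq_zero.mp (hlc ▸ h1))
  · -- `y ≠ 0` gives a common root `1/y` of `F` and `F'`
    have k0 : F.eval y⁻¹ = 0 := by
      have : F.eval y⁻¹ * y ^ d = 0 := by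
        rw [Polynomial.eval_eq_sum_range' (Nat.lt_succ_of_le hFd), Finset.sum_mul]
        refine (Finset.sum_congr rfl fun i hi ↦ ?_).trans hy0
        have := Finset.mem_range.mp hi
        rw [mul_assoc, inv_pow, pow_sub₀ y hy (by omega), mul_comm (y ^ i)⁻¹]
      simpa [hy] using this
    have k1 : (derivative F).eval y⁻¹ = 0 := by
      have hd' : (derivative F).eval y⁻¹ =
          ∑ i ∈ range (d + 1), F.coeff i * i * y⁻¹ ^ (i - 1) := by
        conv_lhs => rw [Polynomial.as_sum_range' F (d + 1) (Nat.lt_succ_of_le hFd), derivative_sum,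
          Polynomial.eval_finsetSum]
        simp [derivative_monomial, eval_monomial]
      have : (derivative F).eval y⁻¹ * y⁻¹ * y ^ d = 0 := by
        have hsum : ∑ i ∈ range (d + 1), F.coeff i * i * y ^ (d - i) = 0 := by
          have h2 : ∑ i ∈ range (d + 1), F.coeff i * ((d - i : ℕ) : ℂ) * y ^ (d - i) = 0 := by
            have := congrArg (· * y) hy1
            rw [zero_mul, Finset.sum_mul] at this
            rw [← this]
            refine Finset.sum_congr rfl fun i hi ↦ ?_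
            rcases Nat.eq_zero_or_pos (d - i) with h | h
            · simp [h]
            · rw [mul_assoc _ (y ^ (d - i - 1)), ← pow_succ, Nat.sub_add_cancel h]
          calc ∑ i ∈ range (d + 1), F.coeff i * i * y ^ (d - i)
              = ∑ i ∈ range (d + 1), ((d : ℂ) * (F.coeff i * y ^ (d - i)) -
                  F.coeff i * ((d - i : ℕ) : ℂ) * y ^ (d - i)) := by
                refine Finset.sum_congr rfl fun i hi ↦ ?_
                have := Finset.mem_range.mp hi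
                push_cast [Nat.cast_sub (show i ≤ d by omega)]
                ring
            _ = 0 := by rw [Finset.sum_sub_distrib, ← Finset.mul_sum, hy0, h2, mul_zero, sub_zero]
        rw [hd', Finset.sum_mul, Finset.sum_mul]
        refine (Finset.sum_congr rfl fun i hi ↦ ?_).trans hsum
        have := Finset.mem_range.mp hi
        rcases Nat.eq_zero_or_pos i with rfl | hi0
        · simp
        · rw [mul_assoc (F.coeff i * (i : ℂ)), ← pow_succ, Nat.sub_add_cancel hi0, mul_assoc,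
            inv_pow, pow_sub₀ y hy (by omega), mul_comm (y ^ i)⁻¹]
      simpa [hy] using this
    obtain ⟨u, v, huv⟩ := hf
    have := congrArg (Polynomial.eval y⁻¹) huv
    rw [eval_add, eval_mul, eval_mul, k0, k1, mul_zero, mul_zero, add_zero, eval_one] at this
    exact zero_ne_one this

lemma exists_absorb (hprimM : ℕ) (t₀ s₀ : ℤ) (hM : 0 < hprimM)
    (hprim : ∀ p : ℕ, p.Prime → p ∣ hprimM → ¬ ((p : ℤ) ∣ t₀ ∧ (p : ℤ) ∣ s₀))
    (T : Finset ℕ) (good : ℕ → ℤ → ℤ → Prop)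
    (hgood : ∀ p ∈ T, p.Prime → ¬ p ∣ hprimM → ∃ t s : ℤ,
      ¬ ((p : ℤ) ∣ t ∧ (p : ℤ) ∣ s) ∧ good p t s)
    (hcongr : ∀ p : ℕ, ∀ t t' s s' : ℤ, t ≡ t' [ZMOD (p : ℤ) ^ 2] → s ≡ s' [ZMOD (p : ℤ) ^ 2] →
      good p t s → good p t' s') :
    ∃ (M₁ : ℕ) (t₁ s₁ : ℤ), 0 < M₁ ∧ hprimM ∣ M₁ ∧ t₁ ≡ t₀ [ZMOD hprimM] ∧
      s₁ ≡ s₀ [ZMOD hprimM] ∧
      (∀ p : ℕ, p.Prime → p ∣ M₁ → ¬ ((p : ℤ) ∣ t₁ ∧ (p : ℤ) ∣ s₁)) ∧
      (∀ p ∈ T, p.Prime → p ∣ M₁) ∧
      (∀ p : ℕ, p.Prime → p ∣ M₁ → ¬ p ∣ hprimM → p ^ 2 ∣ M₁ ∧ good p t₁ s₁) := by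
  classical
  induction T using Finset.induction_on with
  | empty =>
    exact ⟨hprimM, t₀, s₀, hM, dvd_rfl, rfl, rfl, hprim, by simp, fun p _ h1 h2 ↦ absurd h1 h2⟩
  | @insert q T hq ih =>
    obtain ⟨M₁, t₁, s₁, hM₁, hdvd, ht, hs, hpr, hT, hsq⟩ :=
      ih fun p hp ↦ hgood p (Finset.mem_insert_of_mem hp)
    by_cases hqold : q.Prime → q ∣ M₁
    · exact ⟨M₁, t₁, s₁, hM₁, hdvd, ht, hs, hpr, fun p hp hp' ↦ by
        rcases Finset.mem_insert.mp hp with rfl | hp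
        exacts [hqold hp', hT p hp hp'], hsq⟩
    obtain ⟨hqp, hqM⟩ := Classical.not_imp.mp hqold
    obtain ⟨τ, σ, hτσ, hg⟩ :=
      hgood q (Finset.mem_insert_self _ _) hqp (fun h ↦ hqM (h.trans hdvd))
    obtain ⟨u, v, huv⟩ : IsCoprime (M₁ : ℤ) ((q : ℤ) ^ 2) :=
      (Nat.isCoprime_iff_coprime.mpr ((Nat.Prime.coprime_iff_not_dvd hqp).mpr hqM)).symm.pow_right
    set t₂ := t₁ * (v * (q : ℤ) ^ 2) + τ * (u * M₁) with ht₂
    set s₂ := s₁ * (v * (q : ℤ) ^ 2) + σ * (u * M₁) with hs₂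
    have ct1 : t₂ ≡ t₁ [ZMOD M₁] := Int.modEq_iff_dvd.mpr
      ⟨(t₁ - τ) * u, by rw [ht₂]; linear_combination (-t₁) * huv⟩
    have cs1 : s₂ ≡ s₁ [ZMOD M₁] := Int.modEq_iff_dvd.mpr
      ⟨(s₁ - σ) * u, by rw [hs₂]; linear_combination (-s₁) * huv⟩
    have ct2 : t₂ ≡ τ [ZMOD (q : ℤ) ^ 2] := Int.modEq_iff_dvd.mpr
      ⟨(τ - t₁) * v, by rw [ht₂]; linear_combination (-τ) * huv⟩
    have cs2 : s₂ ≡ σ [ZMOD (q : ℤ) ^ 2] := Int.modEq_iff_dvd.mpr
      ⟨(σ - s₁) * v, by rw [hs₂]; linear_combination (-σ) * huv⟩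
    have old : ∀ {p : ℕ}, p.Prime → p ∣ M₁ * q ^ 2 → p ≠ q → p ∣ M₁ := fun {p} hp h hne ↦
      (hp.dvd_mul.mp h).resolve_right fun h' ↦
        hne ((Nat.prime_dvd_prime_iff_eq hp hqp).mp (hp.dvd_of_dvd_pow h'))
    refine ⟨M₁ * q ^ 2, t₂, s₂, Nat.mul_pos hM₁ (pow_pos hqp.pos 2), hdvd.mul_right _,
      (ct1.of_dvd (Int.natCast_dvd_natCast.mpr hdvd)).trans ht,
      (cs1.of_dvd (Int.natCast_dvd_natCast.mpr hdvd)).trans hs, ?_, ?_, ?_⟩
    · intro p hp hpd ⟨h1, h2⟩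
      rcases eq_or_ne p q with rfl | hne
      · have hpq : (p : ℤ) ∣ (p : ℤ) ^ 2 := dvd_pow_self _ two_ne_zero
        exact hτσ ⟨(dvd_sub_left h1).mp (Int.ModEq.dvd (ct2.of_dvd hpq)),
          (dvd_sub_left h2).mp (Int.ModEq.dvd (cs2.of_dvd hpq))⟩
      · have hpM : (p : ℤ) ∣ M₁ := Int.natCast_dvd_natCast.mpr (old hp hpd hne)
        exact hpr p hp (old hp hpd hne) ⟨(dvd_sub_left h1).mp (Int.ModEq.dvd (ct1.of_dvd hpM)),
          (dvd_sub_left h2).mp (Int.ModEq.dvd (cs1.of_dvd hpM))⟩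
    · intro p hp hp'
      rcases Finset.mem_insert.mp hp with rfl | hp
      · exact dvd_mul_of_dvd_right (dvd_pow_self _ two_ne_zero) _
      · exact (hT p hp hp').mul_right _
    · intro p hp hpd hpM
      rcases eq_or_ne p q with rfl | hne
      · exact ⟨dvd_mul_left _ _, hcongr p _ _ _ _ ct2.symm cs2.symm hg⟩
      · obtain ⟨hsq', hg'⟩ := hsq p hp (old hp hpd hne) hpM
        have hpp : (p : ℤ) ^ 2 ∣ M₁ := by exact_mod_cast Int.natCast_dvd_natCast.mpr hsq'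
        exact ⟨hsq'.mul_right _,
          hcongr p _ _ _ _ (ct1.of_dvd hpp).symm (cs1.of_dvd hpp).symm hg'⟩

/-- **Squarefree sieve.** A binary form of degree `d ≤ 4` whose two dehomogenisations are separable
and which has no fixed square divisor outside `M` takes values squarefree outside `M` at coprime
arguments in any residue class modulo `M` and in any homothetic family of unit boxes. -/
theorem exists_squarefree_binForm (hd : f.natDegree ≤ d) (hd4 : d ≤ 4)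
    (hf : (f.map (Int.castRingHom ℚ)).Separable)
    (hg : ((f.reflect d).map (Int.castRingHom ℚ)).Separable)
    {M : ℕ} (hM : 0 < M) {t₀ s₀ : ℤ}
    (hprim : ∀ p : ℕ, p.Prime → p ∣ M → ¬ ((p : ℤ) ∣ t₀ ∧ (p : ℤ) ∣ s₀))
    (hloc : ∀ p : ℕ, p.Prime → ¬ p ∣ M → ∃ t s : ℤ,
      ¬ ((p : ℤ) ∣ t ∧ (p : ℤ) ∣ s) ∧ ¬ (p : ℤ) ^ 2 ∣ binForm d f t s)
    (a c : ℤ) (X₀ : ℕ) :
    ∃ X : ℕ, X₀ ≤ X ∧ ∃ t s : ℤ, (a * X < t ∧ t ≤ (a + 1) * X) ∧ (c * X < s ∧ s ≤ (c + 1) * X) ∧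
      IsCoprime t s ∧ t ≡ t₀ [ZMOD M] ∧ s ≡ s₀ [ZMOD M] ∧ binForm d f t s ≠ 0 ∧
      ∀ p : ℕ, p.Prime → ¬ p ∣ M → ¬ (p : ℤ) ^ 2 ∣ binForm d f t s := by
  obtain ⟨uf, vf, Rf, hRf, hf'⟩ := exists_bezout_int hf
  obtain ⟨ug, vg, Rg, hRg, hg'⟩ := exists_bezout_int hg
  obtain ⟨M₁, t₁, s₁, hM₁, hdvd, ht, hs, hpr, hT, hsq⟩ :=
    exists_absorb M t₀ s₀ hM hprim (Nat.primesLE 36 ∪ (Rf * Rg).natAbs.primeFactors)
      (fun p t s ↦ ¬ (p : ℤ) ^ 2 ∣ binForm d f t s) (fun p _ hp hpM ↦ hloc p hp hpM)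
      (fun p t t' s s' h1 h2 h h' ↦ h (Int.modEq_zero_iff_dvd.mp
        ((binForm_modEq d f h1 h2).trans (Int.modEq_zero_iff_dvd.mpr h'))))
  have hlarge : ∀ p : ℕ, p.Prime → ¬ p ∣ M₁ → 36 < p ∧ #(sieveLines d f p) ≤ 8 := by
    intro p hp hpM
    have hnT : p ∉ Nat.primesLE 36 ∪ (Rf * Rg).natAbs.primeFactors := fun h ↦ hpM (hT p h hp)
    rw [Finset.mem_union, Nat.mem_primesLE, Nat.mem_primeFactors] at hnT
    have hR : ¬ (p : ℤ) ∣ Rf * Rg := fun h ↦ hnT (Or.inr ⟨hp, Int.natCast_dvd.mp h,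
      Int.natAbs_ne_zero.mpr (mul_ne_zero hRf hRg)⟩)
    refine ⟨not_le.mp fun h ↦ hnT (Or.inl ⟨h, hp⟩), ?_⟩
    refine (Finset.card_union_le _ _).trans ?_
    have h1 := (card_rootsSq_le hf' hp fun h ↦ hR (h.mul_right _)).trans hd
    have h2 := (card_rootsSq_le hg' hp fun h ↦ hR (h.mul_left _)).trans
      (natDegree_reflect_le_of_le hd)
    have h3 := (Finset.card_image_le (s := rootsSq f p)
      (f := fun x : ℕ ↦ ((1 : ℤ), -(x : ℤ))))
    have h4 := (Finset.card_image_le (s := rootsSq (f.reflect d) p)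
      (f := fun y : ℕ ↦ (-(y : ℤ), (1 : ℤ))))
    omega
  obtain ⟨X, hX, t, s, hbt, hbs, hcop, ht', hs', hne, hgood⟩ :=
    exists_squarefree_binForm_aux hd hd4 hM₁ hpr hlarge a c X₀
  have hd' : (M : ℤ) ∣ M₁ := Int.natCast_dvd_natCast.mpr hdvd
  refine ⟨X, hX, t, s, hbt, hbs, hcop, (ht'.of_dvd hd').trans ht, (hs'.of_dvd hd').trans hs, hne,
    fun p hp hpM ↦ ?_⟩
  by_cases hp1 : p ∣ M₁
  · obtain ⟨hsq', hg1⟩ := hsq p hp hp1 hpM
    have hpp : (p : ℤ) ^ 2 ∣ M₁ := by exact_mod_cast Int.natCast_dvd_natCast.mpr hsq'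
    exact fun h ↦ hg1 (Int.modEq_zero_iff_dvd.mp
      ((binForm_modEq d f (ht'.of_dvd hpp).symm (hs'.of_dvd hpp).symm).trans
        (Int.modEq_zero_iff_dvd.mpr h)))
  · exact hgood p hp hp1

/-- CRT for pairs: prescribed residues modulo `p ^ e p`, `p ∈ S`. -/
lemma exists_crt_pair (S : Finset ℕ) (hS : ∀ p ∈ S, p.Prime) (e : ℕ → ℕ) (τ σ : ℕ → ℤ) :
    ∃ t s : ℤ, ∀ p ∈ S, t ≡ τ p [ZMOD (p : ℤ) ^ e p] ∧ s ≡ σ p [ZMOD (p : ℤ) ^ e p] := by
  classical
  induction S using Finset.induction_on with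
  | empty => exact ⟨0, 0, by simp⟩
  | @insert q S hq ih =>
    obtain ⟨t, s, h⟩ := ih fun p hp ↦ hS p (Finset.mem_insert_of_mem hp)
    have hqp := hS q (Finset.mem_insert_self q S)
    obtain ⟨u, v, huv⟩ : IsCoprime (∏ p ∈ S, (p : ℤ) ^ e p) ((q : ℤ) ^ e q) := by
      refine IsCoprime.prod_left fun p hp ↦ IsCoprime.pow (Nat.isCoprime_iff_coprime.mpr ?_)
      exact (Nat.coprime_primes (hS p (Finset.mem_insert_of_mem hp)) hqp).mpr
        fun he ↦ hq (he ▸ hp)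
    set P := ∏ p ∈ S, (p : ℤ) ^ e p with hP
    refine ⟨t * (v * (q : ℤ) ^ e q) + τ q * (u * P), s * (v * (q : ℤ) ^ e q) + σ q * (u * P),
      fun p hp ↦ ?_⟩
    rcases Finset.mem_insert.mp hp with rfl | hp
    · exact ⟨Int.modEq_iff_dvd.mpr ⟨(τ p - t) * v, by linear_combination (-τ p) * huv⟩,
        Int.modEq_iff_dvd.mpr ⟨(σ p - s) * v, by linear_combination (-σ p) * huv⟩⟩
    · have hd : (p : ℤ) ^ e p ∣ P := Finset.dvd_prod_of_mem _ hp
      have c1 : t * (v * (q : ℤ) ^ e q) + τ q * (u * P) ≡ t [ZMOD P] :=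
        Int.modEq_iff_dvd.mpr ⟨(t - τ q) * u, by linear_combination (-t) * huv⟩
      have c2 : s * (v * (q : ℤ) ^ e q) + σ q * (u * P) ≡ s [ZMOD P] :=
        Int.modEq_iff_dvd.mpr ⟨(s - σ q) * u, by linear_combination (-s) * huv⟩
      exact ⟨(c1.of_dvd hd).trans (h p hp).1, (c2.of_dvd hd).trans (h p hp).2⟩

/-- Every nonempty open set of `ℝ²` contains a unit box after scaling by some positive integer. -/
lemma exists_box_of_isOpen {U : Set (ℝ × ℝ)} (hU : IsOpen U) (hne : U.Nonempty) :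
    ∃ (a c : ℤ) (n : ℕ), 0 < n ∧ ∀ x y : ℝ, (a : ℝ) ≤ n * x → n * x ≤ a + 1 → (c : ℝ) ≤ n * y →
      n * y ≤ c + 1 → (x, y) ∈ U := by
  obtain ⟨⟨x₀, y₀⟩, h₀⟩ := hne
  obtain ⟨ε, hε, hball⟩ := Metric.isOpen_iff.mp hU _ h₀
  obtain ⟨n, hn⟩ := exists_nat_gt (1 / ε)
  have hn0 : (0 : ℝ) < n := lt_trans (by positivity) hn
  refine ⟨⌊n * x₀⌋, ⌊n * y₀⌋, n, by exact_mod_cast hn0, fun x y hx1 hx2 hy1 hy2 ↦ hball ?_⟩
  have key : ∀ z z₀ : ℝ, (⌊n * z₀⌋ : ℝ) ≤ n * z → n * z ≤ ⌊n * z₀⌋ + 1 → |z - z₀| < ε := by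
    intro z z₀ h1 h2
    have h3 := Int.floor_le ((n : ℝ) * z₀)
    have h4 := Int.lt_floor_add_one ((n : ℝ) * z₀)
    have h5 : 1 < n * ε := by
      rw [div_lt_iff₀ hε] at hn
      linarith
    rw [abs_lt]
    constructor <;> nlinarith
  rw [Metric.mem_ball, Prod.dist_eq, max_lt_iff, Real.dist_eq, Real.dist_eq]
  exact ⟨key x x₀ hx1 hx2, key y y₀ hy1 hy2⟩

/-- **Squarefree sieve, local–global form.** Given targets `(τ p, σ p)` modulo `p ^ e p` at the
primes of `S`, and an open cone given by a nonempty open `U ⊆ ℝ²`, there are coprime `(t, s)`,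
with arbitrarily large scale `r`, meeting the targets, with `(t, s) ∈ r • U` and with
`binForm d f t s` nonzero and squarefree outside `S`. -/
theorem exists_squarefree_binForm_of_local (hd : f.natDegree ≤ d) (hd4 : d ≤ 4)
    (hf : (f.map (Int.castRingHom ℚ)).Separable)
    (hg : ((f.reflect d).map (Int.castRingHom ℚ)).Separable)
    (S : Finset ℕ) (hS : ∀ p ∈ S, p.Prime) (e : ℕ → ℕ) (τ σ : ℕ → ℤ) (he : ∀ p ∈ S, 0 < e p)
    (hprim : ∀ p ∈ S, ¬ ((p : ℤ) ∣ τ p ∧ (p : ℤ) ∣ σ p))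
    (hloc : ∀ p : ℕ, p.Prime → p ∉ S → ∃ t s : ℤ,
      ¬ ((p : ℤ) ∣ t ∧ (p : ℤ) ∣ s) ∧ ¬ (p : ℤ) ^ 2 ∣ binForm d f t s)
    {U : Set (ℝ × ℝ)} (hU : IsOpen U) (hUne : U.Nonempty) (R : ℝ) :
    ∃ (r : ℝ) (t s : ℤ), 0 < r ∧ R ≤ r ∧ ((t : ℝ) / r, (s : ℝ) / r) ∈ U ∧ IsCoprime t s ∧
      (∀ p ∈ S, t ≡ τ p [ZMOD (p : ℤ) ^ e p] ∧ s ≡ σ p [ZMOD (p : ℤ) ^ e p]) ∧
      binForm d f t s ≠ 0 ∧
      ∀ p : ℕ, p.Prime → p ∉ S → ¬ (p : ℤ) ^ 2 ∣ binForm d f t s := by
  obtain ⟨t₀, s₀, h₀⟩ := exists_crt_pair S hS e τ σ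
  obtain ⟨a, c, n, hn, hbox⟩ := exists_box_of_isOpen hU hUne
  set M := ∏ p ∈ S, p ^ e p with hMdef
  have hM : 0 < M := Finset.prod_pos fun p hp ↦ pow_pos (hS p hp).pos _
  have hMS : ∀ p : ℕ, p.Prime → p ∣ M → p ∈ S := fun p hp h ↦ by
    obtain ⟨q, hq, hpq⟩ := (Prime.dvd_finsetProd_iff (Nat.prime_iff.mp hp) _).mp h
    rwa [(Nat.prime_dvd_prime_iff_eq hp (hS q hq)).mp (hp.dvd_of_dvd_pow hpq)]
  have hSM : ∀ p ∈ S, (p : ℤ) ^ e p ∣ M := fun p hp ↦ by
    exact_mod_cast Int.natCast_dvd_natCast.mpr (Finset.dvd_prod_of_mem (fun p ↦ p ^ e p) hp)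
  obtain ⟨X, hX, t, s, hbt, hbs, hcop, ht, hs, hne, hgood⟩ :=
    exists_squarefree_binForm hd hd4 hf hg hM (t₀ := t₀) (s₀ := s₀)
      (fun p hp hpM ⟨h1, h2⟩ ↦ by
        have hpS := hMS p hp hpM
        have hpe : (p : ℤ) ∣ (p : ℤ) ^ e p := dvd_pow_self _ (he p hpS).ne'
        exact hprim p hpS ⟨(dvd_sub_left h1).mp (Int.ModEq.dvd ((h₀ p hpS).1.of_dvd hpe)),
          (dvd_sub_left h2).mp (Int.ModEq.dvd ((h₀ p hpS).2.of_dvd hpe))⟩)
      (fun p hp hpM ↦ hloc p hp fun hpS ↦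
        hpM ((dvd_pow_self _ (he p hpS).ne').trans (Finset.dvd_prod_of_mem _ hpS)))
      a c (⌈R / n⌉₊ + 1)
  have hn' : (0 : ℝ) < n := by exact_mod_cast hn
  have hX1 : (1 : ℝ) ≤ X := by exact_mod_cast (show 1 ≤ X by omega)
  refine ⟨n * X, t, s, by positivity, ?_, ?_, hcop,
    fun p hp ↦ ⟨(ht.of_dvd (hSM p hp)).trans (h₀ p hp).1,
      (hs.of_dvd (hSM p hp)).trans (h₀ p hp).2⟩, hne,
    fun p hp hpS ↦ hgood p hp fun hpM ↦ hpS (hMS p hp hpM)⟩
  · have h1 : ((⌈R / n⌉₊ : ℕ) : ℝ) ≤ X := by exact_mod_cast (show ⌈R / n⌉₊ ≤ X by omega)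
    have := (Nat.le_ceil (R / n)).trans h1
    rwa [div_le_iff₀' hn'] at this
  · have e1 : ∀ z : ℝ, (n : ℝ) * (z / (n * X)) = z / X := fun z ↦ by field_simp
    have hX0 : (0 : ℝ) < X := by linarith
    refine hbox _ _ ?_ ?_ ?_ ?_ <;> rw [e1] <;>
      first | rw [le_div_iff₀ hX0] | rw [div_le_iff₀ hX0]
    · exact_mod_cast hbt.1.le
    · exact_mod_cast hbt.2
    · exact_mod_cast hbs.1.le
    · exact_mod_cast hbs.2

end FermatLib.MLT
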