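import Mathlib.NumberTheory.Chebyshev
import Mathlib.RingTheory.Localization.Integral
import Mathlib.Algebra.Polynomial.Identities
import Mathlib.Algebra.Polynomial.Reverse
import Mathlib.Analysis.PSeries
import Mathlib.Data.Int.CardIntervalMod
import Mathlib.RingTheory.Coprime.Lemmas
import Mathlib.FieldTheory.Separable
import Mathlib.Algebra.Field.ZMod

/-!
Elementary ingredients of the squarefree sieve for binary forms of degree at most four:
binary forms, roots modulo `p²`, primitive points on a line modulo `q`, prime counting.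
-/

set_option autoImplicit false

noncomputable section

open Polynomial Finset

namespace FermatLib.MLT

/-- The binary form `∑ aᵢ tⁱ s^(d-i)` attached to `f = ∑ aᵢ Xⁱ`. -/
def binForm (d : ℕ) (f : ℤ[X]) (t s : ℤ) : ℤ :=
  ∑ i ∈ range (d + 1), f.coeff i * t ^ i * s ^ (d - i)

lemma modEq_sum {ι : Type*} {s : Finset ι} {a b : ι → ℤ} {n : ℤ}
    (h : ∀ i ∈ s, a i ≡ b i [ZMOD n]) : ∑ i ∈ s, a i ≡ ∑ i ∈ s, b i [ZMOD n] := by
  rw [Int.modEq_iff_dvd, ← Finset.sum_sub_distrib]
  exact Finset.dvd_sum fun i hi ↦ Int.modEq_iff_dvd.mp (h i hi)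

lemma binForm_reflect (d : ℕ) (f : ℤ[X]) (t s : ℤ) :
    binForm d (f.reflect d) s t = binForm d f t s := by
  rw [binForm, binForm, ← Finset.sum_range_reflect]
  refine Finset.sum_congr rfl fun i hi ↦ ?_
  have hi' : i ≤ d := Nat.lt_succ_iff.mp (Finset.mem_range.mp hi)
  rw [show d + 1 - 1 - i = d - i by omega, Polynomial.coeff_reflect,
    Polynomial.revAt_le (by omega), show d - (d - i) = i by omega]
  ring

lemma binForm_modEq (d : ℕ) (f : ℤ[X]) {n t t' s s' : ℤ} (ht : t ≡ t' [ZMOD n])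
    (hs : s ≡ s' [ZMOD n]) : binForm d f t s ≡ binForm d f t' s' [ZMOD n] := by
  unfold binForm
  exact modEq_sum fun i _ ↦ ((Int.ModEq.refl _).mul (ht.pow i)).mul (hs.pow (d - i))

lemma binForm_one {d : ℕ} {f : ℤ[X]} (hd : f.natDegree ≤ d) (t : ℤ) :
    binForm d f t 1 = f.eval t := by
  simp [binForm, Polynomial.eval_eq_sum_range' (Nat.lt_succ_of_le hd) t]

lemma dvd_eval_of_dvd_binForm {d : ℕ} {f : ℤ[X]} (hd : f.natDegree ≤ d) {n t s u : ℤ}
    (hsu : s * u ≡ 1 [ZMOD n]) (h : n ∣ binForm d f t s) : n ∣ f.eval (t * u) := by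
  have key : binForm d f t s * u ^ d ≡ f.eval (t * u) [ZMOD n] := by
    rw [binForm, Polynomial.eval_eq_sum_range' (Nat.lt_succ_of_le hd), Finset.sum_mul]
    refine modEq_sum fun i hi ↦ ?_
    have hi' : i ≤ d := Nat.lt_succ_iff.mp (Finset.mem_range.mp hi)
    have h1 : f.coeff i * t ^ i * s ^ (d - i) * u ^ d =
        f.coeff i * (t * u) ^ i * (s * u) ^ (d - i) := by
      rw [mul_pow, mul_pow, show u ^ d = u ^ i * u ^ (d - i) by rw [← pow_add]; congr 1; omega]
      ring
    rw [h1]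
    simpa using (Int.ModEq.refl (f.coeff i * (t * u) ^ i)).mul (hsu.pow (d - i))
  exact Int.modEq_zero_iff_dvd.mp (key.symm.trans (Int.modEq_zero_iff_dvd.mpr (h.mul_right _)))

lemma abs_binForm_le (d : ℕ) (f : ℤ[X]) {t s X : ℤ} (hX : 1 ≤ X) (ht : |t| ≤ X) (hs : |s| ≤ X) :
    |binForm d f t s| ≤ (∑ i ∈ range (d + 1), |f.coeff i|) * X ^ d := by
  rw [binForm, Finset.sum_mul]
  refine (Finset.abs_sum_le_sum_abs _ _).trans (Finset.sum_le_sum fun i hi ↦ ?_)
  have hi' : i ≤ d := Nat.lt_succ_iff.mp (Finset.mem_range.mp hi)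
  rw [abs_mul, abs_mul, abs_pow, abs_pow, mul_assoc]
  have hXd : X ^ d = X ^ i * X ^ (d - i) := by rw [← pow_add]; congr 1; omega
  rw [hXd]
  gcongr

lemma exists_bezout_int {f : ℤ[X]} (hf : (f.map (Int.castRingHom ℚ)).Separable) :
    ∃ (u v : ℤ[X]) (R : ℤ), R ≠ 0 ∧ u * f + v * derivative f = C R := by
  obtain ⟨u, v, h⟩ := hf
  obtain ⟨bu, hbu, hu⟩ :=
    IsLocalization.integerNormalization_spec (nonZeroDivisors ℤ) u
  obtain ⟨bv, hbv, hv⟩ :=
    IsLocalization.integerNormalization_spec (nonZeroDivisors ℤ) v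
  refine ⟨C bv * IsLocalization.integerNormalization (nonZeroDivisors ℤ) u,
    C bu * IsLocalization.integerNormalization (nonZeroDivisors ℤ) v, bu * bv,
    mul_ne_zero (nonZeroDivisors.ne_zero hbu) (nonZeroDivisors.ne_zero hbv), ?_⟩
  refine Polynomial.map_injective (Int.castRingHom ℚ) Int.cast_injective ?_
  rw [algebraMap_int_eq] at hu hv
  rw [Polynomial.map_add, Polynomial.map_mul, Polynomial.map_mul, Polynomial.map_mul,
    Polynomial.map_mul, hu, hv, Polynomial.map_C, Polynomial.map_C, Polynomial.map_C,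
    ← Polynomial.derivative_map, Algebra.smul_def, Algebra.smul_def]
  simp only [map_mul, Int.coe_castRingHom, Polynomial.algebraMap_apply, algebraMap_int_eq]
  linear_combination (C (bu : ℚ) * C (bv : ℚ)) * h

/-- Roots of `f` modulo `p²`, for `p` prime to the resultant of `f` and `f'`. -/
def rootsSq (f : ℤ[X]) (p : ℕ) : Finset ℕ :=
  (range (p ^ 2)).filter fun x ↦ ((p : ℤ) ^ 2) ∣ f.eval (x : ℤ)

lemma card_rootsSq_le {f u v : ℤ[X]} {R : ℤ} (hR : u * f + v * derivative f = C R) {p : ℕ}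
    (hp : p.Prime) (hpR : ¬ (p : ℤ) ∣ R) : #(rootsSq f p) ≤ f.natDegree := by
  have : Fact p.Prime := ⟨hp⟩
  set F : (ZMod p)[X] := f.map (Int.castRingHom (ZMod p)) with hF
  have hp0 : ((R : ℤ) : ZMod p) ≠ 0 := fun h ↦ hpR ((ZMod.intCast_zmod_eq_zero_iff_dvd R p).mp h)
  have hR' := congrArg (Polynomial.map (Int.castRingHom (ZMod p))) hR
  rw [Polynomial.map_add, Polynomial.map_mul, Polynomial.map_mul, Polynomial.map_C,
    ← Polynomial.derivative_map, ← hF, Int.coe_castRingHom] at hR'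
  have hF0 : F ≠ 0 := by
    intro h
    rw [h, derivative_zero, mul_zero, mul_zero, add_zero] at hR'
    exact hp0 (Polynomial.C_eq_zero.mp hR'.symm)
  calc #(rootsSq f p) ≤ #F.roots.toFinset := by
        refine Finset.card_le_card_of_injOn (fun x ↦ (x : ZMod p)) ?_ ?_
        · intro x hx
          simp only [Finset.mem_coe, rootsSq, Finset.mem_filter] at hx
          rw [Finset.mem_coe, Multiset.mem_toFinset, Polynomial.mem_roots hF0,
            Polynomial.IsRoot.def, hF]
          dsimp only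
          rw [show ((x : ℕ) : ZMod p) = ((x : ℤ) : ZMod p) by norm_cast,
            Polynomial.eval_intCast_map, Int.coe_castRingHom, Int.cast_id,
            ZMod.intCast_zmod_eq_zero_iff_dvd]
          exact dvd_trans (dvd_pow_self _ two_ne_zero) hx.2
        · intro x hx y hy hxy
          simp only [Finset.mem_coe, rootsSq, Finset.mem_filter, Finset.mem_range] at hx hy
          have hxy' : ((x : ℤ) : ZMod p) = ((y : ℤ) : ZMod p) := by simpa using hxy
          obtain ⟨k, hk⟩ := (ZMod.intCast_eq_intCast_iff_dvd_sub (x : ℤ) y p).mp hxy'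
          obtain ⟨c, hc⟩ := Polynomial.binomExpansion f (x : ℤ) (p * k)
          rw [← hk, add_sub_cancel] at hc
          have h1 : (p : ℤ) * p ∣ (derivative f).eval (x : ℤ) * (p * k) := by
            rw [← sq]
            have h2 : (derivative f).eval (x : ℤ) * ((y : ℤ) - x) =
                f.eval (y : ℤ) - f.eval (x : ℤ) - c * ((y : ℤ) - x) ^ 2 := by
              rw [hc]; ring
            rw [← hk, h2, hk, mul_pow]
            exact dvd_sub (dvd_sub hy.2 hx.2) (dvd_mul_of_dvd_right (dvd_mul_right _ _) _)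
          rw [mul_comm (p : ℤ) k, ← mul_assoc] at h1
          rcases (Nat.prime_iff_prime_int.mp hp).dvd_mul.mp (Int.dvd_of_mul_dvd_mul_right
            (by exact_mod_cast hp.ne_zero) h1) with h3 | h3
          · refine absurd ?_ hp0
            have he := congrArg (Polynomial.eval (x : ℤ)) hR
            rw [eval_add, eval_mul, eval_mul, eval_C] at he
            rw [ZMod.intCast_zmod_eq_zero_iff_dvd, ← he]
            exact dvd_add (dvd_mul_of_dvd_right (dvd_trans (dvd_pow_self _ two_ne_zero) hx.2) _)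
              (dvd_mul_of_dvd_right h3 _)
          · obtain ⟨m, rfl⟩ := h3
            have hdiff : ((p : ℤ) ^ 2) ∣ (y : ℤ) - x := ⟨m, by rw [hk]; ring⟩
            have hx1 : (x : ℤ) < (p : ℤ) ^ 2 := by exact_mod_cast hx.1
            have hy1 : (y : ℤ) < (p : ℤ) ^ 2 := by exact_mod_cast hy.1
            have := Int.eq_zero_of_abs_lt_dvd hdiff (by
              rw [abs_lt]
              constructor <;> omega)
            omega
    _ ≤ Multiset.card F.roots := Multiset.toFinset_card_le _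
    _ ≤ F.natDegree := F.card_roots'
    _ ≤ f.natDegree := Polynomial.natDegree_map_le

/-- A primitive vector on the two sides of a vanishing cross product. -/
lemma eq_smul_of_cross_eq_zero {v z : ℤ × ℤ} (hv : IsCoprime v.1 v.2)
    (h : v.1 * z.2 - z.1 * v.2 = 0) : ∃ m : ℤ, z.1 = m * v.1 ∧ z.2 = m * v.2 := by
  obtain ⟨a, b, hab⟩ := hv
  refine ⟨a * z.1 + b * z.2, ?_, ?_⟩
  · linear_combination (-z.1) * hab - b * h
  · linear_combination (-z.2) * hab + a * h

/-- Primitive vectors of sup norm at most `X` with all cross products divisible by `q`. -/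
lemma card_mul_le_of_cross_dvd {S : Finset (ℤ × ℤ)} {q X : ℕ} (hq : 0 < q)
    (hprim : ∀ w ∈ S, IsCoprime w.1 w.2) (hX : ∀ w ∈ S, |w.1| ≤ X ∧ |w.2| ≤ X)
    (hcross : ∀ w ∈ S, ∀ w' ∈ S, (q : ℤ) ∣ w.1 * w'.2 - w'.1 * w.2) :
    q * #S ≤ 2 * q + 20 * X ^ 2 := by
  rcases S.eq_empty_or_nonempty with rfl | hne
  · simp
  obtain ⟨v, hv, hmin⟩ := S.exists_min_image (fun w ↦ max w.1.natAbs w.2.natAbs) hne
  set L := max v.1.natAbs v.2.natAbs with hL
  have hLX : L ≤ X := by
    obtain ⟨h1, h2⟩ := hX v hv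
    rw [Int.abs_eq_natAbs] at h1 h2
    omega
  have hL0 : 0 < L := by
    by_contra h
    obtain ⟨a, b, hab⟩ := hprim v hv
    have h1 : v.1 = 0 := by omega
    have h2 : v.2 = 0 := by omega
    simp [h1, h2] at hab
  set K := 2 * L * X / q with hK
  set W := 2 * X / L with hW
  have hW1 : L * (2 * W + 1) ≤ 5 * X := by
    have := Nat.mul_div_le (2 * X) L
    rw [← hW] at this
    nlinarith
  set κ : ℤ × ℤ → ℤ := fun w ↦ (v.1 * w.2 - w.1 * v.2) / q with hκ
  have hκe : ∀ w ∈ S, (q : ℤ) * κ w = v.1 * w.2 - w.1 * v.2 := fun w hw ↦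
    Int.mul_ediv_cancel' (hcross v hv w hw)
  have hκb : ∀ w ∈ S, |κ w| ≤ K := by
    intro w hw
    obtain ⟨h1, h2⟩ := hX w hw
    have hv1 : |v.1| ≤ (L : ℤ) := by rw [Int.abs_eq_natAbs]; omega
    have hv2 : |v.2| ≤ (L : ℤ) := by rw [Int.abs_eq_natAbs]; omega
    have h3 : |v.1 * w.2 - w.1 * v.2| ≤ 2 * L * X := by
      refine (abs_sub _ _).trans ?_
      rw [abs_mul, abs_mul]
      have e1 : |v.1| * |w.2| ≤ (L : ℤ) * X := mul_le_mul hv1 h2 (abs_nonneg _) (by positivity)
      have e2 : |w.1| * |v.2| ≤ (X : ℤ) * L := mul_le_mul h1 hv2 (abs_nonneg _) (by positivity)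
      linarith
    rw [← hκe w hw, abs_mul, Nat.abs_cast, Int.abs_eq_natAbs] at h3
    rw [Int.abs_eq_natAbs]
    have h4 : q * (κ w).natAbs ≤ 2 * L * X := by exact_mod_cast h3
    exact_mod_cast (Nat.le_div_iff_mul_le hq).mpr (by rw [mul_comm]; exact h4)
  -- a fibre of `κ`
  have hfib : ∀ k : ℤ, #(S.filter fun w ↦ κ w = k) ≤ 2 * W + 1 := by
    intro k
    rcases (S.filter fun w ↦ κ w = k).eq_empty_or_nonempty with h | ⟨w₀, hw₀⟩
    · simp [h]
    calc #(S.filter fun w ↦ κ w = k)
        ≤ #((Icc (-(W : ℤ)) W).image fun m : ℤ ↦ (w₀.1 + m * v.1, w₀.2 + m * v.2)) := by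
          refine Finset.card_le_card fun w hw ↦ ?_
          rw [Finset.mem_filter] at hw hw₀
          have hz : v.1 * (w.2 - w₀.2) - (w.1 - w₀.1) * v.2 = 0 := by
            linear_combination (-1 : ℤ) * hκe w hw.1 + hκe w₀ hw₀.1 +
              (q : ℤ) * (hw.2.trans hw₀.2.symm)
          obtain ⟨m, hm1, hm2⟩ := eq_smul_of_cross_eq_zero
            (z := (w.1 - w₀.1, w.2 - w₀.2)) (hprim v hv) hz
          rw [Finset.mem_image]
          refine ⟨m, ?_, Prod.ext (by linarith) (by linarith)⟩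
          obtain ⟨a1, a2⟩ := hX w hw.1
          obtain ⟨b1, b2⟩ := hX w₀ hw₀.1
          rw [Int.abs_eq_natAbs] at a1 a2 b1 b2
          have hm : m.natAbs * L ≤ 2 * X := by
            have c1 : (m * v.1).natAbs ≤ 2 * X := by simp only at hm1; rw [← hm1]; omega
            have c2 : (m * v.2).natAbs ≤ 2 * X := by simp only at hm2; rw [← hm2]; omega
            rw [Int.natAbs_mul] at c1 c2
            rw [hL]
            rcases max_choice v.1.natAbs v.2.natAbs with h | h <;> rw [h] <;> assumption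
          have := (Nat.le_div_iff_mul_le hL0).mpr hm
          rw [← hW] at this
          rw [Finset.mem_Icc]
          omega
      _ ≤ #(Icc (-(W : ℤ)) W) := Finset.card_image_le
      _ = 2 * W + 1 := by rw [Int.card_Icc]; omega
  have h0 : #(S.filter fun w ↦ κ w = 0) ≤ 2 := by
    refine (Finset.card_le_card (t := {v, (-v.1, -v.2)}) fun w hw ↦ ?_).trans Finset.card_le_two
    rw [Finset.mem_filter] at hw
    obtain ⟨m, hm1, hm2⟩ := eq_smul_of_cross_eq_zero (hprim v hv)
      (by rw [← hκe w hw.1, hw.2, mul_zero] : v.1 * w.2 - w.1 * v.2 = 0)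
    have := (hprim w hw.1)
    rw [hm1, hm2] at this
    obtain ⟨a, b, hab⟩ := this
    have hm : m * (a * v.1 + b * v.2) = 1 := by linear_combination hab
    rcases Int.eq_one_or_neg_one_of_mul_eq_one hm with rfl | rfl
    · exact Finset.mem_insert.mpr (Or.inl (Prod.ext (by simpa using hm1) (by simpa using hm2)))
    · exact Finset.mem_insert_of_mem (Finset.mem_singleton.mpr
        (Prod.ext (by simpa using hm1) (by simpa using hm2)))
  have hrest : #(S.filter fun w ↦ ¬ κ w = 0) ≤ 2 * K * (2 * W + 1) := by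
    refine (Finset.card_le_mul_card_image (f := κ) _ (2 * W + 1) fun k _ ↦ ?_).trans ?_
    · exact (Finset.card_le_card (Finset.filter_subset_filter _ (Finset.filter_subset _ _))).trans
        (hfib k)
    · rw [mul_comm]
      refine Nat.mul_le_mul_right _ ((Finset.card_le_card
        (t := (Icc (-(K : ℤ)) K).erase 0) fun k hk ↦ ?_).trans (le_of_eq ?_))
      · obtain ⟨w, hw, rfl⟩ := Finset.mem_image.mp hk
        rw [Finset.mem_filter] at hw
        have := hκb w hw.1
        rw [abs_le] at this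
        exact Finset.mem_erase.mpr ⟨hw.2, Finset.mem_Icc.mpr this⟩
      · rw [Finset.card_erase_of_mem (by simp), Int.card_Icc]; omega
  have hsplit := Finset.card_filter_add_card_filter_not (s := S) (fun w ↦ κ w = 0)
  have hqK : q * K ≤ 2 * L * X := Nat.mul_div_le _ _
  have h5 : L * (q * (2 * K * (2 * W + 1))) ≤ L * (20 * X ^ 2) := by
    calc L * (q * (2 * K * (2 * W + 1))) = 2 * (q * K) * (L * (2 * W + 1)) := by ring
      _ ≤ 2 * (2 * L * X) * (5 * X) :=
          Nat.mul_le_mul (Nat.mul_le_mul_left 2 hqK) hW1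
      _ = L * (20 * X ^ 2) := by ring
  have h6 := Nat.le_of_mul_le_mul_left h5 hL0
  calc q * #S ≤ q * (2 + 2 * K * (2 * W + 1)) := Nat.mul_le_mul_left q (by omega)
    _ ≤ 2 * q + 20 * X ^ 2 := by rw [mul_add]; omega

/-- `π(n) = o(n)`. -/
lemma eventually_card_primesLE_le {δ : ℝ} (hδ : 0 < δ) :
    ∀ᶠ n : ℕ in Filter.atTop, (#(Nat.primesLE n) : ℝ) ≤ δ * n := by
  have h1 : ∀ᶠ n : ℕ in Filter.atTop,
      (Nat.primeCounting ⌊(n : ℝ)⌋₊ : ℝ) ≤ (Real.log 4 + 1) * n / Real.log n :=
    tendsto_natCast_atTop_atTop.eventually (Chebyshev.eventually_primeCounting_le one_pos)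
  have h2 : ∀ᶠ n : ℕ in Filter.atTop, (Real.log 4 + 1) / δ ≤ Real.log n :=
    (Real.tendsto_log_atTop.comp tendsto_natCast_atTop_atTop).eventually_ge_atTop _
  have hc : 0 < Real.log 4 + 1 := by positivity
  filter_upwards [h1, h2] with n hn hn'
  rw [Nat.primesLE_card_eq_primeCounting]
  rw [Nat.floor_natCast] at hn
  refine hn.trans ?_
  have hl : 0 < Real.log n := lt_of_lt_of_le (by positivity) hn'
  rw [div_le_iff₀ hl]
  rw [div_le_iff₀ hδ] at hn'
  nlinarith [Nat.cast_nonneg (α := ℝ) n]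

end FermatLib.MLT
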