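import Fermat.Agent.MLT.PatchHom
import Fermat.Agent.MLT.SupportPatched
import Mathlib.LinearAlgebra.Matrix.NonsingularInverse
import Mathlib.LinearAlgebra.Matrix.ToLin
import Mathlib.Algebra.Module.Torsion.Basic

/-!
# Old parts of patched modules and their cokernels

A family `u a : P' → P` of morphisms of systems which is injective modulo the maximal ideal of `S`
gives a split injection of patched `S`-modules; the cokernel is free, so the associated primes of
its special fibre again have dimension `dim S/ϖ`.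
-/

set_option autoImplicit false

namespace FermatLib.MLT

open Filter IsLocalRing

variable {S B : Type} [CommRing S] [IsLocalRing S] [CommRing B] [IsLocalRing B]
  {R₀ M₀ R₀' M₀' R₀'' M₀'' : Type}
  [CommRing R₀] [AddCommGroup M₀] [Module R₀ M₀]
  [CommRing R₀'] [AddCommGroup M₀'] [Module R₀' M₀']
  [CommRing R₀''] [AddCommGroup M₀''] [Module R₀'' M₀'']
  {𝔞 𝔞' 𝔞'' : Ideal S} {d d' d'' : ℕ}
  {P : PatchSystem S B R₀ M₀ 𝔞 d} {P' : PatchSystem S B R₀' M₀' 𝔞' d'}
  {P'' : PatchSystem S B R₀'' M₀'' 𝔞'' d''}
  [IsNoetherianRing S] [IsAdicComplete (maximalIdeal S) S] [Finite (ResidueField S)]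

namespace PatchHom

lemma lim_apply (f : PatchHom P P') (v : P.Patched) (i : Fin d') :
    f.lim v i = ∑ j, f.limMatrix i j * v j := rfl

lemma lim_comp_apply (g : PatchHom P' P'') (f : PatchHom P P') (v : P.Patched) :
    g.lim (f.lim v) = (g.comp f).lim v := by
  show (Matrix.mulVec g.limMatrix (Matrix.mulVec f.limMatrix v) : Fin d'' → S) =
    Matrix.mulVec (g.comp f).limMatrix v
  exact (Matrix.mulVec_mulVec (v : Fin d → S) g.limMatrix f.limMatrix).trans
    (congrArg (fun M => Matrix.mulVec M (v : Fin d → S)) (limMatrix_comp g f).symm)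

end PatchHom

variable {κ : Type} [Fintype κ] [DecidableEq κ]

/-- The map of patched modules given by a family of morphisms out of the same system. -/
noncomputable def patchUp (u : κ → PatchHom P' P) : (κ → P'.Patched) →ₗ[B] P.Patched :=
  ∑ a, (u a).lim.comp (LinearMap.proj a)

/-- The map of patched modules given by a family of morphisms into the same system. -/
noncomputable def patchDown (w : κ → PatchHom P P') : P.Patched →ₗ[B] (κ → P'.Patched) :=
  LinearMap.pi fun a => (w a).lim

omit [DecidableEq κ] in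
lemma patchUp_apply (u : κ → PatchHom P' P) (v : κ → P'.Patched) :
    patchUp u v = ∑ a, (u a).lim (v a) := by
  simp [patchUp, LinearMap.sum_apply]

/-- If at every level the family `u` is injective modulo `𝔪_S`, the limit matrix has a left
inverse. -/
theorem exists_leftInverse_of_levels (u : κ → PatchHom P' P)
    (h : ∀ n, ∀ v : κ → (P'.level n).N,
      (∑ a, (u a).toFun n (v a)) ∈ ((maximalIdeal S).map (P.level n).φ) • (⊤ : Submodule B _) →
        ∀ a, v a ∈ ((maximalIdeal S).map (P'.level n).φ) • (⊤ : Submodule B _)) :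
    ∃ L : Matrix (κ × Fin d') (Fin d) S,
      L * (Matrix.of fun i (aj : κ × Fin d') => (u aj.1).limMatrix i aj.2) = 1 := by
  classical
  set U : Matrix (Fin d) (κ × Fin d') S := Matrix.of fun i aj => (u aj.1).limMatrix i aj.2 with hU
  have hinj : Function.Injective (Matrix.mulVecLin (U.map (residue S))) := by
    refine (injective_iff_map_eq_zero _).mpr fun c hc => ?_
    choose c' hc' using fun aj => residue_surjective (c aj)
    have hev : ∀ᶠ n in (patchUltrafilter : Filter ℕ), (P.J n ≤ maximalIdeal S ∧
        P'.J n ≤ maximalIdeal S) ∧ ∀ (a : κ) (i : Fin d) (j : Fin d'),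
          ((u a).exists_rel n).choose i j - (u a).limMatrix i j ∈ maximalIdeal S := by
      refine ((eventually_patchUltrafilter ?_).and (eventually_patchUltrafilter ?_)).and ?_
      · simpa using P.J_tendsto 1
      · simpa using P'.J_tendsto 1
      · simp only [eventually_all]
        intro a i j
        have := (u a).isULim_limMatrix (fun n => ((u a).exists_rel n).choose_spec) i j 1
        simpa using this
    obtain ⟨n, ⟨hJ, hJ'⟩, hn⟩ := hev.exists
    have hv := h n (fun a => ∑ j, (P'.level n).φ (c' (a, j)) • (P'.level n).b j) ?_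
    · funext aj
      rw [(P'.level n).map_smul_top_eq_coeffSubmodule] at hv
      obtain ⟨e, he, he'⟩ := hv aj.1
      have hrel := (P'.level n).b_rel (fun j => c' (aj.1, j) - e j) (by
        simp only [map_sub, sub_smul, Finset.sum_sub_distrib, ← he', sub_self]) aj.2
      have := add_mem (hJ' hrel) (he aj.2)
      rw [sub_add_cancel] at this
      rw [← hc' aj, Pi.zero_apply]
      exact (residue_eq_zero_iff _).mpr this
    · rw [(P.level n).map_smul_top_eq_coeffSubmodule]
      refine ⟨fun i => ∑ aj : κ × Fin d', ((u aj.1).exists_rel n).choose i aj.2 * c' aj,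
        fun i => ?_, ?_⟩
      · rw [← residue_eq_zero_iff, map_sum]
        have h0 := congrFun hc i
        rw [Matrix.mulVecLin_apply, Matrix.mulVec, dotProduct, Pi.zero_apply] at h0
        rw [← h0]
        refine Finset.sum_congr rfl fun aj _ => ?_
        rw [map_mul, hc', Matrix.map_apply, hU, Matrix.of_apply]
        exact congrArg (· * c aj) (Ideal.Quotient.eq.mpr (hn aj.1 i aj.2))
      · simp only [map_sum, map_smul, Finset.sum_smul, map_mul, Fintype.sum_prod_type]
        rw [eq_comm, Finset.sum_comm]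
        refine Finset.sum_congr rfl fun a _ => ?_
        rw [Finset.sum_comm]
        refine Finset.sum_congr rfl fun j _ => ?_
        rw [(u a).φ_compat n, ((u a).exists_rel n).choose_spec j, Finset.smul_sum]
        exact Finset.sum_congr rfl fun i _ => by rw [smul_smul, mul_comm]
  obtain ⟨g, hg⟩ := LinearMap.exists_leftInverse_of_injective _ (LinearMap.ker_eq_bot.mpr hinj)
  choose L hL using fun aj i => residue_surjective (LinearMap.toMatrix' g aj i)
  set L' : Matrix (κ × Fin d') (Fin d) S := Matrix.of L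
  have h1 : L'.map (residue S) * U.map (residue S) = 1 := by
    have hL' : L'.map (residue S) = LinearMap.toMatrix' g := Matrix.ext fun aj i => hL aj i
    rw [hL', show U.map (residue S) = LinearMap.toMatrix' (Matrix.mulVecLin (U.map (residue S)))
      from (LinearMap.toMatrix'_toLin' _).symm, ← LinearMap.toMatrix'_comp, hg,
      LinearMap.toMatrix'_id]
  have hdet : IsUnit (L' * U).det := by
    rw [← residue_ne_zero_iff_isUnit, RingHom.map_det, RingHom.mapMatrix_apply, Matrix.map_mul,
      h1, Matrix.det_one]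
    exact one_ne_zero
  exact ⟨(L' * U)⁻¹ * L', by rw [Matrix.mul_assoc, Matrix.nonsing_inv_mul _ hdet]⟩

omit [Fintype κ] [DecidableEq κ] in
/-- If the family `w` is surjective at every level, so is its limit. -/
theorem patchDown_surjective (w : κ → PatchHom P P')
    (h : ∀ n, ∀ y : κ → (P'.level n).N, ∃ x, ∀ a, (w a).toFun n x = y a) :
    Function.Surjective (patchDown w) := by
  classical
  intro y
  choose x hx using fun n => h n fun a => ∑ j, (P'.level n).φ (y a j) • (P'.level n).b j
  choose c hc using fun n => (P.level n).b_span (x n)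
  refine ⟨P.patchedOf fun j => ulim fun n => c n j, funext fun a => funext fun i => ?_⟩
  show ∑ j, (w a).limMatrix i j * ulim (fun n => c n j) = y a i
  refine (IsULim.sum (a := fun j n => ((w a).exists_rel n).choose i j * c n j) Finset.univ fun j _ =>
    ((w a).isULim_limMatrix (fun n => ((w a).exists_rel n).choose_spec) i j).mul
      (isULim_ulim fun n => c n j)).unique ?_
  refine (IsULim.const (y a i)).congr fun k => ?_
  filter_upwards [P'.eventually_J_le k] with n hJ
  refine hJ ((P'.level n).b_rel (fun i => y a i -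
    ∑ j, ((w a).exists_rel n).choose i j * c n j) ?_ i)
  have h2 : (w a).toFun n (x n) = ∑ i, (P'.level n).φ
      (∑ j, ((w a).exists_rel n).choose i j * c n j) • (P'.level n).b i := by
    rw [hc n, map_sum]
    simp only [map_sum, map_mul, Finset.sum_smul]
    rw [Finset.sum_comm (γ := Fin d')]
    refine Finset.sum_congr rfl fun j _ => ?_
    rw [map_smul, (w a).φ_compat n, ((w a).exists_rel n).choose_spec j, Finset.smul_sum]
    exact Finset.sum_congr rfl fun i _ => by rw [smul_smul, mul_comm]
  simp only [map_sub, sub_smul, Finset.sum_sub_distrib, ← h2, hx n a, sub_self]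

variable [IsNoetherianRing B] [IsAdicComplete (maximalIdeal B) B] [Finite (ResidueField B)]

/-- The cokernel of the old part. -/
abbrev patchCoker (u : κ → PatchHom P' P) := P.Patched ⧸ LinearMap.range (patchUp u)

/-- The old part plus the multiples of `ϖ`. -/
noncomputable def patchCokerDenom (u : κ → PatchHom P' P) (ϖ : S) : Submodule B P.Patched :=
  LinearMap.range (patchUp u) ⊔ LinearMap.range
    (P.phi ϖ • (LinearMap.id : P.Patched →ₗ[B] P.Patched))

/-- Its special fibre. -/
abbrev patchCokerFibre (u : κ → PatchHom P' P) (ϖ : S) :=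
  P.Patched ⧸ patchCokerDenom u ϖ

/-- Reduction of the cokernel. -/
noncomputable def patchCokerMk (u : κ → PatchHom P' P) (ϖ : S) :
    patchCoker u →ₗ[B] patchCokerFibre u ϖ :=
  Submodule.factor (show LinearMap.range (patchUp u) ≤ patchCokerDenom u ϖ from le_sup_left)

omit [DecidableEq κ] in
lemma patchCokerMk_surjective (u : κ → PatchHom P' P) (ϖ : S) :
    Function.Surjective (patchCokerMk u ϖ) := fun y => by
  obtain ⟨x, rfl⟩ := Submodule.mkQ_surjective _ y
  exact ⟨Submodule.Quotient.mk x, rfl⟩

omit [DecidableEq κ] in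
lemma patchCokerMk_eq_zero_iff (u : κ → PatchHom P' P) (ϖ : S) (x : patchCoker u) :
    patchCokerMk u ϖ x = 0 ↔ ∃ y, x = P.phi ϖ • y := by
  obtain ⟨x, rfl⟩ := Submodule.mkQ_surjective _ x
  show (Submodule.Quotient.mk x : patchCokerFibre u ϖ) = 0 ↔ _
  rw [Submodule.Quotient.mk_eq_zero, patchCokerDenom, Submodule.mem_sup, Submodule.mkQ_apply]
  constructor
  · rintro ⟨a, ha, b, ⟨y, rfl⟩, rfl⟩
    refine ⟨Submodule.Quotient.mk y, ?_⟩
    rw [← Submodule.Quotient.mk_smul, Submodule.Quotient.eq]
    simpa using ha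
  · rintro ⟨y, hy⟩
    obtain ⟨y, rfl⟩ := Submodule.mkQ_surjective _ y
    rw [Submodule.mkQ_apply, ← Submodule.Quotient.mk_smul, Submodule.Quotient.eq] at hy
    exact ⟨_, hy, _, ⟨y, rfl⟩, by simp⟩

/-- The associated primes of the fibre of the cokernel have dimension `dim S/ϖ`. -/
theorem ringKrullDim_of_mem_associatedPrimes_patchCokerFibre (u : κ → PatchHom P' P) (ϖ : S)
    [IsDomain (S ⧸ Ideal.span {ϖ})] {L : Matrix (κ × Fin d') (Fin d) S}
    (hL : L * (Matrix.of fun i (aj : κ × Fin d') => (u aj.1).limMatrix i aj.2) = 1)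
    {Q : Ideal B} (hQ : Q ∈ associatedPrimes B (patchCokerFibre u ϖ)) :
    ringKrullDim (B ⧸ Q) = ringKrullDim (S ⧸ Ideal.span {ϖ}) := by
  classical
  set U : Matrix (Fin d) (κ × Fin d') S := Matrix.of fun i aj => (u aj.1).limMatrix i aj.2 with hU
  have hup : ∀ (v : κ → P'.Patched) (i : Fin d),
      (patchUp u v) i = ∑ aj : κ × Fin d', U i aj * v aj.1 aj.2 := fun v i => by
    rw [Fintype.sum_prod_type]
    refine (congrArg (fun y : P.Patched => y i) (patchUp_apply u v)).trans ?_
    exact (Finset.sum_apply i _ fun a => (show Fin d → S from (u a).lim (v a))).trans rfl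
  let _ : Module S (patchCokerFibre u ϖ) := Module.compHom _ P.phi
  have hs : ∀ (s : S) (x : patchCokerFibre u ϖ), s • x = P.phi s • x := fun _ _ => rfl
  have htors : Module.IsTorsionBySet S (patchCokerFibre u ϖ) (Ideal.span {ϖ} : Ideal S) := by
    rintro x ⟨s, hs'⟩
    obtain ⟨x, rfl⟩ := Submodule.mkQ_surjective _ x
    obtain ⟨t, rfl⟩ := Ideal.mem_span_singleton.mp hs'
    rw [hs, Submodule.mkQ_apply, ← Submodule.Quotient.mk_smul, Submodule.Quotient.mk_eq_zero,
      map_mul, mul_smul]
    exact Submodule.mem_sup_right ⟨P.phi t • x, rfl⟩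
  let _ : Module (S ⧸ Ideal.span {ϖ}) (patchCokerFibre u ϖ) := htors.module
  have hmk : ∀ (s : S) (x : patchCokerFibre u ϖ),
      Ideal.Quotient.mk (Ideal.span {ϖ}) s • x = P.phi s • x := fun _ _ => rfl
  have : SMulCommClass (S ⧸ Ideal.span {ϖ}) B (patchCokerFibre u ϖ) := ⟨fun s z x => by
    obtain ⟨s, rfl⟩ := Ideal.Quotient.mk_surjective s
    rw [hmk, hmk, smul_comm]⟩
  have : Module.Finite (S ⧸ Ideal.span {ϖ}) (patchCokerFibre u ϖ) := by
    refine ⟨⟨(Set.finite_range fun i => Submodule.mkQ (patchCokerDenom u ϖ)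
      (P.patchedBasis i)).toFinset, ?_⟩⟩
    rw [Set.Finite.coe_toFinset, eq_top_iff]
    intro y _
    obtain ⟨x, rfl⟩ := Submodule.mkQ_surjective _ y
    rw [← P.sum_phi_smul_patchedBasis x, map_sum]
    refine Submodule.sum_mem _ fun i _ => ?_
    rw [map_smul, ← hmk]
    exact Submodule.smul_mem _ _ (Submodule.subset_span ⟨i, rfl⟩)
  have : Module.IsTorsionFree (S ⧸ Ideal.span {ϖ}) (patchCokerFibre u ϖ) := by
    refine Module.isTorsionFree_iff_smul_eq_zero.mpr fun s x hsx => ?_
    obtain ⟨s, rfl⟩ := Ideal.Quotient.mk_surjective s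
    obtain ⟨x, rfl⟩ := Submodule.mkQ_surjective _ x
    rw [or_iff_not_imp_left]
    intro hs0
    rw [hmk, Submodule.mkQ_apply, ← Submodule.Quotient.mk_smul, Submodule.Quotient.mk_eq_zero,
      patchCokerDenom, Submodule.mem_sup] at hsx
    obtain ⟨_, ⟨v, rfl⟩, _, ⟨w, rfl⟩, hvw⟩ := hsx
    let xc : Fin d → S := P.coord x
    let wc : Fin d → S := P.coord w
    let vc : κ × Fin d' → S := fun aj => P'.coord (v aj.1) aj.2
    have hsx' : s • xc = Matrix.mulVec U vc + ϖ • wc := funext fun i => by
      have h1 : (P.phi s • x) i = (patchUp u v) i + (P.phi ϖ • w) i :=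
        congrFun hvw.symm i
      rw [P.phi_smul_apply, P.phi_smul_apply, hup] at h1
      exact h1
    let e : (Fin d → S) → (Fin d → S) := fun y => y - Matrix.mulVec U (Matrix.mulVec L y)
    have hcalc : s • e xc = ϖ • e wc := by
      show s • (xc - _) = ϖ • (wc - _)
      rw [smul_sub, smul_sub, ← Matrix.mulVec_smul, ← Matrix.mulVec_smul, hsx', ← Matrix.mulVec_smul,
        ← Matrix.mulVec_smul, Matrix.mulVec_add, Matrix.mulVec_add, Matrix.mulVec_mulVec vc L U,
        hL, Matrix.one_mulVec]
      abel
    have he : ∀ i, ϖ ∣ e xc i := fun i => by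
      have hdvd : ϖ ∣ s * e xc i := ⟨e wc i, congrFun hcalc i⟩
      rw [← Ideal.mem_span_singleton] at hdvd ⊢
      exact (((Ideal.Quotient.isDomain_iff_prime _).mp inferInstance).mem_or_mem hdvd).resolve_left
        fun h => hs0 (Ideal.Quotient.eq_zero_iff_mem.mpr h)
    choose z hz using he
    rw [Submodule.mkQ_apply, Submodule.Quotient.mk_eq_zero, patchCokerDenom, Submodule.mem_sup]
    refine ⟨_, ⟨fun a => P'.patchedOf fun j => Matrix.mulVec L xc (a, j), rfl⟩, _,
      ⟨P.patchedOf z, rfl⟩, funext fun i => ?_⟩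
    show (patchUp u fun a => P'.patchedOf fun j => Matrix.mulVec L xc (a, j)) i +
      (P.phi ϖ • P.patchedOf z) i = xc i
    rw [hup, P.phi_smul_apply]
    show Matrix.mulVec U (Matrix.mulVec L xc) i + ϖ * z i = xc i
    rw [← hz i]
    show Matrix.mulVec U (Matrix.mulVec L xc) i + (xc i - Matrix.mulVec U (Matrix.mulVec L xc) i) =
      xc i
    exact add_sub_cancel _ _
  exact ringKrullDim_quotient_eq_of_isAssociatedPrime hQ

end FermatLib.MLT
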