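import Mathlib.RingTheory.Ideal.KrullsHeightTheorem
import Mathlib.RingTheory.KrullDimension.NonZeroDivisors
import Mathlib.RingTheory.KrullDimension.Zero
import Mathlib.RingTheory.Ideal.MinimalPrime.Localization

/-!
# Elementary dimension bounds by cutting

`Cuts V I n` says that `n` elements of the maximal ideal cut `V(I)` down to inside `V(V)`. By
Krull's height theorem this bounds dimensions without any knowledge of irreducibility.
-/

set_option autoImplicit false

namespace FermatLib.MLT

open IsLocalRing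

variable {A : Type*} [CommRing A] [IsLocalRing A]

/-- `n` elements of the maximal ideal, added to `I`, contain `V` up to radical. -/
def Cuts (V I : Ideal A) (n : ℕ) : Prop :=
  ∃ s : Finset A, s.card ≤ n ∧ (↑s : Set A) ⊆ maximalIdeal A ∧
    V ≤ (I ⊔ Ideal.span (↑s : Set A)).radical

namespace Cuts

variable {V V' I I' : Ideal A} {n n' : ℕ}

theorem mono (h : Cuts V I n) (hI : I ≤ I') (hn : n ≤ n') : Cuts V I' n' := by
  obtain ⟨s, hs, hsm, hV⟩ := h
  exact ⟨s, hs.trans hn, hsm, hV.trans (Ideal.radical_mono (sup_le_sup_right hI _))⟩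

theorem sup (h : Cuts V I n) (h' : Cuts V' I' n') : Cuts (V ⊔ V') (I ⊔ I') (n + n') := by
  classical
  obtain ⟨s, hs, hsm, hV⟩ := h
  obtain ⟨t, ht, htm, hV'⟩ := h'
  refine ⟨s ∪ t, (Finset.card_union_le s t).trans (add_le_add hs ht), ?_, sup_le ?_ ?_⟩
  · rw [Finset.coe_union]
    exact Set.union_subset hsm htm
  · refine hV.trans (Ideal.radical_mono (sup_le_sup le_sup_left (Ideal.span_mono ?_)))
    simp
  · refine hV'.trans (Ideal.radical_mono (sup_le_sup le_sup_right (Ideal.span_mono ?_)))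
    simp

theorem finsetSup {ι : Type*} (t : Finset ι) {V I : ι → Ideal A} {n : ι → ℕ}
    (h : ∀ i ∈ t, Cuts (V i) (I i) (n i)) : Cuts (t.sup V) (t.sup I) (∑ i ∈ t, n i) := by
  classical
  induction t using Finset.induction_on with
  | empty => exact ⟨∅, by simp, by simp, by simp⟩
  | insert a t ha ih =>
    rw [Finset.sup_insert, Finset.sup_insert, Finset.sum_insert ha]
    exact (h a (Finset.mem_insert_self a t)).sup
      (ih fun i hi => h i (Finset.mem_insert_of_mem hi))

/-- If `n` elements cut `V` out of `I`, and `g` elements cut the maximal ideal out of `V`, then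
`n + g` elements cut the maximal ideal out of `I`. -/
theorem trans {g : ℕ} (h : Cuts V I n) (h' : Cuts (maximalIdeal A) V g) :
    Cuts (maximalIdeal A) I (n + g) := by
  classical
  obtain ⟨s, hs, hsm, hV⟩ := h
  obtain ⟨t, ht, htm, hm⟩ := h'
  refine ⟨s ∪ t, (Finset.card_union_le s t).trans (add_le_add hs ht), ?_, ?_⟩
  · rw [Finset.coe_union]
    exact Set.union_subset hsm htm
  · refine hm.trans ?_
    rw [Ideal.radical_le_radical_iff]
    refine sup_le (hV.trans ?_) ((Ideal.span_mono ?_).trans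
      (le_trans le_sup_right Ideal.le_radical))
    · exact Ideal.radical_mono (sup_le_sup_left (Ideal.span_mono (by simp)) _)
    · simp

/-- If `n` elements cut the maximal ideal out of `I` then `dim A/I ≤ n`. -/
theorem ringKrullDim_quotient_le [IsNoetherianRing A] (h : Cuts (maximalIdeal A) I n) :
    ringKrullDim (A ⧸ I) ≤ n := by
  classical
  obtain ⟨s, hs, hsm, hV⟩ := h
  by_cases hI : I = ⊤
  · subst hI
    have : Subsingleton (A ⧸ (⊤ : Ideal A)) := Ideal.Quotient.subsingleton_iff.mpr rfl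
    rw [ringKrullDim_eq_bot_of_subsingleton]
    exact bot_le
  have : Nontrivial (A ⧸ I) := Ideal.Quotient.nontrivial_iff.mpr hI
  have : IsLocalRing (A ⧸ I) := .of_surjective' (Ideal.Quotient.mk I) Ideal.Quotient.mk_surjective
  set t : Finset (A ⧸ I) := s.image (Ideal.Quotient.mk I) with ht
  have htm : (↑t : Set (A ⧸ I)) ⊆ Ring.jacobson (A ⧸ I) := by
    rw [ht, Finset.coe_image]
    rintro _ ⟨a, ha, rfl⟩
    rw [IsLocalRing.ringJacobson_eq_maximalIdeal]
    intro hu
    have : IsLocalHom (Ideal.Quotient.mk I) :=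
      Ideal.Quotient.mk_surjective.isLocalHom (f := Ideal.Quotient.mk I)
    exact hsm ha (isUnit_of_map_unit (Ideal.Quotient.mk I) a hu)
  refine (ringKrullDim_le_ringKrullDim_quotient_add_card t htm).trans ?_
  set J : Ideal (A ⧸ I) := Ideal.span (↑t : Set (A ⧸ I)) with hJ
  have h0 : ringKrullDim ((A ⧸ I) ⧸ J) ≤ 0 := by
    rw [ringKrullDim_le_iff_height_le]
    intro P hP
    norm_cast
    rw [nonpos_iff_eq_zero, Ideal.height_eq_zero_iff]
    refine ⟨⟨hP, bot_le⟩, fun Q hQ hQP => ?_⟩
    have := hQ.1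
    let π : A →+* (A ⧸ I) ⧸ J := (Ideal.Quotient.mk J).comp (Ideal.Quotient.mk I)
    have hπ : Function.Surjective π :=
      Ideal.Quotient.mk_surjective.comp Ideal.Quotient.mk_surjective
    have hle : maximalIdeal A ≤ Q.comap π := by
      refine hV.trans ((Ideal.IsPrime.radical_le_iff inferInstance).mpr (sup_le ?_ ?_))
      · intro a ha
        have ha' : π a = 0 := by
          simp [π, Ideal.Quotient.eq_zero_iff_mem.mpr ha]
        rw [Ideal.mem_comap, ha']
        exact zero_mem _
      · rw [Ideal.span_le]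
        intro a ha
        have ha' : π a = 0 := by
          refine Ideal.Quotient.eq_zero_iff_mem.mpr (Ideal.subset_span ?_)
          simp only [ht, Finset.coe_image]
          exact ⟨a, ha, rfl⟩
        rw [SetLike.mem_coe, Ideal.mem_comap, ha']
        exact zero_mem _
    intro x hx
    obtain ⟨a, rfl⟩ := hπ x
    refine hle ?_
    by_contra hu
    exact hP.ne_top (Ideal.eq_top_of_isUnit_mem _ hx
      (((IsLocalRing.notMem_maximalIdeal).mp hu).map π))
  calc ringKrullDim ((A ⧸ I) ⧸ J) + (t.card : WithBot ℕ∞) ≤ 0 + (t.card : WithBot ℕ∞) := by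
        gcongr
    _ ≤ n := by
        rw [zero_add]
        exact_mod_cast Finset.card_image_le.trans hs

end Cuts

/-- Adding `k` elements of the maximal ideal lowers the dimension of the quotient by at most `k`. -/
theorem ringKrullDim_quotient_le_sup_span_add_card [IsNoetherianRing A] (I : Ideal A)
    (s : Finset A) (hs : (↑s : Set A) ⊆ maximalIdeal A) :
    ringKrullDim (A ⧸ I) ≤ ringKrullDim (A ⧸ (I ⊔ Ideal.span (↑s : Set A))) + s.card := by
  classical
  by_cases hI : I = ⊤
  · subst hI
    have : Subsingleton (A ⧸ (⊤ : Ideal A)) := Ideal.Quotient.subsingleton_iff.mpr rfl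
    rw [ringKrullDim_eq_bot_of_subsingleton]
    exact bot_le
  have : Nontrivial (A ⧸ I) := Ideal.Quotient.nontrivial_iff.mpr hI
  have : IsLocalRing (A ⧸ I) := .of_surjective' (Ideal.Quotient.mk I) Ideal.Quotient.mk_surjective
  set t : Finset (A ⧸ I) := s.image (Ideal.Quotient.mk I) with ht
  have htm : (↑t : Set (A ⧸ I)) ⊆ Ring.jacobson (A ⧸ I) := by
    rw [ht, Finset.coe_image]
    rintro _ ⟨a, ha, rfl⟩
    rw [IsLocalRing.ringJacobson_eq_maximalIdeal]
    intro hu
    have : IsLocalHom (Ideal.Quotient.mk I) :=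
      Ideal.Quotient.mk_surjective.isLocalHom (f := Ideal.Quotient.mk I)
    exact hs ha (isUnit_of_map_unit (Ideal.Quotient.mk I) a hu)
  refine (ringKrullDim_le_ringKrullDim_quotient_add_card t htm).trans ?_
  refine add_le_add (le_of_eq ?_) (by exact_mod_cast Finset.card_image_le)
  rw [ht, Finset.coe_image, ← Ideal.map_span]
  exact ringKrullDim_eq_of_ringEquiv (DoubleQuot.quotQuotEquivQuotSup _ _)

omit [IsLocalRing A] in
/-- A quotient of dimension at least `n` has a prime whose quotient still has dimension `≥ n`. -/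
theorem exists_isPrime_le_ringKrullDim_quotient {I : Ideal A} {n : ℕ}
    (h : (n : WithBot ℕ∞) ≤ ringKrullDim (A ⧸ I)) :
    ∃ P : Ideal A, P.IsPrime ∧ I ≤ P ∧ (n : WithBot ℕ∞) ≤ ringKrullDim (A ⧸ P) := by
  rw [ringKrullDim_quotient] at h
  obtain ⟨l, hl⟩ := Order.le_krullDim_iff.mp h
  refine ⟨l.head.1.asIdeal, l.head.1.2, l.head.2, ?_⟩
  rw [ringKrullDim_quotient]
  refine Order.le_krullDim_iff.mpr ⟨⟨l.length,
    fun i => ⟨(l i).1, SetLike.coe_subset_coe.mpr ?_⟩, fun i => l.step i⟩, hl⟩
  exact (LTSeries.head_le l i : l.head ≤ l i)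

omit [IsLocalRing A] in
/-- Two primes `Q ≤ P` with quotients of the same finite dimension are equal. -/
theorem eq_of_le_of_ringKrullDim_quotient_eq {Q P : Ideal A} [Q.IsPrime] [P.IsPrime] (hle : Q ≤ P)
    {n : ℕ} (hQ : ringKrullDim (A ⧸ Q) ≤ n) (hP : (n : WithBot ℕ∞) ≤ ringKrullDim (A ⧸ P)) :
    Q = P := by
  by_contra hne
  obtain ⟨a, haP, haQ⟩ := SetLike.exists_of_lt (lt_of_le_of_ne hle hne)
  have h0 : Ideal.Quotient.mk Q a ∈ nonZeroDivisors (A ⧸ Q) :=
    mem_nonZeroDivisors_of_ne_zero fun h => haQ (Ideal.Quotient.eq_zero_iff_mem.mp h)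
  have h1 := ringKrullDim_quotient_succ_le_of_nonZeroDivisor h0
  have h2 : ringKrullDim (A ⧸ P) ≤
      ringKrullDim ((A ⧸ Q) ⧸ Ideal.span {Ideal.Quotient.mk Q a}) := by
    rw [← Set.image_singleton, ← Ideal.map_span,
      ringKrullDim_eq_of_ringEquiv (DoubleQuot.quotQuotEquivQuotSup Q (Ideal.span {a}))]
    refine ringKrullDim_le_of_surjective (Ideal.Quotient.factor ?_)
      (Ideal.Quotient.factor_surjective _)
    exact sup_le hle ((Ideal.span_singleton_le_iff_mem _).mpr haP)
  have h3 : ((n + 1 : ℕ) : WithBot ℕ∞) ≤ (n : WithBot ℕ∞) := by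
    refine le_trans ?_ hQ
    refine le_trans ?_ h1
    push_cast
    gcongr
    exact hP.trans h2
  exact absurd (show n + 1 ≤ n by exact_mod_cast h3) (by omega)

end FermatLib.MLT
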