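import Mathlib.RingTheory.AdicCompletion.Basic
import Mathlib.RingTheory.Ideal.Quotient.Index
import Mathlib.RingTheory.Filtration
import Mathlib.RingTheory.LocalRing.ResidueField.Basic
import Mathlib.Order.Filter.Ultrafilter.Basic
import Mathlib.Order.Filter.AtTopBot.Basic

/-!
# Limits of sequences along an ultrafilter in complete local rings with finite residue field

In a complete Noetherian local ring with finite residue field every sequence has a limit along a
fixed non-principal ultrafilter on `ℕ`; this replaces the pigeonhole argument in patching.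
-/

set_option autoImplicit false

namespace FermatLib.MLT

open Filter IsLocalRing

/-- The fixed non-principal ultrafilter on `ℕ` used for patching. -/
noncomputable def patchUltrafilter : Ultrafilter ℕ := Filter.hyperfilter ℕ

lemma patchUltrafilter_le_atTop : (patchUltrafilter : Filter ℕ) ≤ atTop := by
  rw [← Nat.cofinite_eq_atTop]
  exact Filter.hyperfilter_le_cofinite

lemma eventually_patchUltrafilter {p : ℕ → Prop} (h : ∀ᶠ n in atTop, p n) :
    ∀ᶠ n in (patchUltrafilter : Filter ℕ), p n :=
  h.filter_mono patchUltrafilter_le_atTop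

/-- A sequence with values in a finite type is eventually constant along an ultrafilter. -/
lemma exists_eventually_eq_of_finite {α : Type*} [Finite α] (f : ℕ → α) :
    ∃ a, ∀ᶠ n in (patchUltrafilter : Filter ℕ), f n = a := by
  obtain ⟨a, ha⟩ := Ultrafilter.eq_pure_of_finite (patchUltrafilter.map f)
  refine ⟨a, ?_⟩
  have h : {x | x = a} ∈ patchUltrafilter.map f := by
    rw [ha]
    exact Ultrafilter.mem_pure.mpr rfl
  exact h

variable {S : Type*} [CommRing S] [IsLocalRing S]

/-- `s` is the limit of `a` along the ultrafilter, in the adic topology of the maximal ideal. -/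
def IsULim (a : ℕ → S) (s : S) : Prop :=
  ∀ k, ∀ᶠ n in (patchUltrafilter : Filter ℕ), a n - s ∈ maximalIdeal S ^ k

namespace IsULim

variable {a a' : ℕ → S} {s s' : S}

lemma add (h : IsULim a s) (h' : IsULim a' s') : IsULim (fun n => a n + a' n) (s + s') := by
  intro k
  filter_upwards [h k, h' k] with n hn hn'
  rw [add_sub_add_comm]
  exact add_mem hn hn'

lemma mul (h : IsULim a s) (h' : IsULim a' s') : IsULim (fun n => a n * a' n) (s * s') := by
  intro k
  filter_upwards [h k, h' k] with n hn hn'
  have : a n * a' n - s * s' = (a n - s) * a' n + s * (a' n - s') := by ring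
  rw [this]
  exact add_mem (Ideal.mul_mem_right _ _ hn) (Ideal.mul_mem_left _ _ hn')

lemma sum {ι : Type*} (t : Finset ι) {a : ι → ℕ → S} {s : ι → S}
    (h : ∀ i ∈ t, IsULim (a i) (s i)) : IsULim (fun n => ∑ i ∈ t, a i n) (∑ i ∈ t, s i) := by
  intro k
  filter_upwards [(eventually_all_finset t).mpr fun i hi => h i hi k] with n hn
  rw [← Finset.sum_sub_distrib]
  exact Submodule.sum_mem _ hn

lemma const (s : S) : IsULim (fun _ => s) s := fun k =>
  Eventually.of_forall fun _ => by simp

lemma congr (h : IsULim a s)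
    (h' : ∀ k, ∀ᶠ n in (patchUltrafilter : Filter ℕ), a n - a' n ∈ maximalIdeal S ^ k) :
    IsULim a' s := by
  intro k
  filter_upwards [h k, h' k] with n hn hn'
  have : a' n - s = (a n - s) - (a n - a' n) := by ring
  rw [this]
  exact sub_mem hn hn'

variable [IsNoetherianRing S]

lemma unique (h : IsULim a s) (h' : IsULim a s') : s = s' := by
  rw [← sub_eq_zero]
  by_contra hne
  have hmem : ∀ k, s - s' ∈ maximalIdeal S ^ k := fun k => by
    obtain ⟨n, hn, hn'⟩ := ((h k).and (h' k)).exists
    have : s - s' = (a n - s') - (a n - s) := by ring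
    rw [this]
    exact sub_mem hn' hn
  have h0 : s - s' ∈ (⨅ k : ℕ, maximalIdeal S ^ k) := Submodule.mem_iInf _ |>.mpr hmem
  rw [Ideal.iInf_pow_eq_bot_of_isLocalRing _ (maximalIdeal.isMaximal S).ne_top] at h0
  exact hne ((Submodule.mem_bot _).mp h0)

end IsULim

/-- Every ideal of a Noetherian local ring is closed in the adic topology. -/
lemma mem_of_forall_mem_sup_pow [IsNoetherianRing S] {I : Ideal S} {x : S}
    (h : ∀ k, x ∈ I ⊔ maximalIdeal S ^ k) : x ∈ I := by
  rcases eq_or_ne I ⊤ with rfl | hI
  · trivial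
  have hk : ∀ k : ℕ, Ideal.Quotient.mk I x ∈ maximalIdeal S ^ k • (⊤ : Submodule S (S ⧸ I)) := by
    intro k
    obtain ⟨i, hi, m, hm, rfl⟩ := Submodule.mem_sup.mp (h k)
    rw [map_add, Ideal.Quotient.eq_zero_iff_mem.mpr hi, zero_add]
    have : Ideal.Quotient.mk I m = m • (1 : S ⧸ I) := by
      rw [Algebra.smul_def, mul_one]
      rfl
    rw [this]
    exact Submodule.smul_mem_smul hm trivial
  have h0 := (Submodule.mem_iInf _).mpr hk
  rw [Ideal.iInf_pow_smul_eq_bot_of_isLocalRing _ (maximalIdeal.isMaximal S).ne_top] at h0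
  exact Ideal.Quotient.eq_zero_iff_mem.mp ((Submodule.mem_bot _).mp h0)

lemma IsULim.mem_of_eventually [IsNoetherianRing S] {a : ℕ → S} {s : S} (h : IsULim a s)
    {I : Ideal S}
    (hI : ∀ k, ∀ᶠ n in (patchUltrafilter : Filter ℕ), a n ∈ I ⊔ maximalIdeal S ^ k) : s ∈ I :=
  mem_of_forall_mem_sup_pow fun k => by
    obtain ⟨n, hn, hn'⟩ := ((h k).and (hI k)).exists
    have : s = a n - (a n - s) := by ring
    rw [this]
    exact sub_mem hn' (Ideal.mem_sup_right hn)

section Complete

variable [IsNoetherianRing S] [IsAdicComplete (maximalIdeal S) S] [Finite (ResidueField S)]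

lemma exists_isULim (a : ℕ → S) : ∃ s, IsULim a s := by
  have hfin : ∀ k : ℕ, Finite (S ⧸ maximalIdeal S ^ k) := fun k => by
    have : Finite (S ⧸ maximalIdeal S) := ‹Finite (ResidueField S)›
    exact Ideal.finite_quotient_pow (IsNoetherian.noetherian _) k
  have : ∀ k : ℕ, ∃ s : S,
      ∀ᶠ n in (patchUltrafilter : Filter ℕ), a n - s ∈ maximalIdeal S ^ k := fun k => by
    obtain ⟨q, hq⟩ :=
      exists_eventually_eq_of_finite fun n => Ideal.Quotient.mk (maximalIdeal S ^ k) (a n)
    obtain ⟨s, rfl⟩ := Ideal.Quotient.mk_surjective q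
    exact ⟨s, hq.mono fun n hn => Ideal.Quotient.eq.mp hn⟩
  choose f hf using this
  obtain ⟨L, hL⟩ := IsPrecomplete.prec (I := maximalIdeal S) (M := S) inferInstance (f := f)
    fun {m n} hmn => by
      rw [SModEq.sub_mem, smul_eq_mul, Ideal.mul_top]
      obtain ⟨i, hi, hi'⟩ := ((hf m).and (hf n)).exists
      have : f m - f n = (a i - f n) - (a i - f m) := by ring
      rw [this]
      exact sub_mem (Ideal.pow_le_pow_right hmn hi') hi
  refine ⟨L, fun k => ?_⟩
  filter_upwards [hf k] with n hn
  have hk := hL k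
  rw [SModEq.sub_mem, smul_eq_mul, Ideal.mul_top] at hk
  have : a n - L = (a n - f k) + (f k - L) := by ring
  rw [this]
  exact add_mem hn hk

/-- The limit of a sequence along the ultrafilter. -/
noncomputable def ulim (a : ℕ → S) : S := (exists_isULim a).choose

lemma isULim_ulim (a : ℕ → S) : IsULim a (ulim a) := (exists_isULim a).choose_spec

lemma IsULim.ulim_eq {a : ℕ → S} {s : S} (h : IsULim a s) : ulim a = s :=
  (isULim_ulim a).unique h

end Complete

end FermatLib.MLT
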